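import Fermat.Agent.RelPic.Normalise

/-!
# Bundles from the base and the normalised class of a bundle
-/

set_option autoImplicit false
set_option linter.style.haveILetI false
set_option linter.unusedSectionVars false

universe u

open TensorProduct

noncomputable section

namespace Fermat.Agent.RelPic

variable {k : Type u} [Field k] {X : Model k} {R : Type u} [CommRing R] [Algebra k R]

namespace Pre

variable {P Q : Type u} [AddCommGroup P] [Module R P] [AddCommGroup Q] [Module R Q]

theorem ofModule_tensor :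
    Iso (ofModule X (R := R) (P ⊗[R] Q)) ((ofModule X (R := R) P).tensor (ofModule X (R := R) Q)) := by
  let e : (ofModule X (R := R) (P ⊗[R] Q)).N ≃ₗ[B01 X R]
      ((ofModule X (R := R) P).tensor (ofModule X (R := R) Q)).N :=
    AlgebraTensorModule.distribBaseChange R (B01 X R) P Q
  have he : ∀ (b : B01 X R) (p : P) (q : Q),
      e (b ⊗ₜ (p ⊗ₜ q)) = (b ⊗ₜ p) ⊗ₜ[B01 X R] ((1 : B01 X R) ⊗ₜ q) := fun b p q => rfl
  have key : ∀ {B : Type u} [CommRing B] [Algebra R B] (res : B →ₐ[R] B01 X R),
      (LinearMap.range (res.toLinearMap.rTensor (P ⊗[R] Q))).map (e.toLinearMap.restrictScalars R) =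
        Submodule.span R {z | ∃ a ∈ LinearMap.range (res.toLinearMap.rTensor P),
          ∃ b ∈ LinearMap.range (res.toLinearMap.rTensor Q), z = a ⊗ₜ[B01 X R] b} := by
    intro B _ _ res
    refine le_antisymm ?_ ?_
    · rintro _ ⟨_, ⟨z, rfl⟩, rfl⟩
      induction z with
      | zero => simp
      | tmul b w =>
          induction w with
          | zero => simp
          | tmul p q =>
              exact Submodule.subset_span ⟨_, ⟨b ⊗ₜ p, rfl⟩, _, ⟨1 ⊗ₜ q, rfl⟩, (by
                simp only [LinearMap.rTensor_tmul, LinearMap.coe_restrictScalars,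
                  LinearEquiv.coe_coe, he, AlgHom.toLinearMap_apply, map_one])⟩
          | add u v hu hv => simp only [tmul_add, map_add]; exact add_mem hu hv
      | add u v hu hv => simp only [map_add]; exact add_mem hu hv
    · rw [Submodule.span_le]
      rintro _ ⟨_, ⟨z, rfl⟩, _, ⟨w, rfl⟩, rfl⟩
      induction z with
      | zero => rw [map_zero, zero_tmul]; exact zero_mem _
      | tmul a p =>
          induction w with
          | zero => rw [map_zero, tmul_zero]; exact zero_mem _
          | tmul b q =>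
              refine ⟨_, ⟨(a * b) ⊗ₜ (p ⊗ₜ q), rfl⟩, ?_⟩
              simp only [LinearMap.rTensor_tmul, LinearMap.coe_restrictScalars,
                LinearEquiv.coe_coe, he, AlgHom.toLinearMap_apply, map_mul]
              rw [mul_comm (res a), ← smul_eq_mul, ← smul_tmul' (res b) (res a) p,
                TensorProduct.smul_tmul, smul_tmul', smul_eq_mul, mul_one]
          | add u v hu hv => rw [map_add, tmul_add]; exact add_mem hu hv
      | add u v hu hv => rw [map_add, add_tmul]; exact add_mem hu hv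
  exact ⟨e, key (res0 X R), key (res1 X R)⟩

theorem ofModule_congr (f : P ≃ₗ[R] Q) :
    Iso (ofModule X (R := R) P) (ofModule X (R := R) Q) := by
  let e : (ofModule X (R := R) P).N ≃ₗ[B01 X R] (ofModule X (R := R) Q).N :=
    AlgebraTensorModule.congr (LinearEquiv.refl (B01 X R) (B01 X R)) f
  have key : ∀ {B : Type u} [CommRing B] [Algebra R B] (res : B →ₐ[R] B01 X R),
      (LinearMap.range (res.toLinearMap.rTensor P)).map (e.toLinearMap.restrictScalars R) =
        LinearMap.range (res.toLinearMap.rTensor Q) := by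
    intro B _ _ res
    have h : (e.toLinearMap.restrictScalars R).comp (res.toLinearMap.rTensor P) =
        (res.toLinearMap.rTensor Q).comp (f.toLinearMap.lTensor B) :=
      TensorProduct.ext' fun b p => rfl
    rw [LinearMap.range_eq_map, ← Submodule.map_comp, h, Submodule.map_comp,
      Submodule.map_top, LinearMap.range_eq_top.mpr (LinearMap.lTensor_surjective B f.surjective),
      Submodule.map_top]
  exact ⟨e, key (res0 X R), key (res1 X R)⟩

theorem ofModule_self : Iso (ofModule X (R := R) R) (Pre.unit X R) :=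
  iso_unit_of_section good_ofModule ((1 : B01 X R) ⊗ₜ[R] (1 : R))
    ⟨(1 : R ⊗[k] X.A0) ⊗ₜ 1, by simp⟩ ⟨(1 : R ⊗[k] X.A1) ⊗ₜ 1, by simp⟩ (extFun LinearMap.id)
    (by rw [extFun_tmul, LinearMap.id_apply, one_smul]) (fun _ hx => extFun_mem _ _ hx)
    (fun _ hx => extFun_mem _ _ hx)

section Tower

attribute [local instance] b01Algebra

variable {R' : Type u} [CommRing R'] [Algebra k R'] [Algebra R R'] [IsScalarTower k R R']

theorem bc_ofModule_toAlgHom [Module.Invertible R P] :
    Iso ((ofModule X (R := R) P).bc (IsScalarTower.toAlgHom k R R'))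
      (ofModule X (R := R') (R' ⊗[R] P)) := by
  have hG := good_ofModule (X := X) (R := R) (P := P)
  let e : ((ofModule X (R := R) P).bc (IsScalarTower.toAlgHom k R R')).N ≃ₗ[B01 X R']
      (ofModule X (R := R') (R' ⊗[R] P)).N :=
    (AlgebraTensorModule.cancelBaseChange R (B01 X R) (B01 X R') (B01 X R') P).trans
      (AlgebraTensorModule.cancelBaseChange R R' (B01 X R') (B01 X R') P).symm
  have he : ∀ (b : B01 X R) (p : P), e ((ofModule X (R := R) P).incl R' (b ⊗ₜ p)) =
      bMap X R (IsScalarTower.toAlgHom k R R') b ⊗ₜ[R'] ((1 : R') ⊗ₜ[R] p) := by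
    intro b p
    show (b • (1 : B01 X R')) ⊗ₜ[R'] ((1 : R') ⊗ₜ[R] p) = _
    rw [Algebra.smul_def, mul_one, algebraMap_b01]
  have key : ∀ {A : Type u} [CommRing A] [Algebra k A] (ρ : R ⊗[k] A →ₐ[R] B01 X R)
      (ρ' : R' ⊗[k] A →ₐ[R'] B01 X R') (_ : ∀ b, bMap X R (IsScalarTower.toAlgHom k R R') (ρ b) =
        ρ' (Algebra.TensorProduct.map (IsScalarTower.toAlgHom k R R') (AlgHom.id k A) b)),
      ((ofModule X (R := R) P).bcS R' (ρ.toLinearMap.rTensor P).range).map
        (e.toLinearMap.restrictScalars R') = (ρ'.toLinearMap.rTensor (R' ⊗[R] P)).range := by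
    intro A _ _ ρ ρ' hρ
    rw [bcS, Submodule.map_span]
    refine le_antisymm (Submodule.span_le.2 ?_) ?_
    · rintro _ ⟨_, ⟨_, ⟨z, rfl⟩, rfl⟩, rfl⟩
      induction z with
      | zero => simp
      | tmul b p =>
          exact ⟨Algebra.TensorProduct.map (IsScalarTower.toAlgHom k R R') (AlgHom.id k A) b ⊗ₜ
            ((1 : R') ⊗ₜ p), ((he (ρ b) p).trans (by rw [hρ]; rfl)).symm⟩
      | add u v hu hv => simp only [map_add]; exact add_mem hu hv
    · rintro _ ⟨z, rfl⟩
      induction z with
      | zero => simp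
      | tmul b w =>
          induction w with
          | zero => simp
          | tmul r p =>
              induction b using TensorProduct.induction_on with
              | zero => simp
              | tmul c a =>
                  have h1 : ρ'.toLinearMap.rTensor (R' ⊗[R] P) ((c ⊗ₜ a) ⊗ₜ (r ⊗ₜ p)) =
                      (c * r) • e ((ofModule X (R := R) P).incl R' (ρ ((1 : R) ⊗ₜ a) ⊗ₜ p)) := by
                    rw [he, hρ, Algebra.TensorProduct.map_tmul, map_one, LinearMap.rTensor_tmul,
                      show c ⊗ₜ[k] a = c • ((1 : R') ⊗ₜ[k] a) by rw [smul_tmul', smul_eq_mul, mul_one],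
                      show r ⊗ₜ[R] p = r • ((1 : R') ⊗ₜ[R] p) by rw [smul_tmul', smul_eq_mul, mul_one],
                      map_smul, ← smul_tmul', tmul_smul, smul_smul]
                    rfl
                  rw [h1]
                  exact Submodule.smul_mem _ _ (Submodule.subset_span
                    ⟨_, ⟨_, ⟨((1 : R) ⊗ₜ a) ⊗ₜ p, rfl⟩, rfl⟩, rfl⟩)
              | add u v hu hv => simp only [add_tmul, map_add]; exact add_mem hu hv
          | add u v hu hv => simp only [tmul_add, map_add]; exact add_mem hu hv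
      | add u v hu hv => simp only [map_add]; exact add_mem hu hv
  refine ⟨e, ?_, ?_⟩
  · rw [bc_M0 hG]
    exact key (res0 X R) (res0 X R') fun b => bMap_res0 _ b
  · rw [bc_M1 hG]
    exact key (res1 X R) (res1 X R') fun b => bMap_res1 _ b

end Tower

/-- Equal up to a twist by an invertible module on the base. -/
def ModEquiv (L L' : Pre X R) : Prop :=
  ∃ (P : Type u) (_ : AddCommGroup P) (_ : Module R P) (_ : Module.Invertible R P),
    Iso L' (L.tensor (ofModule X (R := R) P))

theorem ModEquiv.of_iso {L L' : Pre X R} (h : L.Good) (e : Iso L L') : ModEquiv L L' :=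
  ⟨R, inferInstance, inferInstance, inferInstance,
    (e.symm.trans (((tensor_comm _ _).trans (tensor_unit h)).symm.trans
      (tensor_congr (Iso.refl _) ofModule_self.symm)))⟩

theorem ModEquiv.symm {L L' : Pre X R} (h : L.Good) (e : ModEquiv L L') : ModEquiv L' L := by
  obtain ⟨P, _, _, _, e⟩ := e
  refine ⟨Module.Dual R P, inferInstance, inferInstance, inferInstance, Iso.symm ?_⟩
  exact (tensor_congr e (Iso.refl _)).trans ((tensor_assoc _ _ _).trans ((tensor_congr (Iso.refl _)
    (ofModule_tensor.symm.trans ((ofModule_congr ((TensorProduct.comm R P (Module.Dual R P)).trans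
      (Module.Invertible.linearEquiv R P))).trans ofModule_self))).trans
    ((tensor_comm _ _).trans (tensor_unit h))))

theorem ModEquiv.trans {L L' L'' : Pre X R} (e : ModEquiv L L') (e' : ModEquiv L' L'') :
    ModEquiv L L'' := by
  obtain ⟨P, _, _, _, e⟩ := e
  obtain ⟨Q, _, _, _, e'⟩ := e'
  exact ⟨P ⊗[R] Q, inferInstance, inferInstance, inferInstance,
    e'.trans ((tensor_congr e (Iso.refl _)).trans ((tensor_assoc _ _ _).trans
      (tensor_congr (Iso.refl _) ofModule_tensor.symm)))⟩

theorem ModEquiv.tensor {L L' M M' : Pre X R} (e : ModEquiv L L') (e' : ModEquiv M M') :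
    ModEquiv (L.tensor M) (L'.tensor M') := by
  obtain ⟨P, _, _, _, e⟩ := e
  obtain ⟨Q, _, _, _, e'⟩ := e'
  refine ⟨P ⊗[R] Q, inferInstance, inferInstance, inferInstance,
    (tensor_congr e e').trans (Iso.trans ?_ (tensor_congr (Iso.refl _) ofModule_tensor.symm))⟩
  exact (tensor_assoc _ _ _).trans ((tensor_congr (Iso.refl _)
    (((tensor_assoc _ _ _).symm.trans (tensor_congr (tensor_comm _ _) (Iso.refl _))).trans
      (tensor_assoc _ _ _))).trans (tensor_assoc _ _ _).symm)

theorem ModEquiv.bc {L L' : Pre X R} {S : Type u} [CommRing S] [Algebra k S] (φ : R →ₐ[k] S)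
    (e : ModEquiv L L') : ModEquiv (L.bc φ) (L'.bc φ) := by
  obtain ⟨P, _, _, _, e⟩ := e
  letI := φ.toRingHom.toAlgebra
  haveI : IsScalarTower k R S := IsScalarTower.of_algebraMap_eq' φ.comp_algebraMap.symm
  exact ⟨S ⊗[R] P, inferInstance, inferInstance, inferInstance,
    (bc_congr e φ).trans ((bc_tensor L _ φ).trans
      (tensor_congr (Iso.refl _) (bc_ofModule_toAlgHom (R' := S))))⟩

theorem ModEquiv.chi_eq {K : Type u} [Field K] [Algebra k K] {L L' : Pre X K} (h : L.Good)
    (e : ModEquiv L L') : L'.chi = L.chi := by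
  obtain ⟨P, _, _, _, e⟩ := e
  haveI : Module.Free K P := Module.Free.of_divisionRing K P
  obtain ⟨f⟩ := (Module.Invertible.free_iff_linearEquiv (R := K) (M := P)).mp inferInstance
  exact chi_congr (e.trans ((tensor_congr (Iso.refl _)
    ((ofModule_congr f).trans ofModule_self)).trans ((tensor_comm _ _).trans (tensor_unit h))))

theorem ModEquiv.iso_of_rigid {L L' : Pre X R} (h : L.Good) (hr : L.Rigid) (hr' : L'.Rigid)
    (e : ModEquiv L L') : Iso L' L := by
  obtain ⟨P, _, _, _, e⟩ := e
  exact Rigid.iso_of_iso_tensor_ofModule h hr hr' e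

end Pre

namespace Cls

/-- The rigidified class of a bundle. -/
def norm (L : Pre X R) (h : L.Good) : Cls X R :=
  mk ⟨_, h.exists_rigid.choose_spec.1, h.exists_rigid.choose_spec.2.1⟩

theorem norm_spec (L : Pre X R) (h : L.Good) :
    ∃ L' : RigBundle X R, mk L' = norm L h ∧ Pre.ModEquiv L L'.1 :=
  ⟨_, rfl, h.exists_rigid.choose_spec.2.2.2⟩

theorem norm_eq_mk {L : Pre X R} (h : L.Good) (L' : RigBundle X R) (e : Pre.ModEquiv L L'.1) :
    norm L h = mk L' := by
  obtain ⟨L'', hL'', e''⟩ := norm_spec L h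
  rw [← hL'', mk_eq_mk]
  exact Pre.ModEquiv.iso_of_rigid L'.2.1 L'.2.2 L''.2.2 ((e.symm h).trans e'')

theorem norm_congr {L M : Pre X R} (hL : L.Good) (hM : M.Good) (e : Pre.ModEquiv L M) :
    norm L hL = norm M hM := by
  obtain ⟨M', hM', e'⟩ := norm_spec M hM
  rw [norm_eq_mk hL M' (e.trans e'), hM']

theorem norm_mk (L : RigBundle X R) : norm L.1 L.2.1 = mk L :=
  norm_eq_mk L.2.1 L (Pre.ModEquiv.of_iso L.2.1 (Pre.Iso.refl _))

theorem map_norm {L : Pre X R} (h : L.Good) {S : Type u} [CommRing S] [Algebra k S]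
    (φ : R →ₐ[k] S) : map φ (norm L h) = norm (L.bc φ) (h.bc φ) := by
  obtain ⟨L', hL', e⟩ := norm_spec L h
  rw [← hL', map_mk, norm_eq_mk (h.bc φ) (L'.map φ) (e.bc φ)]

theorem isDegZero_norm_iff {L : Pre X R} (h : L.Good) :
    Cls.IsDegZero X R (norm L h) ↔ L.DegZero := by
  obtain ⟨L', hL', e⟩ := norm_spec L h
  rw [← hL', isDegZero_mk_iff]
  exact forall_congr' fun K => forall_congr' fun _ => forall_congr' fun _ => forall_congr' fun φ =>
    by rw [(e.bc φ).chi_eq (h.bc φ)]

end Cls


end Fermat.Agent.RelPic
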