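import Mathlib

/-!
# Dual bases of invertible ideals

A rank one dual basis makes a module invertible; `z ↦ z t / c` gives one for an ideal.
-/

set_option autoImplicit false
set_option linter.style.haveILetI false

universe u

open TensorProduct

noncomputable section

namespace Fermat.Agent.RelPic

namespace LatticeQuot

/-- A finite projective module with a rank one dual basis is invertible. -/
theorem invertible_of_dualBasis {B : Type u} [CommRing B] {M : Type u} [AddCommGroup M] [Module B M]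
    {n : ℕ} (s : Fin n → M) (lam : Fin n → M →ₗ[B] B) (hexp : ∀ x, x = ∑ i, lam i x • s i)
    (hrank : ∀ i x y, lam i x • y = lam i y • x) (htrace : ∑ i, lam i (s i) = 1) :
    Module.Invertible B M := by
  have hkey : ∀ z : Module.Dual B M ⊗[B] M,
      z = contractLeft B M z • ∑ i, lam i ⊗ₜ[B] s i := by
    intro z
    induction z using TensorProduct.induction_on with
    | zero => simp
    | tmul φ x =>
      rw [contractLeft_apply, Finset.smul_sum]
      conv_lhs => rw [hexp x, tmul_sum]
      refine Finset.sum_congr rfl fun i _ => ?_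
      rw [tmul_smul, smul_tmul', smul_tmul']
      congr 1
      refine LinearMap.ext fun y => ?_
      show lam i x * φ y = φ x * lam i y
      have := congrArg φ (hrank i x y)
      rwa [map_smul, map_smul, smul_eq_mul, smul_eq_mul, mul_comm (lam i y)] at this
    | add a b ha hb => rw [map_add, add_smul, ← ha, ← hb]
  exact ⟨⟨fun z z' hz => by rw [hkey z, hkey z', hz], fun b =>
    ⟨b • ∑ i, lam i ⊗ₜ[B] s i, by simp [contractLeft_apply, htrace]⟩⟩⟩

end LatticeQuot

variable {A B : Type u} [CommRing A] [CommRing B]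

theorem exists_mul_eq_map_mul (φ : A →+* B) {I : Ideal A} {P y : A} (h : ∀ b ∈ I, P ∣ b * y)
    {z : B} (hz : z ∈ I.map φ) : ∃ w, φ P * w = z * φ y := by
  induction hz using Submodule.span_induction with
  | mem z hz =>
    obtain ⟨b, hb, rfl⟩ := hz
    obtain ⟨w, hw⟩ := h b hb
    exact ⟨φ w, by rw [← map_mul, ← hw, map_mul]⟩
  | zero => exact ⟨0, by simp⟩
  | add a b _ _ ha hb =>
    obtain ⟨u, hu⟩ := ha
    obtain ⟨v, hv⟩ := hb
    exact ⟨u + v, by rw [mul_add, hu, hv, add_mul]⟩
  | smul r a _ ha =>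
    obtain ⟨u, hu⟩ := ha
    exact ⟨r * u, by rw [smul_eq_mul, mul_left_comm, hu, mul_assoc]⟩

/-- If `I * J = (P)` then `P` is a sum of products `x i * y i` with `P ∣ I * y i`. -/
theorem exists_sum_mul_eq_of_mul_eq {I J : Ideal A} {P : A} (hJ : I * J = Ideal.span {P}) :
    ∃ (n : ℕ) (x y : Fin n → A), (∀ i, x i ∈ I) ∧ ∑ i, x i * y i = P ∧
      ∀ z ∈ I, ∀ i, P ∣ z * y i := by
  have key : ∀ z ∈ I * J, ∃ (n : ℕ) (x y : Fin n → A),
      (∀ i, x i ∈ I) ∧ (∀ i, y i ∈ J) ∧ ∑ i, x i * y i = z := by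
    intro z hz
    refine Submodule.mul_induction_on hz
      (fun x hx y hy => ⟨1, fun _ => x, fun _ => y, fun _ => hx, fun _ => hy, by simp⟩) ?_
    rintro _ _ ⟨n, x, y, hx, hy, rfl⟩ ⟨m, x', y', hx', hy', rfl⟩
    exact ⟨n + m, Fin.append x x', Fin.append y y',
      Fin.addCases (fun i => by simp [hx]) (fun i => by simp [hx']),
      Fin.addCases (fun i => by simp [hy]) (fun i => by simp [hy']),
      by simp [Fin.sum_univ_add]⟩
  obtain ⟨n, x, y, hx, hy, hsum⟩ := key P (hJ ▸ Ideal.mem_span_singleton_self _)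
  exact ⟨n, x, y, hx, hsum,
    fun z hz i => Ideal.mem_span_singleton.mp (hJ ▸ Ideal.mul_mem_mul hz (hy i))⟩

theorem sum_mul_eq_of_mul_eq {c z : B} (hc : ∀ w w', c * w = c * w' → w = w') {n : ℕ}
    {x y l : Fin n → B} (hl : ∀ i, c * l i = z * y i) (hsum : c = ∑ i, x i * y i) :
    ∑ i, l i * x i = z := by
  refine hc _ _ ?_
  conv_rhs => rw [hsum, Finset.sum_mul]
  rw [Finset.mul_sum]
  exact Finset.sum_congr rfl fun i _ => by rw [← mul_assoc, hl]; ring

variable {M : Ideal B} {c t : B}

/-- `z ↦ z t / c`. -/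
def mulDivHom (hc : ∀ w w', c * w = c * w' → w = w') (h : ∀ z ∈ M, ∃ w, c * w = z * t) :
    M →ₗ[B] B where
  toFun z := (h z z.2).choose
  map_add' a b := hc _ _ (by
    rw [mul_add, (h _ a.2).choose_spec, (h _ b.2).choose_spec, (h _ (a + b).2).choose_spec,
      Submodule.coe_add, add_mul])
  map_smul' r a := hc _ _ (by
    rw [RingHom.id_apply, smul_eq_mul, mul_left_comm c r, (h _ a.2).choose_spec,
      (h _ (r • a).2).choose_spec, Submodule.coe_smul, smul_eq_mul, mul_assoc])

theorem mul_mulDivHom (hc : ∀ w w', c * w = c * w' → w = w')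
    (h : ∀ z ∈ M, ∃ w, c * w = z * t) (z : M) : c * mulDivHom hc h z = (z : B) * t :=
  (h z z.2).choose_spec

/-- An ideal with functionals `z ↦ z t i / c`, where `∑ s i t i = c`, is invertible. -/
theorem invertible_of_mul_eq (hc : ∀ w w', c * w = c * w' → w = w') {n : ℕ} (s : Fin n → M)
    (t : Fin n → B) (l : Fin n → M →ₗ[B] B) (hl : ∀ i z, c * l i z = (z : B) * t i)
    (hsum : ∑ i, (s i : B) * t i = c) : Module.Invertible B M := by
  refine LatticeQuot.invertible_of_dualBasis s l (fun x => Subtype.ext (hc _ _ ?_))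
    (fun i x y => Subtype.ext (hc _ _ ?_)) (hc _ _ ?_)
  · rw [AddSubmonoidClass.coe_finsetSum]
    conv_lhs => rw [← hsum, Finset.sum_mul]
    rw [Finset.mul_sum]
    exact Finset.sum_congr rfl fun i _ => by
      rw [Submodule.coe_smul, smul_eq_mul, ← mul_assoc, hl]; ring
  · rw [Submodule.coe_smul, Submodule.coe_smul, smul_eq_mul, smul_eq_mul, ← mul_assoc, ← mul_assoc,
      hl, hl]
    ring
  · rw [Finset.mul_sum, mul_one]
    exact (Finset.sum_congr rfl fun i _ => hl i (s i)).trans hsum

end Fermat.Agent.RelPic
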