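import Fermat.Agent.RelPic.BaseChange

/-!
# Functoriality of the operations on line bundles
-/

set_option autoImplicit false
set_option linter.style.haveILetI false
set_option linter.unusedSectionVars false

universe u

open TensorProduct

noncomputable section

namespace Fermat.Agent.RelPic

variable {k : Type u} [Field k] {X : Model k} {R : Type u} [CommRing R] [Algebra k R]

namespace Pre

/-- The pure tensors of two lattices. -/
abbrev tspan {N N' : Type u} [AddCommGroup N] [Module (B01 X R) N] [Module R N]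
    [IsScalarTower R (B01 X R) N] [AddCommGroup N'] [Module (B01 X R) N'] [Module R N']
    [IsScalarTower R (B01 X R) N'] (V : Submodule R N) (W : Submodule R N') :
    Submodule R (N ⊗[B01 X R] N') :=
  Submodule.map₂ (((TensorProduct.mk (B01 X R) N N').restrictScalars₁₂ R R)) V W

section Span

variable {N N' P : Type u} [AddCommGroup N] [Module (B01 X R) N] [Module R N]
    [IsScalarTower R (B01 X R) N] [AddCommGroup N'] [Module (B01 X R) N'] [Module R N']
    [IsScalarTower R (B01 X R) N'] [AddCommGroup P] [Module (B01 X R) P] [Module R P]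
    [IsScalarTower R (B01 X R) P] {S : Type u} [CommRing S] [Algebra k S] (φ : R →ₐ[k] S)

theorem tspan_eq (V : Submodule R N) (W : Submodule R N') :
    Submodule.span R {x : N ⊗[B01 X R] N' | ∃ a ∈ V, ∃ b ∈ W, x = a ⊗ₜ b} = tspan V W := by
  rw [tspan, Submodule.map₂_eq_span_image2]
  exact congrArg _ (Set.ext fun x => ⟨fun ⟨a, ha, b, hb, h⟩ => ⟨a, ha, b, hb, h.symm⟩,
    fun ⟨a, ha, b, hb, h⟩ => ⟨a, ha, b, hb, h.symm⟩⟩)

theorem map_tspan_assoc (V : Submodule R N) (W : Submodule R N') (U : Submodule R P) :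
    (tspan (tspan V W) U).map ((TensorProduct.assoc (B01 X R) N N' P).toLinearMap.restrictScalars R) =
      tspan V (tspan W U) := by
  rw [← V.span_eq, ← W.span_eq, ← U.span_eq]
  simp only [tspan, Submodule.map₂_span_span, Submodule.map_span, Set.image_image2]
  exact congrArg _ (Set.image2_assoc fun a b c => rfl)

theorem map_tspan_comm (V : Submodule R N) (W : Submodule R N') :
    (tspan V W).map ((TensorProduct.comm (B01 X R) N N').toLinearMap.restrictScalars R) =
      tspan W V := by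
  simp only [tspan, Submodule.map₂_eq_span_image2, Submodule.map_span, Set.image_image2]
  exact congrArg _ (Set.image2_swap _ _ _)

/-- The piece of a base change. -/
abbrev bspan {C : Type u} [CommRing C] [Algebra S C] (ρ : C →ₐ[S] B01 X S) (V : Submodule R N) :
    letI : Algebra (B01 X R) (B01 X S) := (bMap X R φ).toRingHom.toAlgebra
    Submodule S (B01 X S ⊗[B01 X R] N) :=
  letI : Algebra (B01 X R) (B01 X S) := (bMap X R φ).toRingHom.toAlgebra
  Submodule.span S {x | ∃ a : C, ∃ m ∈ V, x = ρ a ⊗ₜ m}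

theorem bspan_span {C : Type u} [CommRing C] [Algebra S C] (ρ : C →ₐ[S] B01 X S) (s : Set N) :
    letI : Algebra (B01 X R) (B01 X S) := (bMap X R φ).toRingHom.toAlgebra
    bspan φ ρ (Submodule.span R s) =
      Submodule.span S (Set.image2 (fun c m => ρ c ⊗ₜ m) Set.univ s) := by
  let : Algebra (B01 X R) (B01 X S) := (bMap X R φ).toRingHom.toAlgebra
  refine le_antisymm (Submodule.span_le.2 ?_) (Submodule.span_le.2 ?_)
  · rintro _ ⟨c, m, hm, rfl⟩
    induction hm using Submodule.span_induction generalizing c with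
    | mem y hy => exact Submodule.subset_span ⟨c, trivial, y, hy, rfl⟩
    | zero => simp
    | add a b _ _ ha hb => rw [tmul_add]; exact add_mem (ha c) (hb c)
    | smul r a _ ha =>
      rw [← algebraMap_smul (B01 X R) r a, ← smul_tmul, Algebra.smul_def]
      have e1 : algebraMap (B01 X R) (B01 X S) (algebraMap R (B01 X R) r) * ρ c =
          ρ (algebraMap S C (φ r) * c) := by
        rw [map_mul, AlgHom.commutes]
        congr 1
      rw [e1]
      exact ha _
  · rintro _ ⟨c, -, m, hm, rfl⟩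
    exact Submodule.subset_span ⟨c, m, Submodule.subset_span hm, rfl⟩

theorem bspan_tspan {C : Type u} [CommRing C] [Algebra S C] (ρ : C →ₐ[S] B01 X S)
    (V : Submodule R N) (W : Submodule R N') :
    letI : Algebra (B01 X R) (B01 X S) := (bMap X R φ).toRingHom.toAlgebra
    (bspan φ ρ (tspan V W)).map ((AlgebraTensorModule.distribBaseChange (B01 X R) (B01 X S) N N').toLinearMap.restrictScalars S) =
      tspan (bspan φ ρ V) (bspan φ ρ W) := by
  let : Algebra (B01 X R) (B01 X S) := (bMap X R φ).toRingHom.toAlgebra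
  rw [tspan, Submodule.map₂_eq_span_image2, bspan_span, ← V.span_eq, ← W.span_eq, bspan_span,
    bspan_span, tspan, Submodule.map₂_span_span, Submodule.map_span, V.span_eq, W.span_eq]
  refine le_antisymm (Submodule.span_mono ?_) (Submodule.span_mono ?_)
  · rintro _ ⟨_, ⟨c, -, _, ⟨a, ha, b, hb, rfl⟩, rfl⟩, rfl⟩
    exact ⟨_, ⟨c, trivial, a, ha, rfl⟩, _, ⟨1, trivial, b, hb, rfl⟩, by simp⟩
  · rintro _ ⟨_, ⟨c, -, a, ha, rfl⟩, _, ⟨d, -, b, hb, rfl⟩, rfl⟩
    refine ⟨_, ⟨c * d, trivial, _, ⟨a, ha, b, hb, rfl⟩, rfl⟩, ?_⟩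
    rw [LinearMap.restrictScalars_apply, LinearEquiv.coe_coe]
    show (ρ (c * d) ⊗ₜ[B01 X R] a : B01 X S ⊗[B01 X R] N) ⊗ₜ[B01 X S] (1 ⊗ₜ[B01 X R] b) = _
    rw [map_mul, mul_comm, ← smul_eq_mul, ← smul_tmul' (ρ d), smul_tmul, smul_tmul', smul_eq_mul, mul_one]
    rfl

end Span

theorem Iso.good {L L' : Pre X R} (h : Iso L L') (hL : L.Good) : L'.Good := by
  obtain ⟨e, h0, h1⟩ := h
  have key : ∀ {B : Type u} [CommRing B] [Algebra R B] {res : B →ₐ[R] B01 X R}
      {M : Submodule R L.N}, IsLattice res M →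
      IsLattice res (M.map (e.toLinearMap.restrictScalars R)) := by
    intro B _ _ res M hM
    obtain ⟨n, s, l, hs, hsum, hmem⟩ := hM
    refine ⟨n, fun i => e (s i), fun i => (l i).comp e.symm.toLinearMap,
      fun i => ⟨_, hs i, rfl⟩, fun x => ?_, fun x => ?_⟩
    · conv_lhs => rw [← e.apply_symm_apply x, hsum (e.symm x), map_sum]
      exact Finset.sum_congr rfl fun i _ => e.map_smul _ _
    · constructor
      · rintro ⟨y, hy, rfl⟩ i
        simpa using (hmem y).mp hy i
      · intro hx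
        exact ⟨e.symm x, (hmem _).mpr hx, e.apply_symm_apply x⟩
  exact ⟨haveI := hL.invertible; Module.Invertible.congr e, h0 ▸ key hL.lattice0,
    h1 ▸ key hL.lattice1⟩

theorem tensor_congr {L L' M M' : Pre X R} (hL : Iso L L') (hM : Iso M M') :
    Iso (L.tensor M) (L'.tensor M') := by
  obtain ⟨e, he0, he1⟩ := hL
  obtain ⟨e', he0', he1'⟩ := hM
  refine ⟨TensorProduct.congr e e', ?_, ?_⟩ <;>
    simp only [Pre.tensor, tspan_eq, tspan, ← he0, ← he0', ← he1, ← he1', Submodule.map_map₂,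
      Submodule.map₂_map_map] <;> rfl

theorem tensor_comm (L M : Pre X R) : Iso (L.tensor M) (M.tensor L) := by
  refine ⟨TensorProduct.comm (B01 X R) L.N M.N, ?_, ?_⟩ <;>
    simp only [Pre.tensor, tspan_eq, map_tspan_comm]

theorem tensor_assoc (L M P : Pre X R) :
    Iso ((L.tensor M).tensor P) (L.tensor (M.tensor P)) := by
  refine ⟨TensorProduct.assoc (B01 X R) L.N M.N P.N, ?_, ?_⟩ <;>
    simp only [Pre.tensor, tspan_eq, map_tspan_assoc]

theorem tensor_unit {L : Pre X R} (h : L.Good) : Iso ((Pre.unit X R).tensor L) L := by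
  have key : ∀ {B : Type u} [CommRing B] [Algebra R B] (ρ : B →ₐ[R] B01 X R) (M : Submodule R L.N),
      (∀ (b : B), ∀ m ∈ M, ρ b • m ∈ M) → (tspan ρ.toLinearMap.range M).map
        ((TensorProduct.lid (B01 X R) L.N).toLinearMap.restrictScalars R) = M := by
    intro B _ _ ρ M hM
    rw [Submodule.map_map₂]
    refine le_antisymm (Submodule.map₂_le.2 ?_) fun m hm => ?_
    · rintro _ ⟨b, rfl⟩ m hm
      exact hM b m hm
    · rw [← one_smul (B01 X R) m]
      exact Submodule.apply_mem_map₂ _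
        (show (1 : B01 X R) ∈ ρ.toLinearMap.range from ⟨1, map_one ρ⟩) hm
  refine ⟨TensorProduct.lid (B01 X R) L.N, ?_, ?_⟩ <;> simp only [Pre.tensor, tspan_eq]
  · exact key (res0 X R) _ fun b m hm => h.res0_smul_mem b hm
  · exact key (res1 X R) _ fun b m hm => h.res1_smul_mem b hm

theorem dual_tensor_self {L : Pre X R} (h : L.Good) : Iso (L.dual.tensor L) (Pre.unit X R) := by
  haveI := h.invertible
  let e : (L.dual.tensor L).N ≃ₗ[B01 X R] (Pre.unit X R).N :=
    Module.Invertible.linearEquiv (B01 X R) L.N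
  have he : ∀ (φ : L.dual.N) (x : L.N), e (φ ⊗ₜ x) = φ x := fun φ x => contractLeft_apply φ x
  have key : ∀ {B : Type u} [CommRing B] [Algebra R B] (res : B →ₐ[R] B01 X R)
      (M : Submodule R L.N) (D : Submodule R L.dual.N)
      (T : Submodule R (L.dual.tensor L).N), IsLattice res M →
      (∀ φ, φ ∈ D ↔ ∀ m ∈ M, φ m ∈ res.toLinearMap.range) →
      T = Submodule.span R {z | ∃ a ∈ D, ∃ b ∈ M, z = a ⊗ₜ b} →
      (∀ z ∈ T, e z ∈ res.toLinearMap.range) ∧ ∀ b ∈ res.toLinearMap.range, e.symm b ∈ T := by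
    intro B _ _ res M D T hM hD hT
    subst hT
    refine ⟨fun z hz => ?_, fun b hb => ?_⟩
    · induction hz using Submodule.span_induction with
      | zero => simp
      | add a b _ _ ha hb => rw [map_add]; exact add_mem ha hb
      | smul r a _ ha =>
          exact (congrArg (· ∈ _) (e.toLinearMap.map_smul_of_tower r a)).mpr
            (Submodule.smul_mem _ r ha)
      | mem y hy =>
          obtain ⟨φ, hφ, x, hx, rfl⟩ := hy
          rw [he]
          exact (hD φ).mp hφ x hx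
    · obtain ⟨n, s, l, hs, hsum, hmem⟩ := hM
      obtain ⟨c, rfl⟩ := hb
      have hc : e.symm (res.toLinearMap c) = ∑ i, l i ⊗ₜ (res c • s i) := by
        rw [LinearEquiv.symm_apply_eq, map_sum]
        have one : (∑ i, l i (s i)) = 1 := by
          apply (Module.Invertible.toModuleEnd_bijective (B01 X R) L.N).1
          refine LinearMap.ext fun x => ?_
          show (∑ i, l i (s i)) • x = (1 : B01 X R) • x
          rw [one_smul, Finset.sum_smul]
          conv_rhs => rw [hsum x]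
          exact Finset.sum_congr rfl fun i _ => Good.exists_eq_smul.rank_one (l i) (s i) x
        simp only [he, map_smul, smul_eq_mul, ← Finset.mul_sum, one, mul_one]
        rfl
      rw [hc]
      refine sum_mem fun i _ => Submodule.subset_span ⟨l i, (hD _).mpr fun m hm => ?_, _, ?_, rfl⟩
      · exact (hmem m).mp hm i
      · exact IsLattice.smul_mem ⟨n, s, l, hs, hsum, hmem⟩ c (hs i)
  obtain ⟨a0, b0⟩ := key (res0 X R) L.M0 L.dual.M0 _ h.lattice0 (fun _ => Iff.rfl) rfl
  obtain ⟨a1, b1⟩ := key (res1 X R) L.M1 L.dual.M1 _ h.lattice1 (fun _ => Iff.rfl) rfl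
  exact Iso.of_le e a0 b0 a1 b1

theorem twist_congr {L L' : Pre X R} (hL : Iso L L') (m : ℤ) :
    Iso (L.twist m) (L'.twist m) := by
  obtain ⟨e, h0, h1⟩ := hL
  refine ⟨e, h0, ?_⟩
  show (L.M1.map _).map _ = L'.M1.map _
  rw [← Submodule.map_comp, ← h1, ← Submodule.map_comp]
  congr 1
  exact LinearMap.ext fun x => e.map_smul _ x

theorem tensor_twist (L M : Pre X R) (m : ℤ) :
    Iso (L.tensor (M.twist m)) ((L.tensor M).twist m) := by
  refine ⟨LinearEquiv.refl _ _, Submodule.map_id _, ?_⟩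
  refine (Submodule.map_id _).trans ?_
  show Submodule.span R _ = (Submodule.span R _).map _
  rw [Submodule.map_span]
  congr 1
  ext z
  constructor
  · rintro ⟨a, ha, _, ⟨b, hb, rfl⟩, rfl⟩
    exact ⟨a ⊗ₜ b, ⟨a, ha, b, hb, rfl⟩, (tmul_smul _ _ _).symm⟩
  · rintro ⟨_, ⟨a, ha, b, hb, rfl⟩, rfl⟩
    exact ⟨a, ha, _, ⟨b, hb, rfl⟩, (tmul_smul _ _ _).symm⟩

/-- A twist is a tensor product with a twist of the trivial bundle. -/
theorem twist_iso_tensor {L : Pre X R} (h : L.Good) (m : ℤ) :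
    Iso (L.tensor ((Pre.unit X R).twist m)) (L.twist m) :=
  (tensor_twist L (Pre.unit X R) m).trans
    (twist_congr ((tensor_comm L (Pre.unit X R)).trans (tensor_unit h)) m)

/-! ### Base change -/

variable {S : Type u} [CommRing S] [Algebra k S] {T : Type u} [CommRing T] [Algebra k T]

theorem bc_congr {L L' : Pre X R} (hL : Iso L L') (φ : R →ₐ[k] S) :
    Iso (L.bc φ) (L'.bc φ) := by
  obtain ⟨e, h0, h1⟩ := hL
  let : Algebra (B01 X R) (B01 X S) := (bMap X R φ).toRingHom.toAlgebra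
  refine ⟨AlgebraTensorModule.congr (LinearEquiv.refl (B01 X S) (B01 X S)) e, ?_, ?_⟩ <;>
    simp only [Pre.bc, ← h0, ← h1, Submodule.map_span] <;>
    exact congrArg _ (Set.ext fun z =>
      ⟨fun ⟨_, ⟨a, m, hm, hx⟩, hz⟩ => ⟨a, _, ⟨m, hm, rfl⟩, by rw [← hz, hx]; rfl⟩,
        fun ⟨a, _, ⟨m, hm, rfl⟩, hz⟩ => ⟨_, ⟨a, m, hm, rfl⟩, hz.symm⟩⟩)

variable (X R) in
theorem bMap_id : bMap X R (AlgHom.id k R) = AlgHom.id k (B01 X R) :=
  Algebra.TensorProduct.map_id

theorem bMap_bMap (φ : R →ₐ[k] S) (ψ : S →ₐ[k] T) (x : B01 X R) :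
    bMap X S ψ (bMap X R φ x) = bMap X R (ψ.comp φ) x := by
  induction x using TensorProduct.induction_on with
  | zero => simp
  | tmul r a => rfl
  | add a b ha hb => simp only [map_add, ha, hb]

/-- The data of an isomorphism given by a semilinear bijection along the identity. -/
theorem Iso.of_addHom {L M : Pre X R} (j : L.N →+ M.N) (hj : ∀ (b : B01 X R) (x : L.N), j (b • x) = b • j x)
    (hb : Function.Bijective j) (h0 : j '' L.M0 = M.M0) (h1 : j '' L.M1 = M.M1) : Iso L M :=
  ⟨LinearEquiv.ofBijective { toFun := j, map_add' := j.map_add, map_smul' := hj } hb,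
    SetLike.coe_injective h0, SetLike.coe_injective h1⟩

theorem bc_id {L : Pre X R} (h : L.Good) : Iso (L.bc (AlgHom.id k R)) L := by
  have hb : Function.Bijective (algebraMap R R) := Function.bijective_id
  have hφ : IsScalarTower.toAlgHom k R R = AlgHom.id k R := AlgHom.ext fun _ => rfl
  have e : ∀ c, bMap X R (IsScalarTower.toAlgHom k R R) c = c := fun c => by
    rw [hφ, bMap_id]; rfl
  rw [← hφ]
  refine (Iso.of_addHom (M := L.bc (IsScalarTower.toAlgHom k R R)) (L.incl R).toAddMonoidHom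
    (fun b x => ?_) (incl_bijective h hb)
    ((bcS_eq_image hb.2 L.M0).symm.trans (congrArg SetLike.coe (bc_M0 h).symm))
    ((bcS_eq_image hb.2 L.M1).symm.trans (congrArg SetLike.coe (bc_M1 h).symm))).symm
  have := incl_smul R L b x
  rw [e] at this
  exact this

theorem bc_bc (L : Pre X R) (φ : R →ₐ[k] S) (ψ : S →ₐ[k] T) :
    Iso ((L.bc φ).bc ψ) (L.bc (ψ.comp φ)) := by
  let : Algebra (B01 X R) (B01 X S) := (bMap X R φ).toRingHom.toAlgebra
  let : Algebra (B01 X S) (B01 X T) := (bMap X S ψ).toRingHom.toAlgebra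
  let : Algebra (B01 X R) (B01 X T) := (bMap X R (ψ.comp φ)).toRingHom.toAlgebra
  have : IsScalarTower (B01 X R) (B01 X S) (B01 X T) :=
    IsScalarTower.of_algebraMap_eq fun x => (bMap_bMap φ ψ x).symm
  have key : ∀ {C D : Type u} [CommRing C] [Algebra S C] [CommRing D] [Algebra T D]
      (ρ : C →ₐ[S] B01 X S) (σ : D →ₐ[T] B01 X T) (_ : ∀ c, bMap X S ψ (ρ c) ∈ σ.range)
      (V : Submodule R L.N),
      (bspan ψ σ (bspan φ ρ V)).map
        ((AlgebraTensorModule.cancelBaseChange (B01 X R) (B01 X S) (B01 X T) (B01 X T)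
          L.N).toLinearMap.restrictScalars T) = bspan (ψ.comp φ) σ V := by
    intro C D _ _ _ _ ρ σ hρ V
    rw [bspan_span, Submodule.map_span]
    refine le_antisymm (Submodule.span_mono ?_) (Submodule.span_mono ?_)
    · rintro _ ⟨_, ⟨d, -, _, ⟨c, m, hm, rfl⟩, rfl⟩, rfl⟩
      obtain ⟨d', hd⟩ := hρ c
      exact ⟨d' * d, m, hm, by rw [map_mul, show σ d' = _ from hd]; rfl⟩
    · rintro _ ⟨d, m, hm, rfl⟩
      exact ⟨_, ⟨d, trivial, _, ⟨1, m, hm, rfl⟩, rfl⟩, by simp⟩
  refine ⟨_, key (res0 X S) (res0 X T) (fun c => ⟨_, (bMap_res0 ψ c).symm⟩) L.M0,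
    key (res1 X S) (res1 X T) (fun c => ⟨_, (bMap_res1 ψ c).symm⟩) L.M1⟩

theorem bc_unit (φ : R →ₐ[k] S) : Iso ((Pre.unit X R).bc φ) (Pre.unit X S) := by
  let : Algebra (B01 X R) (B01 X S) := (bMap X R φ).toRingHom.toAlgebra
  have key : ∀ {B C : Type u} [CommRing B] [Algebra R B] [CommRing C] [Algebra S C]
      (ρ : B →ₐ[R] B01 X R) (σ : C →ₐ[S] B01 X S) (_ : ∀ b, bMap X R φ (ρ b) ∈ σ.range),
      (bspan φ σ ρ.toLinearMap.range).map ((AlgebraTensorModule.rid (B01 X R) (B01 X S)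
        (B01 X S)).toLinearMap.restrictScalars S) = σ.toLinearMap.range := by
    intro B C _ _ _ _ ρ σ hρ
    rw [Submodule.map_span]
    refine le_antisymm (Submodule.span_le.2 ?_) ?_
    · rintro _ ⟨_, ⟨a, _, ⟨b, rfl⟩, rfl⟩, rfl⟩
      obtain ⟨c, hc⟩ := hρ b
      exact ⟨c * a, (map_mul σ c a).trans (by rw [show σ c = _ from hc]; rfl)⟩
    · rintro _ ⟨a, rfl⟩
      exact Submodule.subset_span ⟨_, ⟨a, 1, ⟨1, map_one ρ⟩, rfl⟩, by simp⟩
  exact ⟨_, key (res0 X R) (res0 X S) (fun b => ⟨_, (bMap_res0 φ b).symm⟩),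
    key (res1 X R) (res1 X S) (fun b => ⟨_, (bMap_res1 φ b).symm⟩)⟩

theorem bc_tensor (L M : Pre X R) (φ : R →ₐ[k] S) :
    Iso ((L.tensor M).bc φ) ((L.bc φ).tensor (M.bc φ)) := by
  let : Algebra (B01 X R) (B01 X S) := (bMap X R φ).toRingHom.toAlgebra
  refine ⟨AlgebraTensorModule.distribBaseChange (B01 X R) (B01 X S) L.N M.N, ?_, ?_⟩ <;>
    simp only [Pre.tensor, Pre.bc, tspan_eq] <;> exact bspan_tspan φ _ _ _

end Pre

end Fermat.Agent.RelPic
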