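import Fermat.Agent.RelPic.ChartPoly
import Fermat.Agent.RelPic.DualBasis
import Fermat.Agent.RelPic.Ops

/-!
# The bundle of an effective divisor on the affine piece

An invertible ideal of `R ⊗ A0` containing a monic polynomial in `f` cuts out a divisor disjoint
from infinity; `idealPre` is the bundle of its functions.
-/

set_option autoImplicit false
set_option linter.style.haveILetI false
set_option linter.unusedSectionVars false

universe u

open TensorProduct Polynomial

noncomputable section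

namespace Fermat.Agent.RelPic

variable {k : Type u} [Field k] (X : Model k) (R : Type u) [CommRing R] [Algebra k R]

/-- The functions vanishing on the closed subscheme of `I`: the bundle `O(-D)`. -/
abbrev idealPre (I : Ideal (R ⊗[k] X.A0)) : Pre X R where
  N := ↥(I.map (res0 X R).toRingHom)
  M0 := ((I.restrictScalars R).map (res0 X R).toLinearMap).comap
    ((I.map (res0 X R).toRingHom).subtype.restrictScalars R)
  M1 := (res1 X R).toLinearMap.range.comap
    ((I.map (res0 X R).toRingHom).subtype.restrictScalars R)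

variable {X R}

/-- The closed subscheme of `I` is a divisor, finite over the base. -/
def IsDiv (I : Ideal (R ⊗[k] X.A0)) : Prop :=
  ∃ q : R[X], q.Monic ∧ ∃ J : Ideal (R ⊗[k] X.A0), I * J = Ideal.span {fPoly X R q}

variable {R' : Type u} [CommRing R'] [Algebra k R']

theorem IsDiv.map {I : Ideal (R ⊗[k] X.A0)} (h : IsDiv I) (φ : R →ₐ[k] R') :
    IsDiv (I.map (Algebra.TensorProduct.map φ (AlgHom.id k X.A0)).toRingHom) := by
  obtain ⟨q, hq, J, hJ⟩ := h
  refine ⟨q.map φ.toRingHom, hq.map _,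
    J.map (Algebra.TensorProduct.map φ (AlgHom.id k X.A0)).toRingHom, ?_⟩
  rw [← Ideal.map_mul, hJ, Ideal.map_span, Set.image_singleton, ← fPoly_map]
  rfl

theorem IsDiv.fPoly_mem {I : Ideal (R ⊗[k] X.A0)} (h : IsDiv I) :
    ∃ q : R[X], q.Monic ∧ fPoly X R q ∈ I := by
  obtain ⟨q, hq, J, hJ⟩ := h
  exact ⟨q, hq, ((Ideal.mul_le_inf (hJ ▸ Ideal.mem_span_singleton_self _ :
    fPoly X R q ∈ I * J)).1)⟩

/-- A dual basis of the ideal of a divisor. -/
structure DivData (I : Ideal (R ⊗[k] X.A0)) where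
  q : R[X]
  monic : q.Monic
  n : ℕ
  x : Fin n → R ⊗[k] X.A0
  y : Fin n → R ⊗[k] X.A0
  x_mem : ∀ i, x i ∈ I
  sum_eq : ∑ i, x i * y i = fPoly X R q
  dvd : ∀ z ∈ I, ∀ i, fPoly X R q ∣ z * y i

theorem IsDiv.nonempty_data {I : Ideal (R ⊗[k] X.A0)} (h : IsDiv I) : Nonempty (DivData I) := by
  obtain ⟨q, hq, J, hJ⟩ := h
  obtain ⟨n, x, y, hx, hsum, hdvd⟩ := exists_sum_mul_eq_of_mul_eq hJ
  exact ⟨⟨q, hq, n, x, y, hx, hsum, hdvd⟩⟩

namespace DivData

variable {I : Ideal (R ⊗[k] X.A0)} (d : DivData I)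

/-- The monic polynomial on the overlap. -/
def c : B01 X R := res0 X R (fPoly X R d.q)

theorem c_mul_cancel {w w' : B01 X R} (h : d.c * w = d.c * w') : w = w' :=
  sub_eq_zero.mp (res0_fPoly_mul_eq_zero X R d.monic (by
    rw [mul_sub]; exact sub_eq_zero.mpr h))

/-- The coordinate functionals. -/
def l (i : Fin d.n) : ↥(I.map (res0 X R).toRingHom) →ₗ[B01 X R] B01 X R :=
  mulDivHom (fun _ _ => d.c_mul_cancel) fun _ hz =>
    exists_mul_eq_map_mul _ (fun b hb => d.dvd b hb i) hz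

theorem c_mul_l (i : Fin d.n) (z : ↥(I.map (res0 X R).toRingHom)) :
    d.c * d.l i z = (z : B01 X R) * res0 X R (d.y i) :=
  mul_mulDivHom _ _ z

/-- The generators on the overlap. -/
def s (i : Fin d.n) : ↥(I.map (res0 X R).toRingHom) :=
  ⟨res0 X R (d.x i), Ideal.mem_map_of_mem _ (d.x_mem i)⟩

theorem sum_l_mul (z : ↥(I.map (res0 X R).toRingHom)) :
    ∑ i, d.l i z * res0 X R (d.x i) = (z : B01 X R) :=
  sum_mul_eq_of_mul_eq (fun _ _ => d.c_mul_cancel) (fun i => d.c_mul_l i z)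
    (by rw [c, ← d.sum_eq, map_sum]; exact Finset.sum_congr rfl fun i _ => map_mul _ _ _)

theorem sum_l_smul (z : ↥(I.map (res0 X R).toRingHom)) : z = ∑ i, d.l i z • d.s i := by
  refine Subtype.ext ?_
  rw [AddSubmonoidClass.coe_finsetSum]
  exact (d.sum_l_mul z).symm

theorem l_mem_range0 (i : Fin d.n) (z : ↥(I.map (res0 X R).toRingHom))
    (hz : z ∈ (idealPre X R I).M0) : d.l i z ∈ (res0 X R).range := by
  obtain ⟨b, hb, hbz⟩ := hz
  obtain ⟨w, hw⟩ := d.dvd b hb i
  refine ⟨w, d.c_mul_cancel ?_⟩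
  rw [c_mul_l, ← show res0 X R b = (z : B01 X R) from hbz, ← map_mul, hw, map_mul]
  rfl

theorem smul_mem0 (b : R ⊗[k] X.A0) (z : ↥(I.map (res0 X R).toRingHom))
    (hz : z ∈ (idealPre X R I).M0) : res0 X R b • z ∈ (idealPre X R I).M0 := by
  obtain ⟨x, hx, hxz⟩ := hz
  refine ⟨b * x, I.mul_mem_left b hx, ?_⟩
  show res0 X R (b * x) = res0 X R b * (z : B01 X R)
  rw [map_mul, show res0 X R x = (z : B01 X R) from hxz]

theorem smul_mem1 (b : R ⊗[k] X.A1) (z : ↥(I.map (res0 X R).toRingHom))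
    (hz : z ∈ (idealPre X R I).M1) : res1 X R b • z ∈ (idealPre X R I).M1 := by
  obtain ⟨x, hxz⟩ := hz
  refine ⟨b * x, ?_⟩
  show res1 X R (b * x) = res1 X R b * (z : B01 X R)
  rw [map_mul, show res1 X R x = (z : B01 X R) from hxz]

theorem s_mem0 (i : Fin d.n) : d.s i ∈ (idealPre X R I).M0 := ⟨d.x i, d.x_mem i, rfl⟩

theorem invertible (d : DivData I) : Module.Invertible (B01 X R) ↥(I.map (res0 X R).toRingHom) :=
  invertible_of_mul_eq (fun _ _ => d.c_mul_cancel) d.s (fun i => res0 X R (d.y i)) d.l d.c_mul_l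
    (by rw [c, ← d.sum_eq, map_sum]; exact Finset.sum_congr rfl fun i _ => (map_mul _ _ _).symm)

/-- Functions regular at infinity: `z` is a combination of `g ^ deg q * q (f)` and the
`g ^ M * x i`, for large `M`, with coefficients regular at infinity. -/
theorem exists_M : ∃ M : ℕ,
    (∀ i, res1 X R ((1 : R) ⊗ₜ X.g) ^ M * res0 X R (d.x i) ∈ (res1 X R).range) ∧
      ∀ i, res1 X R ((1 : R) ⊗ₜ X.g) ^ M * res0 X R (d.y i) ∈ (res1 X R).range := by
  choose nx hnx using fun i => exists_pow_mul_mem1 X R (res0 X R (d.x i))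
  choose ny hny using fun i => exists_pow_mul_mem1 X R (res0 X R (d.y i))
  exact ⟨Finset.univ.sup nx + Finset.univ.sup ny,
    fun i => hnx i _ ((Finset.le_sup (Finset.mem_univ i)).trans (Nat.le_add_right _ _)),
    fun i => hny i _ ((Finset.le_sup (Finset.mem_univ i)).trans (Nat.le_add_left _ _))⟩

/-- The generator at infinity. -/
def c1 : B01 X R := res1 X R ((1 : R) ⊗ₜ X.g) ^ d.q.natDegree * d.c

theorem exists_coeff1 {M : ℕ}
    (hM : ∀ i, res1 X R ((1 : R) ⊗ₜ X.g) ^ M * res0 X R (d.y i) ∈ (res1 X R).range) :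
    ∃ u v : R ⊗[k] X.A1, res1 X R u * d.c1 +
        res1 X R v * res1 X R ((1 : R) ⊗ₜ X.g) ^ M * res1 X R ((1 : R) ⊗ₜ X.g) ^ M = 1 ∧
      ∀ i (z : ↥(I.map (res0 X R).toRingHom)), (z : B01 X R) ∈ (res1 X R).range →
        res1 X R v * (res1 X R ((1 : R) ⊗ₜ X.g) ^ M * d.l i z) ∈ (res1 X R).range := by
  set G := (1 : R) ⊗ₜ[k] X.g
  obtain ⟨w, hw⟩ := exists_res1_eq_fPoly X R d.monic
  replace hw : d.c1 = res1 X R (1 + G * w) := hw
  have hcop : IsCoprime (1 + G * w) G := ⟨1, -w, by ring⟩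
  obtain ⟨u, v, huv⟩ := hcop.pow_right (n := M + M)
  refine ⟨u, v, ?_, fun i z hz => mul_mem ⟨v, rfl⟩ ?_⟩
  · rw [hw, mul_assoc, ← pow_add, ← map_pow, ← map_mul, ← map_mul, ← map_add, huv, map_one]
  set W := res1 X R G ^ M * d.l i z
  obtain ⟨j, hj⟩ := exists_pow_mul_mem1 X R W
  obtain ⟨a, b, hab⟩ := hcop.pow_right (n := j)
  have hc : d.c1 * W ∈ (res1 X R).range := by
    have e : d.c1 * W =
        res1 X R G ^ d.q.natDegree * ((z : B01 X R) * (res1 X R G ^ M * res0 X R (d.y i))) := by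
      rw [c1, show W = res1 X R G ^ M * d.l i z from rfl]
      rw [mul_left_comm (z : B01 X R), ← d.c_mul_l i z]
      ring
    rw [e]
    exact mul_mem (pow_mem (AlgHom.mem_range_self _ G) _) (mul_mem hz (hM i))
  have e : W = res1 X R a * (d.c1 * W) + res1 X R b * (res1 X R G ^ j * W) := by
    have h1 : res1 X R a * d.c1 + res1 X R b * res1 X R G ^ j = 1 := by
      rw [hw, ← map_pow, ← map_mul, ← map_mul, ← map_add, hab, map_one]
    linear_combination (-W) * h1
  rw [e]
  exact add_mem (mul_mem (AlgHom.mem_range_self _ a) hc)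
    (mul_mem (AlgHom.mem_range_self _ b) (hj j le_rfl))

/-- Generators of the lattice at infinity. -/
def t (M : ℕ) : Option (Fin d.n) → ↥(I.map (res0 X R).toRingHom)
  | none => ⟨d.c1, Ideal.mul_mem_left _ _ (Ideal.mem_map_of_mem _ (by
      rw [← d.sum_eq]; exact sum_mem fun i _ => I.mul_mem_right _ (d.x_mem i)))⟩
  | some i => ⟨res1 X R ((1 : R) ⊗ₜ X.g) ^ M * res0 X R (d.x i),
      Ideal.mul_mem_left _ _ (Ideal.mem_map_of_mem _ (d.x_mem i))⟩

theorem t_mem1 {M : ℕ}
    (hM : ∀ i, res1 X R ((1 : R) ⊗ₜ X.g) ^ M * res0 X R (d.x i) ∈ (res1 X R).range)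
    (o : Option (Fin d.n)) : d.t M o ∈ (idealPre X R I).M1 := by
  rcases o with _ | i
  · obtain ⟨w, hw⟩ := exists_res1_eq_fPoly X R d.monic
    exact ⟨_, hw.symm⟩
  · exact hM i

theorem lattice1 (d : DivData I) : Pre.IsLattice (res1 X R) (idealPre X R I).M1 := by
  obtain ⟨M, hMx, hMy⟩ := d.exists_M
  obtain ⟨u, v, huv, hint⟩ := d.exists_coeff1 hMy
  refine Pre.IsLattice.of_stable (d.t M)
    (fun o => o.elim (res1 X R u • (I.map (res0 X R).toRingHom).subtype)
      (fun i => (res1 X R v * res1 X R ((1 : R) ⊗ₜ X.g) ^ M) • d.l i))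
    (d.t_mem1 hMx) (fun z => Subtype.ext ?_) DivData.smul_mem1 (fun z hz o => ?_)
  · rw [Fintype.sum_option, Submodule.coe_add, AddSubmonoidClass.coe_finsetSum]
    show (z : B01 X R) = (res1 X R u * (z : B01 X R)) * d.c1 + ∑ i : Fin d.n,
      ((res1 X R v * res1 X R ((1 : R) ⊗ₜ X.g) ^ M) * d.l i z) *
        (res1 X R ((1 : R) ⊗ₜ X.g) ^ M * res0 X R (d.x i))
    have e : ∀ i : Fin d.n, ((res1 X R v * res1 X R ((1 : R) ⊗ₜ X.g) ^ M) * d.l i z) *
        (res1 X R ((1 : R) ⊗ₜ X.g) ^ M * res0 X R (d.x i)) =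
        (res1 X R v * res1 X R ((1 : R) ⊗ₜ X.g) ^ M * res1 X R ((1 : R) ⊗ₜ X.g) ^ M) *
          (d.l i z * res0 X R (d.x i)) := fun i => by ring
    simp only [e]
    rw [← Finset.mul_sum, d.sum_l_mul]
    linear_combination (-(z : B01 X R)) * huv
  · rcases o with _ | i
    · exact mul_mem ⟨u, rfl⟩ hz
    · show (res1 X R v * res1 X R ((1 : R) ⊗ₜ X.g) ^ M) * d.l i z ∈ (res1 X R).range
      rw [mul_assoc]
      exact hint i z hz

theorem lattice0 (d : DivData I) : Pre.IsLattice (res0 X R) (idealPre X R I).M0 :=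
  Pre.IsLattice.of_stable d.s d.l d.s_mem0 d.sum_l_smul DivData.smul_mem0
    (fun z hz i => d.l_mem_range0 i z hz)

/-- Base change of the data. -/
def map (φ : R →ₐ[k] R') :
    DivData (I.map (Algebra.TensorProduct.map φ (AlgHom.id k X.A0)).toRingHom) where
  q := d.q.map φ.toRingHom
  monic := d.monic.map _
  n := d.n
  x i := Algebra.TensorProduct.map φ (AlgHom.id k X.A0) (d.x i)
  y i := Algebra.TensorProduct.map φ (AlgHom.id k X.A0) (d.y i)
  x_mem i := Ideal.mem_map_of_mem _ (d.x_mem i)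
  sum_eq := by
    rw [← fPoly_map, ← d.sum_eq, map_sum]
    exact Finset.sum_congr rfl fun i _ => (map_mul _ _ _).symm
  dvd z hz i := by
    obtain ⟨w, hw⟩ := exists_mul_eq_map_mul _ (fun b hb => d.dvd b hb i) hz
    exact ⟨w, by rw [← fPoly_map]; exact hw.symm⟩

theorem bMap_mem {φ : R →ₐ[k] R'} {z : B01 X R} (hz : z ∈ I.map (res0 X R).toRingHom) :
    bMap X R φ z ∈ (I.map (Algebra.TensorProduct.map φ (AlgHom.id k X.A0)).toRingHom).map
      (res0 X R').toRingHom := by
  have h := Ideal.mem_map_of_mem (bMap X R φ).toRingHom hz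
  rw [Ideal.map_map] at h ⊢
  rwa [show (res0 X R').toRingHom.comp (Algebra.TensorProduct.map φ (AlgHom.id k X.A0)).toRingHom =
    (bMap X R φ).toRingHom.comp (res0 X R).toRingHom from
      RingHom.ext fun b => (bMap_res0 φ b).symm]

end DivData

theorem good_idealPre {I : Ideal (R ⊗[k] X.A0)} (h : IsDiv I) : (idealPre X R I).Good :=
  let ⟨d⟩ := h.nonempty_data
  ⟨d.invertible, d.lattice0, d.lattice1⟩

/-- Base change of `O(-D)` is `O(-D')`. -/
theorem idealPre_bc {I : Ideal (R ⊗[k] X.A0)} (h : IsDiv I) (φ : R →ₐ[k] R') :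
    Pre.Iso ((idealPre X R I).bc φ)
      (idealPre X R' (I.map (Algebra.TensorProduct.map φ (AlgHom.id k X.A0)).toRingHom)) := by
  obtain ⟨d⟩ := h.nonempty_data
  set I' := I.map (Algebra.TensorProduct.map φ (AlgHom.id k X.A0)).toRingHom with hI'
  letI : Algebra (B01 X R) (B01 X R') := (bMap X R φ).toRingHom.toAlgebra
  let j : ↥(I.map (res0 X R).toRingHom) →ₗ[B01 X R] ↥(I'.map (res0 X R').toRingHom) :=
    { toFun := fun z => ⟨bMap X R φ z, DivData.bMap_mem z.2⟩
      map_add' := fun a b => Subtype.ext (map_add _ _ _)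
      map_smul' := fun r a => Subtype.ext (map_mul _ _ _) }
  let F : B01 X R' ⊗[B01 X R] ↥(I.map (res0 X R).toRingHom) →ₗ[B01 X R']
      ↥(I'.map (res0 X R').toRingHom) := j.liftBaseChange (B01 X R')
  have hF : ∀ b z, F (b ⊗ₜ z) = b • j z := fun b z => LinearMap.liftBaseChange_tmul ..
  -- the coordinates commute with base change
  have hl : ∀ i z, (d.map φ).l i (j z) = bMap X R φ (d.l i z) := fun i z => by
    refine (d.map φ).c_mul_cancel ?_
    rw [DivData.c_mul_l]
    show bMap X R φ z * res0 X R' (Algebra.TensorProduct.map φ (AlgHom.id k X.A0) (d.y i)) =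
      res0 X R' (fPoly X R' (d.q.map φ.toRingHom)) * _
    rw [← fPoly_map, ← bMap_res0, ← bMap_res0, ← map_mul, ← map_mul]
    exact congrArg _ (d.c_mul_l i z).symm
  have hexp : ∀ z, z = ∑ i, (d.map φ).l i (F z) ⊗ₜ[B01 X R] d.s i := by
    intro z
    induction z using TensorProduct.induction_on with
    | zero => simp only [map_zero, zero_tmul, Finset.sum_const_zero]
    | tmul b a =>
      conv_lhs => rw [d.sum_l_smul a, tmul_sum]
      refine Finset.sum_congr rfl fun i _ => ?_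
      rw [tmul_smul, smul_tmul', hF, map_smul, hl, Algebra.smul_def, smul_eq_mul, mul_comm]
      rfl
    | add a b ha hb =>
      conv_lhs => rw [ha, hb]
      simp only [map_add, add_tmul, Finset.sum_add_distrib]
  have hsurj : Function.Surjective F := fun z => ⟨∑ i, (d.map φ).l i z ⊗ₜ d.s i, by
    rw [map_sum]
    simp only [hF]
    refine Subtype.ext ?_
    rw [AddSubmonoidClass.coe_finsetSum]
    refine (Finset.sum_congr rfl fun i _ => ?_).trans ((d.map φ).sum_l_mul z)
    show (d.map φ).l i z * bMap X R φ (res0 X R (d.x i)) = _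
    rw [bMap_res0]
    rfl⟩
  have hinj : Function.Injective F := fun a b h => by rw [hexp a, hexp b, h]
  refine ⟨LinearEquiv.ofBijective F ⟨hinj, hsurj⟩, le_antisymm ?_ ?_, le_antisymm ?_ ?_⟩
  · rw [Submodule.map_le_iff_le_comap, Submodule.span_le]
    rintro _ ⟨a, m, hm, rfl⟩
    refine Submodule.mem_comap.mpr ?_
    show F (res0 X R' a ⊗ₜ m) ∈ _
    rw [hF]
    refine DivData.smul_mem0 a _ ?_
    obtain ⟨b, hb, hbm⟩ := hm
    refine ⟨_, Ideal.mem_map_of_mem _ hb, ?_⟩
    show res0 X R' _ = bMap X R φ (m : B01 X R)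
    rw [← show res0 X R b = (m : B01 X R) from hbm, bMap_res0]
    rfl
  · intro z hz
    refine ⟨∑ i, (d.map φ).l i z ⊗ₜ d.s i, sum_mem fun i _ => ?_, ?_⟩
    · obtain ⟨w, hw⟩ := (d.map φ).l_mem_range0 i z hz
      exact Submodule.subset_span ⟨w, d.s i, d.s_mem0 i, by rw [← hw]; rfl⟩
    · refine (hsurj z).elim fun a ha => ?_
      rw [← ha, ← hexp a]
      rfl
  · rw [Submodule.map_le_iff_le_comap, Submodule.span_le]
    rintro _ ⟨a, m, hm, rfl⟩
    refine Submodule.mem_comap.mpr ?_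
    show F (res1 X R' a ⊗ₜ m) ∈ _
    rw [hF]
    refine DivData.smul_mem1 a _ ?_
    obtain ⟨b, hbm⟩ := hm
    refine ⟨Algebra.TensorProduct.map φ (AlgHom.id k X.A1) b, ?_⟩
    show res1 X R' _ = bMap X R φ (m : B01 X R)
    rw [← show res1 X R b = (m : B01 X R) from hbm, bMap_res1]
  · obtain ⟨M, hMx, hMy⟩ := d.exists_M
    have hG : bMap X R φ (res1 X R ((1 : R) ⊗ₜ X.g)) = res1 X R' ((1 : R') ⊗ₜ X.g) := by
      rw [bMap_res1, Algebra.TensorProduct.map_tmul, map_one]; rfl
    have hMy' : ∀ i, res1 X R' ((1 : R') ⊗ₜ X.g) ^ M * res0 X R' ((d.map φ).y i) ∈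
        (res1 X R').range := fun i => by
      obtain ⟨b, hb⟩ := hMy i
      refine ⟨Algebra.TensorProduct.map φ (AlgHom.id k X.A1) b, ?_⟩
      show res1 X R' _ = _ * res0 X R' (Algebra.TensorProduct.map φ (AlgHom.id k X.A0) (d.y i))
      rw [← bMap_res1, ← bMap_res0, ← hG, ← map_pow, ← map_mul]
      exact congrArg _ hb
    obtain ⟨u, v, huv, hint⟩ := (d.map φ).exists_coeff1 hMy'
    intro z hz
    have hd : (d.map φ).q.natDegree = d.q.natDegree ∨ Subsingleton R' := by
      rcases subsingleton_or_nontrivial R' with h | h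
      · exact Or.inr h
      · exact Or.inl (d.monic.natDegree_map _)
    have hc1 : bMap X R φ d.c1 = (d.map φ).c1 := by
      rcases hd with hd | hd
      · rw [DivData.c1, DivData.c1, DivData.c, DivData.c, map_mul, map_pow, hG, bMap_res0,
          fPoly_map, hd]
        rfl
      · haveI : Subsingleton (B01 X R') := TensorProduct.uniqueLeft.instSubsingleton
        exact Subsingleton.elim _ _
    refine ⟨(res1 X R' u * (z : B01 X R')) ⊗ₜ d.t M none + ∑ i : Fin d.n,
      (res1 X R' v * (res1 X R' ((1 : R') ⊗ₜ X.g) ^ M * (d.map φ).l i z)) ⊗ₜ d.t M (some i),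
      add_mem ?_ (sum_mem fun i _ => ?_), ?_⟩
    · obtain ⟨b, hb⟩ := hz
      exact Submodule.subset_span ⟨u * b, d.t M none, d.t_mem1 hMx none, by
        rw [map_mul]; exact congrArg (fun w => (res1 X R' u * w) ⊗ₜ[B01 X R] d.t M none) hb.symm⟩
    · obtain ⟨b, hb⟩ := hint i z hz
      exact Submodule.subset_span ⟨b, d.t M (some i), d.t_mem1 hMx (some i), by rw [← hb]; rfl⟩
    · show F _ = z
      rw [map_add, map_sum]
      simp only [hF]
      refine Subtype.ext ?_
      rw [Submodule.coe_add, AddSubmonoidClass.coe_finsetSum]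
      show (res1 X R' u * (z : B01 X R')) * bMap X R φ d.c1 + ∑ i : Fin d.n,
        (res1 X R' v * (res1 X R' ((1 : R') ⊗ₜ X.g) ^ M * (d.map φ).l i z)) *
          bMap X R φ (res1 X R ((1 : R) ⊗ₜ X.g) ^ M * res0 X R (d.x i)) = z
      have e : ∀ i : Fin d.n,
          (res1 X R' v * (res1 X R' ((1 : R') ⊗ₜ X.g) ^ M * (d.map φ).l i z)) *
            bMap X R φ (res1 X R ((1 : R) ⊗ₜ X.g) ^ M * res0 X R (d.x i)) =
          (res1 X R' v * res1 X R' ((1 : R') ⊗ₜ X.g) ^ M * res1 X R' ((1 : R') ⊗ₜ X.g) ^ M) *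
            ((d.map φ).l i z * res0 X R' ((d.map φ).x i)) := fun i => by
        show _ = _ * (_ * res0 X R' (Algebra.TensorProduct.map φ (AlgHom.id k X.A0) (d.x i)))
        rw [map_mul, map_pow, hG, bMap_res0]
        ring
      simp only [e]
      have hs := (d.map φ).sum_l_mul z
      rw [← Finset.mul_sum, hc1]
      refine Eq.trans (congrArg (fun w => _ + _ * w) hs) ?_
      linear_combination (z : B01 X R') * huv

end Fermat.Agent.RelPic

end
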