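import Fermat.Agent.RelPic.ChartIdeal
import Fermat.Agent.RelPic.ChartDiv

/-!
# Divisors from chart points and sections
-/

set_option autoImplicit false
set_option linter.style.haveILetI false

universe u

open TensorProduct Polynomial

noncomputable section

namespace Fermat.Agent.RelPic

variable {k : Type u} [Field k] {X : Model k} {R : Type u} [CommRing R] [Algebra k R] {R' : Type u} [CommRing R'] [Algebra k R']

/-- The subscheme of a chart point is a divisor. -/
theorem ChartPt.isDiv_ideal [IsAlgClosed k] {n : ℕ} {a : Fin n → X.A0} (p : ChartPt k a R) :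
    IsDiv p.ideal :=
  ⟨p.fChar, p.fChar_monic, p.exists_mul_eq⟩

/-- The ideal of an `R`-point of the affine piece. -/
def pointIdeal (φ : X.A0 →ₐ[k] R) : Ideal (R ⊗[k] X.A0) :=
  RingHom.ker (Algebra.TensorProduct.lift (AlgHom.id R R) φ fun _ _ => Commute.all _ _)

theorem mem_pointIdeal (φ : X.A0 →ₐ[k] R) (b : R ⊗[k] X.A0) :
    b ∈ pointIdeal φ ↔
      Algebra.TensorProduct.lift (AlgHom.id R R) φ (fun _ _ => Commute.all _ _) b = 0 := Iff.rfl

/-- An `R`-point as a point of the chart of degree one. -/
def pointChart (φ : X.A0 →ₐ[k] R) : ChartPt k (fun _ : Fin 1 => (1 : X.A0)) R where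
  ρ := ((Algebra.ofId R (Matrix (Fin 1) (Fin 1) R)).restrictScalars k).comp φ
  v _ := 1
  spec i := by
    simp only [map_one, Matrix.one_mulVec]
    funext j
    rw [Subsingleton.elim j i, Pi.single_eq_same]

theorem pointChart_ideal (φ : X.A0 →ₐ[k] R) : (pointChart φ).ideal = pointIdeal φ := by
  ext b
  rw [ChartPt.mem_ideal, mem_pointIdeal]
  have e : ∀ b, (pointChart φ).coords b = fun _ =>
      Algebra.TensorProduct.lift (AlgHom.id R R) φ (fun _ _ => Commute.all _ _) b := by
    intro b
    induction b using TensorProduct.induction_on with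
    | zero => rw [map_zero, map_zero]; rfl
    | tmul r x =>
      funext i
      rw [ChartPt.coords_apply, ChartPt.act_tmul]
      simp [pointChart, Matrix.mulVec, dotProduct, Matrix.algebraMap_matrix_apply,
        Subsingleton.elim i 0, Algebra.ofId_apply]
    | add x y hx hy =>
      rw [map_add, map_add, hx, hy]
      rfl
  rw [e]
  exact ⟨fun h => congrFun h 0, fun h => funext fun _ => h⟩

/-- An `R`-point is a divisor. -/
theorem isDiv_pointIdeal [IsAlgClosed k] (φ : X.A0 →ₐ[k] R) : IsDiv (pointIdeal φ) :=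
  pointChart_ideal φ ▸ (pointChart φ).isDiv_ideal

theorem pointIdeal_map (φ : X.A0 →ₐ[k] R) (ψ : R →ₐ[k] R') :
    (pointIdeal φ).map (Algebra.TensorProduct.map ψ (AlgHom.id k X.A0)).toRingHom =
      pointIdeal (ψ.comp φ) := by
  rw [← pointChart_ideal, ← pointChart_ideal, ← ChartPt.ideal_map]
  congr 1
  refine ChartPt.ext (AlgHom.ext fun x => ?_) (funext fun i => map_one ψ)
  rw [ChartPt.map_ρ]
  ext i j
  simp [pointChart, Matrix.algebraMap_matrix_apply, Algebra.ofId_apply, Subsingleton.elim i j]

end Fermat.Agent.RelPic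

end
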