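import Fermat.Agent.RelPic.FibreChi
import Fermat.Agent.RelPic.ChartPoint

/-!
# Bundles of divisors over a field

`O(-D)` has Euler characteristic `χ(O) - deg D`, and tensoring with it cuts sections.
-/

set_option autoImplicit false
set_option linter.unusedSectionVars false
set_option linter.style.haveILetI false

universe u

open TensorProduct

noncomputable section

namespace Fermat.Agent.RelPic

variable {k : Type u} [Field k] [IsAlgClosed k] {X : Model k} {K : Type u} [Field K] [Algebra k K]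

namespace Pre

theorem ne_bot_of_isDiv {I : Ideal (K ⊗[k] X.A0)} (h : IsDiv I) : I ≠ ⊥ := by
  obtain ⟨q, hq, hmem⟩ := h.fPoly_mem
  intro hI
  rw [hI, Ideal.mem_bot] at hmem
  haveI := isDomain_R_A0 (X := X) K
  exact one_ne_zero (fPoly_mul_eq_zero X K hq (b := 1) (by rw [hmem, zero_mul]))

/-- The Euler characteristic of a subbundle of `O` cut out by the ideals `I0`, `I1`, `J`. -/
theorem chi_unit_eq_add {L : Pre X K} (hL : L.Good) {J : Ideal (B01 X K)}
    {I0 : Ideal (K ⊗[k] X.A0)} {I1 : Ideal (K ⊗[k] X.A1)} [FiniteDimensional K ((K ⊗[k] X.A0) ⧸ I0)]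
    [FiniteDimensional K ((K ⊗[k] X.A1) ⧸ I1)] [FiniteDimensional K (B01 X K ⧸ J)]
    (ι : L.N →ₗ[K] (Pre.unit X K).N) (hι : Function.Injective ι)
    (imN : LinearMap.range ι = J.restrictScalars K)
    (im0 : L.M0.map ι = (I0.restrictScalars K).map (res0 X K).toLinearMap)
    (im1 : L.M1.map ι = (I1.restrictScalars K).map (res1 X K).toLinearMap) :
    (Pre.unit X K).chi = L.chi + Module.finrank K ((K ⊗[k] X.A0) ⧸ I0) +
      Module.finrank K ((K ⊗[k] X.A1) ⧸ I1) - Module.finrank K (B01 X K ⧸ J) := by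
  have quot : ∀ {B : Type u} [CommRing B] [Algebra K B] (res : B →ₐ[K] B01 X K)
      (_ : Function.Injective res) (a : Ideal B),
      Nonempty ((B ⧸ a) ≃ₗ[K] ↥(LinearMap.range res.toLinearMap) ⧸
        ((a.restrictScalars K).map res.toLinearMap).comap
          (LinearMap.range res.toLinearMap).subtype) := by
    intro B _ _ res hres a
    refine ⟨(Submodule.Quotient.restrictScalarsEquiv K a).symm.trans
      (Submodule.Quotient.equiv _ _ (LinearEquiv.ofInjective res.toLinearMap hres) ?_)⟩
    ext z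
    constructor
    · rintro ⟨b, hb, rfl⟩
      exact ⟨b, hb, rfl⟩
    · rintro ⟨b, hb, hbz⟩
      exact ⟨b, hb, Subtype.ext hbz⟩
  obtain ⟨e0⟩ := quot (res0 X K) (res0_injective X K) I0
  obtain ⟨e1⟩ := quot (res1 X K) (res1_injective X K) I1
  rw [← im0] at e0
  rw [← im1] at e1
  haveI := Module.Finite.equiv e0
  haveI := Module.Finite.equiv e1
  have eN : (B01 X K ⧸ J) ≃ₗ[K] (Pre.unit X K).N ⧸ LinearMap.range ι :=
    (Submodule.Quotient.restrictScalarsEquiv K J).symm.trans
      (Submodule.quotEquivOfEq _ _ imN.symm)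
  haveI := Module.Finite.equiv eN
  have h0 : L.M0.map ι ≤ (Pre.unit X K).M0 := by
    rw [im0]; exact LinearMap.map_le_range
  have h1 : L.M1.map ι ≤ (Pre.unit X K).M1 := by
    rw [im1]; exact LinearMap.map_le_range
  rw [chi_eq_of_injective hL (good_unit X K) ι hι h0 h1, ← eN.finrank_eq, ← e0.finrank_eq,
    ← e1.finrank_eq]

/-- The Euler characteristic of `O(-D)`. -/
theorem chi_idealPre {I : Ideal (K ⊗[k] X.A0)} (h : IsDiv I) :
    (idealPre X K I).chi =
      (Pre.unit X K).chi - Module.finrank K ((K ⊗[k] X.A0) ⧸ I) := by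
  haveI := isDomain_R_A0 (X := X) K
  haveI := isDomain_R_A1 (X := X) K
  haveI := isDomain_b01 (X := X) K
  have hne := ne_bot_of_isDiv h
  haveI := finite_quotient0 hne
  set J : Ideal (B01 X K) := I.map (res0 X K).toRingHom with hJ
  obtain ⟨hJf, -⟩ := LatticeQuot.finrank_quotient_away (res0 X K) _ isUnit_res0_f exists_pow_res0
    (I := I) (J := J) fun b hb => Ideal.mem_map_of_mem _ hb
  let ι : (idealPre X K I).N →ₗ[K] (Pre.unit X K).N := J.subtype.restrictScalars K
  have hι : Function.Injective ι := Subtype.val_injective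
  -- the ideal at infinity
  set I1 : Ideal (K ⊗[k] X.A1) := J.comap (res1 X K) with hI1
  have hI1ne : I1 ≠ ⊥ := by
    obtain ⟨x, hx, hx0⟩ := Submodule.exists_mem_ne_zero_of_ne_bot hne
    obtain ⟨m, b, hb⟩ := exists_pow_res1 (res0 X K x)
    refine (Submodule.ne_bot_iff _).mpr ⟨b, ?_, fun hb0 => ?_⟩
    · show res1 X K b ∈ J
      rw [hb]
      exact J.mul_mem_left _ (Ideal.mem_map_of_mem _ hx)
    · rw [hb0, map_zero] at hb
      rcases mul_eq_zero.mp hb.symm with h1 | h1
      · exact (isUnit_res1_g.pow m).ne_zero h1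
      · exact hx0 (res0_injective X K (h1.trans (map_zero _).symm))
  haveI := finite_quotient1 hI1ne
  obtain ⟨-, hle⟩ := LatticeQuot.finrank_quotient_away (res1 X K) _ isUnit_res1_g exists_pow_res1
    (I := I1) (J := J) le_rfl
  have hge : Module.finrank K ((K ⊗[k] X.A1) ⧸ I1) ≤ Module.finrank K (B01 X K ⧸ J) :=
    LinearMap.finrank_le_finrank_of_injective
      (f := (Ideal.quotientMapₐ J (res1 X K) le_rfl).toLinearMap) Ideal.quotientMap_injective
  have im0 : (idealPre X K I).M0.map ι =
      (I.restrictScalars K).map (res0 X K).toLinearMap := by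
    refine (Submodule.map_comap_eq _ _).trans (inf_eq_right.mpr ?_)
    rintro _ ⟨b, hb, rfl⟩
    exact ⟨⟨res0 X K b, Ideal.mem_map_of_mem _ hb⟩, rfl⟩
  have imN : LinearMap.range ι = J.restrictScalars K :=
    (LinearMap.range_restrictScalars J.subtype).trans (by rw [Submodule.range_subtype])
  have im1 : (idealPre X K I).M1.map ι =
      (I1.restrictScalars K).map (res1 X K).toLinearMap := by
    rw [Submodule.map_comap_eq, imN, inf_comm]
    exact (Submodule.map_comap_eq _ _).symm
  rw [chi_unit_eq_add (good_idealPre h) ι hι imN im0 im1]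
  omega

theorem finrank_quotient_pointIdeal (p : X.A0 →ₐ[k] K) :
    Module.finrank K ((K ⊗[k] X.A0) ⧸ pointIdeal p) = 1 := by
  let ev : K ⊗[k] X.A0 →ₐ[K] K :=
    Algebra.TensorProduct.lift (AlgHom.id K K) p fun _ _ => Commute.all _ _
  have hsurj : Function.Surjective ev := fun c => ⟨c ⊗ₜ 1, by simp [ev]⟩
  exact (Ideal.quotientKerAlgEquivOfSurjective hsurj).toLinearEquiv.finrank_eq.trans
    (Module.finrank_self K)

/-- A point lowers the Euler characteristic by one. -/
theorem chi_idealPre_point (p : X.A0 →ₐ[k] K) :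
    (idealPre X K (pointIdeal p)).chi = (Pre.unit X K).chi - 1 := by
  rw [chi_idealPre (isDiv_pointIdeal p), finrank_quotient_pointIdeal, Nat.cast_one]

theorem Good.chi_tensor_point {L : Pre X K} (hL : L.Good) (p : X.A0 →ₐ[k] K) :
    (L.tensor (idealPre X K (pointIdeal p))).chi = L.chi - 1 := by
  rw [hL.chi_tensor (good_idealPre (isDiv_pointIdeal p)), chi_idealPre_point]
  ring

/-- Multiplication `L ⊗ O(-D) → L`. -/
def mulIdeal (L : Pre X K) (I : Ideal (K ⊗[k] X.A0)) :
    (L.tensor (idealPre X K I)).N →ₗ[B01 X K] L.N :=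
  (TensorProduct.rid (B01 X K) L.N).toLinearMap ∘ₗ
    (I.map (res0 X K).toRingHom).subtype.lTensor L.N

theorem mulIdeal_tmul (L : Pre X K) (I : Ideal (K ⊗[k] X.A0)) (x : L.N)
    (z : (idealPre X K I).N) :
    mulIdeal L I (x ⊗ₜ z) = (z : B01 X K) • x := rfl

theorem Good.mulIdeal_injective {L : Pre X K} (hL : L.Good) (I : Ideal (K ⊗[k] X.A0)) :
    Function.Injective (mulIdeal L I) := by
  haveI := hL.invertible
  exact (TensorProduct.rid (B01 X K) L.N).injective.comp
    (Module.Flat.lTensor_preserves_injective_linearMap _ Subtype.val_injective)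

/-- Sections of `L(-D)` are sections of `L` lying in `I • M0`. -/
theorem Good.map_H0_mulIdeal_le {L : Pre X K} (hL : L.Good) (I : Ideal (K ⊗[k] X.A0)) :
    (L.tensor (idealPre X K I)).H0.map ((mulIdeal L I).restrictScalars K) ≤
      LatticeQuot.idealSMul (res0 X K) I L.M0 ⊓ L.H0 := by
  have hI0 : ∀ {a : K ⊗[k] X.A0} {x : L.N}, a ∈ I → x ∈ L.M0 →
      res0 X K a • x ∈ LatticeQuot.idealSMul (res0 X K) I L.M0 ⊓ L.M0 := fun ha hx =>
    ⟨LatticeQuot.smul_mem_idealSMul ha hx, hL.res0_smul_mem _ hx⟩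
  rintro _ ⟨w, ⟨hw0, hw1⟩, rfl⟩
  have h0 : mulIdeal L I w ∈ LatticeQuot.idealSMul (res0 X K) I L.M0 ⊓ L.M0 := by
    clear hw1
    induction hw0 using Submodule.span_induction with
    | mem y hy =>
      obtain ⟨x, hx, z, ⟨a, ha, hz⟩, rfl⟩ := hy
      rw [mulIdeal_tmul, show (z : B01 X K) = res0 X K a from hz.symm]
      exact hI0 ha hx
    | zero => rw [map_zero]; exact zero_mem _
    | add a b _ _ ha hb => rw [map_add]; exact add_mem ha hb
    | smul c a _ ha => rw [LinearMap.map_smul_of_tower]; exact Submodule.smul_mem _ c ha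
  have h1 : mulIdeal L I w ∈ L.M1 := by
    clear hw0 h0
    induction hw1 using Submodule.span_induction with
    | mem y hy =>
      obtain ⟨x, hx, z, ⟨a, hz⟩, rfl⟩ := hy
      rw [mulIdeal_tmul, show (z : B01 X K) = res1 X K a from hz.symm]
      exact hL.res1_smul_mem a hx
    | zero => rw [map_zero]; exact zero_mem _
    | add a b _ _ ha hb => rw [map_add]; exact add_mem ha hb
    | smul c a _ ha => rw [LinearMap.map_smul_of_tower]; exact Submodule.smul_mem _ c ha
  exact ⟨h0.1, h0.2, h1⟩

/-- A nonzero section vanishes at finitely many rational points only. -/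
theorem Good.exists_point_not_mem {L : Pre X K} (hL : L.Good) {s : L.N} (hs : s ∈ L.M0)
    (h0 : s ≠ 0) :
    ∃ p : X.A0 →ₐ[k] k,
      s ∉ LatticeQuot.idealSMul (res0 X K) (pointIdeal ((Algebra.ofId k K).comp p)) L.M0 := by
  obtain ⟨n, e, l, he, hsum, hmem⟩ := hL.lattice0
  obtain ⟨i, hi⟩ : ∃ i, l i s ≠ 0 := by
    by_contra hc
    push Not at hc
    exact h0 ((hsum s).trans (Finset.sum_eq_zero fun i _ => by rw [hc i, zero_smul]))
  obtain ⟨b, hb⟩ := (hmem s).mp hs i
  replace hb : res0 X K b = l i s := hb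
  have hb0 : b ≠ 0 := fun hb0 => hi (by rw [← hb, hb0, map_zero])
  haveI := infinite_points (X := X)
  obtain ⟨p, hp⟩ := (finite_setOf_A0_eq_zero K hb0).exists_notMem
  refine ⟨p, fun hmem' => hp ?_⟩
  have key : ∀ y ∈ LatticeQuot.idealSMul (res0 X K) (pointIdeal ((Algebra.ofId k K).comp p)) L.M0,
      ∃ c ∈ pointIdeal ((Algebra.ofId k K).comp p), res0 X K c = l i y := by
    intro y hy
    induction hy using Submodule.span_induction with
    | mem y hy =>
      obtain ⟨a, ha, x, hx, rfl⟩ := hy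
      obtain ⟨c, hc⟩ := (hmem x).mp hx i
      replace hc : res0 X K c = l i x := hc
      exact ⟨a * c, Ideal.mul_mem_right _ _ ha, by rw [map_mul, hc, map_smul, smul_eq_mul]⟩
    | zero => exact ⟨0, zero_mem _, by rw [map_zero, map_zero]⟩
    | add y z _ _ hy hz =>
      obtain ⟨c, hc, hc'⟩ := hy
      obtain ⟨d, hd, hd'⟩ := hz
      exact ⟨c + d, add_mem hc hd, by rw [map_add, map_add, hc', hd']⟩
    | smul r y _ hy =>
      obtain ⟨c, hc, hc'⟩ := hy
      exact ⟨r • c, Submodule.smul_of_tower_mem _ r hc, by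
        rw [map_smul, LinearMap.map_smul_of_tower, hc']⟩
  obtain ⟨c, hc, hc'⟩ := key s hmem'
  have hcb : c = b := res0_injective X K (hc'.trans hb.symm)
  rw [hcb, mem_pointIdeal] at hc
  have e1 : ∀ z : K ⊗[k] X.A0,
      Algebra.TensorProduct.rid k K K (Algebra.TensorProduct.map (AlgHom.id k K) p z) =
        Algebra.TensorProduct.lift (AlgHom.id K K) ((Algebra.ofId k K).comp p)
          (fun _ _ => Commute.all _ _) z := by
    intro z
    induction z using TensorProduct.induction_on with
    | zero => simp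
    | tmul r a => simp [Algebra.smul_def, mul_comm, Algebra.ofId_apply]
    | add y z hy hz => simp only [map_add, hy, hz]
  exact (map_eq_zero_iff _ (Algebra.TensorProduct.rid k K K).injective).mp ((e1 b).trans hc)

end Pre

end Fermat.Agent.RelPic

end
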