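import Fermat.Agent.RelPic.PointInf
import Fermat.Agent.RelPic.FibrePoint

/-!
# A point at infinity lowers the Euler characteristic by one
-/

set_option autoImplicit false
set_option linter.unusedSectionVars false
set_option linter.style.haveILetI false

universe u

open TensorProduct

noncomputable section

namespace Fermat.Agent.RelPic

variable {k : Type u} [Field k] [IsAlgClosed k] {X : Model k} {K : Type u} [Field K] [Algebra k K]

namespace Pre

theorem finrank_quotient_pointIdeal1 (p : X.A1 →ₐ[k] K) :
    Module.finrank K ((K ⊗[k] X.A1) ⧸ pointIdeal1 p) = 1 := by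
  have hsurj : Function.Surjective (PointInf.ev p) := fun c => ⟨c ⊗ₜ 1, by simp⟩
  exact (Ideal.quotientKerAlgEquivOfSurjective hsurj).toLinearEquiv.finrank_eq.trans
    (Module.finrank_self K)

/-- A point at infinity lowers the Euler characteristic by one. -/
theorem chi_pointPre1 (p : X.A1 →ₐ[k] K) :
    (pointPre1 p).chi = (Pre.unit X K).chi - 1 := by
  haveI := isDomain_R_A0 (X := X) K
  haveI := isDomain_R_A1 (X := X) K
  haveI := isDomain_b01 (X := X) K
  set I := pointIdeal1 p with hI
  have hne : I ≠ ⊥ := fun h => by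
    have hmem : PointInf.diff p X.g ∈ I := PointInf.diff_mem p X.g
    rw [h, Ideal.mem_bot] at hmem
    exact one_ne_zero (PointInf.diff_mul_eq_zero X.injective1 X.finite1 (p X.g)
      (b := (1 : K ⊗[k] X.A1)) (by show PointInf.diff p X.g * 1 = 0; rw [hmem, zero_mul]))
  haveI := finite_quotient1 hne
  set J : Ideal (B01 X K) := I.map (res1 X K).toRingHom with hJ
  obtain ⟨hJf, -⟩ := LatticeQuot.finrank_quotient_away (res1 X K) _ isUnit_res1_g exists_pow_res1
    (I := I) (J := J) fun b hb => Ideal.mem_map_of_mem _ hb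
  let ι : (pointPre1 p).N →ₗ[K] (Pre.unit X K).N := J.subtype.restrictScalars K
  have hι : Function.Injective ι := Subtype.val_injective
  set I0 : Ideal (K ⊗[k] X.A0) := J.comap (res0 X K) with hI0
  have hI0ne : I0 ≠ ⊥ := by
    obtain ⟨x, hx, hx0⟩ := Submodule.exists_mem_ne_zero_of_ne_bot hne
    obtain ⟨m, b, hb⟩ := exists_pow_res0 (res1 X K x)
    refine (Submodule.ne_bot_iff _).mpr ⟨b, ?_, fun hb0 => ?_⟩
    · show res0 X K b ∈ J
      rw [hb]
      exact J.mul_mem_left _ (Ideal.mem_map_of_mem _ hx)
    · rw [hb0, map_zero] at hb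
      rcases mul_eq_zero.mp hb.symm with h1 | h1
      · exact (isUnit_res0_f.pow m).ne_zero h1
      · exact hx0 (res1_injective X K (h1.trans (map_zero _).symm))
  haveI := finite_quotient0 hI0ne
  obtain ⟨-, hle⟩ := LatticeQuot.finrank_quotient_away (res0 X K) _ isUnit_res0_f exists_pow_res0
    (I := I0) (J := J) le_rfl
  have hge : Module.finrank K ((K ⊗[k] X.A0) ⧸ I0) ≤ Module.finrank K (B01 X K ⧸ J) :=
    LinearMap.finrank_le_finrank_of_injective
      (f := (Ideal.quotientMapₐ J (res0 X K) le_rfl).toLinearMap) Ideal.quotientMap_injective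
  have im1 : (pointPre1 p).M1.map ι =
      (I.restrictScalars K).map (res1 X K).toLinearMap := by
    refine (Submodule.map_comap_eq _ _).trans (inf_eq_right.mpr ?_)
    rintro _ ⟨b, hb, rfl⟩
    exact ⟨⟨res1 X K b, Ideal.mem_map_of_mem _ hb⟩, rfl⟩
  have imN : LinearMap.range ι = J.restrictScalars K :=
    (LinearMap.range_restrictScalars J.subtype).trans (by rw [Submodule.range_subtype])
  have im0 : (pointPre1 p).M0.map ι =
      (I0.restrictScalars K).map (res0 X K).toLinearMap := by
    rw [Submodule.map_comap_eq, imN, inf_comm]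
    exact (Submodule.map_comap_eq _ _).symm
  rw [chi_unit_eq_add (good_pointPre1 p) ι hι imN im0 im1, finrank_quotient_pointIdeal1]
  omega

end Pre

end Fermat.Agent.RelPic

end
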