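import Fermat.Agent.RelPic.OfModule

/-!
# A section of a bundle of the wrong Euler characteristic vanishes at a point
-/

set_option autoImplicit false
set_option linter.style.haveILetI false
set_option linter.unusedSectionVars false

universe u

open TensorProduct

noncomputable section

namespace Fermat.Agent.RelPic

variable {k : Type u} [Field k] {X : Model k}

/-- Evaluation of `R ⊗ A` at an `R`-valued point of `A`. -/
def pointEval {A : Type u} [CommRing A] [Algebra k A] {R : Type u} [CommRing R] [Algebra k R]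
    (p : A →ₐ[k] R) : R ⊗[k] A →ₐ[R] R :=
  Algebra.TensorProduct.lift (AlgHom.id R R) p fun _ _ => .all _ _

/-- A proper ideal of `K ⊗ A` vanishes at a `K`-point. -/
theorem exists_point_of_ne_top {K : Type u} [Field K] [Algebra k K] [IsAlgClosed K] {A : Type u}
    [CommRing A] [Algebra k A] [Algebra.FiniteType k A] {I : Ideal (K ⊗[k] A)} (hI : I ≠ ⊤) :
    ∃ p : A →ₐ[k] K, ∀ b ∈ I, pointEval p b = 0 := by
  obtain ⟨m, hm, hIm⟩ := I.exists_le_maximal hI
  haveI := hm
  letI : Field ((K ⊗[k] A) ⧸ m) := Ideal.Quotient.field m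
  haveI : Module.Finite K ((K ⊗[k] A) ⧸ m) := finite_of_finite_type_of_isJacobsonRing K _
  have hbij : Function.Bijective (algebraMap K ((K ⊗[k] A) ⧸ m)) :=
    IsAlgClosed.algebraMap_bijective_of_isIntegral
  let ev : K ⊗[k] A →ₐ[K] K :=
    ((AlgEquiv.ofBijective (Algebra.ofId K ((K ⊗[k] A) ⧸ m)) hbij).symm.toAlgHom).comp
      (Ideal.Quotient.mkₐ K m)
  refine ⟨(ev.restrictScalars k).comp Algebra.TensorProduct.includeRight, fun b hb => ?_⟩
  have key : pointEval ((ev.restrictScalars k).comp Algebra.TensorProduct.includeRight) = ev := by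
    refine Algebra.TensorProduct.ext (Subsingleton.elim _ _) ?_
    refine AlgHom.ext fun a => ?_
    simp [pointEval]
  rw [key]
  show (AlgEquiv.ofBijective _ hbij).symm (Ideal.Quotient.mkₐ K m b) = 0
  rw [Ideal.Quotient.mkₐ_eq_mk, Ideal.Quotient.eq_zero_iff_mem.mpr (hIm hb), map_zero]

namespace Pre

variable {R : Type u} [CommRing R] [Algebra k R]

/-- `s` generates the lattice `M` as soon as its coordinates generate the unit ideal. -/
theorem le_of_coeff_eq_top {B : Type u} [CommRing B] [Algebra R B] {res : B →ₐ[R] B01 X R}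
    {L : Pre X R} (hinv : Module.Invertible (B01 X R) L.N) {M : Submodule R L.N}
    (_hM : IsLattice res M) (s : L.N)
    (htop : Ideal.span {b : B | ∃ f : L.N →ₗ[B01 X R] B01 X R,
      (∀ m ∈ M, f m ∈ res.toLinearMap.range) ∧ res b = f s} = ⊤) :
    ∀ x ∈ M, ∃ b : B, x = res b • s := by
  haveI := hinv
  intro x hx
  have h1 : (1 : B) ∈ Ideal.span {b : B | ∃ f : L.N →ₗ[B01 X R] B01 X R,
      (∀ m ∈ M, f m ∈ res.toLinearMap.range) ∧ res b = f s} := htop ▸ Submodule.mem_top
  suffices H : ∀ c ∈ Ideal.span {b : B | ∃ f : L.N →ₗ[B01 X R] B01 X R,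
      (∀ m ∈ M, f m ∈ res.toLinearMap.range) ∧ res b = f s},
      ∃ b : B, res c • x = res b • s by
    simpa using H 1 h1
  intro c hc
  induction hc using Submodule.span_induction with
  | mem y hy =>
      obtain ⟨f, hf, hfy⟩ := hy
      obtain ⟨b, hb⟩ := hf x hx
      refine ⟨b, ?_⟩
      rw [hfy, Good.exists_eq_smul.rank_one f s x]
      exact congrArg (· • s) hb.symm
  | zero => exact ⟨0, by simp⟩
  | add a b _ _ ha hb =>
      obtain ⟨u, hu⟩ := ha
      obtain ⟨v, hv⟩ := hb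
      exact ⟨u + v, by rw [map_add, add_smul, hu, hv, map_add, add_smul]⟩
  | smul r a _ ha =>
      obtain ⟨u, hu⟩ := ha
      exact ⟨r * u, by rw [smul_eq_mul, map_mul, mul_smul, hu, map_mul, mul_smul]⟩

/-- A bundle generated on both pieces by one section is trivial. -/
theorem iso_unit_of_generated {L : Pre X R} (h : L.Good) (s : L.N) (hs0 : s ∈ L.M0)
    (hs1 : s ∈ L.M1) (g0 : ∀ x ∈ L.M0, ∃ b, x = res0 X R b • s)
    (g1 : ∀ x ∈ L.M1, ∃ b, x = res1 X R b • s) : Iso L (Pre.unit X R) := by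
  haveI := h.invertible
  have hsurj : Function.Surjective (LinearMap.toSpanSingleton (B01 X R) L.N s) := by
    rw [← LinearMap.range_eq_top, ← top_le_iff, ← h.lattice0.span_eq_top, Submodule.span_le]
    intro x hx
    obtain ⟨b, rfl⟩ := g0 x hx
    exact ⟨res0 X R b, rfl⟩
  let e : (B01 X R) ≃ₗ[B01 X R] L.N := LinearEquiv.ofBijective _
    (Module.Invertible.bijective_of_surjective hsurj)
  have he : ∀ b : B01 X R, e b = b • s := fun b => rfl
  refine Iso.symm (Iso.of_le (L := Pre.unit X R) (L' := L) e ?_ ?_ ?_ ?_)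
  · rintro _ ⟨b, rfl⟩
    rw [he]
    exact h.res0_smul_mem b hs0
  · intro x hx
    obtain ⟨b, rfl⟩ := g0 x hx
    exact ⟨b, ((LinearEquiv.symm_apply_eq e).mpr (he _).symm).symm⟩
  · rintro _ ⟨b, rfl⟩
    rw [he]
    exact h.res1_smul_mem b hs1
  · intro x hx
    obtain ⟨b, rfl⟩ := g1 x hx
    exact ⟨b, ((LinearEquiv.symm_apply_eq e).mpr (he _).symm).symm⟩

/-- A section of a bundle with Euler characteristic different from that of the trivial bundle
vanishes at a point of one of the two pieces. -/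
theorem Good.exists_vanishing_point {K : Type u} [Field K] [Algebra k K] [IsAlgClosed K]
    {L : Pre X K} (h : L.Good) {s : L.N} (hs : s ∈ L.H0) (hne : L.chi ≠ (Pre.unit X K).chi) :
    (∃ p : X.A0 →ₐ[k] K, ∀ f : L.N →ₗ[B01 X K] B01 X K,
      (∀ m ∈ L.M0, f m ∈ (res0 X K).toLinearMap.range) →
        ∃ b, pointEval p b = 0 ∧ f s = res0 X K b) ∨
    (∃ p : X.A1 →ₐ[k] K, ∀ f : L.N →ₗ[B01 X K] B01 X K,
      (∀ m ∈ L.M1, f m ∈ (res1 X K).toLinearMap.range) →
        ∃ b, pointEval p b = 0 ∧ f s = res1 X K b) := by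
  by_cases h0 : Ideal.span {b | ∃ f : L.N →ₗ[B01 X K] B01 X K,
      (∀ m ∈ L.M0, f m ∈ (res0 X K).toLinearMap.range) ∧ res0 X K b = f s} = ⊤
  · by_cases h1 : Ideal.span {b | ∃ f : L.N →ₗ[B01 X K] B01 X K,
        (∀ m ∈ L.M1, f m ∈ (res1 X K).toLinearMap.range) ∧ res1 X K b = f s} = ⊤
    · exact absurd (chi_congr (iso_unit_of_generated h s hs.1 hs.2
        (le_of_coeff_eq_top h.invertible h.lattice0 s h0)
        (le_of_coeff_eq_top h.invertible h.lattice1 s h1))) hne
    · obtain ⟨p, hp⟩ := exists_point_of_ne_top h1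
      refine Or.inr ⟨p, fun f hf => ?_⟩
      obtain ⟨b, hb⟩ := hf s hs.2
      exact ⟨b, hp b (Ideal.subset_span ⟨f, hf, hb⟩), hb.symm⟩
  · obtain ⟨p, hp⟩ := exists_point_of_ne_top h0
    refine Or.inl ⟨p, fun f hf => ?_⟩
    obtain ⟨b, hb⟩ := hf s hs.1
    exact ⟨b, hp b (Ideal.subset_span ⟨f, hf, hb⟩), hb.symm⟩

end Pre

end Fermat.Agent.RelPic
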