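import Fermat.Agent.RelPic.MainInput
import Fermat.Agent.RelPic.OfModule
import Fermat.Agent.RelPic.SectionPoints
import Fermat.Agent.RelPic.PointInfChi

/-!
# Point classes and the effectivity of degree zero classes

An `R`-point `P` of one of the pieces gives the class of `O(P) ⊗ O(-e)`.  Over an algebraically
closed field a class of degree zero is a product of `g = 1 - χ(O)` of them: twisted by `g` times
`e` it has Euler characteristic `1`, hence a section, and each zero of a section is split off.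
-/

set_option autoImplicit false
set_option linter.style.haveILetI false
set_option linter.unusedSectionVars false

universe u

open TensorProduct

noncomputable section

namespace Fermat.Agent.RelPic

variable {k : Type u} [Field k] [IsAlgClosed k] {X : Model k}
  {R : Type u} [CommRing R] [Algebra k R] {S : Type u} [CommRing S] [Algebra k S]
  {K : Type u} [Field K] [Algebra k K]

namespace Pre

theorem chi_unit_eq_base : (Pre.unit X K).chi = (Pre.unit X k).chi := by
  rw [← chi_congr (bc_unit (Algebra.ofId k K)), ← chi_congr (bc_id (good_unit X k)),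
    (good_unit X k).chi_bc, (good_unit X k).chi_bc]
  congr 1
  exact Subsingleton.elim _ _

theorem chi_unit_base : (Pre.unit X k).chi = 1 - Module.finrank k (Pre.unit X k).H1 := by
  haveI := isDomain_b01 (X := X) k
  have e : (Pre.unit X k).H0 = LinearMap.range (Algebra.linearMap k (B01 X k)) :=
    range_res0_inf_range_res1
  rw [chi, e, LinearMap.finrank_range_of_inj
    (FaithfulSMul.algebraMap_injective k (B01 X k)), Module.finrank_self]
  simp

/-- A section whose coordinates lie in an ideal gives a section of the tensor product. -/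
theorem Good.exists_section_tensor {L : Pre X K} (hL : L.Good) (J : Ideal (B01 X K))
    (P0 P1 : Submodule K ↥J) {s : L.N} (h0 : s ≠ 0)
    (c0 : ∀ f : L.N →ₗ[B01 X K] B01 X K,
      (∀ m ∈ L.M0, f m ∈ (res0 X K).toLinearMap.range) → ∃ z ∈ P0, (z : B01 X K) = f s)
    (c1 : ∀ f : L.N →ₗ[B01 X K] B01 X K,
      (∀ m ∈ L.M1, f m ∈ (res1 X K).toLinearMap.range) → ∃ z ∈ P1, (z : B01 X K) = f s) :
    (L.tensor { N := ↥J, M0 := P0, M1 := P1 }).H0 ≠ ⊥ := by
  obtain ⟨n, e, l, he, hsum, hmem⟩ := hL.lattice0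
  obtain ⟨n', e', l', he', hsum', hmem'⟩ := hL.lattice1
  choose z hz hzv using fun i => c0 (l i) fun m hm => by
    obtain ⟨b, hb⟩ := (hmem m).mp hm i
    exact ⟨b, hb⟩
  choose z' hz' hzv' using fun i => c1 (l' i) fun m hm => by
    obtain ⟨b, hb⟩ := (hmem' m).mp hm i
    exact ⟨b, hb⟩
  let t : L.N ⊗[B01 X K] ↥J := ∑ i, e i ⊗ₜ z i
  have hzz : ∀ i, z i = ∑ j, l i (e' j) • z' j := fun i => Subtype.ext (by
    rw [hzv, AddSubmonoidClass.coe_finsetSum]
    conv_lhs => rw [hsum' s, map_sum]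
    exact Finset.sum_congr rfl fun j _ => by
      rw [map_smul, Submodule.coe_smul, hzv', smul_eq_mul, smul_eq_mul, mul_comm])
  have ht : t = ∑ j, e' j ⊗ₜ z' j := by
    simp only [t, hzz, tmul_sum, TensorProduct.tmul_smul, TensorProduct.smul_tmul']
    rw [Finset.sum_comm]
    refine Finset.sum_congr rfl fun j _ => ?_
    rw [← sum_tmul, ← hsum (e' j)]
  refine (Submodule.ne_bot_iff _).mpr ⟨t, ⟨sum_mem fun i _ => tmul_mem_tensor_M0 (he i) (hz i),
    ?_⟩, fun hte => h0 ?_⟩
  · show t ∈ _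
    rw [ht]
    exact sum_mem fun j _ => tmul_mem_tensor_M1 (he' j) (hz' j)
  · have hμ : ((TensorProduct.rid (B01 X K) L.N).toLinearMap ∘ₗ J.subtype.lTensor L.N) t = s := by
      rw [map_sum]
      conv_rhs => rw [hsum s]
      refine Finset.sum_congr rfl fun i _ => ?_
      show (z i : B01 X K) • e i = _
      rw [hzv]
    rw [← hμ, show t = 0 from hte, map_zero]

/-- Coordinates of a section on one piece generate those on the other. -/
theorem IsLattice.apply_mem {B : Type u} [CommRing B] [Algebra K B] {res : B →ₐ[K] B01 X K}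
    {N : Type u} [AddCommGroup N] [Module (B01 X K) N] [Module K N] {M : Submodule K N}
    (hM : IsLattice res M) {J : Ideal (B01 X K)} {s : N}
    (hJ : ∀ f : N →ₗ[B01 X K] B01 X K, (∀ m ∈ M, f m ∈ res.toLinearMap.range) → f s ∈ J)
    (f : N →ₗ[B01 X K] B01 X K) : f s ∈ J := by
  obtain ⟨n, e, l, -, hsum, hmem⟩ := hM
  rw [hsum s, map_sum]
  refine sum_mem fun i _ => ?_
  rw [map_smul, smul_eq_mul]
  exact J.mul_mem_right _ (hJ _ fun m hm => by
    obtain ⟨b, hb⟩ := (hmem m).mp hm i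
    exact ⟨b, hb⟩)

end Pre

namespace Cls

theorem norm_mul {L M : Pre X R} (hL : L.Good) (hM : M.Good) :
    norm L hL * norm M hM = norm (L.tensor M) (hL.tensor hM) := by
  obtain ⟨L', hL', e⟩ := norm_spec L hL
  obtain ⟨M', hM', e'⟩ := norm_spec M hM
  rw [← hL', ← hM', mk_mul_mk, norm_eq_mk (hL.tensor hM) (L'.mul M') (e.tensor e')]

/-- The degree of a class over a field. -/
def deg : Cls X K → ℤ :=
  Quotient.lift (fun L => L.1.chi - (Pre.unit X K).chi) fun _ _ h => by
    show _ - _ = _ - _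
    rw [Pre.chi_congr h]

theorem deg_mk (L : RigBundle X K) : deg (mk L) = L.1.chi - (Pre.unit X K).chi := rfl

theorem deg_norm {L : Pre X K} (h : L.Good) :
    deg (norm L h) = L.chi - (Pre.unit X K).chi := by
  obtain ⟨L', hL', e⟩ := norm_spec L h
  rw [← hL', deg_mk, e.chi_eq h]

theorem deg_mul (x y : Cls X K) : deg (x * y) = deg x + deg y := by
  obtain ⟨L, rfl⟩ := mk_surjective x
  obtain ⟨M, rfl⟩ := mk_surjective y
  rw [mk_mul_mk, deg_mk, deg_mk, deg_mk]
  show (L.1.tensor M.1).chi - _ = _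
  rw [L.2.1.chi_tensor M.2.1]
  ring

theorem deg_one : deg (1 : Cls X K) = 0 := sub_self _

theorem deg_inv (x : Cls X K) : deg x⁻¹ = -deg x := by
  have h := deg_mul x x⁻¹
  rw [mul_inv_cancel, deg_one] at h
  omega

theorem deg_pow (x : Cls X K) (n : ℕ) : deg (x ^ n) = n * deg x := by
  induction n with
  | zero => rw [pow_zero, deg_one]; simp
  | succ n ih => rw [pow_succ, deg_mul, ih]; push_cast; ring

theorem isDegZero_iff_deg {x : Cls X R} :
    Cls.IsDegZero X R x ↔
      ∀ (K : Type u) [Field K] [Algebra k K] (φ : R →ₐ[k] K), deg (map φ x) = 0 := by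
  obtain ⟨L, rfl⟩ := mk_surjective x
  rw [isDegZero_mk_iff]
  exact forall_congr' fun K => forall_congr' fun _ => forall_congr' fun _ => forall_congr' fun φ =>
    (sub_eq_zero (a := (L.1.bc φ).chi) (b := (Pre.unit X K).chi)).symm

end Cls

namespace PointClass

variable (X R) in
/-- The marked point over `R`. -/
def base : X.A0 →ₐ[k] R := (Algebra.ofId k R).comp X.e

theorem comp_base (φ : R →ₐ[k] S) : φ.comp (base X R) = base X S :=
  AlgHom.ext fun a => φ.commutes (X.e a)

/-- The class of `O(-P)`. -/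
def neg0 (p : X.A0 →ₐ[k] R) : Cls X R :=
  Cls.norm (idealPre X R (pointIdeal p)) (good_idealPre (isDiv_pointIdeal p))

/-- The class of `O(-P)`, `P` a point of the piece at infinity. -/
def neg1 (p : X.A1 →ₐ[k] R) : Cls X R := Cls.norm (pointPre1 p) (good_pointPre1 p)

/-- The class of `O(P) ⊗ O(-e)`. -/
def cls0 (p : X.A0 →ₐ[k] R) : Cls X R := (neg0 p)⁻¹ * neg0 (base X R)

/-- The class of `O(P) ⊗ O(-e)`, `P` a point of the piece at infinity. -/
def cls1 (p : X.A1 →ₐ[k] R) : Cls X R := (neg1 p)⁻¹ * neg0 (base X R)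

theorem map_neg0 (φ : R →ₐ[k] S) (p : X.A0 →ₐ[k] R) :
    Cls.map φ (neg0 p) = neg0 (φ.comp p) := by
  rw [neg0, Cls.map_norm]
  refine Cls.norm_congr _ _ (Pre.ModEquiv.of_iso ((good_idealPre (isDiv_pointIdeal p)).bc φ) ?_)
  have h := idealPre_bc (isDiv_pointIdeal p) φ
  rwa [pointIdeal_map] at h

theorem map_neg1 (φ : R →ₐ[k] S) (p : X.A1 →ₐ[k] R) :
    Cls.map φ (neg1 p) = neg1 (φ.comp p) := by
  rw [neg1, Cls.map_norm]
  exact Cls.norm_congr _ _
    (Pre.ModEquiv.of_iso ((good_pointPre1 p).bc φ) (pointPre1_bc p φ))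

theorem map_cls0 (φ : R →ₐ[k] S) (p : X.A0 →ₐ[k] R) :
    Cls.map φ (cls0 p) = cls0 (φ.comp p) := by
  rw [cls0, Cls.map_mul, Cls.map_inv, map_neg0, map_neg0, comp_base, cls0]

theorem map_cls1 (φ : R →ₐ[k] S) (p : X.A1 →ₐ[k] R) :
    Cls.map φ (cls1 p) = cls1 (φ.comp p) := by
  rw [cls1, Cls.map_mul, Cls.map_inv, map_neg1, map_neg0, comp_base, cls1]

theorem agree (p : X.A01 →ₐ[k] R) : cls0 (p.comp X.ι0) = cls1 (p.comp X.ι1) := by
  rw [cls0, cls1, neg0, neg1]
  congr 2
  exact (Cls.norm_congr (good_pointPre1 _) (good_idealPre (isDiv_pointIdeal _))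
    (Pre.ModEquiv.of_iso (good_pointPre1 _) (pointPre1_agree p))).symm

theorem deg_neg0 (p : X.A0 →ₐ[k] K) : Cls.deg (neg0 p) = -1 := by
  rw [neg0, Cls.deg_norm, Pre.chi_idealPre_point]
  ring

theorem deg_neg1 (p : X.A1 →ₐ[k] K) : Cls.deg (neg1 p) = -1 := by
  rw [neg1, Cls.deg_norm, Pre.chi_pointPre1]
  ring

theorem isDegZero_cls0 (p : X.A0 →ₐ[k] R) : Cls.IsDegZero X R (cls0 p) :=
  Cls.isDegZero_iff_deg.mpr fun K _ _ φ => by
    rw [map_cls0, cls0, Cls.deg_mul, Cls.deg_inv, deg_neg0, deg_neg0]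
    rfl

theorem isDegZero_cls1 (p : X.A1 →ₐ[k] R) : Cls.IsDegZero X R (cls1 p) :=
  Cls.isDegZero_iff_deg.mpr fun K _ _ φ => by
    rw [map_cls1, cls1, Cls.deg_mul, Cls.deg_inv, deg_neg1, deg_neg0]
    rfl

/-- The class has a nonzero section. -/
def HasSection (x : Cls X K) : Prop :=
  ∃ (L : Pre X K) (h : L.Good), L.H0 ≠ ⊥ ∧ Cls.norm L h = x

theorem exists_step [IsAlgClosed K] {x : Cls X K} (hx : HasSection x) (hd : Cls.deg x ≠ 0) :
    ∃ P : (X.A0 →ₐ[k] K) ⊕ (X.A1 →ₐ[k] K), HasSection (x * Sum.elim neg0 neg1 P) := by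
  obtain ⟨L, h, hH, rfl⟩ := hx
  obtain ⟨s, hs, h0⟩ := Submodule.exists_mem_ne_zero_of_ne_bot hH
  have hne : L.chi ≠ (Pre.unit X K).chi := fun e => hd (by rw [Cls.deg_norm, e, sub_self])
  rcases h.exists_vanishing_point hs hne with ⟨p, hp⟩ | ⟨p, hp⟩
  · have hb : ∀ f : L.N →ₗ[B01 X K] B01 X K,
        (∀ m ∈ L.M0, f m ∈ (res0 X K).toLinearMap.range) →
          ∃ b ∈ pointIdeal p, res0 X K b = f s := fun f hf => by
      obtain ⟨b, hb, hfb⟩ := hp f hf
      exact ⟨b, hb, hfb.symm⟩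
    refine ⟨Sum.inl p, _, h.tensor (good_idealPre (isDiv_pointIdeal p)), ?_,
      (Cls.norm_mul h (good_idealPre (isDiv_pointIdeal p))).symm⟩
    refine h.exists_section_tensor ((pointIdeal p).map (res0 X K).toRingHom) _ _ h0
      (fun f hf => ?_) (fun f hf => ?_)
    · obtain ⟨b, hb, hfb⟩ := hb f hf
      exact ⟨⟨res0 X K b, Ideal.mem_map_of_mem _ hb⟩, ⟨b, hb, rfl⟩, hfb⟩
    · refine ⟨⟨f s, h.lattice0.apply_mem (fun g hg => ?_) f⟩, hf s hs.2, rfl⟩
      obtain ⟨b, hb, hgb⟩ := hb g hg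
      exact hgb ▸ Ideal.mem_map_of_mem _ hb
  · have hb : ∀ f : L.N →ₗ[B01 X K] B01 X K,
        (∀ m ∈ L.M1, f m ∈ (res1 X K).toLinearMap.range) →
          ∃ b ∈ pointIdeal1 p, res1 X K b = f s := fun f hf => by
      obtain ⟨b, hb, hfb⟩ := hp f hf
      exact ⟨b, hb, hfb.symm⟩
    refine ⟨Sum.inr p, _, h.tensor (good_pointPre1 p), ?_, (Cls.norm_mul h (good_pointPre1 p)).symm⟩
    refine h.exists_section_tensor ((pointIdeal1 p).map (res1 X K).toRingHom) _ _ h0
      (fun f hf => ?_) (fun f hf => ?_)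
    · refine ⟨⟨f s, h.lattice1.apply_mem (fun g hg => ?_) f⟩, hf s hs.1, rfl⟩
      obtain ⟨b, hb, hgb⟩ := hb g hg
      exact hgb ▸ Ideal.mem_map_of_mem _ hb
    · obtain ⟨b, hb, hfb⟩ := hb f hf
      exact ⟨⟨res1 X K b, Ideal.mem_map_of_mem _ hb⟩, ⟨b, hb, rfl⟩, hfb⟩

/-- An effective class is a product of points. -/
theorem exists_prod_neg [IsAlgClosed K] :
    ∀ (d : ℕ) (x : Cls X K), Cls.deg x = d → HasSection x →
      ∃ P : Fin d → (X.A0 →ₐ[k] K) ⊕ (X.A1 →ₐ[k] K), x * ∏ i, Sum.elim neg0 neg1 (P i) = 1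
  | 0, x, hd, hx => by
    obtain ⟨L, h, hH, rfl⟩ := hx
    rw [Cls.deg_norm, Nat.cast_zero, sub_eq_zero] at hd
    refine ⟨Fin.elim0, ?_⟩
    rw [Finset.univ_eq_empty, Finset.prod_empty, mul_one,
      Cls.norm_congr h (Pre.good_unit X K)
        (Pre.ModEquiv.of_iso h (h.iso_unit_of_chi_eq hd hH))]
    exact Cls.norm_mk (RigBundle.one X K)
  | d + 1, x, hd, hx => by
    obtain ⟨P, hP⟩ := exists_step hx (by omega)
    have hdP : Cls.deg (Sum.elim neg0 neg1 P) = -1 := by
      rcases P with p | p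
      exacts [deg_neg0 p, deg_neg1 p]
    obtain ⟨Q, hQ⟩ := exists_prod_neg d _ (by rw [Cls.deg_mul, hdP]; omega) hP
    refine ⟨Fin.cons P Q, ?_⟩
    rw [Fin.prod_univ_succ, Fin.cons_zero, ← mul_assoc]
    simpa only [Fin.cons_succ] using hQ

/-- Degree zero classes over an algebraically closed field are products of `g` point classes. -/
theorem exists_prod_cls [IsAlgClosed K] (x : Cls X K) (hx : Cls.IsDegZero X K x) :
    ∃ P : Fin (Module.finrank k (Pre.unit X k).H1) → (X.A0 →ₐ[k] K) ⊕ (X.A1 →ₐ[k] K),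
      x = ∏ i, Sum.elim cls0 cls1 (P i) := by
  set g := Module.finrank k (Pre.unit X k).H1 with hg
  set y := x * (neg0 (base X K))⁻¹ ^ g with hy
  have hx0 : Cls.deg x = 0 := by
    simpa only [Cls.map_id] using Cls.isDegZero_iff_deg.mp hx K (AlgHom.id k K)
  have hyd : Cls.deg y = g := by
    rw [hy, Cls.deg_mul, Cls.deg_pow, Cls.deg_inv, deg_neg0, hx0]
    ring
  obtain ⟨L, hL⟩ := Cls.mk_surjective y
  have hs : HasSection y := by
    refine ⟨L.1, L.2.1, fun hbot => ?_, (Cls.norm_mk L).trans hL⟩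
    rw [← hL, Cls.deg_mk, Pre.chi_unit_eq_base, Pre.chi_unit_base, ← hg, Pre.chi, hbot, finrank_bot]
      at hyd
    omega
  obtain ⟨P, hP⟩ := exists_prod_neg g y hyd hs
  refine ⟨P, ?_⟩
  have e : ∀ i, Sum.elim cls0 cls1 (P i) =
      (Sum.elim neg0 neg1 (P i))⁻¹ * neg0 (base X K) := fun i => by
    rcases P i with p | p <;> rfl
  simp only [e]
  rw [Finset.prod_mul_distrib, Finset.prod_inv_distrib, Finset.prod_const, Finset.card_univ,
    Fintype.card_fin, ← eq_inv_of_mul_eq_one_left hP, hy, inv_pow, mul_assoc, inv_mul_cancel,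
    mul_one]

end PointClass

variable (X) in
/-- The point classes of a curve. -/
def points : Points X where
  g := Module.finrank k (Pre.unit X k).H1
  pt0 p := PointClass.cls0 p
  pt1 p := PointClass.cls1 p
  degZero0 p := PointClass.isDegZero_cls0 p
  degZero1 p := PointClass.isDegZero_cls1 p
  natural0 φ p := PointClass.map_cls0 φ p
  natural1 φ p := PointClass.map_cls1 φ p
  agree p := PointClass.agree p
  effective x hx := PointClass.exists_prod_cls x hx

end Fermat.Agent.RelPic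

end
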