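import Mathlib

/-!
# Loci of surjective and bijective maps of finite projective modules
-/

set_option autoImplicit false
set_option linter.style.haveILetI false
set_option linter.unusedSectionVars false

universe u

open TensorProduct

noncomputable section

namespace Fermat.Agent.RelPic.ProjMaps

variable {R : Type u} [CommRing R] {P Q : Type u} [AddCommGroup P] [Module R P]
  [AddCommGroup Q] [Module R Q]

theorem finrank_field_baseChange [Module.Finite R P] [Module.Projective R P] (K : Type u)
    [Field K] [Algebra R K] :
    Module.finrank K (K ⊗[R] P) =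
      Module.rankAtStalk P ⟨RingHom.ker (algebraMap R K), RingHom.ker_isPrime _⟩ := by
  have h := Module.rankAtStalk_baseChange (R := R) (M := P) (S := K)
    (⟨⊥, Ideal.isPrime_bot⟩ : PrimeSpectrum K)
  rw [Module.rankAtStalk_eq_finrank_of_free] at h
  simpa [PrimeSpectrum.comap, RingHom.ker] using h

variable (φ : P →ₗ[R] Q) (p : PrimeSpectrum R)

theorem surjective_residue_iff [Module.Finite R Q] :
    Function.Surjective (φ.baseChange p.asIdeal.ResidueField) ↔
      p ∉ Module.support R (Q ⧸ LinearMap.range φ) := by
  rw [Module.mem_support_iff_nontrivial_residueField_tensorProduct, not_nontrivial_iff_subsingleton]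
  have hex := lTensor_exact p.asIdeal.ResidueField
    (LinearMap.exact_map_mkQ_range φ) (Submodule.mkQ_surjective _)
  constructor
  · intro h
    refine subsingleton_of_forall_eq 0 fun z => ?_
    obtain ⟨w, rfl⟩ := LinearMap.lTensor_surjective p.asIdeal.ResidueField
      (Submodule.mkQ_surjective (LinearMap.range φ)) z
    obtain ⟨v, rfl⟩ := h w
    exact hex.apply_apply_eq_zero v
  · intro h w
    obtain ⟨v, hv⟩ := (hex w).mp (Subsingleton.elim _ _)
    exact ⟨v, hv⟩

theorem isOpen_surjective [Module.Finite R Q] :
    IsOpen {p : PrimeSpectrum R | Function.Surjective (φ.baseChange p.asIdeal.ResidueField)} := by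
  simp only [surjective_residue_iff]
  exact (Module.isClosed_support).isOpen_compl

theorem surjective_of_forall [Module.Finite R Q]
    (h : ∀ p : PrimeSpectrum R, Function.Surjective (φ.baseChange p.asIdeal.ResidueField)) :
    Function.Surjective φ := by
  have : Subsingleton (Q ⧸ LinearMap.range φ) := by
    rw [← Module.support_eq_empty_iff (R := R), Set.eq_empty_iff_forall_notMem]
    exact fun p => (surjective_residue_iff φ p).mp (h p)
  rw [← LinearMap.range_eq_top]
  exact (Submodule.Quotient.subsingleton_iff).mp this

variable [Module.Finite R P] [Module.Projective R P] [Module.Finite R Q] [Module.Projective R Q]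

theorem bijective_residue_iff :
    Function.Bijective (φ.baseChange p.asIdeal.ResidueField) ↔
      Function.Surjective (φ.baseChange p.asIdeal.ResidueField) ∧
        Module.rankAtStalk P p = Module.rankAtStalk Q p := by
  have hp : (⟨RingHom.ker (algebraMap R p.asIdeal.ResidueField), RingHom.ker_isPrime _⟩ :
      PrimeSpectrum R) = p := PrimeSpectrum.ext p.asIdeal.ker_algebraMap_residueField
  have hP := finrank_field_baseChange (R := R) (P := P) p.asIdeal.ResidueField
  have hQ := finrank_field_baseChange (R := R) (P := Q) p.asIdeal.ResidueField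
  rw [hp] at hP hQ
  constructor
  · intro h
    exact ⟨h.2, by rw [← hP, ← hQ]; exact (LinearEquiv.ofBijective _ h).finrank_eq⟩
  · rintro ⟨hs, he⟩
    exact ⟨(LinearMap.injective_iff_surjective_of_finrank_eq_finrank (by rw [hP, hQ, he])).mpr hs,
      hs⟩

theorem isOpen_bijective :
    IsOpen {p : PrimeSpectrum R | Function.Bijective (φ.baseChange p.asIdeal.ResidueField)} := by
  simp only [bijective_residue_iff]
  refine (isOpen_surjective φ).inter (isOpen_iff_forall_mem_open.mpr fun p hp => ?_)
  refine ⟨{q | Module.rankAtStalk P q = Module.rankAtStalk P p} ∩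
    {q | Module.rankAtStalk Q q = Module.rankAtStalk Q p}, ?_, ?_, ⟨rfl, rfl⟩⟩
  · rintro q ⟨h1, h2⟩
    show Module.rankAtStalk P q = Module.rankAtStalk Q q
    rw [h1, h2]; exact hp
  · haveI := Module.finitePresentation_of_projective R P
    haveI := Module.finitePresentation_of_projective R Q
    exact (Module.isLocallyConstant_rankAtStalk.isOpen_fiber _).inter
      (Module.isLocallyConstant_rankAtStalk.isOpen_fiber _)

theorem bijective_of_forall
    (h : ∀ p : PrimeSpectrum R, Function.Bijective (φ.baseChange p.asIdeal.ResidueField)) :
    Function.Bijective φ :=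
  Module.bijective_of_surjective_of_rankAtStalk_eq (surjective_of_forall φ fun p => (h p).2)
    fun m _ => ((bijective_residue_iff φ _).mp (h ⟨m, inferInstance⟩)).2

end Fermat.Agent.RelPic.ProjMaps
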