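import Fermat.Agent.RelPic.Complex
import Fermat.Agent.RelPic.Ops
import Fermat.Agent.RelPic.ProjMaps

/-!
# Euler characteristic and cohomological loci on the base
-/

set_option autoImplicit false
set_option linter.style.haveILetI false
set_option linter.unusedSectionVars false

universe u

open TensorProduct

noncomputable section

namespace Fermat.Agent.RelPic

variable {k : Type u} [Field k] {X : Model k} {R : Type u} [CommRing R] [Algebra k R]

attribute [local instance] b01Algebra

variable (k) in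
/-- Evaluation at a point of the base. -/
abbrev pointHom (p : PrimeSpectrum R) : R →ₐ[k] p.asIdeal.ResidueField :=
  IsScalarTower.toAlgHom k R p.asIdeal.ResidueField

namespace Pre

theorem Acyclic.congr {L L' : Pre X R} (e : Iso L L') (h : L.Acyclic) : L'.Acyclic := by
  obtain ⟨e, h0, h1⟩ := e
  rw [Acyclic, ← h0, ← h1]
  let o : Submodule R L.N ≃o Submodule R L'.N := Submodule.orderIsoMapComap (e.restrictScalars R)
  show IsCompl (o L.M0) (o L.M1)
  exact o.isCompl_iff.mp h

theorem chi_congr {K : Type u} [Field K] [Algebra k K] {L L' : Pre X K} (e : Iso L L') :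
    L.chi = L'.chi := by
  obtain ⟨e, h0, h1⟩ := e
  let eR := e.restrictScalars K
  have hsup : (L.M0 ⊔ L.M1).map (eR : L.N →ₗ[K] L'.N) = L'.M0 ⊔ L'.M1 := by
    rw [Submodule.map_sup, ← h0, ← h1]; rfl
  have hinf : L.H0.map (eR : L.N →ₗ[K] L'.N) = L'.H0 := by
    rw [H0, H0, Submodule.map_inf _ eR.injective, ← h0, ← h1]; rfl
  have e0 : L.H0 ≃ₗ[K] L'.H0 := (eR.submoduleMap _).trans (LinearEquiv.ofEq _ _ hinf)
  have e1 : L.H1 ≃ₗ[K] L'.H1 := Submodule.Quotient.equiv _ _ eR hsup
  rw [chi, chi, e0.finrank_eq, e1.finrank_eq]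

section Tower

variable {R' : Type u} [CommRing R'] [Algebra k R'] [Algebra R R'] [IsScalarTower k R R']

theorem Acyclic.bc_toAlgHom {L : Pre X R} (h : L.Acyclic) (hL : L.Good) :
    (L.bc (IsScalarTower.toAlgHom k R R')).Acyclic := by
  obtain ⟨m, hm⟩ := hL.exists_twist_nat
  rw [← hL.bijective_phi_bc_iff R' hm]
  rw [← bijective_phi_iff hL hm] at h
  exact ((LinearEquiv.ofBijective _ h).baseChange R R' _ _).bijective

end Tower

theorem Acyclic.bc {L : Pre X R} (h : L.Acyclic) (hL : L.Good) {S : Type u} [CommRing S]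
    [Algebra k S] (φ : R →ₐ[k] S) : (L.bc φ).Acyclic := by
  letI := φ.toRingHom.toAlgebra
  haveI : IsScalarTower k R S := IsScalarTower.of_algebraMap_eq' φ.comp_algebraMap.symm
  exact h.bc_toAlgHom (R' := S) hL

theorem DegZero.congr {L L' : Pre X R} (e : Iso L L') (h : L.DegZero) : L'.DegZero :=
  fun K _ _ φ => (chi_congr (bc_congr e φ)).symm.trans (h K φ)

theorem DegZero.bc {L : Pre X R} (h : L.DegZero) {S : Type u} [CommRing S] [Algebra k S]
    (φ : R →ₐ[k] S) : (L.bc φ).DegZero :=
  fun K _ _ ψ => (chi_congr (bc_bc L φ ψ)).trans (h K (ψ.comp φ))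

/-- The Euler characteristic at a point of the base. -/
def chiAt (L : Pre X R) (p : PrimeSpectrum R) : ℤ := (L.bc (pointHom k p)).chi

theorem Good.chiAt_eq {L : Pre X R} (h : L.Good) {m : ℕ}
    (hm : L.M0 ⊔ (L.twist (m : ℤ)).M1 = ⊤) (p : PrimeSpectrum R) :
    L.chiAt p = (Module.rankAtStalk ↥(L.P0 m) p : ℤ) - (Module.rankAtStalk (L.Q1 m) p : ℤ) := by
  haveI := h.finite_P0 hm
  haveI := h.projective_P0 hm
  haveI := h.finite_Q1 m
  haveI := h.projective_Q1 m
  have hp : (⟨RingHom.ker (algebraMap R p.asIdeal.ResidueField), RingHom.ker_isPrime _⟩ :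
      PrimeSpectrum R) = p := PrimeSpectrum.ext p.asIdeal.ker_algebraMap_residueField
  rw [chiAt, h.chi_bc_eq hm, ProjMaps.finrank_field_baseChange, ProjMaps.finrank_field_baseChange,
    hp]

theorem Good.chi_bc {L : Pre X R} (h : L.Good) {K : Type u} [Field K] [Algebra k K]
    (φ : R →ₐ[k] K) :
    (L.bc φ).chi = L.chiAt ⟨RingHom.ker φ, RingHom.ker_isPrime _⟩ := by
  obtain ⟨m, hm⟩ := h.exists_twist_nat
  letI := φ.toRingHom.toAlgebra
  haveI : IsScalarTower k R K := IsScalarTower.of_algebraMap_eq' φ.comp_algebraMap.symm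
  haveI := h.finite_P0 hm
  haveI := h.projective_P0 hm
  haveI := h.finite_Q1 m
  haveI := h.projective_Q1 m
  have := h.chi_bc_eq (K := K) hm
  rw [ProjMaps.finrank_field_baseChange, ProjMaps.finrank_field_baseChange] at this
  rw [h.chiAt_eq hm]
  exact this

theorem Good.isLocallyConstant_chiAt {L : Pre X R} (h : L.Good) :
    IsLocallyConstant L.chiAt := by
  obtain ⟨m, hm⟩ := h.exists_twist_nat
  haveI := h.finite_P0 hm
  haveI := h.projective_P0 hm
  haveI := h.finite_Q1 m
  haveI := h.projective_Q1 m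
  haveI := Module.finitePresentation_of_projective R ↥(L.P0 m)
  haveI := Module.finitePresentation_of_projective R (L.Q1 m)
  have := (Module.isLocallyConstant_rankAtStalk (R := R) (M := ↥(L.P0 m))).prodMk
    (Module.isLocallyConstant_rankAtStalk (R := R) (M := L.Q1 m))
  rw [show L.chiAt = (fun x : ℕ × ℕ => (x.1 : ℤ) - x.2) ∘ fun p =>
    (Module.rankAtStalk ↥(L.P0 m) p, Module.rankAtStalk (L.Q1 m) p) from funext (h.chiAt_eq hm)]
  exact this.comp _

/-- Degree zero can be checked at the points of the base. -/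
theorem Good.degZero_iff {L : Pre X R} (h : L.Good) :
    L.DegZero ↔ ∀ p, L.chiAt p = (Pre.unit X k).chi := by
  have hu : ∀ (K : Type u) [Field K] [Algebra k K], (Pre.unit X K).chi = (Pre.unit X k).chi := by
    intro K _ _
    obtain ⟨m, hm⟩ := (good_unit X k).exists_twist_nat
    have e := chi_congr (bc_unit (X := X) (R := k) (IsScalarTower.toAlgHom k k K))
    haveI : Module.Free k ↥((Pre.unit X k).P0 m) := Module.Free.of_divisionRing k _
    haveI : Module.Free k ((Pre.unit X k).Q1 m) := Module.Free.of_divisionRing k _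
    rw [← e, (good_unit X k).chi_bc_eq hm, Module.finrank_baseChange, Module.finrank_baseChange,
      chi_eq_finrank (good_unit X k) hm]
  constructor
  · intro hd p
    exact (hd _ _).trans (hu _)
  · intro hd K _ _ φ
    rw [h.chi_bc φ, hd, hu K]

theorem Good.isOpen_acyclic {L : Pre X R} (h : L.Good) :
    IsOpen {p : PrimeSpectrum R | (L.bc (pointHom k p)).Acyclic} := by
  obtain ⟨m, hm⟩ := h.exists_twist_nat
  haveI := h.finite_P0 hm
  haveI := h.projective_P0 hm
  haveI := h.finite_Q1 m
  haveI := h.projective_Q1 m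
  simp only [← h.bijective_phi_bc_iff _ hm]
  exact ProjMaps.isOpen_bijective (L.phi m)

theorem Good.acyclic_of_forall {L : Pre X R} (h : L.Good)
    (hp : ∀ p : PrimeSpectrum R, (L.bc (pointHom k p)).Acyclic) : L.Acyclic := by
  obtain ⟨m, hm⟩ := h.exists_twist_nat
  haveI := h.finite_P0 hm
  haveI := h.projective_P0 hm
  haveI := h.finite_Q1 m
  haveI := h.projective_Q1 m
  rw [← bijective_phi_iff h hm]
  exact ProjMaps.bijective_of_forall _ fun p => (h.bijective_phi_bc_iff _ hm).mpr (hp p)

/-- Over a field, acyclicity and `H0 = ⊥` are invariant under extension of the field. -/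
theorem Good.acyclic_bc_field_iff {K : Type u} [Field K] [Algebra k K] {K' : Type u} [Field K']
    [Algebra k K'] {L : Pre X K} (h : L.Good) (φ : K →ₐ[k] K') :
    (L.bc φ).Acyclic ↔ L.Acyclic := by
  refine ⟨fun h' => ?_, fun h' => h'.bc h φ⟩
  obtain ⟨m, hm⟩ := h.exists_twist_nat
  letI := φ.toRingHom.toAlgebra
  haveI : IsScalarTower k K K' := IsScalarTower.of_algebraMap_eq' φ.comp_algebraMap.symm
  have h2 : Function.Bijective ((L.phi m).baseChange K') :=
    (h.bijective_phi_bc_iff K' hm).mpr h'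
  rw [← bijective_phi_iff h hm]
  exact (Module.FaithfullyFlat.lTensor_bijective_iff_bijective K K' (L.phi m)).mp h2

end Pre

end Fermat.Agent.RelPic
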