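import Fermat.Agent.RelPic.BridgeNatural
import Fermat.Agent.RelPic.Loci

/-!
# Algebraic equivalence to zero and degree zero

A line bundle on `C_R` whose geometric fibres are algebraically equivalent to zero gives a lattice
pair of degree zero; conversely a family over the image of a geometrically integral scheme,
trivial at one rational point, is fibrewise algebraically equivalent to zero.
-/

set_option autoImplicit false
set_option linter.unusedVariables false
set_option linter.style.haveILetI false

noncomputable section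

universe u

open CategoryTheory CategoryTheory.Limits AlgebraicGeometry NeronModelInfra
  AlgebraicGeometry.RelPicard AlgebraicGeometry.RelPicGlue TensorProduct

namespace Fermat.Agent.RelPic

namespace Pre

variable {k : Type u} [Field k] {X : Model k} {K : Type u} [Field K] [Algebra k K]
  {K' : Type u} [Field K'] [Algebra k K']

/-- The Euler characteristic is invariant under extension of the field. -/
theorem Good.chi_bc_field {L : Pre X K} (h : L.Good) (φ : K →ₐ[k] K') :
    (L.bc φ).chi = L.chi := by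
  refine (h.chi_bc φ).trans ?_
  refine Eq.trans ?_ ((h.chi_bc (AlgHom.id k K)).symm.trans (chi_congr (bc_id h)))
  exact congrArg _ (Subsingleton.elim _ _)

/-- The Euler characteristic of the trivial bundle does not depend on the field. -/
theorem chi_unit_eq (φ : K →ₐ[k] K') : (Pre.unit X K').chi = (Pre.unit X K).chi :=
  (chi_congr (bc_unit φ)).symm.trans ((good_unit X K).chi_bc_field φ)

end Pre

namespace Realization

variable {k : Type u} [Field k] {C : Scheme.{u}} {c : C ⟶ Spec (CommRingCat.of k)}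
  {X : Model k} {ε : SchemeHomOver (𝟙 (Spec (CommRingCat.of k))) c}
  (Rz : Realization X c ε)

section Unit

variable {R : Type u} [CommRing R] [Algebra k R]

/-- The sections of the structure sheaf over the overlap. -/
def unitSecN : Rz.SecN (oUnit (curveOver c R)) ≃ₗ[B01 X R] B01 X R where
  toFun x := Rz.s01 R (Rz.ofN x)
  invFun b := Rz.toN ((Rz.s01 R).symm b)
  left_inv x := (Rz.s01 R).symm_apply_apply (Rz.ofN x)
  right_inv b := (Rz.s01 R).apply_symm_apply b
  map_add' x y := map_add (Rz.s01 R) (Rz.ofN x) (Rz.ofN y)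
  map_smul' b x := by
    show Rz.s01 R (((Rz.s01 R).symm b * (show Γ(curveOver c R, Rz.W01 R) from Rz.ofN x) :
        Γ(curveOver c R, Rz.W01 R))) =
      b * Rz.s01 R (show Γ(curveOver c R, Rz.W01 R) from Rz.ofN x)
    rw [map_mul, RingEquiv.apply_symm_apply]

theorem map_lat_unit {W : (curveOver c R).Opens} (hW : Rz.W01 R ≤ W) {B : Type u} [CommRing B]
    [Algebra R B] (e : Γ(curveOver c R, W) ≃+* B) (res : B →ₐ[R] B01 X R)
    (he : ∀ x, Rz.s01 R (rres hW x) = res (e x)) :
    (Rz.lat hW e res he (oUnit (curveOver c R))).map (Rz.unitSecN.toLinearMap.restrictScalars R) =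
      res.toLinearMap.range := by
  refine le_antisymm ?_ ?_
  · rintro _ ⟨_, ⟨y, rfl⟩, rfl⟩
    exact ⟨e y, (he y).symm⟩
  · rintro _ ⟨b, rfl⟩
    refine ⟨_, ⟨e.symm b, rfl⟩, ?_⟩
    exact (he _).trans (congrArg res (e.apply_symm_apply b))

/-- The lattice pair of the structure sheaf is the trivial one. -/
theorem iso_toPre_unit : (Rz.toPre (oUnit (curveOver c R))).Iso (Pre.unit X R) :=
  ⟨Rz.unitSecN, Rz.map_lat_unit (Rz.W01_le0 R) (Rz.s0 R) (res0 X R) (Rz.s01_rres0 R),
    Rz.map_lat_unit (Rz.W01_le1 R) (Rz.s1 R) (res1 X R) (Rz.s01_rres1 R)⟩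

/-- The trivial rigidified line bundle goes to the trivial class. -/
theorem clsEquiv_unit :
    Rz.clsEquiv (Quotient.mk _ (RigidifiedLineBundle.unit (specMap k R))) =
      Cls.mk ⟨Pre.unit X R, Pre.good_unit X R, Pre.rigid_unit X R⟩ :=
  (Rz.clsEquiv_mk _).trans (Cls.mk_eq_mk.mpr Rz.iso_toPre_unit)

end Unit

section Family

variable {T : Scheme.{u}} {t : T ⟶ Spec (CommRingCat.of k)} (N : (pullback c t).Modules)

/-- The lattice pair of a family at a point of the base with values in an affine scheme. -/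
abbrev famPre {S : Type u} [CommRing S] [Algebra k S] (g : SchemeHomOver (specMap k S) t) :
    Pre X S :=
  Rz.toPre ((Scheme.Modules.pullback (baseChangeSnd c g)).obj N)

theorem bc_famPre (hN : Scheme.Modules.IsInvertible N) {S : Type u} [CommRing S] [Algebra k S]
    {S' : Type u} [CommRing S'] [Algebra k S'] (g : SchemeHomOver (specMap k S) t)
    (φ : S →ₐ[k] S') :
    ((Rz.famPre N g).bc φ).Iso (Rz.famPre N (postComp g (baseHom φ))) :=
  (Rz.iso_bc_toPre φ (hN.pullback _)).trans <| Rz.iso_toPre <|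
    (Scheme.Modules.pullbackComp _ _).app N ≪≫
      (Scheme.Modules.pullbackCongr (baseChangeSnd_comp c g (baseHom φ))).app N

/-- Over an integral base the Euler characteristic of the fibres of a family is constant. -/
theorem chi_famPre_eq [IsIntegral T] (hN : Scheme.Modules.IsInvertible N)
    {F : Type u} [Field F] [Algebra k F] (g : SchemeHomOver (specMap k F) t)
    {F' : Type u} [Field F'] [Algebra k F'] (g' : SchemeHomOver (specMap k F') t) :
    (Rz.famPre N g).chi = (Rz.famPre N g').chi := by
  let η : T := genericPoint T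
  let : Algebra k (T.residueField η) :=
    (Spec.preimage (T.fromSpecResidueField η ≫ t)).hom.toAlgebra
  let gη : SchemeHomOver (specMap k (T.residueField η)) t :=
    ⟨T.fromSpecResidueField η, (Spec.map_preimage _).symm⟩
  suffices h : ∀ {F : Type u} [Field F] [Algebra k F] (g : SchemeHomOver (specMap k F) t),
      (Rz.famPre N g).chi = (Rz.famPre N gη).chi from (h g).trans (h g').symm
  intro F _ _ g
  let x : T := g.1 (IsLocalRing.closedPoint F)
  obtain ⟨U, hU, hxU, -⟩ := exists_isAffineOpen_mem_and_subset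
    (U := (⊤ : T.Opens)) (x := x) trivial
  have hηU : η ∈ U := ((genericPoint_spec T).mem_open_set_iff U.isOpen).mpr
    ⟨x, trivial, hxU⟩
  haveI : Nonempty U := ⟨⟨x, hxU⟩⟩
  let : Algebra k Γ(T, U) := (Spec.preimage (hU.fromSpec ≫ t)).hom.toAlgebra
  let gU : SchemeHomOver (specMap k Γ(T, U)) t := ⟨hU.fromSpec, (Spec.map_preimage _).symm⟩
  have hgood := Rz.good_toPre (hN.pullback (baseChangeSnd c gU))
  have key : ∀ {F : Type u} [Field F] [Algebra k F] (g : SchemeHomOver (specMap k F) t),
      g.1 (IsLocalRing.closedPoint F) ∈ U →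
      ∃ p : PrimeSpectrum Γ(T, U), (Rz.famPre N g).chi = (Rz.famPre N gU).chiAt p := by
    intro F _ _ g hg
    have hr : Set.range g.1 ⊆ Set.range hU.fromSpec := by
      rw [hU.range_fromSpec]
      rintro _ ⟨y, rfl⟩
      rwa [show y = IsLocalRing.closedPoint F from Subsingleton.elim _ _]
    let ψ := Spec.preimage (IsOpenImmersion.lift hU.fromSpec g.1 hr)
    have hψ : Spec.map ψ ≫ hU.fromSpec = g.1 := by
      rw [Spec.map_preimage, IsOpenImmersion.lift_fac]
    have hcomm : CommRingCat.ofHom (algebraMap k Γ(T, U)) ≫ ψ =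
        CommRingCat.ofHom (algebraMap k F) := by
      refine Spec.map_injective ?_
      rw [Spec.map_comp]
      refine Eq.trans ?_ g.2
      rw [← hψ, Category.assoc]
      exact congrArg _ (Spec.map_preimage _)
    let φ : Γ(T, U) →ₐ[k] F :=
      { ψ.hom with commutes' := fun r => congr($(hcomm).hom r) }
    have hg' : postComp gU (baseHom φ) = g := Subtype.ext hψ
    refine ⟨⟨RingHom.ker φ, RingHom.ker_isPrime _⟩, ?_⟩
    rw [← hgood.chi_bc φ, ← hg']
    exact (Pre.chi_congr (Rz.bc_famPre N hN gU φ)).symm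
  obtain ⟨p, hp⟩ := key g hxU
  obtain ⟨q, hq⟩ := key gη (by
    show (T.fromSpecResidueField η) _ ∈ U
    erw [T.fromSpecResidueField_apply]; exact hηU)
  rw [hp, hq]
  exact hgood.isLocallyConstant_chiAt.apply_eq_of_preconnectedSpace p q

end Family

section DegZero

variable {R : Type u} [CommRing R] [Algebra k R]

/-- On a curve over a field a bundle algebraically equivalent to zero has degree zero. -/
theorem chi_toPre_of_isAlgEquivZero {K : Type u} [Field K] [Algebra k K]
    {L : (curveOver c K).Modules} (hL : IsAlgEquivZero (pullback.snd c (specMap k K)) L) :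
    (Rz.toPre L).chi = (Pre.unit X K).chi := by
  obtain ⟨T, h, hft, hgi, M, hM, t₀, t₁, ⟨e₀⟩, ⟨e₁⟩⟩ := hL
  haveI := hgi
  haveI : IsIntegral T := GeometricallyIntegral.isIntegral_of_subsingleton h
  let a := pullback.snd c (specMap k K)
  let E : pullback c (h ≫ specMap k K) ⟶ pullback a h :=
    pullback.lift (pullback.lift (pullback.fst _ _) (pullback.snd _ _ ≫ h)
      (by rw [pullback.condition, Category.assoc])) (pullback.snd _ _)
      (pullback.lift_snd _ _ _)
  let s : curveOver c K ⟶ pullback a (𝟙 (Spec (CommRingCat.of K))) :=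
    pullback.lift (𝟙 _) a (by rw [Category.id_comp, Category.comp_id])
  have hs : s ≫ pullback.fst a (𝟙 _) = 𝟙 _ := pullback.lift_fst _ _ _
  let g : SchemeHomOver (𝟙 (Spec (CommRingCat.of K))) h →
      SchemeHomOver (specMap k K) (h ≫ specMap k K) := fun τ =>
    ⟨τ.1, by rw [← Category.assoc, τ.2, Category.id_comp]⟩
  have hsq : ∀ τ : SchemeHomOver (𝟙 (Spec (CommRingCat.of K))) h,
      baseChangeSnd c (g τ) ≫ E = s ≫ baseChangeSnd a τ := by
    intro τ
    apply pullback.hom_ext
    · apply pullback.hom_ext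
      · simp only [E, s, g, baseChangeSnd, Category.assoc, pullback.lift_fst,
          Category.comp_id, Category.id_comp]
      · simp only [E, s, g, baseChangeSnd, Category.assoc, pullback.lift_fst, pullback.lift_snd,
          pullback.lift_snd_assoc, Category.comp_id, Category.id_comp]
        rw [τ.2, Category.comp_id]
    · simp only [E, s, g, baseChangeSnd, Category.assoc, pullback.lift_snd,
        pullback.lift_snd_assoc]
      rfl
  let N := (Scheme.Modules.pullback E).obj M
  have hfib : ∀ τ, (Scheme.Modules.pullback (baseChangeSnd c (g τ))).obj N ≅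
      (Scheme.Modules.pullback s).obj ((Scheme.Modules.pullback (baseChangeSnd a τ)).obj M) :=
    fun τ => (Scheme.Modules.pullbackComp _ _).app M ≪≫
      (Scheme.Modules.pullbackCongr (hsq τ)).app M ≪≫
      ((Scheme.Modules.pullbackComp _ _).app M).symm
  have h1 : (Scheme.Modules.pullback (baseChangeSnd c (g t₁))).obj N ≅ L :=
    hfib t₁ ≪≫ (Scheme.Modules.pullback s).mapIso e₁ ≪≫
      (Scheme.Modules.pullbackComp _ _).app L ≪≫ (Scheme.Modules.pullbackCongr hs).app L ≪≫
      (Scheme.Modules.pullbackId _).app L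
  have h0 : (Scheme.Modules.pullback (baseChangeSnd c (g t₀))).obj N ≅ oUnit (curveOver c K) :=
    hfib t₀ ≪≫ (Scheme.Modules.pullback s).mapIso e₀ ≪≫ Scheme.Modules.pullbackUnitIso s
  rw [← Pre.chi_congr (Rz.iso_toPre h1), ← Pre.chi_congr Rz.iso_toPre_unit,
    ← Pre.chi_congr (Rz.iso_toPre h0)]
  exact Rz.chi_famPre_eq N (hM.pullback E) (g t₁) (g t₀)

/-- Fibrewise algebraic equivalence to zero gives degree zero. -/
theorem degZero_toPre (M : RigidifiedLineBundle c ε (specMap k R))
    (hM : FibrewiseAlgEquivZero M) : (Rz.toPre M.L).DegZero := by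
  intro K _ _ φ
  let ι : K →ₐ[k] AlgebraicClosure K := IsScalarTower.toAlgHom k K (AlgebraicClosure K)
  have hgood := Rz.good_toPre M.isInvertible
  rw [← Pre.chi_unit_eq ι, hgood.chi_bc φ]
  have hker : RingHom.ker (ι.comp φ) = RingHom.ker φ := by
    ext x
    simp only [RingHom.mem_ker]
    exact map_eq_zero ι
  refine Eq.trans ?_ (Rz.chi_toPre_of_isAlgEquivZero
    (L := (M.pullbackAlong (baseHom (ι.comp φ))).L)
    ((fibrewiseAlgEquivZero_iff M).mp hM _ _))
  refine Eq.trans ?_ (Pre.chi_congr (Rz.iso_bc_toPre (ι.comp φ) M.isInvertible))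
  rw [hgood.chi_bc]
  exact congrArg _ (PrimeSpectrum.ext hker.symm)

theorem isDegZero_clsEquiv (M : RigidifiedLineBundle c ε (specMap k R))
    (hM : FibrewiseAlgEquivZero M) : Cls.IsDegZero X R (Rz.clsEquiv (Quotient.mk _ M)) := by
  rw [Rz.clsEquiv_mk]
  exact Cls.isDegZero_mk_iff.mpr (Rz.degZero_toPre M hM)

end DegZero

end Realization

section Criterion

variable {R : Type u} [CommRing R] {C : Scheme.{u}} {c : C ⟶ Spec (CommRingCat.of R)}
  {ε : SchemeHomOver (𝟙 (Spec (CommRingCat.of R))) c}

/-- If geometric points lift, the morphism is surjective. -/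
theorem surjective_of_exists_lift {T J : Scheme.{u}} (π : T ⟶ J)
    (h : ∀ (K : Type u) [Field K] [IsAlgClosed K] (s : Spec (CommRingCat.of K) ⟶ J),
      ∃ s₀ : Spec (CommRingCat.of K) ⟶ T, s₀ ≫ π = s) : Surjective π := by
  refine ⟨fun x => ?_⟩
  obtain ⟨s₀, hs₀⟩ := h (AlgebraicClosure (J.residueField x))
    (Spec.map (CommRingCat.ofHom
      (algebraMap (J.residueField x) (AlgebraicClosure (J.residueField x)))) ≫
      J.fromSpecResidueField x)
  refine ⟨s₀ (IsLocalRing.closedPoint _), ?_⟩
  refine (Scheme.Hom.comp_apply s₀ π _).symm.trans ?_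
  rw [hs₀]
  exact (Scheme.Hom.comp_apply _ _ _).trans (J.fromSpecResidueField_apply x _)

/-- A bundle on a base covered by a geometrically integral scheme, trivial at a rational point,
is fibrewise algebraically equivalent to zero. -/
theorem fibrewiseAlgEquivZero_of_cover {J T : Scheme.{u}} {j : J ⟶ Spec (CommRingCat.of R)}
    {t : T ⟶ Spec (CommRingCat.of R)} [LocallyOfFiniteType t] [GeometricallyIntegral t]
    (P : RigidifiedLineBundle c ε j) (π : SchemeHomOver t j)
    (z : SchemeHomOver (𝟙 (Spec (CommRingCat.of R))) j)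
    (hz : Nonempty ((P.pullbackAlong z).L ≅
      SheafOfModules.unit (pullback c (𝟙 (Spec (CommRingCat.of R)))).ringCatSheaf))
    (hlift : ∀ (K : Type u) [Field K] [IsAlgClosed K] (s : Spec (CommRingCat.of K) ⟶ J),
      ∃ s₀ : Spec (CommRingCat.of K) ⟶ T, s₀ ≫ π.1 = s) :
    FibrewiseAlgEquivZero P := by
  intro K _ _ s
  obtain ⟨ez⟩ := hz
  obtain ⟨s₁, hs₁⟩ := hlift K s
  obtain ⟨s₀, hs₀⟩ := hlift K ((s ≫ j) ≫ z.1)
  have hπ : π.1 ≫ j = t := π.2
  have hzj : z.1 ≫ j = 𝟙 _ := z.2
  have h1t : s₁ ≫ t = s ≫ j := by rw [← hπ, reassoc_of% hs₁]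
  have h0t : s₀ ≫ t = s ≫ j := by
    rw [← hπ, reassoc_of% hs₀, hzj, Category.comp_id]
  let h := pullback.snd t (s ≫ j)
  let τ : ∀ {x : Spec (CommRingCat.of K) ⟶ T}, x ≫ t = s ≫ j →
      SchemeHomOver (𝟙 (Spec (CommRingCat.of K))) h := fun {x} hx =>
    ⟨pullback.lift x (𝟙 _) (by rw [hx, Category.id_comp]), pullback.lift_snd _ _ _⟩
  let a := fibreAt c j s
  let a₁ : pullback (pullback.snd c j) s ⟶ pullback c j := pullback.fst _ _
  let f : pullback a h ⟶ pullback c j :=
    pullback.lift (pullback.fst a h ≫ a₁ ≫ pullback.fst c j)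
      (pullback.snd a h ≫ pullback.fst t (s ≫ j) ≫ π.1) (by
        simp only [a₁, Category.assoc]
        rw [hπ, pullback.condition (f := t), pullback.condition (f := c),
          pullback.condition_assoc (f := pullback.snd c j), ← pullback.condition_assoc (f := a)]
        rfl)
  let a₂ : pullback a (𝟙 _) ⟶ pullback (pullback.snd c j) s := pullback.fst a (𝟙 _)
  let b₂ : pullback a (𝟙 _) ⟶ Spec (CommRingCat.of K) := pullback.snd a (𝟙 _)
  have hab : a₂ ≫ a₁ ≫ pullback.snd c j = b₂ ≫ s := by
    simp only [a₁]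
    rw [pullback.condition (f := pullback.snd c j)]
    exact (pullback.condition_assoc (f := a) _).trans (congrArg _ (Category.id_comp _))
  have hac : (a₂ ≫ a₁ ≫ pullback.fst c j) ≫ c = b₂ ≫ s ≫ j := by
    rw [← reassoc_of% hab, Category.assoc, Category.assoc, pullback.condition (f := c)]
  let u : ∀ {y : Spec (CommRingCat.of K) ⟶ J}, y ≫ j = s ≫ j →
      (pullback a (𝟙 _) ⟶ pullback c j) := fun {y} hy =>
    pullback.lift (a₂ ≫ a₁ ≫ pullback.fst c j) (b₂ ≫ y) (by rw [hac, Category.assoc, hy])
  have hf : ∀ {x : Spec (CommRingCat.of K) ⟶ T} (hx : x ≫ t = s ≫ j),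
      baseChangeSnd a (τ hx) ≫ f = u (y := x ≫ π.1) (by rw [Category.assoc, hπ, hx]) := by
    intro x hx
    apply pullback.hom_ext
    · simp only [f, u, τ, a₂, baseChangeSnd, Category.assoc, pullback.lift_fst,
        pullback.lift_fst_assoc, Category.comp_id]
    · simp only [f, u, τ, b₂, baseChangeSnd, Category.assoc, pullback.lift_snd,
        pullback.lift_snd_assoc, pullback.lift_fst_assoc]
  refine ⟨pullback t (s ≫ j), h, inferInstance, inferInstance,
    (Scheme.Modules.pullback f).obj P.L, P.isInvertible.pullback f, τ h0t, τ h1t, ⟨?_⟩, ⟨?_⟩⟩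
  · let w : pullback a (𝟙 _) ⟶ pullback c (𝟙 (Spec (CommRingCat.of R))) :=
      pullback.lift (a₂ ≫ a₁ ≫ pullback.fst c j) (b₂ ≫ s ≫ j) (by rw [hac, Category.comp_id])
    have h0 : baseChangeSnd a (τ h0t) ≫ f = w ≫ baseChangeSnd c z := by
      rw [hf h0t]
      apply pullback.hom_ext
      · simp only [u, w, baseChangeSnd, Category.assoc, pullback.lift_fst, Category.comp_id]
      · simp only [u, w, baseChangeSnd, Category.assoc, pullback.lift_snd, pullback.lift_snd_assoc]
        rw [hs₀, Category.assoc]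
    exact (Scheme.Modules.pullbackComp _ _).app P.L ≪≫
      (Scheme.Modules.pullbackCongr h0).app P.L ≪≫
      ((Scheme.Modules.pullbackComp _ _).app P.L).symm ≪≫
      (Scheme.Modules.pullback w).mapIso ez ≪≫ Scheme.Modules.pullbackUnitIso w
  · have h1 : baseChangeSnd a (τ h1t) ≫ f = pullback.fst a (𝟙 _) ≫ a₁ := by
      rw [hf h1t]
      apply pullback.hom_ext
      · simp only [u, a₂, Category.assoc, pullback.lift_fst]
      · simp only [u, Category.assoc, pullback.lift_snd]
        rw [hs₁]
        exact hab.symm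
    exact (Scheme.Modules.pullbackComp _ _).app P.L ≪≫
      (Scheme.Modules.pullbackCongr h1).app P.L ≪≫
      ((Scheme.Modules.pullbackComp _ _).app P.L).symm

end Criterion

end Fermat.Agent.RelPic
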