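import Fermat.Agent.RelPic.Split

/-!
# Base change of line bundles

`(L.bc φ).N` is `R' ⊗[R] L.N`, and the lattices of the base change are the extensions of the
lattices of `L`.
-/

set_option autoImplicit false
set_option linter.style.haveILetI false
set_option linter.unusedSectionVars false

universe u

open TensorProduct

noncomputable section

namespace Fermat.Agent.RelPic

variable {k : Type u} [Field k] {X : Model k} {R : Type u} [CommRing R] [Algebra k R]
  {R' : Type u} [CommRing R'] [Algebra k R'] [Algebra R R'] [IsScalarTower k R R']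

variable (X R R') in
/-- The base change map on the overlap, as an algebra. -/
@[reducible] def b01Algebra : Algebra (B01 X R) (B01 X R') :=
  (bMap X R (IsScalarTower.toAlgHom k R R')).toRingHom.toAlgebra

attribute [local instance] b01Algebra

theorem algebraMap_b01 (x : B01 X R) :
    algebraMap (B01 X R) (B01 X R') x = bMap X R (IsScalarTower.toAlgHom k R R') x := rfl

omit [Algebra R R'] [IsScalarTower k R R'] in
theorem bMap_tmul (φ : R →ₐ[k] R') (r : R) (a : X.A01) : bMap X R φ (r ⊗ₜ a) = φ r ⊗ₜ a := rfl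

instance tower_R_b01 : IsScalarTower R (B01 X R) (B01 X R') :=
  IsScalarTower.of_algebraMap_eq fun r => by
    rw [algebraMap_b01, Algebra.TensorProduct.algebraMap_apply,
      Algebra.TensorProduct.algebraMap_apply, bMap_tmul]
    rfl

omit [Algebra R R'] [IsScalarTower k R R'] in
theorem bMap_res0 (φ : R →ₐ[k] R') (x : R ⊗[k] X.A0) :
    bMap X R φ (res0 X R x) = res0 X R' (Algebra.TensorProduct.map φ (AlgHom.id k X.A0) x) := by
  induction x with
  | zero => simp
  | tmul r a => rfl
  | add a b ha hb => simp only [map_add, ha, hb]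

omit [Algebra R R'] [IsScalarTower k R R'] in
theorem bMap_res1 (φ : R →ₐ[k] R') (x : R ⊗[k] X.A1) :
    bMap X R φ (res1 X R x) = res1 X R' (Algebra.TensorProduct.map φ (AlgHom.id k X.A1) x) := by
  induction x with
  | zero => simp
  | tmul r a => rfl
  | add a b ha hb => simp only [map_add, ha, hb]

omit [Algebra R R'] [IsScalarTower k R R'] in
theorem bMap_fUnit (φ : R →ₐ[k] R') :
    Units.map (bMap X R φ).toMonoidHom (fUnit X R) = fUnit X R' :=
  Units.ext (by show φ 1 ⊗ₜ[k] X.ι0 X.f = _; rw [map_one]; rfl)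

omit [Algebra R R'] [IsScalarTower k R R'] in
theorem bMap_fUnit_zpow (φ : R →ₐ[k] R') (m : ℤ) :
    bMap X R φ ((fUnit X R ^ m : (B01 X R)ˣ) : B01 X R) =
      ((fUnit X R' ^ m : (B01 X R')ˣ) : B01 X R') := by
  rw [← bMap_fUnit (R := R) φ, ← map_zpow]
  rfl

namespace Pre

variable (L : Pre X R) (R')

/-- The canonical map to the base change. -/
def incl : L.N →ₗ[R] (L.bc (IsScalarTower.toAlgHom k R R')).N :=
  (TensorProduct.mk (B01 X R) (B01 X R') L.N 1).restrictScalars R

theorem incl_apply (x : L.N) : L.incl R' x = (1 : B01 X R') ⊗ₜ x := rfl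

theorem incl_smul (b : B01 X R) (x : L.N) :
    L.incl R' (b • x) = bMap X R (IsScalarTower.toAlgHom k R R') b • L.incl R' x := by
  rw [incl_apply, incl_apply, tmul_smul, ← algebraMap_b01, algebraMap_smul]

/-- The comparison map. -/
def eqvMap : R' ⊗[R] L.N →ₗ[R'] (L.bc (IsScalarTower.toAlgHom k R R')).N :=
  (L.incl R').liftBaseChange R'

theorem eqvMap_tmul (r : R') (x : L.N) : L.eqvMap R' (r ⊗ₜ x) = r • L.incl R' x :=
  LinearMap.liftBaseChange_tmul ..

theorem tmul_eq_smul_incl (r : R') (a : X.A01) (x : L.N) :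
    (((r ⊗ₜ a : B01 X R') ⊗ₜ[B01 X R] x) : (L.bc (IsScalarTower.toAlgHom k R R')).N) =
      r • L.incl R' (((1 : R) ⊗ₜ a : B01 X R) • x) := by
  rw [incl_smul, incl_apply, bMap_tmul, map_one, smul_tmul', smul_eq_mul, mul_one, smul_tmul']
  congr 1
  rw [smul_tmul', smul_eq_mul, mul_one]

theorem eqvMap_surjective : Function.Surjective (L.eqvMap R') := by
  intro y
  induction y using TensorProduct.induction_on with
  | zero => exact ⟨0, map_zero _⟩
  | tmul b x =>
      induction b using TensorProduct.induction_on with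
      | zero => exact ⟨0, by rw [map_zero, zero_tmul]⟩
      | tmul r a => exact ⟨r ⊗ₜ (((1 : R) ⊗ₜ a : B01 X R) • x), by
          rw [eqvMap_tmul, tmul_eq_smul_incl]⟩
      | add a b ha hb =>
          obtain ⟨u, hu⟩ := ha
          obtain ⟨v, hv⟩ := hb
          exact ⟨u + v, by rw [map_add, hu, hv, ← add_tmul]⟩
  | add a b ha hb =>
      obtain ⟨u, hu⟩ := ha
      obtain ⟨v, hv⟩ := hb
      exact ⟨u + v, by rw [map_add, hu, hv]⟩

/-- The base change of a functional on `N`. -/
def bcFun (l : L.N →ₗ[B01 X R] B01 X R) :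
    (L.bc (IsScalarTower.toAlgHom k R R')).N →ₗ[B01 X R'] B01 X R' :=
  ((Algebra.linearMap (B01 X R) (B01 X R')).comp l).liftBaseChange (B01 X R')

theorem bcFun_incl (l : L.N →ₗ[B01 X R] B01 X R) (x : L.N) :
    L.bcFun R' l (L.incl R' x) = bMap X R (IsScalarTower.toAlgHom k R R') (l x) := by
  rw [incl_apply, bcFun, LinearMap.liftBaseChange_tmul, one_smul]
  rfl

variable {L R'}

theorem bcFun_eqvMap (l : L.N →ₗ[B01 X R] B01 X R) (z : R' ⊗[R] L.N) :
    L.bcFun R' l (L.eqvMap R' z) =
      AlgebraTensorModule.cancelBaseChange k R R' R' X.A01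
        ((l.restrictScalars R).lTensor R' z) := by
  induction z with
  | zero => simp
  | tmul r x =>
      rw [eqvMap_tmul, LinearMap.map_smul_of_tower, bcFun_incl, LinearMap.lTensor_tmul,
        LinearMap.coe_restrictScalars]
      induction l x using TensorProduct.induction_on with
      | zero => simp
      | tmul c a =>
          rw [bMap_tmul, AlgebraTensorModule.cancelBaseChange_tmul, smul_tmul', smul_eq_mul]
          congr 1
          rw [Algebra.smul_def, mul_comm]
          rfl
      | add a b ha hb => rw [map_add, smul_add, ha, hb, tmul_add, map_add]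
  | add a b ha hb => simp only [map_add, ha, hb]

theorem eqvMap_injective (h : L.Good) : Function.Injective (L.eqvMap R') := by
  rw [injective_iff_map_eq_zero]
  intro z hz
  obtain ⟨n, s, l, -, hsum, -⟩ := h.lattice0
  have key : ∀ i, (l i |>.restrictScalars R).lTensor R' z = 0 := by
    intro i
    have := bcFun_eqvMap (R' := R') (l i) z
    rw [hz, map_zero] at this
    exact (LinearEquiv.map_eq_zero_iff _).mp this.symm
  have hid : (LinearMap.id : L.N →ₗ[R] L.N) = ∑ i,
      ((LinearMap.toSpanSingleton (B01 X R) L.N (s i)).restrictScalars R).comp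
        ((l i).restrictScalars R) :=
    LinearMap.ext fun x => by simpa using hsum x
  have : z = (LinearMap.id : L.N →ₗ[R] L.N).lTensor R' z := by simp
  rw [this, hid, ← LinearMap.coe_lTensorHom, map_sum, LinearMap.sum_apply]
  refine Finset.sum_eq_zero fun i _ => ?_
  rw [LinearMap.coe_lTensorHom, LinearMap.lTensor_comp, LinearMap.comp_apply, key i, map_zero]

/-- `(L.bc φ).N` is the extension of scalars of `L.N`. -/
def Good.eqv (h : L.Good) : R' ⊗[R] L.N ≃ₗ[R'] (L.bc (IsScalarTower.toAlgHom k R R')).N :=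
  LinearEquiv.ofBijective (L.eqvMap R') ⟨eqvMap_injective h, L.eqvMap_surjective R'⟩

variable (L R')

/-- Extension of an `R`-submodule of `N`. -/
def bcS (W : Submodule R L.N) : Submodule R' (L.bc (IsScalarTower.toAlgHom k R R')).N :=
  Submodule.span R' (L.incl R' '' W)

variable {L R'}

theorem incl_mem_bcS {W : Submodule R L.N} {x : L.N} (hx : x ∈ W) :
    L.incl R' x ∈ L.bcS R' W :=
  Submodule.subset_span ⟨x, hx, rfl⟩

theorem bcS_mono {W W' : Submodule R L.N} (hW : W ≤ W') : L.bcS R' W ≤ L.bcS R' W' :=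
  Submodule.span_mono (Set.image_mono hW)

theorem bcS_top : L.bcS R' ⊤ = ⊤ := by
  refine top_le_iff.mp fun y _ => ?_
  obtain ⟨z, rfl⟩ := L.eqvMap_surjective R' y
  induction z with
  | zero => simp
  | tmul r x => rw [eqvMap_tmul]; exact Submodule.smul_mem _ r (incl_mem_bcS trivial)
  | add a b ha hb => rw [map_add]; exact add_mem (ha trivial) (hb trivial)

theorem bcS_sup (W W' : Submodule R L.N) : L.bcS R' (W ⊔ W') = L.bcS R' W ⊔ L.bcS R' W' := by
  refine le_antisymm ?_ (sup_le (bcS_mono le_sup_left) (bcS_mono le_sup_right))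
  rw [bcS, Submodule.span_le]
  rintro _ ⟨x, hx, rfl⟩
  obtain ⟨a, ha, b, hb, rfl⟩ := Submodule.mem_sup.mp hx
  rw [map_add]
  exact Submodule.add_mem_sup (incl_mem_bcS ha) (incl_mem_bcS hb)

theorem incl_bijective (h : L.Good) (hb : Function.Bijective (algebraMap R R')) :
    Function.Bijective (L.incl R') := by
  have : (L.incl R' : L.N → _) = h.eqv (R' := R') ∘
      ((LinearEquiv.ofBijective (Algebra.linearMap R R') hb).rTensor L.N) ∘
        (TensorProduct.lid R L.N).symm := funext fun x => by
    show L.incl R' x = L.eqvMap R' (algebraMap R R' 1 ⊗ₜ x)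
    rw [map_one, eqvMap_tmul]
    exact (one_smul R' (L.incl R' x)).symm
  rw [this]
  exact (LinearEquiv.bijective _).comp
    ((LinearEquiv.bijective _).comp (LinearEquiv.bijective _))

theorem bcS_eq_image (hs : Function.Surjective (algebraMap R R')) (W : Submodule R L.N) :
    (L.bcS R' W : Set (L.bc (IsScalarTower.toAlgHom k R R')).N) = L.incl R' '' W := by
  refine Set.Subset.antisymm (fun y hy => ?_) Submodule.subset_span
  induction hy using Submodule.span_induction with
  | mem y hy => exact hy
  | zero => exact ⟨0, zero_mem W, map_zero _⟩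
  | add a b _ _ ha hb =>
      obtain ⟨u, hu, rfl⟩ := ha
      obtain ⟨v, hv, rfl⟩ := hb
      exact ⟨u + v, add_mem hu hv, map_add _ _ _⟩
  | smul r a _ ha =>
      obtain ⟨u, hu, rfl⟩ := ha
      obtain ⟨c, rfl⟩ := hs r
      exact ⟨c • u, W.smul_mem c hu, by rw [map_smul, algebraMap_smul]⟩

theorem bc_M0 (h : L.Good) :
    (L.bc (IsScalarTower.toAlgHom k R R')).M0 = L.bcS R' L.M0 := by
  refine le_antisymm ?_ ?_
  · refine Submodule.span_le.mpr ?_
    rintro _ ⟨a, m, hm, rfl⟩
    induction a using TensorProduct.induction_on with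
    | zero => rw [map_zero, zero_tmul]; exact zero_mem _
    | tmul r a =>
        rw [res0_tmul, tmul_eq_smul_incl]
        exact Submodule.smul_mem _ r (incl_mem_bcS (h.res0_smul_mem (1 ⊗ₜ a) hm))
    | add a b ha hb => rw [map_add, add_tmul]; exact add_mem ha hb
  · refine Submodule.span_le.mpr ?_
    rintro _ ⟨x, hx, rfl⟩
    refine Submodule.subset_span ⟨1, x, hx, ?_⟩
    rw [map_one, incl_apply]

theorem bc_M1 (h : L.Good) :
    (L.bc (IsScalarTower.toAlgHom k R R')).M1 = L.bcS R' L.M1 := by
  refine le_antisymm ?_ ?_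
  · refine Submodule.span_le.mpr ?_
    rintro _ ⟨a, m, hm, rfl⟩
    induction a using TensorProduct.induction_on with
    | zero => rw [map_zero, zero_tmul]; exact zero_mem _
    | tmul r a =>
        rw [res1_tmul, tmul_eq_smul_incl]
        exact Submodule.smul_mem _ r (incl_mem_bcS (h.res1_smul_mem (1 ⊗ₜ a) hm))
    | add a b ha hb => rw [map_add, add_tmul]; exact add_mem ha hb
  · refine Submodule.span_le.mpr ?_
    rintro _ ⟨x, hx, rfl⟩
    refine Submodule.subset_span ⟨1, x, hx, ?_⟩
    rw [map_one, incl_apply]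

theorem bcS_twist (m : ℤ) :
    L.bcS R' (L.twist m).M1 = (L.bcS R' L.M1).map
      ((LinearMap.lsmul (B01 X R') (L.bc (IsScalarTower.toAlgHom k R R')).N
        ((fUnit X R' ^ m : (B01 X R')ˣ) : B01 X R')).restrictScalars R') := by
  rw [bcS, bcS, Submodule.map_span]
  congr 1
  ext y
  constructor
  · rintro ⟨_, ⟨x, hx, rfl⟩, rfl⟩
    refine ⟨L.incl R' x, ⟨x, hx, rfl⟩, ?_⟩
    simp only [LinearMap.coe_restrictScalars, LinearMap.lsmul_apply]
    rw [← bMap_fUnit_zpow (R := R) (IsScalarTower.toAlgHom k R R') m]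
    exact (incl_smul R' L _ _).symm
  · rintro ⟨_, ⟨x, hx, rfl⟩, rfl⟩
    refine ⟨_, ⟨x, hx, rfl⟩, ?_⟩
    simp only [LinearMap.coe_restrictScalars, LinearMap.lsmul_apply]
    rw [← bMap_fUnit_zpow (R := R) (IsScalarTower.toAlgHom k R R') m]
    exact incl_smul R' L _ _

theorem bc_twist_M1 (h : L.Good) (m : ℤ) :
    ((L.bc (IsScalarTower.toAlgHom k R R')).twist m).M1 = L.bcS R' (L.twist m).M1 := by
  rw [bcS_twist, ← bc_M1 h]

theorem isLattice_bcS {B : Type u} [CommRing B] [Algebra R B] {res : B →ₐ[R] B01 X R}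
    {B' : Type u} [CommRing B'] [Algebra R' B'] {res' : B' →ₐ[R'] B01 X R'}
    (hmap : ∀ b, bMap X R (IsScalarTower.toAlgHom k R R') (res b) ∈ res'.range)
    {M : Submodule R L.N} (hM : IsLattice res M)
    (hstab : ∀ (b : B'), ∀ x ∈ L.bcS R' M, res' b • x ∈ L.bcS R' M) :
    IsLattice res' (L.bcS R' M) := by
  obtain ⟨n, s, l, hs, hsum, hmem⟩ := hM
  refine IsLattice.of_stable (fun i => L.incl R' (s i)) (fun i => L.bcFun R' (l i))
    (fun i => incl_mem_bcS (hs i)) (fun y => ?_) hstab (fun y hy i => ?_)
  · obtain ⟨z, rfl⟩ := L.eqvMap_surjective R' y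
    induction z with
    | zero => simp
    | tmul r x =>
        rw [eqvMap_tmul]
        calc r • L.incl R' x = r • ∑ i, bMap X R (IsScalarTower.toAlgHom k R R') (l i x) •
              L.incl R' (s i) := by
              congr 1
              conv_lhs => rw [hsum x, map_sum]
              exact Finset.sum_congr rfl fun i _ => incl_smul R' L (l i x) (s i)
          _ = _ := by
              refine (Finset.smul_sum (r := r) (f := fun i =>
                bMap X R (IsScalarTower.toAlgHom k R R') (l i x) • L.incl R' (s i))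
                (s := Finset.univ)).trans (Finset.sum_congr rfl fun i _ => ?_)
              refine ((smul_assoc r _ _).symm).trans ?_
              congr 1
              exact ((congrArg (r • ·) (bcFun_incl R' L (l i) x)).symm).trans
                ((L.bcFun R' (l i)).map_smul_of_tower r (L.incl R' x)).symm
    | add a b ha hb =>
        conv_lhs => rw [map_add, ha, hb]
        simp only [map_add, add_smul, Finset.sum_add_distrib]
  · induction hy using Submodule.span_induction with
    | mem y hy =>
        obtain ⟨x, hx, rfl⟩ := hy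
        rw [bcFun_incl]
        obtain ⟨b, hb⟩ := (hmem x).mp hx i
        rw [← hb]
        exact hmap b
    | zero => rw [map_zero]; exact zero_mem _
    | add a b _ _ ha hb => rw [map_add]; exact add_mem ha hb
    | smul r a _ ha =>
        rw [LinearMap.map_smul_of_tower]
        exact Subalgebra.smul_mem _ ha r

theorem Good.bc_toAlgHom (h : L.Good) : (L.bc (IsScalarTower.toAlgHom k R R')).Good where
  invertible :=
    haveI := h.invertible
    inferInstanceAs (Module.Invertible (B01 X R') (B01 X R' ⊗[B01 X R] L.N))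
  lattice0 := by
    rw [bc_M0 h]
    refine isLattice_bcS (fun b => ⟨_, (bMap_res0 _ b).symm⟩) h.lattice0 fun b x hx => ?_
    rw [← bc_M0 h] at hx ⊢
    induction hx using Submodule.span_induction with
    | mem y hy =>
        obtain ⟨a, m, hm, rfl⟩ := hy
        exact Submodule.subset_span ⟨b * a, m, hm, by rw [map_mul, smul_tmul', smul_eq_mul]⟩
    | zero => simp
    | add a c _ _ ha hc => rw [smul_add]; exact add_mem ha hc
    | smul r a _ ha => rw [smul_comm]; exact Submodule.smul_mem _ r ha
  lattice1 := by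
    rw [bc_M1 h]
    refine isLattice_bcS (fun b => ⟨_, (bMap_res1 _ b).symm⟩) h.lattice1 fun b x hx => ?_
    rw [← bc_M1 h] at hx ⊢
    induction hx using Submodule.span_induction with
    | mem y hy =>
        obtain ⟨a, m, hm, rfl⟩ := hy
        exact Submodule.subset_span ⟨b * a, m, hm, by rw [map_mul, smul_tmul', smul_eq_mul]⟩
    | zero => simp
    | add a c _ _ ha hc => rw [smul_add]; exact add_mem ha hc
    | smul r a _ ha => rw [smul_comm]; exact Submodule.smul_mem _ r ha

end Pre

theorem Pre.Good.bc {L : Pre X R} (h : L.Good) {S : Type u} [CommRing S] [Algebra k S]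
    (φ : R →ₐ[k] S) : (L.bc φ).Good := by
  letI := φ.toRingHom.toAlgebra
  haveI : IsScalarTower k R S := IsScalarTower.of_algebraMap_eq' φ.comp_algebraMap.symm
  exact h.bc_toAlgHom (R' := S)

end Fermat.Agent.RelPic
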