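import Fermat.Agent.RelPic.Loci

/-!
# Rigidified bundles and their classes
-/

set_option autoImplicit false
set_option linter.style.haveILetI false
set_option linter.unusedSectionVars false

universe u

open TensorProduct

noncomputable section

namespace Fermat.Agent.RelPic

variable {k : Type u} [Field k] {X : Model k} {R : Type u} [CommRing R] [Algebra k R]

variable (X R) in
/-- Evaluation at the marked point on the image of `res0`. -/
def ev0 : (res0 X R).toLinearMap.range →ₗ[R] R :=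
  (evR X R).toLinearMap ∘ₗ
    (LinearEquiv.ofInjective (res0 X R).toLinearMap (res0_injective X R)).symm.toLinearMap

theorem ev0_res0 (b : R ⊗[k] X.A0) (h : res0 X R b ∈ (res0 X R).toLinearMap.range) :
    ev0 X R ⟨res0 X R b, h⟩ = evR X R b := by
  show evR X R ((LinearEquiv.ofInjective (res0 X R).toLinearMap (res0_injective X R)).symm
    ⟨res0 X R b, h⟩) = _
  congr 1
  rw [LinearEquiv.symm_apply_eq]
  exact Subtype.ext rfl

theorem evR_map {S : Type u} [CommRing S] [Algebra k S] (φ : R →ₐ[k] S) (b : R ⊗[k] X.A0) :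
    evR X S (Algebra.TensorProduct.map φ (AlgHom.id k X.A0) b) = φ (evR X R b) := by
  induction b with
  | zero => simp
  | tmul r a => simp [evR]
  | add a b ha hb => simp only [map_add, ha, hb]

namespace Pre

/-- The semilinearity in `Rigid`. -/
def IsEval (L : Pre X R) (ρ : L.M0 →ₗ[R] R) : Prop :=
  ∀ (b : R ⊗[k] X.A0) (m m' : L.M0), (m' : L.N) = res0 X R b • (m : L.N) →
    ρ m' = evR X R b * ρ m

theorem IsEval.exists_coeff {L : Pre X R} {n : ℕ} {s : Fin n → L.N}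
    {l : Fin n → L.N →ₗ[B01 X R] B01 X R} (hs : ∀ i, s i ∈ L.M0)
    (hsum : ∀ x, x = ∑ i, l i x • s i) (hmem : ∀ x, x ∈ L.M0 ↔ ∀ i, l i x ∈ (res0 X R).range)
    (hG : IsLattice (res0 X R) L.M0) {ρ : L.M0 →ₗ[R] R} (hρ : L.IsEval ρ) (x : L.M0) :
    ρ x = ∑ i, ev0 X R ⟨l i x, (hmem x).mp x.2 i⟩ * ρ ⟨s i, hs i⟩ := by
  classical
  choose b hb using fun i => (hmem x).mp x.2 i
  have hm : ∀ i, l i (x : L.N) • s i ∈ L.M0 := fun i => by
    rw [← hb i]; exact hG.smul_mem (b i) (hs i)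
  have hx : x = ∑ i, (⟨l i (x : L.N) • s i, hm i⟩ : L.M0) := by
    apply Subtype.ext
    rw [Submodule.coe_sum]
    exact hsum x
  conv_lhs => rw [hx, map_sum]
  refine Finset.sum_congr rfl fun i _ => ?_
  rw [hρ (b i) ⟨s i, hs i⟩ ⟨l i (x : L.N) • s i, hm i⟩ (congrArg (· • s i) (hb i).symm)]
  congr 1
  exact ((congrArg (ev0 X R) (Subtype.ext (hb i).symm)).trans
    (ev0_res0 (b i) ⟨b i, rfl⟩)).symm

/-- The evaluation with prescribed values on the generators. -/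
def evalMap {L : Pre X R} {n : ℕ} (l : Fin n → L.N →ₗ[B01 X R] B01 X R)
    (hl : ∀ x ∈ L.M0, ∀ i, l i x ∈ (res0 X R).toLinearMap.range) (c : Fin n → R) :
    L.M0 →ₗ[R] R :=
  ∑ i, c i • (ev0 X R ∘ₗ
    ((((l i).restrictScalars R).comp L.M0.subtype).codRestrict _ fun x => hl x x.2 i))

theorem evalMap_apply {L : Pre X R} {n : ℕ} (l : Fin n → L.N →ₗ[B01 X R] B01 X R)
    (hl : ∀ x ∈ L.M0, ∀ i, l i x ∈ (res0 X R).toLinearMap.range) (c : Fin n → R) (x : L.M0) :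
    evalMap l hl c x = ∑ i, c i * ev0 X R ⟨l i x, hl x x.2 i⟩ := by
  simp only [evalMap, LinearMap.coe_sum, Finset.sum_apply, LinearMap.smul_apply, smul_eq_mul,
    LinearMap.comp_apply]
  exact Finset.sum_congr rfl fun i _ => rfl

theorem isEval_evalMap {L : Pre X R} {n : ℕ} (l : Fin n → L.N →ₗ[B01 X R] B01 X R)
    (hl : ∀ x ∈ L.M0, ∀ i, l i x ∈ (res0 X R).toLinearMap.range) (c : Fin n → R) :
    L.IsEval (evalMap l hl c) := by
  intro b m m' h
  rw [evalMap_apply, evalMap_apply, Finset.mul_sum]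
  refine Finset.sum_congr rfl fun i _ => ?_
  obtain ⟨a, ha⟩ := hl m m.2 i
  have h' : l i (m' : L.N) = res0 X R (b * a) := by
    rw [h, map_smul, smul_eq_mul, map_mul]
    exact congrArg (res0 X R b * ·) ha.symm
  rw [(congrArg (ev0 X R) (Subtype.ext h')).trans (ev0_res0 (b * a) ⟨b * a, rfl⟩),
    (congrArg (ev0 X R) (Subtype.ext ha.symm)).trans (ev0_res0 a ⟨a, rfl⟩), map_mul]
  ring

theorem surjective_of_eq_one {L : Pre X R} {ρ : L.M0 →ₗ[R] R} {m : L.M0} (h : ρ m = 1) :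
    Function.Surjective ρ :=
  fun r => ⟨r • m, by rw [map_smul, h, smul_eq_mul, mul_one]⟩

theorem Rigid.congr {L L' : Pre X R} (e : Iso L L') (h : L.Rigid) : L'.Rigid := by
  obtain ⟨e, h0, -⟩ := e
  obtain ⟨ρ, hρ, hρ'⟩ := h
  let eM : L.M0 ≃ₗ[R] L'.M0 :=
    ((e.restrictScalars R).submoduleMap L.M0).trans (LinearEquiv.ofEq _ _ h0)
  refine ⟨ρ.comp eM.symm.toLinearMap, hρ.comp eM.symm.surjective, fun b m m' hm => ?_⟩
  refine hρ' b _ _ ?_
  show e.symm (m' : L'.N) = res0 X R b • e.symm (m : L'.N)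
  rw [hm, map_smul]

variable (X R) in
theorem rigid_unit : (Pre.unit X R).Rigid := by
  refine ⟨ev0 X R, surjective_of_eq_one (m := ⟨1, 1, map_one (res0 X R)⟩) ?_, fun b m m' hm => ?_⟩
  · exact ((congrArg (ev0 X R) (Subtype.ext (map_one (res0 X R)).symm)).trans
      (ev0_res0 1 ⟨1, rfl⟩)).trans (map_one _)
  · obtain ⟨_, a, rfl⟩ := m
    obtain ⟨x, hx⟩ := m'
    change x = res0 X R b • res0 X R a at hm
    subst hm
    show ev0 X R ⟨res0 X R b * res0 X R a, hx⟩ = evR X R b * ev0 X R ⟨res0 X R a, _⟩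
    rw [(congrArg (ev0 X R) (Subtype.ext (map_mul (res0 X R) b a).symm)).trans
      (ev0_res0 (b * a) ⟨b * a, rfl⟩)]
    exact (map_mul _ b a).trans (congrArg (evR X R b * ·) (ev0_res0 a ⟨a, rfl⟩).symm)

theorem Rigid.tensor {L L' : Pre X R} (hL : L.Good) (hL' : L'.Good) (h : L.Rigid)
    (h' : L'.Rigid) : (L.tensor L').Rigid := by
  classical
  obtain ⟨n, s, l, hs, hsum, hmem⟩ := hL.lattice0
  obtain ⟨n', s', l', hs', hsum', hmem'⟩ := hL'.lattice0
  obtain ⟨ρ, hρ, he⟩ := h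
  obtain ⟨ρ', hρ', he'⟩ := h'
  let e := (finProdFinEquiv (m := n) (n := n')).symm
  let lt : Fin (n * n') → (L.tensor L').N →ₗ[B01 X R] B01 X R := fun q =>
    (TensorProduct.lid (B01 X R) (B01 X R)).toLinearMap ∘ₗ
      TensorProduct.map (l (e q).1) (l' (e q).2)
  have hlt : ∀ x ∈ (L.tensor L').M0, ∀ q, lt q x ∈ (res0 X R).toLinearMap.range := by
    intro x hx q
    induction hx using Submodule.span_induction with
    | mem y hy =>
        obtain ⟨a, ha, b, hb, rfl⟩ := hy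
        show l (e q).1 a • l' (e q).2 b ∈ _
        exact mul_mem (s := (res0 X R).range) ((hmem a).mp ha _) ((hmem' b).mp hb _)
    | zero => rw [map_zero]; exact zero_mem _
    | add a b _ _ ha hb => rw [map_add]; exact add_mem ha hb
    | smul r a _ ha => rw [LinearMap.map_smul_of_tower]; exact Submodule.smul_mem _ r ha
  let R0 := evalMap lt hlt fun q => ρ ⟨s (e q).1, hs _⟩ * ρ' ⟨s' (e q).2, hs' _⟩
  refine ⟨R0, ?_, isEval_evalMap _ _ _⟩
  obtain ⟨a, ha⟩ := hρ 1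
  obtain ⟨b, hb⟩ := hρ' 1
  refine surjective_of_eq_one
    (m := ⟨(a : L.N) ⊗ₜ (b : L'.N), tmul_mem_tensor_M0 a.2 b.2⟩) ?_
  rw [evalMap_apply]
  have key : ∀ q, ev0 X R ⟨lt q ((a : L.N) ⊗ₜ (b : L'.N)),
      hlt _ (tmul_mem_tensor_M0 a.2 b.2) q⟩ =
      ev0 X R ⟨l (e q).1 a, (hmem a).mp a.2 _⟩ * ev0 X R ⟨l' (e q).2 b, (hmem' b).mp b.2 _⟩ := by
    intro q
    obtain ⟨u, hu⟩ := (hmem a).mp a.2 (e q).1
    obtain ⟨v, hv⟩ := (hmem' b).mp b.2 (e q).2
    have : lt q ((a : L.N) ⊗ₜ (b : L'.N)) = res0 X R (u * v) := by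
      show l (e q).1 a • l' (e q).2 b = _
      rw [map_mul, smul_eq_mul]
      exact congrArg₂ (· * ·) hu.symm hv.symm
    rw [(congrArg (ev0 X R) (Subtype.ext this)).trans (ev0_res0 (u * v) ⟨_, rfl⟩),
      (congrArg (ev0 X R) (Subtype.ext hu.symm)).trans (ev0_res0 u ⟨_, rfl⟩),
      (congrArg (ev0 X R) (Subtype.ext hv.symm)).trans (ev0_res0 v ⟨_, rfl⟩), map_mul]
  calc _ = ∑ q, (ρ ⟨s (e q).1, hs _⟩ * ev0 X R ⟨l (e q).1 a, (hmem a).mp a.2 _⟩) *
        (ρ' ⟨s' (e q).2, hs' _⟩ * ev0 X R ⟨l' (e q).2 b, (hmem' b).mp b.2 _⟩) :=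
        Finset.sum_congr rfl fun q _ => by rw [key q]; ring
    _ = ∑ p : Fin n × Fin n', (ρ ⟨s p.1, hs _⟩ * ev0 X R ⟨l p.1 a, (hmem a).mp a.2 _⟩) *
        (ρ' ⟨s' p.2, hs' _⟩ * ev0 X R ⟨l' p.2 b, (hmem' b).mp b.2 _⟩) :=
        e.sum_comp fun p : Fin n × Fin n' =>
          (ρ ⟨s p.1, hs _⟩ * ev0 X R ⟨l p.1 a, (hmem a).mp a.2 _⟩) *
          (ρ' ⟨s' p.2, hs' _⟩ * ev0 X R ⟨l' p.2 b, (hmem' b).mp b.2 _⟩)
    _ = (∑ i, ev0 X R ⟨l i a, (hmem a).mp a.2 _⟩ * ρ ⟨s i, hs i⟩) *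
        ∑ j, ev0 X R ⟨l' j b, (hmem' b).mp b.2 _⟩ * ρ' ⟨s' j, hs' j⟩ := by
        rw [Fintype.sum_prod_type, Finset.sum_mul_sum]
        exact Finset.sum_congr rfl fun i _ => Finset.sum_congr rfl fun j _ => by ring
    _ = 1 := by
        rw [← IsEval.exists_coeff hs hsum hmem hL.lattice0 he a,
          ← IsEval.exists_coeff hs' hsum' hmem' hL'.lattice0 he' b, ha, hb, mul_one]

theorem Rigid.dual {L : Pre X R} (hL : L.Good) (h : L.Rigid) : L.dual.Rigid := by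
  obtain ⟨n, s, l, hs, hsum, hmem⟩ := hL.lattice0
  obtain ⟨ρ, hρ, he⟩ := h
  obtain ⟨m, hm⟩ := hρ 1
  let ρd : L.dual.M0 →ₗ[R] R := ev0 X R ∘ₗ
    (((LinearMap.applyₗ (m : L.N)).restrictScalars R).comp L.dual.M0.subtype).codRestrict _
      fun φ => φ.2 m m.2
  have hρd : ∀ φ : L.dual.M0, ρd φ = ev0 X R ⟨(φ : L.dual.N) m, φ.2 m m.2⟩ := fun φ => rfl
  have hl : ∀ i, l i ∈ L.dual.M0 := fun i x hx => (hmem x).mp hx i
  refine ⟨ρd, surjective_of_eq_one (m := ∑ i, ρ ⟨s i, hs i⟩ • (⟨l i, hl i⟩ : L.dual.M0)) ?_,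
    fun b φ ψ hψ => ?_⟩
  · rw [map_sum, ← hm, IsEval.exists_coeff hs hsum hmem hL.lattice0 he m]
    refine Finset.sum_congr rfl fun i _ => ?_
    rw [map_smul, smul_eq_mul, hρd, mul_comm]
  · obtain ⟨a, ha⟩ := φ.2 m m.2
    have : (ψ : L.dual.N) m = res0 X R (b * a) := by
      rw [hψ, map_mul]
      show res0 X R b * (φ : L.dual.N) m = _
      exact congrArg (res0 X R b * ·) ha.symm
    rw [hρd, hρd, (congrArg (ev0 X R) (Subtype.ext this)).trans (ev0_res0 (b * a) ⟨_, rfl⟩),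
      (congrArg (ev0 X R) (Subtype.ext ha.symm)).trans (ev0_res0 a ⟨_, rfl⟩), map_mul]

section Tower

attribute [local instance] b01Algebra

variable {R' : Type u} [CommRing R'] [Algebra k R'] [Algebra R R'] [IsScalarTower k R R']

theorem Rigid.bc_toAlgHom {L : Pre X R} (hL : L.Good) (h : L.Rigid) :
    (L.bc (IsScalarTower.toAlgHom k R R')).Rigid := by
  obtain ⟨n, s, l, hs, hsum, hmem⟩ := hL.lattice0
  obtain ⟨ρ, hρ, he⟩ := h
  obtain ⟨m, hm⟩ := hρ 1
  have hl : ∀ y ∈ (L.bc (IsScalarTower.toAlgHom k R R')).M0, ∀ i,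
      L.bcFun R' (l i) y ∈ (res0 X R').toLinearMap.range := by
    intro y hy i
    rw [bc_M0 hL] at hy
    induction hy using Submodule.span_induction with
    | mem y hy =>
        obtain ⟨x, hx, rfl⟩ := hy
        rw [bcFun_incl]
        obtain ⟨b, hb⟩ := (hmem x).mp hx i
        rw [← hb]
        exact ⟨_, (bMap_res0 _ b).symm⟩
    | zero => rw [map_zero]; exact zero_mem _
    | add a b _ _ ha hb => rw [map_add]; exact add_mem ha hb
    | smul r a _ ha => rw [LinearMap.map_smul_of_tower]; exact Submodule.smul_mem _ r ha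
  refine ⟨evalMap (fun i => L.bcFun R' (l i)) hl
    (fun i => algebraMap R R' (ρ ⟨s i, hs i⟩)), ?_, isEval_evalMap _ _ _⟩
  have hmm : L.incl R' (m : L.N) ∈ (L.bc (IsScalarTower.toAlgHom k R R')).M0 := by
    rw [bc_M0 hL]; exact incl_mem_bcS m.2
  refine surjective_of_eq_one (m := ⟨L.incl R' (m : L.N), hmm⟩) ?_
  rw [evalMap_apply, ← map_one (algebraMap R R'), ← hm,
    IsEval.exists_coeff hs hsum hmem hL.lattice0 he m, map_sum]
  refine Finset.sum_congr rfl fun i _ => ?_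
  obtain ⟨b, hb⟩ := (hmem (m : L.N)).mp m.2 i
  have : L.bcFun R' (l i) (L.incl R' (m : L.N)) =
      res0 X R' (Algebra.TensorProduct.map (IsScalarTower.toAlgHom k R R') (AlgHom.id k X.A0) b) := by
    rw [bcFun_incl, ← hb, ← bMap_res0]
    rfl
  rw [(congrArg (ev0 X R') (Subtype.ext this)).trans (ev0_res0 _ ⟨_, rfl⟩), evR_map, map_mul,
    (congrArg (ev0 X R) (Subtype.ext hb.symm)).trans (ev0_res0 b ⟨_, rfl⟩), mul_comm]
  rfl

end Tower

theorem Rigid.bc {L : Pre X R} (h : L.Rigid) (hL : L.Good) {S : Type u} [CommRing S]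
    [Algebra k S] (φ : R →ₐ[k] S) : (L.bc φ).Rigid := by
  letI := φ.toRingHom.toAlgebra
  haveI : IsScalarTower k R S := IsScalarTower.of_algebraMap_eq' φ.comp_algebraMap.symm
  exact h.bc_toAlgHom (R' := S) hL

end Pre

namespace RigBundle

/-- Base change of a rigidified bundle. -/
def map {S : Type u} [CommRing S] [Algebra k S] (φ : R →ₐ[k] S) (L : RigBundle X R) :
    RigBundle X S :=
  ⟨L.1.bc φ, L.2.1.bc φ, L.2.2.bc L.2.1 φ⟩

end RigBundle

namespace Cls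

variable {S : Type u} [CommRing S] [Algebra k S] {T : Type u} [CommRing T] [Algebra k T]

/-- The class of a rigidified bundle. -/
def mk (L : RigBundle X R) : Cls X R := Quotient.mk _ L

theorem mk_eq_mk {L L' : RigBundle X R} : mk L = mk L' ↔ L.1.Iso L'.1 :=
  ⟨fun h => Quotient.exact h, fun h => Quotient.sound h⟩

theorem mk_surjective : Function.Surjective (mk (X := X) (R := R)) :=
  fun x => Quotient.exists_rep x

/-- Functoriality of classes. -/
def map (φ : R →ₐ[k] S) : Cls X R → Cls X S :=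
  Quotient.map (RigBundle.map φ) fun _ _ h => Pre.bc_congr h φ

theorem map_mk (φ : R →ₐ[k] S) (L : RigBundle X R) : map φ (mk L) = mk (L.map φ) := rfl

theorem map_id (x : Cls X R) : map (AlgHom.id k R) x = x := by
  obtain ⟨L, rfl⟩ := mk_surjective x
  exact mk_eq_mk.mpr (Pre.bc_id L.2.1)

theorem map_map (φ : R →ₐ[k] S) (ψ : S →ₐ[k] T) (x : Cls X R) :
    map ψ (map φ x) = map (ψ.comp φ) x := by
  obtain ⟨L, rfl⟩ := mk_surjective x
  exact mk_eq_mk.mpr (Pre.bc_bc L.1 φ ψ)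

theorem isDegZero_mk_iff {L : RigBundle X R} : Cls.IsDegZero X R (mk L) ↔ L.1.DegZero := by
  refine ⟨?_, fun h => ⟨L, rfl, h⟩⟩
  rintro ⟨L', hL', h⟩
  exact Pre.DegZero.congr (Quotient.exact hL') h

theorem IsDegZero.map {x : Cls X R} (h : Cls.IsDegZero X R x) (φ : R →ₐ[k] S) :
    Cls.IsDegZero X S (Cls.map φ x) := by
  obtain ⟨L, rfl⟩ := mk_surjective x
  exact isDegZero_mk_iff.mpr ((isDegZero_mk_iff.mp h).bc φ)

instance small : Small.{u} (Cls X R) := by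
  let D : Type u := Σ (n : ℕ) (K : Submodule (B01 X R) (Fin n → B01 X R)),
    Submodule R ((Fin n → B01 X R) ⧸ K) × Submodule R ((Fin n → B01 X R) ⧸ K)
  let toPre : D → Pre X R := fun d =>
    { N := (Fin d.1 → B01 X R) ⧸ d.2.1, M0 := d.2.2.1, M1 := d.2.2.2 }
  refine small_of_surjective (α := {d : D // (toPre d).Good ∧ (toPre d).Rigid})
    (f := fun d => mk ⟨toPre d.1, d.2⟩) fun x => ?_
  obtain ⟨L, rfl⟩ := mk_surjective x
  obtain ⟨n, s, l, -, hsum, -⟩ := L.2.1.lattice0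
  let q : (Fin n → B01 X R) →ₗ[B01 X R] L.1.N := Fintype.linearCombination (B01 X R) s
  have hq : Function.Surjective q := fun y =>
    ⟨fun i => l i y, by simpa [q, Fintype.linearCombination_apply] using (hsum y).symm⟩
  let e := q.quotKerEquivOfSurjective hq
  let d : D := ⟨n, LinearMap.ker q,
    L.1.M0.map (e.symm.toLinearMap.restrictScalars R),
    L.1.M1.map (e.symm.toLinearMap.restrictScalars R)⟩
  have hiso : L.1.Iso (toPre d) := ⟨e.symm, rfl, rfl⟩
  exact ⟨⟨d, hiso.good L.2.1, L.2.2.congr hiso⟩, mk_eq_mk.mpr hiso.symm⟩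

end Cls

end Fermat.Agent.RelPic
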