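import Fermat.Agent.RelPic.BridgeRigid
import Fermat.Agent.RelPic.Rigid

/-!
# Rigidified line bundles on `C_R` and lattice pairs: the equivalence

`clsEquiv` identifies the classes of rigidified line bundles on `C_R` with `Cls X R`; `sectionBij`
says that functions on `C_T` over an open of the base are determined along the marked section.
-/

set_option autoImplicit false
set_option linter.unusedVariables false

noncomputable section

universe u

open CategoryTheory CategoryTheory.Limits AlgebraicGeometry NeronModelInfra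
  AlgebraicGeometry.RelPicard AlgebraicGeometry.RelPicGlue TensorProduct

namespace Fermat.Agent.RelPic.Realization

variable {k : Type u} [Field k] {C : Scheme.{u}} {c : C ⟶ Spec (CommRingCat.of k)}
  {X : Model k} {ε : SchemeHomOver (𝟙 (Spec (CommRingCat.of k))) c}
  (Rz : Realization X c ε) {R : Type u} [CommRing R] [Algebra k R]

/-- The lattice pair of a rigidified line bundle. -/
def toRig (M : RigidifiedLineBundle c ε (specMap k R)) : RigBundle X R :=
  ⟨Rz.toPre M.L, Rz.good_toPre M.isInvertible, by
    obtain ⟨ρ, hρ⟩ := exists_rho M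
    exact Rz.rigid_toPre M.isInvertible ρ hρ⟩

theorem mk_toRig_eq_iff (M M' : RigidifiedLineBundle c ε (specMap k R)) :
    Cls.mk (Rz.toRig M) = Cls.mk (Rz.toRig M') ↔ Nonempty (M.L ≅ M'.L) :=
  ⟨fun h => Rz.nonempty_iso_of_iso_toPre M.isInvertible M'.isInvertible (Cls.mk_eq_mk.mp h),
    fun ⟨e⟩ => Cls.mk_eq_mk.mpr (Rz.iso_toPre e)⟩

theorem exists_toRig_eq (P : RigBundle X R) :
    ∃ M : RigidifiedLineBundle c ε (specMap k R), Cls.mk (Rz.toRig M) = Cls.mk P := by
  obtain ⟨L, hL, hiso⟩ := Rz.exists_toPre_iso P.1 P.2.1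
  obtain ⟨ρ, hρ⟩ := Rz.exists_attains_of_rigid hL (P.2.2.congr hiso.symm)
  exact ⟨⟨L, hL, (nonempty_rigidified_iff _ (hasFrames_of_isInvertible hL _)).mpr ⟨ρ, hρ⟩⟩,
    Cls.mk_eq_mk.mpr hiso⟩

/-- The class of the lattice pair. -/
def toCls : RigidifiedLineBundle.Classes c ε (specMap k R) → Cls X R :=
  Quotient.lift (fun M => Cls.mk (Rz.toRig M)) fun M M' h => (Rz.mk_toRig_eq_iff M M').mpr h

theorem toCls_bijective : Function.Bijective (Rz.toCls (R := R)) := by
  refine ⟨fun x y h => ?_, fun P => ?_⟩
  · induction x using Quotient.ind with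
    | _ M =>
      induction y using Quotient.ind with
      | _ M' => exact Quotient.sound ((Rz.mk_toRig_eq_iff M M').mp h)
  · obtain ⟨P, rfl⟩ := Cls.mk_surjective P
    obtain ⟨M, hM⟩ := Rz.exists_toRig_eq P
    exact ⟨Quotient.mk _ M, hM⟩

/-- Rigidified line bundles on `C_R` are rigidified lattice pairs, up to isomorphism. -/
def clsEquiv : RigidifiedLineBundle.Classes c ε (specMap k R) ≃ Cls X R :=
  Equiv.ofBijective Rz.toCls Rz.toCls_bijective

theorem clsEquiv_mk (M : RigidifiedLineBundle c ε (specMap k R)) :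
    Rz.clsEquiv (Quotient.mk _ M) = Cls.mk (Rz.toRig M) := rfl

include Rz in
/-- Global functions on `C_R` are determined along the marked section. -/
theorem rigSection_appTop_injective :
    Function.Injective (rigSection c (specMap k R) ε).appTop := by
  rw [injective_iff_map_eq_zero]
  intro a ha
  let a0 := Rz.s0 R (rres le_top a)
  let a1 := Rz.s1 R (rres le_top a)
  have h01 : res0 X R a0 = res1 X R a1 := by
    rw [← Rz.s01_rres0, ← Rz.s01_rres1, rres_rres, rres_rres]
  obtain ⟨r, hr⟩ := exists_tmul_one_of_res_eq X R a0 a1 h01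
  have hev : evR X R a0 = 0 := by
    rw [← Rz.rigSection_appLE]
    show (Scheme.ΓSpecIso (CommRingCat.of R)).hom (((curveOver c R).presheaf.map (homOfLE le_top).op ≫
      (rigSection c (specMap k R) ε).appLE (Rz.W0 R) ⊤ (Rz.top_le_rigSection R)) a) = 0
    rw [Scheme.Hom.map_appLE]
    erw [appLE_top_top]
    rw [ha, map_zero]
  have hr0 : r = 0 := by
    rw [hr] at hev
    simpa [evR] using hev
  have ha0 : a0 = 0 := by rw [hr, hr0, zero_tmul]
  have ha1 : a1 = 0 := res1_injective X R (by rw [← h01, ha0, map_zero, map_zero])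
  refine eq_of_rres (fun b : Bool => cond b (Rz.W0 R) (Rz.W1 R)) (fun b => le_top) ?_ fun b => ?_
  · rw [← Rz.sup_eq_top R]
    exact sup_le (le_iSup (fun b : Bool => cond b (Rz.W0 R) (Rz.W1 R)) true)
      (le_iSup (fun b : Bool => cond b (Rz.W0 R) (Rz.W1 R)) false)
  · rw [map_zero]
    rcases b with _ | _
    · exact (Rz.s1 R).injective (ha1.trans (map_zero _).symm)
    · exact (Rz.s0 R).injective (ha0.trans (map_zero _).symm)

include Rz in
theorem rigSection_appTop_injective_of_iso {T : Scheme.{u}} (t : T ⟶ Spec (CommRingCat.of k))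
    (e : SchemeHomOver t (specMap k R)) [IsIso e.1] :
    Function.Injective (rigSection c t ε).appTop := by
  have : IsIso (baseChangeSnd c e) := by
    unfold baseChangeSnd
    exact pullback.map_isIso _ _ _ _ _ _ _ _ _
  have h : (baseChangeSnd c e).appTop ≫ (rigSection c t ε).appTop =
      (rigSection c (specMap k R) ε).appTop ≫ e.1.appTop := by
    rw [← Scheme.Hom.comp_appTop, ← Scheme.Hom.comp_appTop, rigSection_baseChangeSnd]
  have : IsIso (baseChangeSnd c e).appTop :=
    (inferInstance : IsIso (Scheme.Γ.map (baseChangeSnd c e).op))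
  have : IsIso e.1.appTop := (inferInstance : IsIso (Scheme.Γ.map e.1.op))
  intro x y hxy
  obtain ⟨x', rfl⟩ := (ConcreteCategory.bijective_of_isIso (baseChangeSnd c e).appTop).2 x
  obtain ⟨y', rfl⟩ := (ConcreteCategory.bijective_of_isIso (baseChangeSnd c e).appTop).2 y
  refine congrArg _ (Rz.rigSection_appTop_injective
    ((ConcreteCategory.bijective_of_isIso e.1.appTop).1 ?_))
  exact (congr($h x').symm.trans hxy).trans congr($h y')

include Rz in
/-- Functions on preimages of opens of the base are determined along the marked section. -/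
theorem sectionBij {T : Scheme.{u}} (t : T ⟶ Spec (CommRingCat.of k)) : SectionBij c t ε := by
  refine sectionBij_of_affine fun T' _ t' => ?_
  let f : k →+* Γ(T', ⊤) := ((Scheme.ΓSpecIso (CommRingCat.of k)).inv ≫ t'.appTop).hom
  let : Algebra k Γ(T', ⊤) := f.toAlgebra
  have he : T'.isoSpec.hom ≫ specMap k Γ(T', ⊤) = t' := by
    show T'.isoSpec.hom ≫ Spec.map ((Scheme.ΓSpecIso (CommRingCat.of k)).inv ≫ t'.appTop) = t'
    rw [Spec.map_comp, Scheme.isoSpec_hom_naturality_assoc, Scheme.isoSpec_Spec_hom,
      ← Spec.map_comp, Iso.inv_hom_id, Spec.map_id, Category.comp_id]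
  exact Rz.rigSection_appTop_injective_of_iso t' ⟨T'.isoSpec.hom, he⟩

end Fermat.Agent.RelPic.Realization
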