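import Fermat.Agent.RelPic.Lattice

/-!
# Algebraic facts about the model used by the bridge to schemes
-/

set_option autoImplicit false

noncomputable section

universe u

open TensorProduct

namespace Fermat.Agent.RelPic

variable {k : Type u} [Field k] (X : Model k) (R : Type u) [CommRing R] [Algebra k R]

/-- Global functions on the curve over `R` are constants. -/
theorem exists_tmul_one_of_res_eq (a : R ⊗[k] X.A0) (b : R ⊗[k] X.A1)
    (h : res0 X R a = res1 X R b) : ∃ r : R, a = r ⊗ₜ 1 := by
  have hm : res0 X R a ∈ LinearMap.range (Algebra.linearMap R (B01 X R)) := by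
    rw [← range_res0_inf_range_res1]
    exact ⟨⟨a, rfl⟩, ⟨b, h.symm⟩⟩
  obtain ⟨r, hr⟩ := hm
  refine ⟨r, res0_injective X R (hr.symm.trans ?_)⟩
  rw [res0_tmul, map_one, Algebra.linearMap_apply, Algebra.TensorProduct.algebraMap_apply]
  rfl

theorem swap_of_invertible {B N : Type u} [CommRing B] [AddCommGroup N] [Module B N]
    [Module.Invertible B N] (f : N →ₗ[B] B) (x y : N) : f x • y = f y • x := by
  have h : x ⊗ₜ[B] y = y ⊗ₜ[B] x := Module.Invertible.tmul_comm
  have := congrArg ((TensorProduct.lid B N).toLinearMap ∘ₗ f.rTensor N) h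
  simpa using this

theorem trace_eq_one {B N : Type u} [CommRing B] [AddCommGroup N] [Module B N]
    [Module.Invertible B N] {n : ℕ} (s : Fin n → N) (l : Fin n → N →ₗ[B] B)
    (hx : ∀ x, x = ∑ i, l i x • s i) : ∑ i, l i (s i) = 1 := by
  refine FaithfulSMul.eq_of_smul_eq_smul fun x : N => ?_
  rw [Finset.sum_smul, one_smul]
  exact (Finset.sum_congr rfl fun i _ => swap_of_invertible (l i) (s i) x).trans (hx x).symm

end Fermat.Agent.RelPic
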