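import Fermat.Agent.RelPic.GlueRho
import Fermat.Prelude.Def_AlgebraicGeometry_RepresentsRelSubPic

/-!
# Zariski sheaf property of rigidified line bundles and reduction to affine bases
-/

set_option autoImplicit false
set_option linter.unusedVariables false

noncomputable section

universe u

open CategoryTheory CategoryTheory.Limits TopologicalSpace AlgebraicGeometry
  AlgebraicGeometry.RelPicard NeronModelInfra GoodReductionJacobian

namespace AlgebraicGeometry.RelPicGlue

variable {R : Type u} [CommRing R] {C T : Scheme.{u}} {c : C ⟶ Spec (CommRingCat.of R)}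
  {t : T ⟶ Spec (CommRingCat.of R)} {ε : SchemeHomOver (𝟙 (Spec (CommRingCat.of R))) c}

/-- The inclusion of an open of the base. -/
def baseIncl (t : T ⟶ Spec (CommRingCat.of R)) (U : T.Opens) : SchemeHomOver (U.ι ≫ t) t :=
  ⟨U.ι, rfl⟩

/-- The inclusion of a smaller open of the base. -/
def baseInclLE (t : T ⟶ Spec (CommRingCat.of R)) {U V : T.Opens} (h : V ≤ U) :
    SchemeHomOver (V.ι ≫ t) (U.ι ≫ t) :=
  ⟨T.homOfLE h, by rw [← Category.assoc, Scheme.homOfLE_ι]⟩

theorem baseChangeSnd_eq_inv_fst {T' : Scheme.{u}} {t' : T' ⟶ Spec (CommRingCat.of R)}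
    (g : SchemeHomOver t' t) :
    baseChangeSnd c g = (pullback.congrHom rfl g.2.symm).hom ≫
      (pullbackLeftPullbackSndIso c t g.1).inv ≫ pullback.fst _ _ := by
  unfold baseChangeSnd
  apply pullback.hom_ext
  · simp [pullback.map, pullback.congrHom]
    erw [pullback.lift_fst, pullback.lift_fst]
  · simp [pullback.map, pullback.congrHom]
    erw [pullback.lift_snd, pullback.lift_snd_assoc]

instance isOpenImmersion_baseChangeSnd {T' : Scheme.{u}} {t' : T' ⟶ Spec (CommRingCat.of R)}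
    (g : SchemeHomOver t' t) [IsOpenImmersion g.1] : IsOpenImmersion (baseChangeSnd c g) := by
  rw [baseChangeSnd_eq_inv_fst]
  infer_instance

theorem opensRange_baseChangeSnd {T' : Scheme.{u}} {t' : T' ⟶ Spec (CommRingCat.of R)}
    (g : SchemeHomOver t' t) [IsOpenImmersion g.1] :
    (baseChangeSnd c g).opensRange = pullback.snd c t ⁻¹ᵁ g.1.opensRange := by
  rw [Scheme.Hom.opensRange.congr_simp _ _ (baseChangeSnd_eq_inv_fst g),
    Scheme.Hom.opensRange_comp_of_isIso, Scheme.Hom.opensRange_comp_of_isIso,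
    Scheme.Hom.opensRange_pullbackFst]

instance isOpenImmersion_baseIncl (U : T.Opens) : IsOpenImmersion (baseIncl t U).1 :=
  inferInstanceAs (IsOpenImmersion U.ι)

theorem opensRange_baseIncl (U : T.Opens) :
    (baseChangeSnd c (baseIncl t U)).opensRange = pullback.snd c t ⁻¹ᵁ U := by
  rw [opensRange_baseChangeSnd]
  exact congrArg _ (Scheme.Opens.opensRange_ι U)

theorem rigSection_snd (c : C ⟶ Spec (CommRingCat.of R)) (t : T ⟶ Spec (CommRingCat.of R))
    (ε : SchemeHomOver (𝟙 (Spec (CommRingCat.of R))) c) :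
    rigSection c t ε ≫ pullback.snd c t = 𝟙 T :=
  pullback.lift_snd _ _ _

theorem rigSection_preimage (U : T.Opens) :
    rigSection c t ε ⁻¹ᵁ (pullback.snd c t ⁻¹ᵁ U) = U := by
  rw [← Scheme.Hom.comp_preimage, rigSection_snd, Scheme.Hom.id_preimage]

/-- Functions on preimages of opens of the base are determined by the section. -/
def SectionBij (c : C ⟶ Spec (CommRingCat.of R)) (t : T ⟶ Spec (CommRingCat.of R))
    (ε : SchemeHomOver (𝟙 (Spec (CommRingCat.of R))) c) : Prop :=
  ∀ U : T.Opens, Function.Bijective ((rigSection c t ε).app (pullback.snd c t ⁻¹ᵁ U))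

theorem hasFrames (M : RigidifiedLineBundle c ε t) : HasFrames ⊤ M.L :=
  hasFrames_of_isInvertible M.isInvertible _

theorem exists_rho (M : RigidifiedLineBundle c ε t) :
    ∃ ρ : LocalHom ⊤ M.L (pushUnit (rigSection c t ε)), Attains ρ :=
  (nonempty_rigidified_iff _ (hasFrames M)).mp M.rigidified

/-- Rigidified line bundles which are isomorphic on an open cover of the base are isomorphic. -/
theorem nonempty_iso_of_locally (H : SectionBij c t ε) {ι : Type u} (U : ι → T.Opens)
    (hU : ⨆ i, U i = ⊤) (M M' : RigidifiedLineBundle c ε t)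
    (h : ∀ i, Nonempty ((M.pullbackAlong (baseIncl t (U i))).L ≅
      (M'.pullbackAlong (baseIncl t (U i))).L)) : Nonempty (M.L ≅ M'.L) := by
  obtain ⟨ρ, hρ⟩ := exists_rho M
  obtain ⟨ρ', hρ'⟩ := exists_rho M'
  refine nonempty_iso_of_local (fun i => pullback.snd c t ⁻¹ᵁ U i) ?_
    (fun i j => H (U i ⊓ U j)) (hasFrames M) ρ hρ ρ' hρ' fun i => ?_
  · rw [← Scheme.Hom.preimage_iSup, hU, Scheme.Hom.preimage_top]
  · obtain ⟨φ, hφ⟩ := exists_localHom_of_pullback_iso (h i).some
    exact ⟨φ.res (opensRange_baseIncl (U i)).ge, hφ.res _⟩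

/-- Rigidified line bundles on an open cover of the base, isomorphic on the overlaps, glue. -/
theorem exists_glue (H : SectionBij c t ε) {ι : Type u} (U : ι → T.Opens) (hU : ⨆ i, U i = ⊤)
    (M : ∀ i, RigidifiedLineBundle c ε ((U i).ι ≫ t))
    (h : ∀ i j, Nonempty (((M i).pullbackAlong (baseInclLE t inf_le_left)).L ≅
      ((M j).pullbackAlong (baseInclLE t (inf_le_right : U i ⊓ U j ≤ U j))).L)) :
    ∃ N : RigidifiedLineBundle c ε t,
      ∀ i, Nonempty ((N.pullbackAlong (baseIncl t (U i))).L ≅ (M i).L) := by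
  let b : ∀ i, pullback c ((U i).ι ≫ t) ⟶ pullback c t := fun i =>
    baseChangeSnd c (baseIncl t (U i))
  let N : ι → (pullback c t).Modules := fun i => (Scheme.Modules.pushforward (b i)).obj (M i).L
  let e : ∀ i, (Scheme.Modules.pullback (b i)).obj (N i) ≅ (M i).L := fun i =>
    ((Scheme.Modules.restrictFunctorIsoPullback (b i)).app (N i)).symm ≪≫
      (Scheme.Modules.restrictFunctorAdjCounitIso (b i)).app (M i).L
  have hW : ∀ i, (b i).opensRange = pullback.snd c t ⁻¹ᵁ U i := fun i => opensRange_baseIncl _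
  have hN : ∀ i, HasFrames (pullback.snd c t ⁻¹ᵁ U i) (N i) := fun i => by
    have hi : Scheme.Modules.IsInvertible ((Scheme.Modules.pullback (b i)).obj (N i)) := by
      refine ⟨fun x => ?_⟩
      obtain ⟨V, hxV, ⟨a⟩⟩ := (M i).isInvertible.exists_trivialization x
      exact ⟨V, hxV, ⟨(Scheme.Modules.pullback V.ι).mapIso (e i) ≪≫ a⟩⟩
    exact hW i ▸ hasFrames_opensRange (b i) hi
  have hρ : ∀ i, ∃ ρ : LocalHom (pullback.snd c t ⁻¹ᵁ U i) (N i)
      (pushUnit (rigSection c t ε)), Attains ρ := fun i => by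
    obtain ⟨ρ₀, hρ₀⟩ := exists_rho (M i)
    have hsq : rigSection c ((U i).ι ≫ t) ε ≫ b i = (U i).ι ≫ rigSection c t ε :=
      rigSection_baseChangeSnd c ε (baseIncl t (U i))
    have hcart : rigSection c t ε ⁻¹ᵁ (b i).opensRange ≤ (U i).ι.opensRange := by
      rw [hW i, rigSection_preimage, Scheme.Opens.opensRange_ι]
    let e' : (N i).restrict (b i) ⟶ (M i).L :=
      (Scheme.Modules.restrictFunctorAdjCounitIso (b i)).hom.app (M i).L
    have hA := attains_transportRho hsq hcart e' hρ₀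
    exact hW i ▸ ⟨_, hA⟩
  choose ρ hρ' using hρ
  have hover : ∀ i j, ∃ φ : LocalHom (pullback.snd c t ⁻¹ᵁ U i ⊓ pullback.snd c t ⁻¹ᵁ U j)
      (N i) (N j), φ.Bij := fun i j => by
    let k := baseChangeSnd c (baseIncl t (U i ⊓ U j))
    have hk : ∀ {l : ι} (hl : U i ⊓ U j ≤ U l), baseChangeSnd c (baseInclLE t hl) ≫ b l = k :=
      fun hl => (baseChangeSnd_comp c _ _).trans
        (congrArg (baseChangeSnd c) (Subtype.ext (Scheme.homOfLE_ι T hl)))
    let ek : ∀ {l : ι} (hl : U i ⊓ U j ≤ U l), (Scheme.Modules.pullback k).obj (N l) ≅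
        ((M l).pullbackAlong (baseInclLE t hl)).L := fun {l} hl =>
      (Scheme.Modules.pullbackCongr (hk hl).symm).app (N l) ≪≫
        ((Scheme.Modules.pullbackComp _ _).app (N l)).symm ≪≫
        (Scheme.Modules.pullback _).mapIso (e l)
    obtain ⟨φ, hφ⟩ := exists_localHom_of_pullback_iso
      (ek inf_le_left ≪≫ (h i j).some ≪≫ (ek inf_le_right).symm)
    exact ⟨φ.res (opensRange_baseIncl (U i ⊓ U j)).ge, hφ.res _⟩
  obtain ⟨L, r, hL, hr, hπ⟩ := exists_glued (σ := rigSection c t ε)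
    (fun i => pullback.snd c t ⁻¹ᵁ U i)
    (by rw [← Scheme.Hom.preimage_iSup, hU, Scheme.Hom.preimage_top])
    (fun i j => H (U i ⊓ U j)) (fun i j l => H (U i ⊓ U j ⊓ U l)) N hN ρ hρ' hover
  refine ⟨⟨L, isInvertible_of_hasFrames hL, (nonempty_rigidified_iff _ hL).mpr ⟨r, hr⟩⟩,
    fun i => ?_⟩
  obtain ⟨π, hπb⟩ := hπ i
  obtain ⟨q⟩ := nonempty_pullback_iso (f := b i) π hπb (hW i).le
  exact ⟨q ≪≫ e i⟩

theorem appLE_congr_of_eq {X Y : Scheme.{u}} {f g : X ⟶ Y} (h : f = g) {U : Y.Opens} {V : X.Opens}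
    (e : V ≤ f ⁻¹ᵁ U) (e' : V ≤ g ⁻¹ᵁ U) : f.appLE U V e = g.appLE U V e' := by
  subst h; rfl

/-- `SectionBij` follows from injectivity over affine bases. -/
theorem sectionBij_of_affine
    (H : ∀ (T' : Scheme.{u}) [IsAffine T'] (t' : T' ⟶ Spec (CommRingCat.of R)),
      Function.Injective (rigSection c t' ε).appTop) : SectionBij c t ε := by
  intro U
  refine ⟨?_, fun z => ⟨(pullback.snd c t).app U (rres (rigSection_preimage U).ge z), ?_⟩⟩
  · rw [injective_iff_map_eq_zero]
    intro a ha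
    refine eq_of_rres (fun A : {A : T.affineOpens // A.1 ≤ U} => pullback.snd c t ⁻¹ᵁ A.1.1)
      (fun A => Scheme.Hom.preimage_mono _ A.2) ?_ fun A => ?_
    · intro x hx
      obtain ⟨V, hV, hxV, hVU⟩ :=
        Opens.isBasis_iff_nbhd.mp T.isBasis_affineOpens (hx : pullback.snd c t x ∈ U)
      exact Opens.mem_iSup.mpr ⟨⟨⟨V, hV⟩, hVU⟩, hxV⟩
    · have : IsAffine (A.1.1 : Scheme.{u}) := A.1.2
      let b := baseChangeSnd c (baseIncl t A.1.1)
      have hb : pullback.snd c t ⁻¹ᵁ A.1.1 = b ''ᵁ ⊤ := by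
        rw [Scheme.Hom.image_top_eq_opensRange, opensRange_baseIncl]
      have hle : b ''ᵁ ⊤ ≤ pullback.snd c t ⁻¹ᵁ U :=
        hb.ge.trans (Scheme.Hom.preimage_mono _ A.2)
      have h1 : (b.appIso ⊤).hom (rres hle a) = 0 := by
        apply H A.1.1 (A.1.1.ι ≫ t)
        rw [map_zero]
        have hle' : (⊤ : (A.1.1 : Scheme.{u}).Opens) ≤
            A.1.1.ι ⁻¹ᵁ (rigSection c t ε ⁻¹ᵁ (pullback.snd c t ⁻¹ᵁ U)) := by
          rw [rigSection_preimage]
          exact fun x _ => A.2 x.2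
        have h2 : A.1.1.ι.appLE _ ⊤ hle' ((rigSection c t ε).app _ a) = 0 := by
          rw [ha, map_zero]
        refine Eq.trans ?_ h2
        show (((pullback c t).presheaf.map (homOfLE hle).op ≫ (b.appIso ⊤).hom) ≫
            (rigSection c (A.1.1.ι ≫ t) ε).appTop) a =
          ((rigSection c t ε).app _ ≫ A.1.1.ι.appLE _ ⊤ hle') a
        simp only [Scheme.Hom.appIso_hom', Scheme.Hom.map_appLE, Scheme.Hom.appTop,
          Scheme.Hom.app_eq_appLE, Scheme.Hom.appLE_comp_appLE]
        erw [Scheme.Hom.appLE_comp_appLE]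
        congr 2
        exact appLE_congr_of_eq (rigSection_baseChangeSnd c ε (baseIncl t A.1.1)) _ _
      have h3 : rres hle a = 0 :=
        (ConcreteCategory.bijective_of_isIso (b.appIso ⊤).hom).1 (h1.trans (map_zero _).symm)
      rw [map_zero]
      have h4 := congrArg (rres hb.le) h3
      rw [rres_rres, map_zero] at h4
      exact h4
  · show ((T.presheaf.map (homOfLE (rigSection_preimage U).ge).op ≫ (pullback.snd c t).app U) ≫
      (rigSection c t ε).app _) z = z
    rw [Category.assoc, ← Scheme.Hom.comp_app, Scheme.Hom.congr_app (rigSection_snd c t ε) U]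
    show rres (rigSection_preimage U).le (rres (rigSection_preimage U).ge z) = z
    rw [rres_rres, rres_self]

section Affine

variable {D : RelativePic0Designation R c} {P : SubPicCondition c ε}
  (Pm : RigidifiedLineBundle c ε D.toBase)

theorem pullbackAlong_pullbackAlong {X X' T' : Scheme.{u}} {x : X ⟶ Spec (CommRingCat.of R)}
    {x' : X' ⟶ Spec (CommRingCat.of R)} {t' : T' ⟶ Spec (CommRingCat.of R)}
    (M : RigidifiedLineBundle c ε x') (φ : SchemeHomOver x x') (ψ : SchemeHomOver t' x) :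
    Nonempty (((M.pullbackAlong φ).pullbackAlong ψ).L ≅ (M.pullbackAlong (postComp φ ψ)).L) :=
  ⟨(Scheme.Modules.pullbackComp _ _).app M.L ≪≫
    (Scheme.Modules.pullbackCongr (baseChangeSnd_comp c φ ψ)).app M.L⟩

end Affine

end AlgebraicGeometry.RelPicGlue
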