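import Fermat.Agent.RelPic.Realization
import Fermat.Agent.RelPic.GlueClasses

/-!
# Affine charts of the base change of a realised curve
-/

set_option autoImplicit false
set_option linter.unusedVariables false

noncomputable section

universe u

open CategoryTheory CategoryTheory.Limits AlgebraicGeometry NeronModelInfra
  AlgebraicGeometry.RelPicard AlgebraicGeometry.RelPicGlue TensorProduct

namespace Fermat.Agent.RelPic

variable {k : Type u} [Field k] {C : Scheme.{u}} (c : C ⟶ Spec (CommRingCat.of k))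

/-- Base change of the curve to a `k`-algebra. -/
abbrev curveOver (R : Type u) [CommRing R] [Algebra k R] : Scheme.{u} :=
  pullback c (specMap k R)

section Chart

variable {A : Type u} [CommRing A] [Algebra k A] (j : Spec (CommRingCat.of A) ⟶ C)
  (hj : j ≫ c = specMap k A) (R : Type u) [CommRing R] [Algebra k R]

/-- The chart `Spec (R ⊗ A) ⟶ C_R`. -/
def chartMap : Spec (CommRingCat.of (R ⊗[k] A)) ⟶ curveOver c R :=
  pullback.lift
    (Spec.map (CommRingCat.ofHom (Algebra.TensorProduct.includeRight (R := k) (A := R) (B := A)).toRingHom) ≫ j)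
    (Spec.map (CommRingCat.ofHom (Algebra.TensorProduct.includeLeftRingHom (R := k) (A := R) (B := A))))
    (by
      rw [Category.assoc, hj, ← Spec.map_comp, ← Spec.map_comp, ← CommRingCat.ofHom_comp,
        ← CommRingCat.ofHom_comp]
      congr 2
      ext x
      simp)

theorem chartMap_fst : chartMap c j hj R ≫ pullback.fst c (specMap k R) =
    Spec.map (CommRingCat.ofHom (Algebra.TensorProduct.includeRight (R := k) (A := R) (B := A)).toRingHom) ≫ j :=
  pullback.lift_fst _ _ _

theorem chartMap_snd : chartMap c j hj R ≫ pullback.snd c (specMap k R) =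
    Spec.map (CommRingCat.ofHom (Algebra.TensorProduct.includeLeftRingHom (R := k) (A := R) (B := A))) :=
  pullback.lift_snd _ _ _

theorem isPullback_chartMap :
    IsPullback (chartMap c j hj R)
      (Spec.map (CommRingCat.ofHom (Algebra.TensorProduct.includeRight (R := k) (A := R) (B := A)).toRingHom))
      (pullback.fst c (specMap k R)) j := by
  refine IsPullback.of_right ?_ (chartMap_fst c j hj R) (IsPullback.of_hasPullback c (specMap k R)).flip
  rw [chartMap_snd, hj]
  exact isPullback_SpecMap_of_isPushout _ _ _ _ (CommRingCat.isPushout_tensorProduct k R A)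

variable [IsOpenImmersion j]

instance isOpenImmersion_chartMap : IsOpenImmersion (chartMap c j hj R) :=
  MorphismProperty.of_isPullback (P := @IsOpenImmersion) (isPullback_chartMap c j hj R).flip ‹_›

/-- The open of `C_R` over the range of `j`. -/
def chartOpen : (curveOver c R).Opens := pullback.fst c (specMap k R) ⁻¹ᵁ j.opensRange

theorem opensRange_chartMap : (chartMap c j hj R).opensRange = chartOpen c j R := by
  rw [Scheme.Hom.opensRange.congr_simp _ _ ((isPullback_chartMap c j hj R).isoPullback_hom_fst).symm,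
    Scheme.Hom.opensRange_comp_of_isIso, Scheme.Hom.opensRange_pullbackFst]
  rfl

theorem isAffineOpen_chartOpen (hj : j ≫ c = specMap k A) : IsAffineOpen (chartOpen c j R) := by
  rw [← opensRange_chartMap c j hj R]
  exact isAffineOpen_opensRange _

theorem top_le_chartMap :
    (⊤ : (Spec (CommRingCat.of (R ⊗[k] A))).Opens) ≤ chartMap c j hj R ⁻¹ᵁ chartOpen c j R := by
  rw [← opensRange_chartMap c j hj R, Scheme.Hom.preimage_opensRange]

theorem isIso_appLE_of_range {Y Z : Scheme.{u}} (q : Y ⟶ Z) [IsOpenImmersion q] {W : Z.Opens}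
    (hW : q ''ᵁ ⊤ = W) (e : ⊤ ≤ q ⁻¹ᵁ W) : IsIso (q.appLE W ⊤ e) := by
  subst hW
  rw [show q.appLE (q ''ᵁ ⊤) ⊤ e = (q.appIso ⊤).hom from (Scheme.Hom.appIso_hom' q ⊤).symm]
  infer_instance

/-- Functions on the chart. -/
def secs : Γ(curveOver c R, chartOpen c j R) ≃+* R ⊗[k] A :=
  RingEquiv.ofBijective ((chartMap c j hj R).appLE (chartOpen c j R) ⊤ (top_le_chartMap c j hj R) ≫
      (Scheme.ΓSpecIso (CommRingCat.of (R ⊗[k] A))).hom).hom <| by
    have := isIso_appLE_of_range (chartMap c j hj R)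
      ((Scheme.Hom.image_top_eq_opensRange _).trans (opensRange_chartMap c j hj R))
      (top_le_chartMap c j hj R)
    exact ConcreteCategory.bijective_of_isIso _

/-- A morphism from an affine scheme through the chart, on functions. -/
theorem secs_comp {B : Type u} [CommRing B] (h : R ⊗[k] A →+* B)
    (b : Spec (CommRingCat.of B) ⟶ curveOver c R)
    (hb : b = Spec.map (CommRingCat.ofHom h) ≫ chartMap c j hj R) (e : ⊤ ≤ b ⁻¹ᵁ chartOpen c j R)
    (x : Γ(curveOver c R, chartOpen c j R)) :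
    (Scheme.ΓSpecIso (CommRingCat.of B)).hom (b.appLE (chartOpen c j R) ⊤ e x) =
      h (secs c j hj R x) := by
  subst hb
  show (_ ≫ (Scheme.ΓSpecIso (CommRingCat.of B)).hom) x =
    (((chartMap c j hj R).appLE (chartOpen c j R) ⊤ (top_le_chartMap c j hj R) ≫
      (Scheme.ΓSpecIso (CommRingCat.of (R ⊗[k] A))).hom) ≫ CommRingCat.ofHom h) x
  rw [Category.assoc, ← Scheme.ΓSpecIso_naturality, ← Category.assoc, Scheme.Hom.appTop,
    Scheme.Hom.app_eq_appLE]
  erw [Scheme.Hom.appLE_comp_appLE]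
  rfl

omit [IsOpenImmersion j] in
theorem appLE_top_top {Y Z : Scheme.{u}} (f : Y ⟶ Z) (e : ⊤ ≤ f ⁻¹ᵁ ⊤) :
    f.appLE ⊤ ⊤ e = f.appTop :=
  (Scheme.Hom.app_eq_appLE f).symm

omit [IsOpenImmersion j] in
theorem id_appLE' {Y : Scheme.{u}} {U V : Y.Opens} (e : V ≤ 𝟙 Y ⁻¹ᵁ U) (x : Γ(Y, U)) :
    (𝟙 Y : Y ⟶ Y).appLE U V e x = rres (e : V ≤ U) x := by
  show ((𝟙 Y : Y ⟶ Y).app U ≫ Y.presheaf.map (homOfLE e).op) x = _
  rw [Scheme.Hom.id_app]
  rfl

variable {A' : Type u} [CommRing A'] [Algebra k A'] (j' : Spec (CommRingCat.of A') ⟶ C)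
  (hj' : j' ≫ c = specMap k A') [IsOpenImmersion j'] (R' : Type u) [CommRing R'] [Algebra k R']

/-- Compatibility of functions on charts with morphisms. -/
theorem secs_square (h : R ⊗[k] A →+* R' ⊗[k] A') (b : curveOver c R' ⟶ curveOver c R)
    (hb : chartMap c j' hj' R' ≫ b = Spec.map (CommRingCat.ofHom h) ≫ chartMap c j hj R)
    (e : chartOpen c j' R' ≤ b ⁻¹ᵁ chartOpen c j R) (x : Γ(curveOver c R, chartOpen c j R)) :
    secs c j' hj' R' (b.appLE (chartOpen c j R) (chartOpen c j' R') e x) =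
      h (secs c j hj R x) := by
  have e' : ⊤ ≤ (chartMap c j' hj' R' ≫ b) ⁻¹ᵁ chartOpen c j R :=
    (top_le_chartMap c j' hj' R').trans (Scheme.Hom.preimage_mono _ e)
  rw [← secs_comp c j hj R h _ hb e' x]
  show (b.appLE _ _ e ≫ (chartMap c j' hj' R').appLE _ ⊤ _ ≫ _) x = _
  rw [Scheme.Hom.appLE_comp_appLE_assoc]
  rfl

omit [IsOpenImmersion j] [IsOpenImmersion j'] in
theorem chartMap_change (φ : R →ₐ[k] R') (h : A →ₐ[k] A')
    (hh : Spec.map (CommRingCat.ofHom h.toRingHom) ≫ j = j')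
    (b : curveOver c R' ⟶ curveOver c R)
    (hb₁ : b ≫ pullback.fst c (specMap k R) = pullback.fst c (specMap k R'))
    (hb₂ : b ≫ pullback.snd c (specMap k R) =
      pullback.snd c (specMap k R') ≫ Spec.map (CommRingCat.ofHom φ.toRingHom)) :
    chartMap c j' hj' R' ≫ b =
      Spec.map (CommRingCat.ofHom (Algebra.TensorProduct.map φ h).toRingHom) ≫ chartMap c j hj R := by
  apply pullback.hom_ext
  · rw [Category.assoc, hb₁, chartMap_fst, Category.assoc, chartMap_fst, ← hh, ← Category.assoc,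
      ← Category.assoc, ← Spec.map_comp, ← Spec.map_comp, ← CommRingCat.ofHom_comp,
      ← CommRingCat.ofHom_comp]
    congr 3
    ext x
    simp
  · rw [Category.assoc, hb₂, ← Category.assoc, chartMap_snd, Category.assoc, chartMap_snd,
      ← Spec.map_comp, ← Spec.map_comp, ← CommRingCat.ofHom_comp, ← CommRingCat.ofHom_comp]
    congr 2
    ext x
    simp

end Chart

namespace Realization

variable {X : Model k} {c} {ε : SchemeHomOver (𝟙 (Spec (CommRingCat.of k))) c}
  (Rz : Realization X c ε) (R : Type u) [CommRing R] [Algebra k R]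
  (R' : Type u) [CommRing R'] [Algebra k R']

instance instIsOpenImmersion0 : IsOpenImmersion Rz.j0 := Rz.isOpenImmersion0

instance instIsOpenImmersion1 : IsOpenImmersion Rz.j1 := Rz.isOpenImmersion1

/-- The overlap of the two pieces. -/
def j01 : Spec (CommRingCat.of X.A01) ⟶ C := Spec.map (CommRingCat.ofHom X.ι0.toRingHom) ≫ Rz.j0

theorem over01 : Rz.j01 ≫ c = specMap k X.A01 := by
  rw [j01, Category.assoc, Rz.over0, ← Spec.map_comp, ← CommRingCat.ofHom_comp]
  congr 2
  exact X.ι0.comp_algebraMap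

instance instIsOpenImmersion01 : IsOpenImmersion Rz.j01 :=
  haveI : IsOpenImmersion (Spec.map (CommRingCat.ofHom X.ι0.toRingHom)) :=
    MorphismProperty.of_isPullback (P := @IsOpenImmersion) Rz.isPullback.flip Rz.isOpenImmersion1
  inferInstanceAs (IsOpenImmersion (Spec.map (CommRingCat.ofHom X.ι0.toRingHom) ≫ Rz.j0))

theorem opensRange_j01 : Rz.j01.opensRange = Rz.j0.opensRange ⊓ Rz.j1.opensRange := by
  ext x
  constructor
  · rintro ⟨y, rfl⟩
    refine ⟨⟨_, rfl⟩, ⟨Spec.map (CommRingCat.ofHom X.ι1.toRingHom) y, ?_⟩⟩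
    exact congr($(Rz.isPullback.w) y).symm
  · rintro ⟨⟨a, ha⟩, ⟨b, hb⟩⟩
    obtain ⟨z, hz, -⟩ := Scheme.Pullback.exists_preimage_pullback a b (ha.trans hb.symm)
    refine ⟨Rz.isPullback.isoPullback.inv z, ?_⟩
    rw [← ha, ← hz, j01, ← Scheme.Hom.comp_apply, ← Category.assoc,
      Rz.isPullback.isoPullback_inv_fst, Scheme.Hom.comp_apply]

/-- The first piece over `R`. -/
abbrev W0 : (curveOver c R).Opens := chartOpen c Rz.j0 R

/-- The second piece over `R`. -/
abbrev W1 : (curveOver c R).Opens := chartOpen c Rz.j1 R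

/-- The overlap over `R`. -/
abbrev W01 : (curveOver c R).Opens := chartOpen c Rz.j01 R

theorem W01_eq : Rz.W01 R = Rz.W0 R ⊓ Rz.W1 R := by
  unfold W01 W0 W1 chartOpen
  rw [opensRange_j01]
  rfl

theorem W01_le0 : Rz.W01 R ≤ Rz.W0 R := Rz.W01_eq R ▸ inf_le_left

theorem W01_le1 : Rz.W01 R ≤ Rz.W1 R := Rz.W01_eq R ▸ inf_le_right

theorem sup_eq_top : Rz.W0 R ⊔ Rz.W1 R = ⊤ :=
  eq_top_iff.mpr fun y _ => Rz.cover (pullback.fst c (specMap k R) y)

theorem isAffineOpen0 : IsAffineOpen (Rz.W0 R) := isAffineOpen_chartOpen c Rz.j0 R Rz.over0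

theorem isAffineOpen1 : IsAffineOpen (Rz.W1 R) := isAffineOpen_chartOpen c Rz.j1 R Rz.over1

theorem isAffineOpen01 : IsAffineOpen (Rz.W01 R) := isAffineOpen_chartOpen c Rz.j01 R Rz.over01

/-- Functions on the first piece. -/
def s0 : Γ(curveOver c R, Rz.W0 R) ≃+* R ⊗[k] X.A0 := secs c Rz.j0 Rz.over0 R

/-- Functions on the second piece. -/
def s1 : Γ(curveOver c R, Rz.W1 R) ≃+* R ⊗[k] X.A1 := secs c Rz.j1 Rz.over1 R

/-- Functions on the overlap. -/
def s01 : Γ(curveOver c R, Rz.W01 R) ≃+* B01 X R := secs c Rz.j01 Rz.over01 R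

theorem s01_rres0 (x : Γ(curveOver c R, Rz.W0 R)) :
    Rz.s01 R (rres (Rz.W01_le0 R) x) = res0 X R (Rz.s0 R x) := by
  have := secs_square c Rz.j0 Rz.over0 R Rz.j01 Rz.over01 R (res0 X R).toRingHom (𝟙 _)
    (chartMap_change c Rz.j0 Rz.over0 R Rz.j01 Rz.over01 R (AlgHom.id k R) X.ι0 rfl (𝟙 _)
      (Category.id_comp _) (by
        rw [Category.id_comp]
        erw [CommRingCat.ofHom_id, Spec.map_id, Category.comp_id]))
    (Rz.W01_le0 R) x
  erw [id_appLE'] at this
  exact this

theorem s01_rres1 (x : Γ(curveOver c R, Rz.W1 R)) :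
    Rz.s01 R (rres (Rz.W01_le1 R) x) = res1 X R (Rz.s1 R x) := by
  have := secs_square c Rz.j1 Rz.over1 R Rz.j01 Rz.over01 R (res1 X R).toRingHom (𝟙 _)
    (chartMap_change c Rz.j1 Rz.over1 R Rz.j01 Rz.over01 R (AlgHom.id k R) X.ι1
      Rz.isPullback.w.symm (𝟙 _)
      (Category.id_comp _) (by
        rw [Category.id_comp]
        erw [CommRingCat.ofHom_id, Spec.map_id, Category.comp_id]))
    (Rz.W01_le1 R) x
  erw [id_appLE'] at this
  exact this

/-- The marked section in the first chart. -/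
theorem rigSection_eq : rigSection c (specMap k R) ε =
    Spec.map (CommRingCat.ofHom (evR X R).toRingHom) ≫ chartMap c Rz.j0 Rz.over0 R := by
  apply pullback.hom_ext
  · rw [rigSection, pullback.lift_fst, Category.assoc, chartMap_fst, ← Category.assoc,
      ← Spec.map_comp, ← CommRingCat.ofHom_comp, ← Rz.marked, ← Category.assoc, ← Spec.map_comp,
      ← CommRingCat.ofHom_comp]
    congr 3
    ext x
    simp [evR, Algebra.ofId_apply]
  · rw [rigSection, pullback.lift_snd, Category.assoc, chartMap_snd, ← Spec.map_comp,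
      ← CommRingCat.ofHom_comp]
    refine (Spec.map_id _).symm.trans (congrArg Spec.map ?_)
    ext x
    simp [evR]

theorem top_le_rigSection :
    (⊤ : (Spec (CommRingCat.of R)).Opens) ≤ rigSection c (specMap k R) ε ⁻¹ᵁ Rz.W0 R := by
  rw [Rz.rigSection_eq R, Scheme.Hom.comp_preimage]
  intro x _
  exact top_le_chartMap c Rz.j0 Rz.over0 R trivial

theorem rigSection_appLE (x : Γ(curveOver c R, Rz.W0 R)) :
    (Scheme.ΓSpecIso (CommRingCat.of R)).hom ((rigSection c (specMap k R) ε).appLE (Rz.W0 R) ⊤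
      (Rz.top_le_rigSection R) x) = evR X R (Rz.s0 R x) :=
  secs_comp c Rz.j0 Rz.over0 R (evR X R).toRingHom _ (Rz.rigSection_eq R) _ x

end Realization

end Fermat.Agent.RelPic
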