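import Fermat.Agent.RelPic.GlueRho

/-!
# Dual modules and finite dual bases of invertible modules on affine opens
-/

set_option autoImplicit false
set_option linter.unusedVariables false

noncomputable section

universe u

open CategoryTheory TopologicalSpace AlgebraicGeometry Opposite

namespace AlgebraicGeometry.RelPicGlue

variable {X : Scheme.{u}} {L L' : X.Modules}

namespace LocalHom

variable {W : X.Opens}

/-- The value of a functional on a section. -/
def lval (l : LocalHom W L (oUnit X)) {V : X.Opens} (hV : V ≤ W) (x : Γ(L, V)) : Γ(X, V) :=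
  l.app V hV x

theorem lval_smul (l : LocalHom W L (oUnit X)) {V : X.Opens} (hV : V ≤ W) (r : Γ(X, V))
    (x : Γ(L, V)) : l.lval hV (r • x) = r * l.lval hV x := l.map_smul V hV r x

theorem lval_add (l : LocalHom W L (oUnit X)) {V : X.Opens} (hV : V ≤ W) (x y : Γ(L, V)) :
    l.lval hV (x + y) = l.lval hV x + l.lval hV y := map_add (l.app V hV) x y

theorem lval_sres (l : LocalHom W L (oUnit X)) {V V' : X.Opens} (hV : V ≤ W) (h : V' ≤ V)
    (x : Γ(L, V)) : l.lval (h.trans hV) (sres L h x) = rres h (l.lval hV x) :=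
  (l.naturality V V' hV h x).symm

instance : Zero (LocalHom W L L') :=
  ⟨{ app := fun _ _ => 0
     map_smul := fun V hV r s => (smul_zero r).symm
     naturality := fun V V' hV h s => map_zero _ }⟩

instance : Add (LocalHom W L L') :=
  ⟨fun f g =>
    { app := fun V hV => f.app V hV + g.app V hV
      map_smul := fun V hV r s => by simp [f.map_smul, g.map_smul, smul_add]
      naturality := fun V V' hV h s => by simp [f.naturality _ _ hV, g.naturality _ _ hV] }⟩

instance : Neg (LocalHom W L L') :=
  ⟨fun f =>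
    { app := fun V hV => -f.app V hV
      map_smul := fun V hV r s => by simp [f.map_smul]
      naturality := fun V V' hV h s => by simp [f.naturality _ _ hV] }⟩

theorem ext_app {f g : LocalHom W L L'} (h : ∀ V hV s, f.app V hV s = g.app V hV s) : f = g :=
  LocalHom.ext (funext fun V => funext fun hV => AddMonoidHom.ext fun s => h V hV s)

instance : AddCommGroup (LocalHom W L L') where
  add_assoc f g h := ext_app fun V hV s => add_assoc _ _ _
  zero_add f := ext_app fun V hV s => zero_add _
  add_zero f := ext_app fun V hV s => add_zero _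
  add_comm f g := ext_app fun V hV s => add_comm _ _
  neg_add_cancel f := ext_app fun V hV s => neg_add_cancel _
  nsmul := nsmulRec
  zsmul := zsmulRec

instance : Module Γ(X, W) (LocalHom W L L') where
  smul a f := f.smulFun a
  one_smul f := ext_app fun V hV s => by
    show rres hV 1 • f.app V hV s = _
    rw [map_one, one_smul]
  mul_smul a b f := ext_app fun V hV s => by
    show rres hV (a * b) • f.app V hV s = rres hV a • rres hV b • f.app V hV s
    rw [map_mul, mul_smul]
  smul_zero a := ext_app fun V hV s => smul_zero _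
  smul_add a f g := ext_app fun V hV s => smul_add _ _ _
  add_smul a b f := ext_app fun V hV s => by
    show rres hV (a + b) • f.app V hV s = rres hV a • f.app V hV s + rres hV b • f.app V hV s
    rw [map_add, add_smul]
  zero_smul f := ext_app fun V hV s => by
    show rres hV 0 • f.app V hV s = 0
    rw [map_zero, zero_smul]

end LocalHom

theorem LocalHom.res_smulFun {W W' : X.Opens} (h : W' ≤ W) (m : LocalHom W L L') (r : Γ(X, W)) :
    (m.smulFun r).res h = (m.res h).smulFun (rres h r) :=
  LocalHom.ext_app fun U hU s => by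
    simp only [LocalHom.res_app, LocalHom.smulFun_app, rres_rres]

variable (L) in
/-- The presheaf of local functionals. -/
def dualPresheaf : X.Opensᵒᵖ ⥤ Ab.{u} where
  obj V := AddCommGrpCat.of (LocalHom V.unop L (oUnit X))
  map i := AddCommGrpCat.ofHom
    { toFun := fun f => f.res (leOfHom i.unop)
      map_zero' := rfl
      map_add' := fun f g => rfl }
  map_id V := by ext f; rfl
  map_comp f g := by ext x; rfl

instance dualPresheaf_module (V : X.Opensᵒᵖ) :
    Module (X.ringCatSheaf.obj.obj V) ((dualPresheaf L).obj V) :=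
  inferInstanceAs (Module Γ(X, V.unop) (LocalHom V.unop L (oUnit X)))

variable (L) in
/-- The dual of a module. -/
def dualMod : X.Modules where
  val := PresheafOfModules.ofPresheaf (dualPresheaf L) fun V W i r m =>
    LocalHom.res_smulFun (leOfHom i.unop) m r
  isSheaf := by
    show TopCat.Presheaf.IsSheaf (dualPresheaf L)
    rw [TopCat.Presheaf.isSheaf_iff_isSheafUniqueGluing]
    intro κ U sf hsf
    have agree : ∀ a b V (ha : V ≤ U a) (hb : V ≤ U b) s,
        (sf a : LocalHom (U a) L (oUnit X)).app V ha s =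
          (sf b : LocalHom (U b) L (oUnit X)).app V hb s := fun a b V ha hb s =>
      congrArg (fun f : LocalHom (U a ⊓ U b) L (oUnit X) => f.app V (le_inf ha hb) s) (hsf a b)
    refine ⟨LocalHom.glue (W := iSup U) U le_rfl sf agree, fun a => LocalHom.ext_app fun V hV s =>
      LocalHom.glue_app U le_rfl sf agree a V (hV.trans (le_iSup U a)) hV s, fun g hg => LocalHom.ext_app fun V hV s => ?_⟩
    refine eq_of_sres (fun a => V ⊓ U a) (fun a => inf_le_left)
      (by rw [← inf_iSup_eq]; exact le_inf le_rfl hV) fun a => ?_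
    rw [(g : LocalHom (iSup U) L (oUnit X)).naturality _ _ hV,
      (LocalHom.glue (W := iSup U) U le_rfl sf agree).naturality _ _ hV,
      LocalHom.glue_app U le_rfl sf agree a _ _ inf_le_right]
    exact congrArg (fun f : LocalHom (U a) L (oUnit X) => f.app _ inf_le_right _) (hg a)

/-- A local functional as a section of the dual. -/
def toDual {V : X.Opens} (f : LocalHom V L (oUnit X)) : Γ(dualMod L, V) := f

/-- A section of the dual as a local functional. -/
def ofDual {V : X.Opens} (f : Γ(dualMod L, V)) : LocalHom V L (oUnit X) := f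

theorem ofDual_smul {V : X.Opens} (r : Γ(X, V)) (f : Γ(dualMod L, V)) :
    ofDual (r • f) = (ofDual f).smulFun r := rfl

theorem ofDual_sres {V V' : X.Opens} (h : V' ≤ V) (f : Γ(dualMod L, V)) :
    ofDual (sres (dualMod L) h f) = (ofDual f).res h := rfl

/-- The coordinate functional of a frame. -/
def IsFrame.coord {V : X.Opens} {e : Γ(L, V)} (he : IsFrame e) : LocalHom V L (oUnit X) :=
  (LocalHom.ofSection e).symm fun V' h => he V' h

theorem IsFrame.coord_smul {V V' : X.Opens} {e : Γ(L, V)} (he : IsFrame e) (h : V' ≤ V)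
    (r : Γ(X, V')) : he.coord.lval h (r • RelPicGlue.sres L h e) = r :=
  (LocalHom.ofSection e).symm_app_app (fun V' h => he V' h) V' h r

theorem IsFrame.coord_spec {V V' : X.Opens} {e : Γ(L, V)} (he : IsFrame e) (h : V' ≤ V)
    (x : Γ(L, V')) : he.coord.lval h x • RelPicGlue.sres L h e = x :=
  (LocalHom.ofSection e).app_symm_app (fun V' h => he V' h) V' h x

theorem IsFrame.dual {V : X.Opens} {e : Γ(L, V)} (he : IsFrame e) :
    IsFrame (toDual he.coord) := fun V' h => by
  refine ⟨fun a b hab => ?_, fun f => ⟨(ofDual f).lval le_rfl (RelPicGlue.sres L h e), ?_⟩⟩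
  · have h1 := congrArg (fun g : Γ(dualMod L, V') =>
      (ofDual g).lval le_rfl ((1 : Γ(X, V')) • RelPicGlue.sres L h e)) hab
    simpa only [ofDual_smul, ofDual_sres, LocalHom.lval, LocalHom.smulFun_app, LocalHom.res_app,
      rres_self, show ∀ r : Γ(X, V'), (r • (he.coord.app V' h ((1 : Γ(X, V')) •
        RelPicGlue.sres L h e) : Γ(oUnit X, V')) : Γ(oUnit X, V')) = r from fun r => by
          show r * he.coord.lval h ((1 : Γ(X, V')) • RelPicGlue.sres L h e) = r
          rw [he.coord_smul, mul_one],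
      show ofDual (toDual he.coord) = he.coord from rfl] using h1
  · refine LocalHom.ext_app (f := ofDual _) (g := ofDual f) fun U hU s => ?_
    rw [ofDual_smul, LocalHom.smulFun_app, ofDual_sres, LocalHom.res_app]
    show rres hU ((ofDual f).lval le_rfl (RelPicGlue.sres L h e)) * he.coord.lval (hU.trans h) s = _
    rw [← LocalHom.lval_sres, mul_comm, ← LocalHom.lval_smul, sres_sres,
      he.coord_spec]
    rfl

theorem HasFrames.dual {W : X.Opens} (hL : HasFrames W L) : HasFrames W (dualMod L) := by
  intro x hx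
  obtain ⟨V, hxV, hV, e, he⟩ := hL x hx
  exact ⟨V, hxV, hV, _, he.dual⟩

section Affine

variable {W : X.Opens} (hW : IsAffineOpen W) (hL : HasFrames W L)

include hW hL in
theorem exists_frame_basis :
    ∃ G : Finset Γ(X, W), Ideal.span (G : Set Γ(X, W)) = ⊤ ∧
      ∀ g ∈ G, ∃ e : Γ(L, X.basicOpen g), IsFrame e := by
  let S : Set Γ(X, W) := {g | ∃ e : Γ(L, X.basicOpen g), IsFrame e}
  have hS : Ideal.span S = ⊤ := hW.self_le_iSup_basicOpen_iff.mp fun x hx => by
    obtain ⟨V, hxV, hV, e, he⟩ := hL x hx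
    obtain ⟨g, hg, hxg⟩ := hW.exists_basicOpen_le (V := V) ⟨x, hxV⟩ hx
    exact Opens.mem_iSup.mpr ⟨⟨g, _, he.sres hg⟩, hxg⟩
  obtain ⟨G, hG, h1⟩ := Submodule.mem_span_finite_of_mem_span
    (show (1 : Γ(X, W)) ∈ Ideal.span S by rw [hS]; trivial)
  exact ⟨G, (Ideal.eq_top_iff_one _).mpr h1, fun g hg => hG hg⟩

include hW in
theorem le_iSup_of_span {G : Finset Γ(X, W)} (hG : Ideal.span (G : Set Γ(X, W)) = ⊤) :
    W ≤ ⨆ g : G, X.basicOpen (g : Γ(X, W)) := hW.self_le_iSup_basicOpen_iff.mpr hG

omit hL in
theorem basicOpen_rres {U V : X.Opens} (h : U ≤ V) (f : Γ(X, V)) :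
    X.basicOpen (rres h f) = U ⊓ X.basicOpen f := X.basicOpen_res f _

include hW hL in
theorem exists_pow_smul_eq_zero (h : Γ(X, W)) (s : Γ(L, W))
    (hs : sres L (X.basicOpen_le h) s = 0) : ∃ m, h ^ m • s = 0 := by
  obtain ⟨G, hG, he⟩ := exists_frame_basis hW hL
  choose e he using he
  have H : ∀ g : G, ∃ m, rres (X.basicOpen_le g.1) (h ^ m) •
      sres L (X.basicOpen_le g.1) s = 0 := fun g => by
    obtain ⟨r, hr⟩ := (he g.1 g.2).exists_smul le_rfl (sres L (X.basicOpen_le g.1) s)
    rw [sres_self] at hr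
    have hg : IsAffineOpen (X.basicOpen g.1) := hW.basicOpen g.1
    let f := rres (X.basicOpen_le g.1) h
    have hle : X.basicOpen f ≤ X.basicOpen g.1 := X.basicOpen_le f
    have h0 : rres hle r = 0 := by
      apply ((he g.1 g.2) _ hle).1
      have hle' : X.basicOpen f ≤ X.basicOpen h := by
        rw [basicOpen_rres]; exact inf_le_right
      have h1 := congrArg (sres L hle') hs
      rw [map_zero, sres_sres] at h1
      have h2 := congrArg (sres L hle) hr
      rw [sres_smul, sres_sres] at h2
      simp only [zero_smul]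
      exact h2.trans h1
    obtain ⟨⟨_, m, rfl⟩, hm⟩ :=
      (@IsLocalization.map_eq_zero_iff Γ(X, X.basicOpen g.1) _ (Submonoid.powers f)
        Γ(X, X.basicOpen f) _ _ (hg.isLocalization_basicOpen f) r).mp h0
    refine ⟨m, ?_⟩
    rw [← hr, smul_smul, map_pow]
    rw [show rres (X.basicOpen_le g.1) h ^ m * r = 0 from hm, zero_smul]
  choose m hm using H
  refine ⟨Finset.univ.sup m, eq_of_sres (fun g : G => X.basicOpen g.1)
    (fun g => X.basicOpen_le g.1) (le_iSup_of_span hW hG) fun g => ?_⟩
  obtain ⟨d, hd⟩ := Nat.exists_eq_add_of_le (Finset.le_sup (f := m) (Finset.mem_univ g))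
  rw [sres_smul, map_zero, hd, pow_add, mul_comm, map_mul, mul_smul, hm, smul_zero]

include hW hL in
theorem exists_extend (h : Γ(X, W)) (x : Γ(L, X.basicOpen h)) :
    ∃ (m : ℕ) (s : Γ(L, W)),
      sres L (X.basicOpen_le h) s = rres (X.basicOpen_le h) (h ^ m) • x := by
  obtain ⟨G, hG, he⟩ := exists_frame_basis hW hL
  choose e he using he
  have H : ∀ g : G, ∃ (m : ℕ) (t : Γ(L, X.basicOpen g.1)),
      sres L (inf_le_left : X.basicOpen g.1 ⊓ X.basicOpen h ≤ _) t =
        rres ((inf_le_right : X.basicOpen g.1 ⊓ X.basicOpen h ≤ _).trans (X.basicOpen_le h))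
          (h ^ m) • sres L inf_le_right x := fun g => by
    obtain ⟨r, hr⟩ := (he g.1 g.2).exists_smul (inf_le_left : X.basicOpen g.1 ⊓ X.basicOpen h ≤ _)
      (sres L inf_le_right x)
    have hg : IsAffineOpen (X.basicOpen g.1) := hW.basicOpen g.1
    let f := rres (X.basicOpen_le g.1) h
    have hf : X.basicOpen f = X.basicOpen g.1 ⊓ X.basicOpen h := basicOpen_rres _ _
    obtain ⟨m, a, ha⟩ := @IsLocalization.Away.surj Γ(X, X.basicOpen g.1) _ Γ(X, X.basicOpen f) _ _
      f (hg.isLocalization_basicOpen f) (rres hf.le r)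
    refine ⟨m, a • e g.1 g.2, ?_⟩
    have ha' := congrArg (rres hf.ge) ha
    change rres hf.ge (rres hf.le r * rres (X.basicOpen_le f) f ^ m) =
      rres hf.ge (rres (X.basicOpen_le f) a) at ha'
    rw [map_mul, map_pow, rres_rres, rres_rres, rres_rres, rres_rres, rres_self] at ha'
    rw [sres_smul, ← ha', ← hr, smul_smul, map_pow, mul_comm]
  choose m t ht using H
  let M := Finset.univ.sup m
  let t' : ∀ g : G, Γ(L, X.basicOpen g.1) := fun g =>
    rres (X.basicOpen_le g.1) (h ^ (M - m g)) • t g
  have ht' : ∀ g : G, sres L (inf_le_left : X.basicOpen g.1 ⊓ X.basicOpen h ≤ _) (t' g) =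
      rres ((inf_le_right : X.basicOpen g.1 ⊓ X.basicOpen h ≤ _).trans (X.basicOpen_le h))
        (h ^ M) • sres L inf_le_right x := fun g => by
    simp only [t']
    rw [sres_smul, ht, rres_rres, smul_smul, ← map_mul, ← pow_add,
      Nat.sub_add_cancel (Finset.le_sup (f := m) (Finset.mem_univ g))]
  have D : ∀ a b : G, ∃ n, rres (inf_le_left.trans (X.basicOpen_le a.1)) (h ^ n) •
      (sres L (inf_le_left : X.basicOpen a.1 ⊓ X.basicOpen b.1 ≤ _) (t' a) -
        sres L inf_le_right (t' b)) = (0 : Γ(L, X.basicOpen a.1 ⊓ X.basicOpen b.1)) := fun a b => by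
    let U := X.basicOpen a.1 ⊓ X.basicOpen b.1
    have hU : IsAffineOpen U := by
      have : U = X.basicOpen (rres (X.basicOpen_le a.1) b.1) := (basicOpen_rres _ _).symm
      rw [this]
      exact (hW.basicOpen a.1).basicOpen _
    have hUW : U ≤ W := inf_le_left.trans (X.basicOpen_le a.1)
    obtain ⟨n, hn⟩ := exists_pow_smul_eq_zero hU (hL.mono hUW) (rres hUW h)
      (sres L (inf_le_left : U ≤ _) (t' a) - sres L (inf_le_right : U ≤ _) (t' b)) (by
        have e1 : X.basicOpen (rres hUW h) ≤ X.basicOpen a.1 ⊓ X.basicOpen h := by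
          rw [basicOpen_rres]; exact inf_le_inf_right _ inf_le_left
        have e2 : X.basicOpen (rres hUW h) ≤ X.basicOpen b.1 ⊓ X.basicOpen h := by
          rw [basicOpen_rres]; exact inf_le_inf_right _ inf_le_right
        have h1 := congrArg (sres L e1) (ht' a)
        have h2 := congrArg (sres L e2) (ht' b)
        simp only [sres_smul, sres_sres, rres_rres] at h1 h2
        rw [map_sub, sres_sres, sres_sres, h1, h2, sub_self])
    exact ⟨n, by rw [map_pow]; exact hn⟩
  choose n hn using D
  let N := Finset.univ.sup fun p : G × G => n p.1 p.2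
  obtain ⟨s, hs⟩ := exists_sres_eq (L := L) (fun g : G => X.basicOpen g.1)
    (fun g => X.basicOpen_le g.1) (le_iSup_of_span hW hG)
    (fun g => rres (X.basicOpen_le g.1) (h ^ N) • t' g) (fun a b => by
      obtain ⟨d, hd⟩ := Nat.exists_eq_add_of_le
        (Finset.le_sup (f := fun p : G × G => n p.1 p.2) (Finset.mem_univ (a, b)))
      have hd' : N = d + n a b := hd.trans (add_comm _ _)
      have h0 := hn a b
      rw [smul_sub, sub_eq_zero] at h0
      simp only [sres_smul, rres_rres, hd', pow_add, map_mul, mul_smul] at h0 ⊢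
      rw [h0])
  refine ⟨M + N, s, eq_of_sres (fun g : G => X.basicOpen g.1 ⊓ X.basicOpen h)
    (fun g => inf_le_right) ?_ fun g => ?_⟩
  · rw [← iSup_inf_eq]
    exact le_inf ((X.basicOpen_le h).trans (le_iSup_of_span hW hG)) le_rfl
  · have h1 := congrArg (sres L (inf_le_left : X.basicOpen g.1 ⊓ X.basicOpen h ≤ _)) (hs g)
    rw [sres_sres, sres_smul, rres_rres, ht', smul_smul, ← map_mul, ← pow_add, add_comm] at h1
    rw [sres_sres, sres_smul, rres_rres]
    exact h1

include hW hL in
/-- Invertible modules on affine opens have finite dual bases. -/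
theorem exists_dualBasis :
    ∃ (n : ℕ) (s : Fin n → Γ(L, W)) (l : Fin n → LocalHom W L (oUnit X)),
      ∀ (V : X.Opens) (hV : V ≤ W) (x : Γ(L, V)),
        x = ∑ a, (l a).lval hV x • sres L hV (s a) := by
  obtain ⟨G, hG, he⟩ := exists_frame_basis hW hL
  choose e he using he
  have H : ∀ g : G, ∃ (m : ℕ) (s : Γ(L, W)) (f : LocalHom W L (oUnit X)),
      ∀ (V : X.Opens) (hV : V ≤ W) (x : Γ(L, V)),
        f.lval hV x • sres L hV s = rres hV (g.1 ^ m) • x := fun g => by
    obtain ⟨m₁, s, hs⟩ := exists_extend hW hL g.1 (e g.1 g.2)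
    obtain ⟨m₂, f, hf⟩ := exists_extend (L := dualMod L) hW hL.dual g.1
      (toDual (he g.1 g.2).coord)
    let φ : LocalHom W L L :=
      { app := fun V hV =>
          { toFun := fun x => (ofDual f).lval hV x • sres L hV s
            map_zero' := by
              rw [show (ofDual f).lval hV (0 : Γ(L, V)) = 0 from map_zero ((ofDual f).app V hV)]
              exact zero_smul _ _
            map_add' := fun x y => by rw [LocalHom.lval_add, add_smul] }
        map_smul := fun V hV r x => by
          show (ofDual f).lval hV (r • x) • sres L hV s = r • ((ofDual f).lval hV x • sres L hV s)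
          rw [LocalHom.lval_smul, mul_smul]
        naturality := fun V V' hV h x => by
          show sres L h ((ofDual f).lval hV x • sres L hV s) =
            (ofDual f).lval (h.trans hV) (sres L h x) • sres L (h.trans hV) s
          rw [sres_smul, sres_sres, LocalHom.lval_sres] }
    obtain ⟨d, hd⟩ := exists_smul_eq (LocalHom.ofHom W (𝟙 L)) (LocalHom.bij_ofHom _) φ hL
    have hφ : ∀ (V : X.Opens) (hV : V ≤ W) (x : Γ(L, V)),
        (ofDual f).lval hV x • sres L hV s = rres hV d • x := fun V hV x =>
      congrArg (fun ψ : LocalHom W L L => ψ.app V hV x) hd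
    have hD := X.basicOpen_le g.1
    have h1 : rres hD d = rres hD (g.1 ^ m₁) * rres hD (g.1 ^ m₂) := by
      apply ((he g.1 g.2) _ le_rfl).1
      simp only [sres_self]
      rw [← hφ _ hD (e g.1 g.2), hs]
      have h2 : (ofDual f).lval hD (e g.1 g.2) = rres hD (g.1 ^ m₂) := by
        have h3 := congrArg (fun u : Γ(dualMod L, X.basicOpen g.1) =>
          (ofDual u).lval le_rfl (e g.1 g.2)) hf
        have h4 : (he g.1 g.2).coord.lval le_rfl (e g.1 g.2) = 1 := by
          have := (he g.1 g.2).coord_smul le_rfl 1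
          rwa [one_smul, sres_self] at this
        refine Eq.trans h3 ?_
        show rres le_rfl (rres hD (g.1 ^ m₂)) * (he g.1 g.2).coord.lval le_rfl (e g.1 g.2) = _
        rw [h4, mul_one, rres_self]
      rw [h2, smul_smul, mul_comm]
    have hz : sres (oUnit X) hD (show Γ(oUnit X, W) from d - g.1 ^ (m₁ + m₂)) = 0 := by
      show rres hD (d - g.1 ^ (m₁ + m₂)) = 0
      rw [map_sub, h1, pow_add, map_mul, sub_self]
    obtain ⟨m₃, hm₃⟩ := exists_pow_smul_eq_zero (L := oUnit X) hW
      (hasFrames_of_isInvertible (Scheme.Modules.isInvertible_unit X) W) g.1 _ hz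
    have h5 : g.1 ^ m₃ * d = g.1 ^ (m₃ + (m₁ + m₂)) := by
      have : g.1 ^ m₃ * (d - g.1 ^ (m₁ + m₂)) = 0 := hm₃
      rwa [mul_sub, sub_eq_zero, ← pow_add] at this
    refine ⟨m₃ + (m₁ + m₂), g.1 ^ m₃ • s, ofDual f, fun V hV x => ?_⟩
    rw [sres_smul, smul_comm, hφ V hV x, smul_smul, ← map_mul, h5]
  choose m s f hf using H
  have hsp : Ideal.span (Set.range fun g : G => g.1 ^ m g) = ⊤ := by
    rw [Ideal.eq_top_iff_one]
    by_contra hc
    obtain ⟨P, hP, hle⟩ := Ideal.exists_le_maximal _ ((Ideal.ne_top_iff_one _).mpr hc)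
    refine hP.ne_top (top_le_iff.mp (hG ▸ Ideal.span_le.mpr fun g hg => ?_))
    exact hP.isPrime.mem_of_pow_mem _ (hle (Ideal.subset_span ⟨⟨g, hg⟩, rfl⟩))
  obtain ⟨c, hc⟩ := Ideal.mem_span_range_iff_exists_fun.mp
    (show (1 : Γ(X, W)) ∈ Ideal.span (Set.range fun g : G => g.1 ^ m g) by rw [hsp]; trivial)
  let σ := (Fintype.equivFin G).symm
  refine ⟨_, fun a => c (σ a) • s (σ a), fun a => f (σ a), fun V hV x => ?_⟩
  simp only [sres_smul]
  rw [σ.sum_comp (fun g => (f g).lval hV x • rres hV (c g) • sres L hV (s g))]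
  simp only [smul_comm ((f _).lval hV x), hf, smul_smul, ← map_mul]
  rw [← Finset.sum_smul, ← map_sum, hc, map_one, one_smul]

end Affine

end AlgebraicGeometry.RelPicGlue
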