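import Fermat.Agent.RelPic.GlueFrame

/-!
# Invertible modules from transition matrices on two opens
-/

set_option autoImplicit false
set_option linter.unusedVariables false

noncomputable section

universe u

open CategoryTheory TopologicalSpace AlgebraicGeometry Opposite

namespace AlgebraicGeometry.RelPicGlue

variable {Y : Scheme.{u}}

/-- A matrix of functions applied to a vector of functions. -/
def mv {V W : Y.Opens} (h : V ≤ W) {p q : ℕ} (M : Fin p → Fin q → Γ(Y, W))
    (v : Fin q → Γ(Y, V)) : Fin p → Γ(Y, V) := fun b => ∑ a, rres h (M b a) * v a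

theorem mv_rres {V V' W : Y.Opens} (h : V ≤ W) (h' : V' ≤ V) {p q : ℕ}
    (M : Fin p → Fin q → Γ(Y, W)) (v : Fin q → Γ(Y, V)) (b : Fin p) :
    rres h' (mv h M v b) = mv (h'.trans h) M (fun a => rres h' (v a)) b := by
  simp only [mv, map_sum, map_mul, rres_rres]

theorem mv_add {V W : Y.Opens} (h : V ≤ W) {p q : ℕ} (M : Fin p → Fin q → Γ(Y, W))
    (v w : Fin q → Γ(Y, V)) : mv h M (v + w) = mv h M v + mv h M w := by
  funext b
  simp only [mv, Pi.add_apply, mul_add, Finset.sum_add_distrib]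

theorem mv_zero {V W : Y.Opens} (h : V ≤ W) {p q : ℕ} (M : Fin p → Fin q → Γ(Y, W)) :
    mv h M (0 : Fin q → Γ(Y, V)) = 0 := by
  funext b
  simp only [mv, Pi.zero_apply, mul_zero, Finset.sum_const_zero]

theorem mv_smul {V W : Y.Opens} (h : V ≤ W) {p q : ℕ} (M : Fin p → Fin q → Γ(Y, W))
    (r : Γ(Y, V)) (v : Fin q → Γ(Y, V)) : mv h M (r • v) = r • mv h M v := by
  funext b
  simp only [mv, Pi.smul_apply, smul_eq_mul, Finset.mul_sum]
  exact Finset.sum_congr rfl fun a _ => mul_left_comm _ _ _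

theorem mv_mv {V W W' : Y.Opens} (h : V ≤ W) (h' : V ≤ W') {p q r : ℕ}
    (M : Fin p → Fin q → Γ(Y, W)) (N : Fin q → Fin r → Γ(Y, W')) (v : Fin r → Γ(Y, V))
    (b : Fin p) :
    mv h M (mv h' N v) b = ∑ a, (∑ c, rres h (M b c) * rres h' (N c a)) * v a := by
  simp only [mv, Finset.mul_sum, Finset.sum_mul, mul_assoc]
  exact Finset.sum_comm

/-- Transition data for an invertible module trivialised by idempotent matrices. -/
structure PairData (W0 W1 : Y.Opens) where
  n : ℕ
  m : ℕ
  P : Fin n → Fin n → Γ(Y, W0)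
  Q : Fin m → Fin m → Γ(Y, W1)
  T : Fin m → Fin n → Γ(Y, W0 ⊓ W1)
  T' : Fin n → Fin m → Γ(Y, W0 ⊓ W1)
  hP : ∀ b a, ∑ c, P b c * P c a = P b a
  hQ : ∀ b a, ∑ c, Q b c * Q c a = Q b a
  hTP : ∀ b a, ∑ c, T b c * rres inf_le_left (P c a) = T b a
  hQT : ∀ b a, ∑ c, rres inf_le_right (Q b c) * T c a = T b a
  hPT' : ∀ b a, ∑ c, rres inf_le_left (P b c) * T' c a = T' b a
  hT'T : ∀ b a, ∑ c, T' b c * T c a = rres inf_le_left (P b a)
  hTT' : ∀ b a, ∑ c, T b c * T' c a = rres inf_le_right (Q b a)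
  traceP : ∑ a, P a a = 1
  traceQ : ∑ a, Q a a = 1
  minorP : ∀ a b c, P b a * P a c = P a a * P b c
  minorQ : ∀ a b c, Q b a * Q a c = Q a a * Q b c

namespace PairData

variable {W0 W1 : Y.Opens} (D : PairData W0 W1)

/-- Compatibility of a pair of vectors. -/
def Compat (V : Y.Opens)
    (s : (Fin D.n → Γ(Y, V ⊓ W0)) × (Fin D.m → Γ(Y, V ⊓ W1))) : Prop :=
  mv inf_le_right D.P s.1 = s.1 ∧ mv inf_le_right D.Q s.2 = s.2 ∧
    mv (inf_le_right : V ⊓ (W0 ⊓ W1) ≤ W0 ⊓ W1) D.T
        (fun a => rres (inf_le_inf_left V inf_le_left) (s.1 a)) =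
      fun b => rres (inf_le_inf_left V inf_le_right) (s.2 b)

/-- Sections of the glued module. -/
def sections (V : Y.Opens) :
    AddSubgroup ((Fin D.n → Γ(Y, V ⊓ W0)) × (Fin D.m → Γ(Y, V ⊓ W1))) where
  carrier := {s | D.Compat V s}
  zero_mem' := by
    refine ⟨mv_zero _ _, mv_zero _ _, ?_⟩
    simp only [Prod.fst_zero, Prod.snd_zero, Pi.zero_apply, map_zero]
    exact mv_zero _ _
  add_mem' := fun {s t} hs ht => by
    refine ⟨?_, ?_, ?_⟩
    · rw [Prod.fst_add, mv_add, hs.1, ht.1]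
    · rw [Prod.snd_add, mv_add, hs.2.1, ht.2.1]
    · simp only [Prod.fst_add, Prod.snd_add, Pi.add_apply, map_add]
      exact (mv_add _ _ _ _).trans (by rw [hs.2.2, ht.2.2]; rfl)
  neg_mem' := fun {s} hs => by
    refine ⟨?_, ?_, ?_⟩
    · funext b
      have := congrFun hs.1 b
      simp only [mv, Prod.fst_neg, Pi.neg_apply, mul_neg, Finset.sum_neg_distrib] at this ⊢
      rw [this]
    · funext b
      have := congrFun hs.2.1 b
      simp only [mv, Prod.snd_neg, Pi.neg_apply, mul_neg, Finset.sum_neg_distrib] at this ⊢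
      rw [this]
    · funext b
      have := congrFun hs.2.2 b
      simp only [mv, Prod.fst_neg, Prod.snd_neg, Pi.neg_apply, map_neg, mul_neg,
        Finset.sum_neg_distrib] at this ⊢
      rw [this]

instance instSMul (V : Y.Opens) : SMul Γ(Y, V) (D.sections V) where
  smul r s := ⟨(rres (inf_le_left : V ⊓ W0 ≤ V) r • s.1.1, rres (inf_le_left : V ⊓ W1 ≤ V) r • s.1.2), by
    refine ⟨?_, ?_, ?_⟩
    · show mv _ _ (_ • s.1.1) = _
      rw [mv_smul, s.2.1]
    · show mv _ _ (_ • s.1.2) = _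
      rw [mv_smul, s.2.2.1]
    · simp only [Pi.smul_apply, smul_eq_mul, map_mul, rres_rres]
      refine (mv_smul _ D.T (rres (inf_le_left : V ⊓ (W0 ⊓ W1) ≤ V) r)
        (fun a => rres (inf_le_inf_left V inf_le_left) (s.1.1 a))).trans ?_
      rw [s.2.2.2]
      rfl⟩

theorem smul_fst {V : Y.Opens} (r : Γ(Y, V)) (s : D.sections V) (a : Fin D.n) :
    (r • s).1.1 a = rres (inf_le_left : V ⊓ W0 ≤ V) r * s.1.1 a := rfl

theorem smul_snd {V : Y.Opens} (r : Γ(Y, V)) (s : D.sections V) (b : Fin D.m) :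
    (r • s).1.2 b = rres (inf_le_left : V ⊓ W1 ≤ V) r * s.1.2 b := rfl

theorem ext_sections {V : Y.Opens} {s t : D.sections V} (h₀ : ∀ a, s.1.1 a = t.1.1 a)
    (h₁ : ∀ b, s.1.2 b = t.1.2 b) : s = t :=
  Subtype.ext (Prod.ext (funext h₀) (funext h₁))

instance instModule (V : Y.Opens) : Module Γ(Y, V) (D.sections V) where
  one_smul s := D.ext_sections (fun a => by rw [smul_fst, map_one, one_mul])
    (fun b => by rw [smul_snd, map_one, one_mul])
  mul_smul r r' s := D.ext_sections
    (fun a => by rw [smul_fst, smul_fst, smul_fst, map_mul, mul_assoc])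
    (fun b => by rw [smul_snd, smul_snd, smul_snd, map_mul, mul_assoc])
  smul_zero r := D.ext_sections (fun a => mul_zero _) (fun b => mul_zero _)
  smul_add r s t := D.ext_sections (fun a => mul_add _ _ _) (fun b => mul_add _ _ _)
  add_smul r r' s := D.ext_sections
    (fun a => by rw [smul_fst, map_add, add_mul]; rfl)
    (fun b => by rw [smul_snd, map_add, add_mul]; rfl)
  zero_smul s := D.ext_sections (fun a => by rw [smul_fst, map_zero, zero_mul]; rfl)
    (fun b => by rw [smul_snd, map_zero, zero_mul]; rfl)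

/-- Restriction. -/
def restr {V V' : Y.Opens} (h : V' ≤ V) : D.sections V →+ D.sections V' where
  toFun s := ⟨(fun a => rres (inf_le_inf_right W0 h) (s.1.1 a),
      fun b => rres (inf_le_inf_right W1 h) (s.1.2 b)), by
    refine ⟨funext fun b => ?_, funext fun b => ?_, funext fun b => ?_⟩
    · exact (mv_rres (inf_le_right : V ⊓ W0 ≤ W0) (inf_le_inf_right W0 h) D.P s.1.1 b).symm.trans
        (congrArg _ (congrFun s.2.1 b))
    · exact (mv_rres (inf_le_right : V ⊓ W1 ≤ W1) (inf_le_inf_right W1 h) D.Q s.1.2 b).symm.trans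
        (congrArg _ (congrFun s.2.2.1 b))
    · have := congrArg (rres (inf_le_inf_right (W0 ⊓ W1) h)) (congrFun s.2.2.2 b)
      rw [mv_rres] at this
      simpa only [rres_rres] using this⟩
  map_zero' := D.ext_sections (fun a => map_zero _) (fun b => map_zero _)
  map_add' s t := D.ext_sections (fun a => map_add _ _ _) (fun b => map_add _ _ _)

theorem restr_smul {V V' : Y.Opens} (h : V' ≤ V) (r : Γ(Y, V)) (s : D.sections V) :
    D.restr h (r • s) = rres h r • D.restr h s :=
  D.ext_sections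
    (fun a => by
      show rres _ (_ * _) = rres _ (rres h r) * rres _ _
      rw [map_mul, rres_rres, rres_rres])
    (fun b => by
      show rres _ (_ * _) = rres _ (rres h r) * rres _ _
      rw [map_mul, rres_rres, rres_rres])

/-- The presheaf of sections. -/
def presheafAb : Y.Opensᵒᵖ ⥤ Ab.{u} where
  obj V := AddCommGrpCat.of (D.sections V.unop)
  map i := AddCommGrpCat.ofHom (D.restr (leOfHom i.unop))
  map_id V := AddCommGrpCat.hom_ext (AddMonoidHom.ext fun (s : D.sections V.unop) =>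
    D.ext_sections (s := D.restr le_rfl s) (t := s) (fun a => rres_self _ (s.1.1 a))
      (fun b => rres_self _ (s.1.2 b)))
  map_comp {U V W} f g := AddCommGrpCat.hom_ext (AddMonoidHom.ext fun (s : D.sections U.unop) =>
    D.ext_sections (s := D.restr ((leOfHom g.unop).trans (leOfHom f.unop)) s)
      (t := D.restr (leOfHom g.unop) (D.restr (leOfHom f.unop) s))
      (fun a => (rres_rres (inf_le_inf_right _ (leOfHom f.unop))
        (inf_le_inf_right _ (leOfHom g.unop)) _).symm)
      (fun b => (rres_rres (inf_le_inf_right _ (leOfHom f.unop))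
        (inf_le_inf_right _ (leOfHom g.unop)) _).symm))

instance instModulePresheafAb (V : Y.Opensᵒᵖ) :
    Module (Y.ringCatSheaf.obj.obj V) (D.presheafAb.obj V) :=
  D.instModule V.unop

theorem isSheaf_presheafAb : TopCat.Presheaf.IsSheaf D.presheafAb := by
  rw [TopCat.Presheaf.isSheaf_iff_isSheafUniqueGluing]
  intro κ U sf hsf
  have hle : ∀ (W : Y.Opens) i, U i ⊓ W ≤ (⨆ i, U i) ⊓ W := fun W i =>
    inf_le_inf_right _ (le_iSup U i)
  have hc : ∀ W : Y.Opens, (⨆ i, U i) ⊓ W ≤ ⨆ i, U i ⊓ W := fun W => by rw [← iSup_inf_eq]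
  have h0 : ∀ i j a, rres (inf_le_inf_right W0 (inf_le_left : U i ⊓ U j ≤ _))
      ((sf i : D.sections (U i)).1.1 a) =
        rres (inf_le_inf_right W0 (inf_le_right : U i ⊓ U j ≤ _)) ((sf j : D.sections (U j)).1.1 a) :=
    fun i j a => congrFun (congrArg (fun s : D.sections (U i ⊓ U j) => s.1.1) (hsf i j)) a
  have h1 : ∀ i j b, rres (inf_le_inf_right W1 (inf_le_left : U i ⊓ U j ≤ _))
      ((sf i : D.sections (U i)).1.2 b) =
        rres (inf_le_inf_right W1 (inf_le_right : U i ⊓ U j ≤ _)) ((sf j : D.sections (U j)).1.2 b) :=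
    fun i j b => congrFun (congrArg (fun s : D.sections (U i ⊓ U j) => s.1.2) (hsf i j)) b
  have glue1 : ∀ (W : Y.Opens) (f : ∀ i, Γ(Y, U i ⊓ W)),
      (∀ i j, rres (inf_le_inf_right W (inf_le_left : U i ⊓ U j ≤ _)) (f i) =
        rres (inf_le_inf_right W (inf_le_right : U i ⊓ U j ≤ _)) (f j)) →
      ∃ g : Γ(Y, (⨆ i, U i) ⊓ W), ∀ i, rres (hle W i) g = f i := fun W f hf => by
    refine exists_sres_eq (L := SheafOfModules.unit Y.ringCatSheaf) (fun i => U i ⊓ W)
      (hle W) (hc W) f fun i j => ?_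
    show rres (inf_le_left : (U i ⊓ W) ⊓ (U j ⊓ W) ≤ _) (f i) = rres inf_le_right (f j)
    have hl : (U i ⊓ W) ⊓ (U j ⊓ W) ≤ (U i ⊓ U j) ⊓ W :=
      le_inf (inf_le_inf inf_le_left inf_le_left) (inf_le_left.trans inf_le_right)
    simpa only [rres_rres] using congrArg (rres hl) (hf i j)
  choose v hv using fun a => glue1 W0 (fun i => (sf i : D.sections (U i)).1.1 a) fun i j => h0 i j a
  choose w hw using fun b => glue1 W1 (fun i => (sf i : D.sections (U i)).1.2 b) fun i j => h1 i j b
  have eqf : ∀ (W : Y.Opens) (f g : Γ(Y, (⨆ i, U i) ⊓ W)),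
      (∀ i, rres (hle W i) f = rres (hle W i) g) → f = g := fun W f g h =>
    eq_of_sres (L := SheafOfModules.unit Y.ringCatSheaf) (fun i => U i ⊓ W) (hle W) (hc W) h
  have hvw : D.Compat (⨆ i, U i) (v, w) := by
    refine ⟨funext fun a => eqf W0 _ _ fun i => ?_, funext fun b => eqf W1 _ _ fun i => ?_,
      funext fun b => eqf (W0 ⊓ W1) _ _ fun i => ?_⟩
    · rw [mv_rres]
      simp only [hv]
      exact congrFun (sf i : D.sections (U i)).2.1 a
    · rw [mv_rres]
      simp only [hw]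
      exact congrFun (sf i : D.sections (U i)).2.2.1 b
    · have := congrFun (sf i : D.sections (U i)).2.2.2 b
      simp only [← hv, ← hw, rres_rres] at this
      rw [mv_rres]
      simpa only [rres_rres] using this
  refine ⟨(⟨(v, w), hvw⟩ : D.sections _), fun i => D.ext_sections (fun a => hv a i) (fun b => hw b i),
    fun t ht => D.ext_sections (fun a => eqf W0 _ _ fun i => ?_) (fun b => eqf W1 _ _ fun i => ?_)⟩
  · exact (congrFun (congrArg (fun s : D.sections (U i) => s.1.1) (ht i)) a).trans (hv a i).symm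
  · exact (congrFun (congrArg (fun s : D.sections (U i) => s.1.2) (ht i)) b).trans (hw b i).symm

/-- The module defined by the data. -/
def module : Y.Modules :=
  ⟨PresheafOfModules.ofPresheaf D.presheafAb fun V W f r m => D.restr_smul (leOfHom f.unop) r m,
    D.isSheaf_presheafAb⟩

/-- The vector of a section on the first open. -/
def vec0 {V : Y.Opens} (s : Γ(D.module, V)) (a : Fin D.n) : Γ(Y, V ⊓ W0) := (s : D.sections V).1.1 a

/-- The vector of a section on the second open. -/
def vec1 {V : Y.Opens} (s : Γ(D.module, V)) (b : Fin D.m) : Γ(Y, V ⊓ W1) := (s : D.sections V).1.2 b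

theorem vec0_smul {V : Y.Opens} (r : Γ(Y, V)) (s : Γ(D.module, V)) (a : Fin D.n) :
    D.vec0 (r • s) a = rres inf_le_left r * D.vec0 s a := rfl

theorem vec1_smul {V : Y.Opens} (r : Γ(Y, V)) (s : Γ(D.module, V)) (b : Fin D.m) :
    D.vec1 (r • s) b = rres inf_le_left r * D.vec1 s b := rfl

theorem vec0_sres {V V' : Y.Opens} (h : V' ≤ V) (s : Γ(D.module, V)) (a : Fin D.n) :
    D.vec0 (sres D.module h s) a = rres (inf_le_inf_right W0 h) (D.vec0 s a) := rfl

theorem vec1_sres {V V' : Y.Opens} (h : V' ≤ V) (s : Γ(D.module, V)) (b : Fin D.m) :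
    D.vec1 (sres D.module h s) b = rres (inf_le_inf_right W1 h) (D.vec1 s b) := rfl

theorem ext0 {V : Y.Opens} (hV : V ≤ W0) {s t : Γ(D.module, V)}
    (h : ∀ a, D.vec0 s a = D.vec0 t a) : s = t := by
  refine D.ext_sections h fun b => ?_
  have key : ∀ r : D.sections V, r.1.2 b =
      mv (le_inf (inf_le_left.trans hV) inf_le_right : V ⊓ W1 ≤ W0 ⊓ W1) D.T
        (fun a => rres (le_inf inf_le_left (inf_le_left.trans hV) : V ⊓ W1 ≤ V ⊓ W0) (r.1.1 a)) b :=
    fun r => by
      have hle : V ⊓ W1 ≤ V ⊓ (W0 ⊓ W1) :=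
        le_inf inf_le_left (le_inf (inf_le_left.trans hV) inf_le_right)
      have := congrArg (rres hle) (congrFun r.2.2.2 b)
      rw [mv_rres] at this
      simpa only [rres_rres, rres_self] using this.symm
  rw [key s, key t]
  simp only [show ∀ a, (s : D.sections V).1.1 a = (t : D.sections V).1.1 a from h]

theorem ext1 {V : Y.Opens} (hV : V ≤ W1) {s t : Γ(D.module, V)}
    (h : ∀ b, D.vec1 s b = D.vec1 t b) : s = t := by
  refine D.ext_sections (fun a => ?_) h
  have key : ∀ r : D.sections V, r.1.1 a =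
      mv (le_inf inf_le_right (inf_le_left.trans hV) : V ⊓ W0 ≤ W0 ⊓ W1) D.T'
        (fun b => rres (le_inf inf_le_left (inf_le_left.trans hV) : V ⊓ W0 ≤ V ⊓ W1) (r.1.2 b)) a :=
    fun r => by
      have hle : V ⊓ W0 ≤ V ⊓ (W0 ⊓ W1) :=
        le_inf inf_le_left (le_inf inf_le_right (inf_le_left.trans hV))
      have h2 : ∀ b, rres (le_inf inf_le_left (inf_le_left.trans hV) : V ⊓ W0 ≤ V ⊓ W1) (r.1.2 b) =
          mv (hle.trans inf_le_right) D.T r.1.1 b := fun b => by
        have := congrArg (rres hle) (congrFun r.2.2.2 b)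
        rw [mv_rres] at this
        simpa only [rres_rres, rres_self] using this.symm
      rw [funext h2, mv_mv]
      simp only [← map_mul, ← map_sum, D.hT'T, rres_rres]
      exact (congrFun r.2.1 a).symm
  rw [key s, key t]
  simp only [show ∀ b, (s : D.sections V).1.2 b = (t : D.sections V).1.2 b from h]

/-- The section on `V ≤ W0` with given vector. -/
def mk0 {V : Y.Opens} (hV : V ≤ W0) (v : Fin D.n → Γ(Y, V)) (hv : mv hV D.P v = v) :
    Γ(D.module, V) :=
  show D.sections V from ⟨(fun a => rres (inf_le_left : V ⊓ W0 ≤ V) (v a),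
    mv (le_inf (inf_le_left.trans hV) inf_le_right : V ⊓ W1 ≤ W0 ⊓ W1) D.T
      (fun a => rres (inf_le_left : V ⊓ W1 ≤ V) (v a))), by
    refine ⟨funext fun a => ?_, funext fun b => ?_, funext fun b => ?_⟩
    · exact (mv_rres hV (inf_le_left : V ⊓ W0 ≤ V) D.P v a).symm.trans
        (congrArg _ (congrFun hv a))
    · rw [mv_mv]
      have : ∀ c, (∑ x, rres (inf_le_right : V ⊓ W1 ≤ W1) (D.Q b x) *
          rres (le_inf (inf_le_left.trans hV) inf_le_right : V ⊓ W1 ≤ W0 ⊓ W1) (D.T x c)) =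
          rres (le_inf (inf_le_left.trans hV) inf_le_right) (D.T b c) := fun c => by
        have := congrArg (rres (le_inf (inf_le_left.trans hV) inf_le_right : V ⊓ W1 ≤ W0 ⊓ W1))
          (D.hQT b c)
        simpa only [map_sum, map_mul, rres_rres] using this
      simp only [this]
      rfl
    · rw [mv_rres]
      simp only [rres_rres]⟩

theorem vec0_mk0 {V : Y.Opens} (hV : V ≤ W0) (v : Fin D.n → Γ(Y, V)) (hv : mv hV D.P v = v)
    (a : Fin D.n) : D.vec0 (D.mk0 hV v hv) a = rres inf_le_left (v a) := rfl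

/-- The section on `V ≤ W1` with given vector. -/
def mk1 {V : Y.Opens} (hV : V ≤ W1) (w : Fin D.m → Γ(Y, V)) (hw : mv hV D.Q w = w) :
    Γ(D.module, V) :=
  show D.sections V from ⟨(mv (le_inf inf_le_right (inf_le_left.trans hV) : V ⊓ W0 ≤ W0 ⊓ W1) D.T'
      (fun b => rres (inf_le_left : V ⊓ W0 ≤ V) (w b)),
    fun b => rres (inf_le_left : V ⊓ W1 ≤ V) (w b)), by
    refine ⟨funext fun a => ?_, funext fun b => ?_, funext fun b => ?_⟩
    · rw [mv_mv]
      have : ∀ c, (∑ x, rres (inf_le_right : V ⊓ W0 ≤ W0) (D.P a x) *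
          rres (le_inf inf_le_right (inf_le_left.trans hV) : V ⊓ W0 ≤ W0 ⊓ W1) (D.T' x c)) =
          rres (le_inf inf_le_right (inf_le_left.trans hV)) (D.T' a c) := fun c => by
        have := congrArg (rres (le_inf inf_le_right (inf_le_left.trans hV) : V ⊓ W0 ≤ W0 ⊓ W1))
          (D.hPT' a c)
        simpa only [map_sum, map_mul, rres_rres] using this
      simp only [this]
      rfl
    · exact (mv_rres hV (inf_le_left : V ⊓ W1 ≤ V) D.Q w b).symm.trans
        (congrArg _ (congrFun hw b))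
    · rw [show (fun a => rres (inf_le_inf_left V inf_le_left : V ⊓ (W0 ⊓ W1) ≤ V ⊓ W0)
          (mv (le_inf inf_le_right (inf_le_left.trans hV) : V ⊓ W0 ≤ W0 ⊓ W1) D.T'
            (fun b => rres (inf_le_left : V ⊓ W0 ≤ V) (w b)) a)) =
          mv (inf_le_right : V ⊓ (W0 ⊓ W1) ≤ W0 ⊓ W1) D.T'
            (fun b => rres (inf_le_left : V ⊓ (W0 ⊓ W1) ≤ V) (w b)) from funext fun a => by
          rw [mv_rres]; simp only [rres_rres], mv_mv]
      simp only [← map_mul, ← map_sum, D.hTT', rres_rres]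
      exact (mv_rres hV (inf_le_left : V ⊓ (W0 ⊓ W1) ≤ V) D.Q w b).symm.trans
        (congrArg _ (congrFun hw b))⟩

theorem vec1_mk1 {V : Y.Opens} (hV : V ≤ W1) (w : Fin D.m → Γ(Y, V)) (hw : mv hV D.Q w = w)
    (b : Fin D.m) : D.vec1 (D.mk1 hV w hw) b = rres inf_le_left (w b) := rfl

theorem exists_mem_basicOpen_of_sum {W : Y.Opens} {n : ℕ} (f : Fin n → Γ(Y, W))
    (h : ∑ a, f a = 1) {y : Y} (hy : y ∈ W) : ∃ a, y ∈ Y.basicOpen (f a) := by
  by_contra hc
  push Not at hc
  have h1 : (Y.presheaf.germ W y hy).hom (∑ a, f a) = 1 := by rw [h, map_one]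
  rw [map_sum] at h1
  have h2 : ∑ a, (Y.presheaf.germ W y hy).hom (f a) ∈
      IsLocalRing.maximalIdeal (Y.presheaf.stalk y) :=
    Submodule.sum_mem _ fun a _ =>
      (IsLocalRing.mem_maximalIdeal _).mpr fun hu => hc a ((Y.mem_basicOpen _ y hy).mpr hu)
  rw [h1] at h2
  exact (IsLocalRing.mem_maximalIdeal _).mp h2 isUnit_one

theorem isUnit_rres_of_le_basicOpen {W V' : Y.Opens} (f : Γ(Y, W))
    (h : V' ≤ Y.basicOpen f) : IsUnit (rres (h.trans (Y.basicOpen_le f)) f) := by
  have := (Y.toRingedSpace.isUnit_res_basicOpen f).map (rres h)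
  exact rres_rres (Y.basicOpen_le f) h f ▸ this

theorem rres_bij_of_le_le {A B : Y.Opens} (h : B ≤ A) (h' : A ≤ B) :
    Function.Bijective (rres (X := Y) h) :=
  ⟨fun a b hab => by simpa using congrArg (rres h') hab, fun b => ⟨rres h' b, by simp⟩⟩

theorem hasFrames_of_cover (hW : W0 ⊔ W1 = ⊤) : HasFrames ⊤ D.module := by
  intro y _
  rcases (hW.ge (trivial : y ∈ (⊤ : Y.Opens)) : y ∈ W0 ⊔ W1) with hy | hy
  · obtain ⟨a, ha⟩ := exists_mem_basicOpen_of_sum _ D.traceP hy
    let V := Y.basicOpen (D.P a a)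
    have hV : V ≤ W0 := Y.basicOpen_le _
    have he : mv hV D.P (fun b => rres hV (D.P b a)) = fun b => rres hV (D.P b a) :=
      funext fun b => by simp only [mv, ← map_mul, ← map_sum, D.hP]
    refine ⟨V, ha, le_top, D.mk0 hV _ he, fun V' h => ?_⟩
    have hV' : V' ≤ W0 := h.trans hV
    have hu : IsUnit (rres (h.trans hV) (D.P a a)) :=
      isUnit_rres_of_le_basicOpen _ h
    constructor
    · intro r r' hrr
      have := congrArg (fun s => rres (le_inf le_rfl hV' : V' ≤ V' ⊓ W0) (D.vec0 s a)) hrr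
      simp only [vec0_smul, vec0_sres, vec0_mk0, map_mul, rres_rres, rres_self] at this
      exact hu.mul_left_injective this
    · intro s
      let r : Γ(Y, V') := rres (le_inf le_rfl hV') (D.vec0 s a) * (↑hu.unit⁻¹ : Γ(Y, V'))
      refine ⟨r, D.ext0 hV' fun b => ?_⟩
      have key := fun c : Fin D.n => congrFun (s : D.sections V').2.1 c
      apply (rres_bij_of_le_le (le_inf le_rfl hV' : V' ≤ V' ⊓ W0) inf_le_left).1
      simp only [vec0_smul, vec0_sres, vec0_mk0, map_mul, rres_rres, rres_self]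
      have h2 : ∀ c, rres (le_inf le_rfl hV' : V' ≤ V' ⊓ W0) (D.vec0 s c) =
          ∑ x, rres hV' (D.P c x) * rres (le_inf le_rfl hV') (D.vec0 s x) := fun c => by
        have := congrArg (rres (le_inf le_rfl hV' : V' ≤ V' ⊓ W0)) (key c)
        rw [mv_rres] at this
        exact this.symm
      apply hu.mul_left_injective
      show r * rres hV' (D.P b a) * rres hV' (D.P a a) = _ * rres hV' (D.P a a)
      have h4 : r * rres hV' (D.P a a) = rres (le_inf le_rfl hV') (D.vec0 s a) := by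
        simp only [r, mul_assoc, IsUnit.val_inv_mul, mul_one]
      rw [mul_right_comm, h4, h2 a, h2 b, Finset.sum_mul, Finset.sum_mul]
      refine Finset.sum_congr rfl fun x _ => ?_
      rw [mul_right_comm, ← map_mul, mul_right_comm, ← map_mul, mul_comm (D.P a x), D.minorP,
        mul_comm (D.P b x)]
  · obtain ⟨a, ha⟩ := exists_mem_basicOpen_of_sum _ D.traceQ hy
    let V := Y.basicOpen (D.Q a a)
    have hV : V ≤ W1 := Y.basicOpen_le _
    have he : mv hV D.Q (fun b => rres hV (D.Q b a)) = fun b => rres hV (D.Q b a) :=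
      funext fun b => by simp only [mv, ← map_mul, ← map_sum, D.hQ]
    refine ⟨V, ha, le_top, D.mk1 hV _ he, fun V' h => ?_⟩
    have hV' : V' ≤ W1 := h.trans hV
    have hu : IsUnit (rres (h.trans hV) (D.Q a a)) :=
      isUnit_rres_of_le_basicOpen _ h
    constructor
    · intro r r' hrr
      have := congrArg (fun s => rres (le_inf le_rfl hV' : V' ≤ V' ⊓ W1) (D.vec1 s a)) hrr
      simp only [vec1_smul, vec1_sres, vec1_mk1, map_mul, rres_rres, rres_self] at this
      exact hu.mul_left_injective this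
    · intro s
      let r : Γ(Y, V') := rres (le_inf le_rfl hV') (D.vec1 s a) * (↑hu.unit⁻¹ : Γ(Y, V'))
      refine ⟨r, D.ext1 hV' fun b => ?_⟩
      have key := fun c : Fin D.m => congrFun (s : D.sections V').2.2.1 c
      apply (rres_bij_of_le_le (le_inf le_rfl hV' : V' ≤ V' ⊓ W1) inf_le_left).1
      simp only [vec1_smul, vec1_sres, vec1_mk1, map_mul, rres_rres, rres_self]
      have h2 : ∀ c, rres (le_inf le_rfl hV' : V' ≤ V' ⊓ W1) (D.vec1 s c) =
          ∑ x, rres hV' (D.Q c x) * rres (le_inf le_rfl hV') (D.vec1 s x) := fun c => by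
        have := congrArg (rres (le_inf le_rfl hV' : V' ≤ V' ⊓ W1)) (key c)
        rw [mv_rres] at this
        exact this.symm
      apply hu.mul_left_injective
      show r * rres hV' (D.Q b a) * rres hV' (D.Q a a) = _ * rres hV' (D.Q a a)
      have h4 : r * rres hV' (D.Q a a) = rres (le_inf le_rfl hV') (D.vec1 s a) := by
        simp only [r, mul_assoc, IsUnit.val_inv_mul, mul_one]
      rw [mul_right_comm, h4, h2 a, h2 b, Finset.sum_mul, Finset.sum_mul]
      refine Finset.sum_congr rfl fun x _ => ?_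
      rw [mul_right_comm, ← map_mul, mul_right_comm, ← map_mul, mul_comm (D.Q a x), D.minorQ,
        mul_comm (D.Q b x)]

end PairData

end AlgebraicGeometry.RelPicGlue
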