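import Fermat.Agent.RelPic.BridgeTo
import Fermat.Agent.RelPic.BridgeAlg
import Fermat.Agent.RelPic.BridgePair

/-!
# Lattice pairs and invertible sheaves on `C_R`: isomorphisms and essential surjectivity
-/

set_option autoImplicit false
set_option linter.unusedVariables false

noncomputable section

universe u

open CategoryTheory CategoryTheory.Limits AlgebraicGeometry NeronModelInfra
  AlgebraicGeometry.RelPicard AlgebraicGeometry.RelPicGlue TensorProduct

namespace AlgebraicGeometry.RelPicGlue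

variable {Y : Scheme.{u}} {L L' : Y.Modules} {W : Y.Opens}

theorem LocalHom.ext_of_affine (hW : IsAffineOpen W) (hL : HasFrames W L)
    {f g : LocalHom W L L'} (h : ∀ y : Γ(L, W), f.app W le_rfl y = g.app W le_rfl y) : f = g := by
  obtain ⟨n, s, l, hsl⟩ := exists_dualBasis hW hL
  refine LocalHom.ext_app fun V hV x => ?_
  rw [hsl V hV x, map_sum, map_sum]
  refine Finset.sum_congr rfl fun a _ => ?_
  rw [f.map_smul, g.map_smul, ← f.naturality W V le_rfl hV, ← g.naturality W V le_rfl hV, h]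

/-- The morphism `x ↦ ∑ l a x • t a`. -/
def sumHom {n : ℕ} (l : Fin n → LocalHom W L (oUnit Y)) (t : Fin n → Γ(L', W)) :
    LocalHom W L L' where
  app V hV :=
    { toFun := fun x => ∑ a, (l a).lval hV x • sres L' hV (t a)
      map_zero' := Finset.sum_eq_zero fun a _ => by
        rw [show (l a).lval hV (0 : Γ(L, V)) = 0 from map_zero ((l a).app V hV)]
        exact zero_smul _ _
      map_add' := fun x y => by
        rw [← Finset.sum_add_distrib]
        exact Finset.sum_congr rfl fun a _ => by rw [LocalHom.lval_add, add_smul] }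
  map_smul V hV r x := by
    show ∑ a, (l a).lval hV (r • x) • sres L' hV (t a) =
      r • ∑ a, (l a).lval hV x • sres L' hV (t a)
    rw [Finset.smul_sum]
    exact Finset.sum_congr rfl fun a _ => by rw [LocalHom.lval_smul, mul_smul]
  naturality V V' hV h x := by
    show sres L' h (∑ a, (l a).lval hV x • sres L' hV (t a)) =
      ∑ a, (l a).lval (h.trans hV) (sres L h x) • sres L' (h.trans hV) (t a)
    rw [map_sum]
    exact Finset.sum_congr rfl fun a _ => by rw [sres_smul, sres_sres, LocalHom.lval_sres]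

theorem sumHom_app {n : ℕ} (l : Fin n → LocalHom W L (oUnit Y)) (t : Fin n → Γ(L', W))
    (V : Y.Opens) (hV : V ≤ W) (x : Γ(L, V)) :
    (sumHom l t).app V hV x = ∑ a, (l a).lval hV x • sres L' hV (t a) := rfl

end AlgebraicGeometry.RelPicGlue

namespace Fermat.Agent.RelPic

theorem sum_eq_apply {B N : Type u} [CommRing B] [AddCommGroup N] [Module B N] {n : ℕ}
    (s : Fin n → N) (l : Fin n → N →ₗ[B] B) (hx : ∀ x, x = ∑ i, l i x • s i) (f : N →ₗ[B] B)
    (x : N) : ∑ c, f (s c) * l c x = f x := by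
  conv_rhs => rw [hx x, map_sum]
  exact Finset.sum_congr rfl fun c _ => by rw [map_smul, smul_eq_mul, mul_comm]

namespace Realization

variable {k : Type u} [Field k] {C : Scheme.{u}} {c : C ⟶ Spec (CommRingCat.of k)}
  {X : Model k} {ε : SchemeHomOver (𝟙 (Spec (CommRingCat.of k))) c}
  (Rz : Realization X c ε) {R : Type u} [CommRing R] [Algebra k R]
  {L L' : (curveOver c R).Modules}

section Piece

variable {W : (curveOver c R).Opens} (hW : Rz.W01 R ≤ W) {B : Type u} [CommRing B] [Algebra R B]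
  (e : Γ(curveOver c R, W) ≃+* B) (res : B →ₐ[R] B01 X R)
  (he : ∀ x, Rz.s01 R (rres hW x) = res (e x)) (hWa : IsAffineOpen W)

include he hWa in
theorem sres_injective (hres : Function.Injective res) (hL : HasFrames W L) :
    Function.Injective (sres L hW) := by
  obtain ⟨n, s, l, hsl⟩ := exists_dualBasis hWa hL
  intro x y hxy
  rw [hsl W le_rfl x, hsl W le_rfl y]
  refine Finset.sum_congr rfl fun a _ => ?_
  congr 1
  apply e.injective
  apply hres
  rw [← he, ← he, ← LocalHom.lval_sres, ← LocalHom.lval_sres, hxy]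

include hWa in
theorem exists_lift (hL : HasFrames W L) (E : Rz.SecN L →ₗ[B01 X R] Rz.SecN L')
    (hE : ∀ x ∈ Rz.lat hW e res he L, E x ∈ Rz.lat hW e res he L') :
    ∃ φ : LocalHom W L L', ∀ y : Γ(L, Rz.W01 R),
      φ.app (Rz.W01 R) hW y = Rz.ofN (E (Rz.toN y)) := by
  obtain ⟨n, s, l, hsl⟩ := exists_dualBasis hWa hL
  choose t ht using fun a => hE (Rz.toN (sres L hW (s a))) ⟨s a, rfl⟩
  refine ⟨sumHom l t, fun y => ?_⟩
  have hy : Rz.toN y = ∑ a, Rz.s01 R ((l a).lval hW y) • Rz.toN (sres L hW (s a)) := by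
    refine (hsl _ hW y).trans (Finset.sum_congr rfl fun a _ => ?_)
    show _ = (Rz.s01 R).symm (Rz.s01 R ((l a).lval hW y)) • sres L hW (s a)
    rw [RingEquiv.symm_apply_apply]
  rw [hy, map_sum, sumHom_app]
  refine Finset.sum_congr rfl fun a _ => ?_
  rw [map_smul, ← show Rz.toN (sres L' hW (t a)) = E (Rz.toN (sres L hW (s a))) from ht a]
  show _ = (Rz.s01 R).symm (Rz.s01 R ((l a).lval hW y)) • sres L' hW (t a)
  rw [RingEquiv.symm_apply_apply]

include he hWa in
theorem comp_eq_id (hres : Function.Injective res) (hL : HasFrames W L)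
    (φ : LocalHom W L L') (ψ : LocalHom W L' L)
    (h : ∀ y : Γ(L, Rz.W01 R), ψ.app _ hW (φ.app _ hW y) = y) (V : (curveOver c R).Opens)
    (hV : V ≤ W) (x : Γ(L, V)) : ψ.app V hV (φ.app V hV x) = x := by
  have : φ.comp ψ = LocalHom.ofHom W (𝟙 L) := LocalHom.ext_of_affine hWa hL fun y => by
    apply Rz.sres_injective hW e res he hWa hres hL
    rw [LocalHom.naturality, LocalHom.naturality, LocalHom.comp_app]
    exact h _
  exact congrArg (fun f : LocalHom W L L => f.app V hV x) this

end Piece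

/-- Modules with isomorphic lattice pairs are isomorphic. -/
theorem nonempty_iso_of_iso_toPre (hL : Scheme.Modules.IsInvertible L)
    (hL' : Scheme.Modules.IsInvertible L') (h : (Rz.toPre L).Iso (Rz.toPre L')) :
    Nonempty (L ≅ L') := by
  obtain ⟨E, h0, h1⟩ := h
  let E' : Rz.SecN L ≃ₗ[B01 X R] Rz.SecN L' := E
  have hmem0 : ∀ x ∈ (Rz.toPre L).M0, E' x ∈ (Rz.toPre L').M0 :=
    fun x hx => h0.le (Submodule.mem_map_of_mem hx)
  have hmem1 : ∀ x ∈ (Rz.toPre L).M1, E' x ∈ (Rz.toPre L').M1 :=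
    fun x hx => h1.le (Submodule.mem_map_of_mem hx)
  have hmem0' : ∀ x ∈ (Rz.toPre L').M0, E'.symm x ∈ (Rz.toPre L).M0 := fun x hx => by
    rw [← h0] at hx
    obtain ⟨y, hy, rfl⟩ := hx
    show E'.symm (E' y) ∈ _
    exact Set.mem_of_eq_of_mem (E'.symm_apply_apply y) hy
  have hmem1' : ∀ x ∈ (Rz.toPre L').M1, E'.symm x ∈ (Rz.toPre L).M1 := fun x hx => by
    rw [← h1] at hx
    obtain ⟨y, hy, rfl⟩ := hx
    show E'.symm (E' y) ∈ _
    exact Set.mem_of_eq_of_mem (E'.symm_apply_apply y) hy
  have hF := fun W => hasFrames_of_isInvertible hL W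
  have hF' := fun W => hasFrames_of_isInvertible hL' W
  obtain ⟨φ0, hφ0⟩ := Rz.exists_lift (Rz.W01_le0 R) (Rz.s0 R) (res0 X R) (Rz.s01_rres0 R)
    (Rz.isAffineOpen0 R) (hF _) E'.toLinearMap hmem0
  obtain ⟨φ1, hφ1⟩ := Rz.exists_lift (Rz.W01_le1 R) (Rz.s1 R) (res1 X R) (Rz.s01_rres1 R)
    (Rz.isAffineOpen1 R) (hF _) E'.toLinearMap hmem1
  obtain ⟨ψ0, hψ0⟩ := Rz.exists_lift (Rz.W01_le0 R) (Rz.s0 R) (res0 X R) (Rz.s01_rres0 R)
    (Rz.isAffineOpen0 R) (hF' _) E'.symm.toLinearMap hmem0'
  obtain ⟨ψ1, hψ1⟩ := Rz.exists_lift (Rz.W01_le1 R) (Rz.s1 R) (res1 X R) (Rz.s01_rres1 R)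
    (Rz.isAffineOpen1 R) (hF' _) E'.symm.toLinearMap hmem1'
  have eq01 : φ0.res (Rz.W01_le0 R) = φ1.res (Rz.W01_le1 R) :=
    LocalHom.ext_of_affine (Rz.isAffineOpen01 R) (hF _) fun y => (hφ0 y).trans (hφ1 y).symm
  have bij0 : φ0.Bij := fun V hV => by
    refine Function.bijective_iff_has_inverse.mpr ⟨ψ0.app V hV, fun x => ?_, fun x => ?_⟩
    · refine Rz.comp_eq_id (Rz.W01_le0 R) (Rz.s0 R) (res0 X R) (Rz.s01_rres0 R) (Rz.isAffineOpen0 R)
        (res0_injective X R) (hF _) φ0 ψ0 (fun y => ?_) V hV x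
      rw [hψ0, hφ0]
      exact E'.symm_apply_apply (Rz.toN y)
    · refine Rz.comp_eq_id (Rz.W01_le0 R) (Rz.s0 R) (res0 X R) (Rz.s01_rres0 R) (Rz.isAffineOpen0 R)
        (res0_injective X R) (hF' _) ψ0 φ0 (fun y => ?_) V hV x
      rw [hφ0, hψ0]
      exact E'.apply_symm_apply (Rz.toN y)
  have bij1 : φ1.Bij := fun V hV => by
    refine Function.bijective_iff_has_inverse.mpr ⟨ψ1.app V hV, fun x => ?_, fun x => ?_⟩
    · refine Rz.comp_eq_id (Rz.W01_le1 R) (Rz.s1 R) (res1 X R) (Rz.s01_rres1 R) (Rz.isAffineOpen1 R)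
        (res1_injective X R) (hF _) φ1 ψ1 (fun y => ?_) V hV x
      rw [hψ1, hφ1]
      exact E'.symm_apply_apply (Rz.toN y)
    · refine Rz.comp_eq_id (Rz.W01_le1 R) (Rz.s1 R) (res1 X R) (Rz.s01_rres1 R) (Rz.isAffineOpen1 R)
        (res1_injective X R) (hF' _) ψ1 φ1 (fun y => ?_) V hV x
      rw [hφ1, hψ1]
      exact E'.apply_symm_apply (Rz.toN y)
  let U : Bool → (curveOver c R).Opens := fun b => cond b (Rz.W0 R) (Rz.W1 R)
  let f : ∀ b, LocalHom (U b) L L' := fun b => match b with
    | true => φ0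
    | false => φ1
  have hc : (⊤ : (curveOver c R).Opens) ≤ ⨆ b, U b := by
    rw [← Rz.sup_eq_top R]
    exact sup_le (le_iSup U true) (le_iSup U false)
  have hf : ∀ i j V (hi : V ≤ U i) (hj : V ≤ U j) s, (f i).app V hi s = (f j).app V hj s := by
    have key : ∀ V (hi : V ≤ Rz.W0 R) (hj : V ≤ Rz.W1 R) s,
        φ0.app V hi s = φ1.app V hj s := fun V hi hj s =>
      congrArg (fun g : LocalHom (Rz.W01 R) L L' =>
        g.app V ((le_inf hi hj).trans (Rz.W01_eq R).ge) s) eq01
    rintro (_ | _) (_ | _) V hi hj s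
    exacts [rfl, (key V hj hi s).symm, key V hi hj s, rfl]
  let g := LocalHom.glue (W := ⊤) U hc f hf
  have hg : g.Bij := LocalHom.bij_of_cover U hc g fun i V hV hi => by
    have : g.app V hV = (f i).app V hi :=
      AddMonoidHom.ext fun s => LocalHom.glue_app (W := ⊤) U hc f hf i V hV hi s
    rw [this]
    rcases i with _ | _
    · exact bij1 V hi
    · exact bij0 V hi
  have := LocalHom.isIso_toHom g hg
  exact ⟨asIso (LocalHom.toHom g)⟩

section Surjective

/-- Functions on the overlap of the two pieces. -/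
def ovl : B01 X R →+* Γ(curveOver c R, Rz.W0 R ⊓ Rz.W1 R) :=
  (rres (Rz.W01_eq R).ge).comp (Rz.s01 R).symm.toRingHom

theorem ovl_res0 (b : R ⊗[k] X.A0) :
    rres (inf_le_left : Rz.W0 R ⊓ Rz.W1 R ≤ _) ((Rz.s0 R).symm b) = Rz.ovl (res0 X R b) := by
  show _ = rres (Rz.W01_eq R).ge ((Rz.s01 R).symm (res0 X R b))
  rw [show (Rz.s01 R).symm (res0 X R b) = rres (Rz.W01_le0 R) ((Rz.s0 R).symm b) from by
    rw [RingEquiv.symm_apply_eq, Rz.s01_rres0, RingEquiv.apply_symm_apply], rres_rres]

theorem ovl_res1 (b : R ⊗[k] X.A1) :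
    rres (inf_le_right : Rz.W0 R ⊓ Rz.W1 R ≤ _) ((Rz.s1 R).symm b) = Rz.ovl (res1 X R b) := by
  show _ = rres (Rz.W01_eq R).ge ((Rz.s01 R).symm (res1 X R b))
  rw [show (Rz.s01 R).symm (res1 X R b) = rres (Rz.W01_le1 R) ((Rz.s1 R).symm b) from by
    rw [RingEquiv.symm_apply_eq, Rz.s01_rres1, RingEquiv.apply_symm_apply], rres_rres]

/-- Every lattice pair comes from an invertible module. -/
theorem exists_toPre_iso (P : Pre X R) (hP : P.Good) :
    ∃ L : (curveOver c R).Modules, Scheme.Modules.IsInvertible L ∧ (Rz.toPre L).Iso P := by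
  have := hP.invertible
  obtain ⟨n, s, l, hs, hsum, hmem⟩ := hP.lattice0
  obtain ⟨m, s', l', hs', hsum', hmem'⟩ := hP.lattice1
  choose p hp using fun b a => AlgHom.mem_range (φ := res0 X R).mp ((hmem (s a)).mp (hs a) b)
  choose q hq using fun b a => AlgHom.mem_range (φ := res1 X R).mp ((hmem' (s' a)).mp (hs' a) b)
  have i0 := res0_injective X R
  have i1 := res1_injective X R
  let D : PairData (Rz.W0 R) (Rz.W1 R) :=
    { n := n
      m := m
      P := fun b a => (Rz.s0 R).symm (p b a)
      Q := fun b a => (Rz.s1 R).symm (q b a)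
      T := fun b a => Rz.ovl (l' b (s a))
      T' := fun a b => Rz.ovl (l a (s' b))
      hP := fun b a => by
        simp only [← map_mul, ← map_sum]
        congr 1
        apply i0
        simp only [map_sum, map_mul, hp]
        exact sum_eq_apply s l hsum (l b) (s a)
      hQ := fun b a => by
        simp only [← map_mul, ← map_sum]
        congr 1
        apply i1
        simp only [map_sum, map_mul, hq]
        exact sum_eq_apply s' l' hsum' (l' b) (s' a)
      hTP := fun b a => by
        simp only [ovl_res0, hp, ← map_mul, ← map_sum]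
        congr 1
        exact sum_eq_apply s l hsum (l' b) (s a)
      hQT := fun b a => by
        simp only [ovl_res1, hq, ← map_mul, ← map_sum]
        congr 1
        exact sum_eq_apply s' l' hsum' (l' b) (s a)
      hPT' := fun b a => by
        simp only [ovl_res0, hp, ← map_mul, ← map_sum]
        congr 1
        exact sum_eq_apply s l hsum (l b) (s' a)
      hT'T := fun b a => by
        simp only [ovl_res0, hp, ← map_mul, ← map_sum]
        congr 1
        exact sum_eq_apply s' l' hsum' (l b) (s a)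
      hTT' := fun b a => by
        simp only [ovl_res1, hq, ← map_mul, ← map_sum]
        congr 1
        exact sum_eq_apply s l hsum (l' b) (s' a)
      traceP := by
        rw [← map_sum, ← map_one (Rz.s0 R).symm]
        congr 1
        apply i0
        simp only [map_sum, map_one, hp]
        exact trace_eq_one s l hsum
      traceQ := by
        rw [← map_sum, ← map_one (Rz.s1 R).symm]
        congr 1
        apply i1
        simp only [map_sum, map_one, hq]
        exact trace_eq_one s' l' hsum'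
      minorP := fun a b d => by
        simp only [← map_mul]
        congr 1
        apply i0
        simp only [map_mul, hp]
        have := congrArg (l b) (swap_of_invertible (l a) (s d) (s a))
        simp only [map_smul, smul_eq_mul] at this
        rw [mul_comm, this]
      minorQ := fun a b d => by
        simp only [← map_mul]
        congr 1
        apply i1
        simp only [map_mul, hq]
        have := congrArg (l' b) (swap_of_invertible (l' a) (s' d) (s' a))
        simp only [map_smul, smul_eq_mul] at this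
        rw [mul_comm, this] }
  have hD : Scheme.Modules.IsInvertible D.module :=
    isInvertible_of_hasFrames (D.hasFrames_of_cover (Rz.sup_eq_top R))
  refine ⟨D.module, hD, ?_⟩
  have hr0 : Rz.W01 R ≤ Rz.W01 R ⊓ Rz.W0 R := le_inf le_rfl (Rz.W01_le0 R)
  have hr1 : Rz.W01 R ≤ Rz.W01 R ⊓ Rz.W1 R := le_inf le_rfl (Rz.W01_le1 R)
  let co : Rz.SecN D.module → Fin n → B01 X R := fun x a =>
    Rz.s01 R (rres hr0 (D.vec0 (Rz.ofN x) a))
  let co' : Rz.SecN D.module → Fin m → B01 X R := fun x b =>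
    Rz.s01 R (rres hr1 (D.vec1 (Rz.ofN x) b))
  have hP01 : ∀ b a, Rz.s01 R (rres (Rz.W01_le0 R) (D.P b a)) = l b (s a) := fun b a => by
    rw [Rz.s01_rres0, RingEquiv.apply_symm_apply, hp]
  have co_eq : ∀ x b, co x b = ∑ a, l b (s a) * co x a := fun x b => by
    have h := congrArg (fun z => Rz.s01 R (rres hr0 z))
      (congrFun (show mv inf_le_right D.P (fun a => D.vec0 (Rz.ofN x) a) = fun a => D.vec0 (Rz.ofN x) a
        from (Rz.ofN x : D.sections (Rz.W01 R)).2.1) b)
    simp only [mv, map_sum, map_mul, rres_rres, hP01] at h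
    exact h.symm
  have co'_eq : ∀ x b, co' x b = ∑ a, l' b (s a) * co x a := fun x b => by
    have h := congrArg (fun z => Rz.s01 R
      (rres (le_inf le_rfl (Rz.W01_eq R).le : Rz.W01 R ≤ Rz.W01 R ⊓ (Rz.W0 R ⊓ Rz.W1 R)) z))
      (congrFun (Rz.ofN x : D.sections (Rz.W01 R)).2.2.2 b)
    have hT : ∀ a, Rz.s01 R (rres (Rz.W01_eq R).le (D.T b a)) = l' b (s a) := fun a => by
      show Rz.s01 R (rres (Rz.W01_eq R).le (rres (Rz.W01_eq R).ge ((Rz.s01 R).symm (l' b (s a))))) = _
      rw [rres_rres, rres_self, RingEquiv.apply_symm_apply]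
    simp only [mv, map_sum, map_mul, rres_rres, hT] at h
    exact h.symm
  let Φ : Rz.SecN D.module →ₗ[B01 X R] P.N :=
    { toFun := fun x => ∑ a, co x a • s a
      map_add' := fun x y => by
        rw [← Finset.sum_add_distrib]
        refine Finset.sum_congr rfl fun a _ => ?_
        rw [← add_smul]
        congr 1
        show Rz.s01 R (rres hr0 (D.vec0 (Rz.ofN x) a + D.vec0 (Rz.ofN y) a)) = _
        rw [map_add, map_add]
      map_smul' := fun r x => by
        rw [Finset.smul_sum]
        refine Finset.sum_congr rfl fun a _ => ?_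
        rw [← smul_assoc]
        congr 1
        show Rz.s01 R (rres hr0 (D.vec0 ((Rz.s01 R).symm r • Rz.ofN x) a)) = r * co x a
        rw [PairData.vec0_smul, map_mul, map_mul, rres_rres, rres_self, RingEquiv.apply_symm_apply] }
  have lΦ : ∀ x b, l b (Φ x) = co x b := fun x b => by
    rw [co_eq x b, show Φ x = ∑ a, co x a • s a from rfl, map_sum]
    exact Finset.sum_congr rfl fun a _ => by rw [map_smul, smul_eq_mul, mul_comm]
  have l'Φ : ∀ x b, l' b (Φ x) = co' x b := fun x b => by
    rw [co'_eq x b, show Φ x = ∑ a, co x a • s a from rfl, map_sum]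
    exact Finset.sum_congr rfl fun a _ => by rw [map_smul, smul_eq_mul, mul_comm]
  have hinj : Function.Injective Φ := fun x y hxy => by
    refine D.ext0 (Rz.W01_le0 R) fun a => ?_
    apply (PairData.rres_bij_of_le_le hr0 inf_le_left).1
    apply (Rz.s01 R).injective
    exact (lΦ x a).symm.trans ((congrArg (l a) hxy).trans (lΦ y a))
  have hsurj : ∀ z, ∃ x, Φ x = z := fun z => by
    have hv : mv (Rz.W01_le0 R) D.P (fun a => (Rz.s01 R).symm (l a z)) =
        fun a => (Rz.s01 R).symm (l a z) := funext fun b => by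
      apply (Rz.s01 R).injective
      simp only [mv, map_sum, map_mul, hP01, RingEquiv.apply_symm_apply]
      exact sum_eq_apply s l hsum (l b) z
    refine ⟨Rz.toN (D.mk0 (Rz.W01_le0 R) _ hv), ?_⟩
    refine (Finset.sum_congr rfl fun a _ => ?_).trans (hsum z).symm
    congr 1
    show Rz.s01 R (rres hr0 (D.vec0 (D.mk0 (Rz.W01_le0 R) _ hv) a)) = l a z
    rw [PairData.vec0_mk0, rres_rres, rres_self, RingEquiv.apply_symm_apply]
  refine ⟨LinearEquiv.ofBijective Φ ⟨hinj, hsurj⟩, ?_, ?_⟩
  · ext z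
    constructor
    · rintro ⟨_, ⟨y, rfl⟩, rfl⟩
      refine (hmem _).mpr fun b => (AlgHom.mem_range (φ := res0 X R)).mpr
        ⟨Rz.s0 R (rres (le_inf le_rfl le_rfl : Rz.W0 R ≤ Rz.W0 R ⊓ Rz.W0 R) (D.vec0 y b)), ?_⟩
      refine Eq.trans ?_ (lΦ (Rz.toN (sres D.module (Rz.W01_le0 R) y)) b).symm
      show _ = Rz.s01 R (rres hr0 (D.vec0 (sres D.module (Rz.W01_le0 R) y) b))
      rw [← Rz.s01_rres0, PairData.vec0_sres, rres_rres, rres_rres]
    · intro hz
      choose w hw using fun a => AlgHom.mem_range (φ := res0 X R).mp ((hmem z).mp hz a)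
      have hv : mv le_rfl D.P (fun a => (Rz.s0 R).symm (w a)) = fun a => (Rz.s0 R).symm (w a) :=
        funext fun b => by
          apply (Rz.s0 R).injective
          apply i0
          simp only [mv, map_sum, map_mul, rres_self, RingEquiv.apply_symm_apply, hw, D, hp]
          exact sum_eq_apply s l hsum (l b) z
      refine ⟨Rz.toN (sres D.module (Rz.W01_le0 R) (D.mk0 le_rfl _ hv)), ⟨_, rfl⟩, ?_⟩
      show Φ _ = z
      refine (Finset.sum_congr rfl fun a _ => ?_).trans (hsum z).symm
      congr 1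
      show Rz.s01 R (rres hr0 (D.vec0 (sres D.module (Rz.W01_le0 R) (D.mk0 le_rfl _ hv)) a)) = l a z
      rw [PairData.vec0_sres, PairData.vec0_mk0, rres_rres, rres_rres, Rz.s01_rres0,
        RingEquiv.apply_symm_apply, hw]
  · ext z
    constructor
    · rintro ⟨_, ⟨y, rfl⟩, rfl⟩
      refine (hmem' _).mpr fun b => (AlgHom.mem_range (φ := res1 X R)).mpr
        ⟨Rz.s1 R (rres (le_inf le_rfl le_rfl : Rz.W1 R ≤ Rz.W1 R ⊓ Rz.W1 R) (D.vec1 y b)), ?_⟩
      refine Eq.trans ?_ (l'Φ (Rz.toN (sres D.module (Rz.W01_le1 R) y)) b).symm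
      show _ = Rz.s01 R (rres hr1 (D.vec1 (sres D.module (Rz.W01_le1 R) y) b))
      rw [← Rz.s01_rres1, PairData.vec1_sres, rres_rres, rres_rres]
    · intro hz
      choose w hw using fun a => AlgHom.mem_range (φ := res1 X R).mp ((hmem' z).mp hz a)
      have hv : mv le_rfl D.Q (fun a => (Rz.s1 R).symm (w a)) = fun a => (Rz.s1 R).symm (w a) :=
        funext fun b => by
          apply (Rz.s1 R).injective
          apply i1
          simp only [mv, map_sum, map_mul, rres_self, RingEquiv.apply_symm_apply, hw, D, hq]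
          exact sum_eq_apply s' l' hsum' (l' b) z
      let x := Rz.toN (sres D.module (Rz.W01_le1 R) (D.mk1 le_rfl _ hv))
      refine ⟨x, ⟨_, rfl⟩, ?_⟩
      show Φ x = z
      rw [hsum' (Φ x), hsum' z]
      refine Finset.sum_congr rfl fun a _ => ?_
      congr 1
      rw [l'Φ]
      show Rz.s01 R (rres hr1 (D.vec1 (sres D.module (Rz.W01_le1 R) (D.mk1 le_rfl _ hv)) a)) = l' a z
      rw [PairData.vec1_sres, PairData.vec1_mk1, rres_rres, rres_rres, Rz.s01_rres1,
        RingEquiv.apply_symm_apply, hw]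

end Surjective

end Realization

end Fermat.Agent.RelPic
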