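import Fermat.Agent.RelPic.Defs
import Fermat.Prelude.Def_AlgebraicGeometry_RelPicardAlgEquivZeroCut

/-!
# A two-piece model realised inside a scheme
-/

set_option autoImplicit false

universe u

open CategoryTheory CategoryTheory.Limits AlgebraicGeometry NeronModelInfra

noncomputable section

namespace Fermat.Agent.RelPic

/-- `X` is the affine model of the curve `c` with marked section `ε`. -/
structure Realization {k : Type u} [Field k] (X : Model k) {C : Scheme.{u}}
    (c : C ⟶ Spec (CommRingCat.of k)) (ε : SchemeHomOver (𝟙 (Spec (CommRingCat.of k))) c) where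
  j0 : Spec (CommRingCat.of X.A0) ⟶ C
  j1 : Spec (CommRingCat.of X.A1) ⟶ C
  isOpenImmersion0 : IsOpenImmersion j0
  isOpenImmersion1 : IsOpenImmersion j1
  over0 : j0 ≫ c = Spec.map (CommRingCat.ofHom (algebraMap k X.A0))
  over1 : j1 ≫ c = Spec.map (CommRingCat.ofHom (algebraMap k X.A1))
  isPullback : IsPullback (Spec.map (CommRingCat.ofHom X.ι0.toRingHom))
    (Spec.map (CommRingCat.ofHom X.ι1.toRingHom)) j0 j1
  cover : ∀ x : C, x ∈ Set.range j0.base ∨ x ∈ Set.range j1.base
  marked : Spec.map (CommRingCat.ofHom X.e.toRingHom) ≫ j0 = ε.1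

/-- The structure map of the spectrum of a `k`-algebra. -/
abbrev specMap (k R : Type u) [Field k] [CommRing R] [Algebra k R] :
    Spec (CommRingCat.of R) ⟶ Spec (CommRingCat.of k) :=
  Spec.map (CommRingCat.ofHom (algebraMap k R))

end Fermat.Agent.RelPic
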