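import Fermat.Agent.RelPic.MainCls
import Fermat.Agent.RelPic.Realization
import Fermat.Agent.RelPic.GlueClasses

/-!
# Bridge, charts and point classes: the data from which the Picard scheme is built

`Bridge` is provided by `BridgeInput`, `Charts` by `ChartClass` and `Points` by `AbelJacobi`.
-/

set_option autoImplicit false

universe u

open CategoryTheory CategoryTheory.Limits AlgebraicGeometry NeronModelInfra
  AlgebraicGeometry.RelPicard

noncomputable section

namespace Fermat.Agent.RelPic

variable {k : Type u} [Field k]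

/-- The morphism over `k` induced by a map of `k`-algebras. -/
def specHom {R S : Type u} [CommRing R] [Algebra k R] [CommRing S] [Algebra k S]
    (φ : R →ₐ[k] S) : SchemeHomOver (specMap k S) (specMap k R) :=
  ⟨Spec.map (CommRingCat.ofHom φ.toRingHom), by
    rw [specMap, specMap, ← Spec.map_comp, ← CommRingCat.ofHom_comp]
    exact congrArg (fun f => Spec.map (CommRingCat.ofHom f)) φ.comp_algebraMap⟩

variable (X : Model k) {C : Scheme.{u}} (c : C ⟶ Spec (CommRingCat.of k))
  (ε : SchemeHomOver (𝟙 (Spec (CommRingCat.of k))) c)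

/-- Classes of lattice pairs are the rigidified line bundles over affine bases. -/
structure Bridge : Type (u + 1) where
  equiv : ∀ (R : Type u) [CommRing R] [Algebra k R],
    Cls X R ≃ RigidifiedLineBundle.Classes c ε (specMap k R)
  natural : ∀ {R S : Type u} [CommRing R] [Algebra k R] [CommRing S] [Algebra k S]
    (φ : R →ₐ[k] S) (x : Cls X R),
    equiv S (Cls.map φ x) = RigidifiedLineBundle.classesMap (specHom φ) (equiv R x)
  equiv_one : ∀ (R : Type u) [CommRing R] [Algebra k R],
    equiv R 1 = Quotient.mk _ (RigidifiedLineBundle.unit (specMap k R))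
  sectionBij : ∀ {T : Scheme.{u}} (t : T ⟶ Spec (CommRingCat.of k)),
    RelPicGlue.SectionBij c t ε

/-- A family of smooth affine charts for classes of degree zero. -/
structure Charts : Type (u + 1) where
  J : Type u
  H : J → Type u
  [ring : ∀ i, CommRing (H i)]
  [alg : ∀ i, Algebra k (H i)]
  smooth : ∀ i, Algebra.Smooth k (H i)
  univ : ∀ i, Cls X (H i)
  degZero : ∀ i, Cls.IsDegZero X (H i) (univ i)
  inj : ∀ (i : J) {R : Type u} [CommRing R] [Algebra k R] (φ ψ : H i →ₐ[k] R),
    Cls.map φ (univ i) = Cls.map ψ (univ i) → φ = ψ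
  isOpen : ∀ (i : J) {R : Type u} [CommRing R] [Algebra k R] (x : Cls X R),
    Cls.IsDegZero X R x → ∃ U : TopologicalSpace.Opens (PrimeSpectrum R),
      ∀ {S : Type u} [CommRing S] [Algebra k S] (φ : R →ₐ[k] S),
        (∃ ψ : H i →ₐ[k] S, Cls.map ψ (univ i) = Cls.map φ x) ↔
          Set.range (PrimeSpectrum.comap φ.toRingHom) ⊆ U
  cover : ∀ {K : Type u} [Field K] [Algebra k K] [IsAlgClosed K] (x : Cls X K),
    Cls.IsDegZero X K x → ∃ (i : J) (ψ : H i →ₐ[k] K), Cls.map ψ (univ i) = x

attribute [instance] Charts.ring Charts.alg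

/-- Degree zero classes attached to points of the curve, natural in the base, with which every
degree zero class over an algebraically closed field is a product of `g` of them. -/
structure Points : Type (u + 1) where
  g : ℕ
  pt0 : ∀ {R : Type u} [CommRing R] [Algebra k R], (X.A0 →ₐ[k] R) → Cls X R
  pt1 : ∀ {R : Type u} [CommRing R] [Algebra k R], (X.A1 →ₐ[k] R) → Cls X R
  degZero0 : ∀ {R : Type u} [CommRing R] [Algebra k R] (p : X.A0 →ₐ[k] R),
    Cls.IsDegZero X R (pt0 p)
  degZero1 : ∀ {R : Type u} [CommRing R] [Algebra k R] (p : X.A1 →ₐ[k] R),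
    Cls.IsDegZero X R (pt1 p)
  natural0 : ∀ {R S : Type u} [CommRing R] [Algebra k R] [CommRing S] [Algebra k S]
    (φ : R →ₐ[k] S) (p : X.A0 →ₐ[k] R), Cls.map φ (pt0 p) = pt0 (φ.comp p)
  natural1 : ∀ {R S : Type u} [CommRing R] [Algebra k R] [CommRing S] [Algebra k S]
    (φ : R →ₐ[k] S) (p : X.A1 →ₐ[k] R), Cls.map φ (pt1 p) = pt1 (φ.comp p)
  agree : ∀ {R : Type u} [CommRing R] [Algebra k R] (p : X.A01 →ₐ[k] R),
    pt0 (p.comp X.ι0) = pt1 (p.comp X.ι1)
  effective : ∀ {K : Type u} [Field K] [Algebra k K] [IsAlgClosed K] (x : Cls X K),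
    Cls.IsDegZero X K x →
      ∃ P : Fin g → (X.A0 →ₐ[k] K) ⊕ (X.A1 →ₐ[k] K), x = ∏ i, Sum.elim pt0 pt1 (P i)

end Fermat.Agent.RelPic
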