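import Fermat.Agent.RelPic.AlgEquiv
import Fermat.Agent.RelPic.MainInput

/-!
# The bridge of a realised curve
-/

set_option autoImplicit false

noncomputable section

universe u

open CategoryTheory CategoryTheory.Limits AlgebraicGeometry NeronModelInfra
  AlgebraicGeometry.RelPicard

namespace Fermat.Agent.RelPic.Realization

variable {k : Type u} [Field k] {C : Scheme.{u}} {c : C ⟶ Spec (CommRingCat.of k)}
  {X : Model k} {ε : SchemeHomOver (𝟙 (Spec (CommRingCat.of k))) c}
  (Rz : Realization X c ε)

/-- The bridge between lattice pairs and rigidified line bundles. -/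
def bridge : Bridge X c ε where
  equiv R _ _ := Rz.clsEquiv.symm
  natural {R S} _ _ _ _ φ x := by
    apply Rz.clsEquiv.injective
    rw [Equiv.apply_symm_apply]
    exact ((Rz.clsEquiv_classesMap φ _).trans
      (congrArg _ (Equiv.apply_symm_apply _ x))).symm
  equiv_one R _ _ := by
    rw [Equiv.symm_apply_eq]
    exact Rz.clsEquiv_unit.symm
  sectionBij t := Rz.sectionBij t

theorem bridge_equiv_symm {R : Type u} [CommRing R] [Algebra k R] :
    (Rz.bridge.equiv R).symm = Rz.clsEquiv :=
  Equiv.symm_symm _

theorem isDegZero_bridge_symm {R : Type u} [CommRing R] [Algebra k R]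
    (M : RigidifiedLineBundle c ε (specMap k R)) (hM : FibrewiseAlgEquivZero M) :
    Cls.IsDegZero X R ((Rz.bridge.equiv R).symm (Quotient.mk _ M)) := by
  rw [Rz.bridge_equiv_symm]
  exact Rz.isDegZero_clsEquiv M hM

end Fermat.Agent.RelPic.Realization
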