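import Fermat.Agent.RelPic.BridgeDual

/-!
# Sections, frames and functionals under pullback
-/

set_option autoImplicit false
set_option linter.unusedVariables false

noncomputable section

universe u

open CategoryTheory TopologicalSpace AlgebraicGeometry Opposite

namespace AlgebraicGeometry.RelPicGlue

variable {X Y : Scheme.{u}} (g : Y ⟶ X) {L L' : X.Modules}

/-- The pullback of a section. -/
def pullSec (L : X.Modules) (V : X.Opens) :
    Γ(L, V) →+ Γ((Scheme.Modules.pullback g).obj L, g ⁻¹ᵁ V) :=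
  (((Scheme.Modules.pullbackPushforwardAdjunction g).unit.app L).app V).hom

theorem pullSec_smul {V : X.Opens} (r : Γ(X, V)) (s : Γ(L, V)) :
    pullSec g L V (r • s) = g.app V r • pullSec g L V s :=
  ((Scheme.Modules.pullbackPushforwardAdjunction g).unit.app L).app_smul r s

theorem sres_pullSec {V V' : X.Opens} (h : V' ≤ V) (s : Γ(L, V)) :
    sres ((Scheme.Modules.pullback g).obj L) (Scheme.Hom.preimage_mono g h) (pullSec g L V s) =
      pullSec g L V' (sres L h s) :=
  app_sres ((Scheme.Modules.pullbackPushforwardAdjunction g).unit.app L) h s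

theorem subsingleton_of_eq_bot (M : X.Modules) {U : X.Opens} (hU : U = ⊥) (a b : Γ(M, U)) :
    a = b :=
  eq_of_sres (ι := PEmpty.{1}) (fun i => i.elim) (fun i => i.elim)
    (by rw [iSup_of_empty, hU]) fun i => i.elim

/-- Frames pull back to frames. -/
theorem isFrame_pullSec (hL : Scheme.Modules.IsInvertible L) {V : X.Opens} {e : Γ(L, V)}
    (he : IsFrame e) : IsFrame (RelPicGlue.pullSec g L V e) := by
  let P := (Scheme.Modules.pullback g).obj L
  have hP : HasFrames ⊤ P := hasFrames_of_isInvertible (hL.pullback g) _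
  let η : Γ(P, g ⁻¹ᵁ V) := RelPicGlue.pullSec g L V e
  have unit_at : ∀ y ∈ g ⁻¹ᵁ V, ∀ (V' : Y.Opens) (h : V' ≤ g ⁻¹ᵁ V) (e' : Γ(P, V'))
      (he' : IsFrame e'), y ∈ V' → y ∈ Y.basicOpen (he'.coord.lval le_rfl (sres P h η)) := by
    intro y hy V' h e' he' hyV'
    by_contra hc
    let i := Y.fromSpecResidueField y
    let adj' := Scheme.Modules.pullbackPushforwardAdjunction i
    let K := (Scheme.Modules.pushforward i).obj ((Scheme.Modules.pullback i).obj P)
    let q : P ⟶ K := adj'.unit.app P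
    have hK : ∀ (A : Y.Opens), y ∉ A → ∀ a b : Γ(K, A), a = b := fun A hA =>
      subsingleton_of_eq_bot (U := i ⁻¹ᵁ A) ((Scheme.Modules.pullback i).obj P) <| Opens.ext <| Set.eq_empty_iff_forall_notMem.mpr fun x hx => hA <| by
        rw [← Y.fromSpecResidueField_apply y x]; exact hx
    have hKres : ∀ (A B : Y.Opens) (hAB : B ≤ A), y ∈ B → ∀ a : Γ(K, A),
        sres K hAB a = 0 → a = 0 := fun A B hAB hy a ha => by
      refine eq_of_sres (L := (Scheme.Modules.pullback i).obj P) (V := i ⁻¹ᵁ A)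
        (fun _ : PUnit.{1} => i ⁻¹ᵁ B) (fun _ => Scheme.Hom.preimage_mono i hAB)
        (fun x hx => Opens.mem_iSup.mpr ⟨⟨⟩, ?_⟩) fun _ => ?_
      · show i x ∈ B
        rw [Y.fromSpecResidueField_apply y x]; exact hy
      · exact ha.trans (map_zero _).symm
    have hkill : ∀ (W : X.Opens) (s : Γ(L, W)),
        q.app (g ⁻¹ᵁ W) (RelPicGlue.pullSec g L W s) = 0 := by
      intro W s
      by_cases hyW : y ∈ g ⁻¹ᵁ W
      swap
      · exact hK _ hyW _ _
      let A : Y.Opens := V' ⊓ g ⁻¹ᵁ (V ⊓ W)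
      have hA1 : A ≤ g ⁻¹ᵁ (V ⊓ W) := inf_le_right
      have hA2 : A ≤ g ⁻¹ᵁ W := hA1.trans (Scheme.Hom.preimage_mono g inf_le_right)
      refine hKres _ A hA2 ⟨hyV', ⟨hy, hyW⟩⟩ _ ?_
      rw [app_sres q hA2]
      obtain ⟨r, hr⟩ := he.exists_smul (inf_le_left : V ⊓ W ≤ V) (sres L inf_le_right s)
      have h1 : sres P (Scheme.Hom.preimage_mono g (inf_le_right : V ⊓ W ≤ W))
          (RelPicGlue.pullSec g L W s) =
            g.app _ r • RelPicGlue.pullSec g L _ (sres L (inf_le_left : V ⊓ W ≤ V) e) := by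
        rw [sres_pullSec g (inf_le_right : V ⊓ W ≤ W), ← hr, pullSec_smul]
      have h2 : sres P hA2 (RelPicGlue.pullSec g L W s) =
          (rres hA1 (g.app _ r) * rres (inf_le_left : A ≤ V') (he'.coord.lval le_rfl (sres P h η))) •
            sres P (inf_le_left : A ≤ V') e' := by
        have h3 := congrArg (sres P hA1) h1
        rw [sres_sres, sres_smul, ← sres_pullSec, sres_sres] at h3
        rw [h3, mul_smul, ← LocalHom.lval_sres, he'.coord_spec, sres_sres]
      rw [h2]
      show q.app A _ = 0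
      rw [Scheme.Modules.Hom.app_smul]
      have h4 : i.app A (rres hA1 (g.app _ r) *
          rres (inf_le_left : A ≤ V') (he'.coord.lval le_rfl (sres P h η))) = 0 := by
        refine app_fromSpecResidueField_eq_zero y _ fun hy' => hc ?_
        rw [Scheme.basicOpen_mul, Scheme.basicOpen_res, Scheme.basicOpen_res] at hy'
        exact hy'.2.2
      show i.app A _ • (show Γ((Scheme.Modules.pullback i).obj P, i ⁻¹ᵁ A) from _) = 0
      rw [h4, zero_smul]
    have hq : q = 0 := by
      apply ((Scheme.Modules.pullbackPushforwardAdjunction g).homEquiv L K).injective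
      rw [Adjunction.homEquiv_unit, Adjunction.homEquiv_unit, CategoryTheory.Functor.map_zero, Limits.comp_zero]
      refine Scheme.Modules.hom_ext _ _ fun W => ?_
      ext s
      exact hkill W s
    have hid : (𝟙 ((Scheme.Modules.pullback i).obj P)) = 0 := by
      apply (adj'.homEquiv P _).injective
      rw [Adjunction.homEquiv_unit, Adjunction.homEquiv_unit, CategoryTheory.Functor.map_id,
        CategoryTheory.Functor.map_zero, Limits.comp_zero]
      exact (Category.comp_id q).trans hq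
    let pt : Spec (Y.residueField y) := IsLocalRing.closedPoint (Y.residueField y)
    obtain ⟨U, hptU, -, e'', he''⟩ :=
      hasFrames_of_isInvertible ((hL.pullback g).pullback i) ⊤ pt trivial
    have h5 : sres ((Scheme.Modules.pullback i).obj P) le_rfl e'' = 0 := by
      rw [sres_self]
      exact congr($(hid).app U e'')
    have h6 : (1 : Γ(Spec (Y.residueField y), U)) = 0 := (he'' U le_rfl).1 (by
      show (1 : Γ(Spec (Y.residueField y), U)) • _ = (0 : Γ(Spec (Y.residueField y), U)) • _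
      erw [h5]
      exact (smul_zero _).trans (smul_zero _).symm)
    have h7 := congrArg (Spec (Y.residueField y)).basicOpen h6
    rw [Scheme.basicOpen_of_isUnit _ isUnit_one, Scheme.basicOpen_zero] at h7
    have h8 : pt ∈ (⊥ : (Spec (Y.residueField y)).Opens) := h7 ▸ hptU
    exact h8
  intro V' h
  refine LocalHom.bij_of_cover (W := V') (L := oUnit Y) (L' := P)
    (fun p : FrameIn V' P => p.V) ((hP.mono le_top).cover)
    ((LocalHom.ofSection η).res h) (fun p U hU hUp => ?_) V' le_rfl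
  have hu : IsUnit (p.isFrame.coord.lval hUp (sres P (hU.trans h) η)) := by
    refine isUnit_of_forall_mem_basicOpen _ fun y hy => ?_
    have := unit_at y (h (hU hy)) p.V (p.le.trans h) p.e p.isFrame (hUp hy)
    rw [← sres_sres (L := P) (p.le.trans h) hUp η, LocalHom.lval_sres _ le_rfl hUp,
      Scheme.basicOpen_res]
    exact ⟨hy, this⟩
  have key : ⇑(((LocalHom.ofSection η).res h).app U hU) =
      (LocalHom.ofSection p.e).app U hUp ∘
        fun r : Γ(Y, U) => r * p.isFrame.coord.lval hUp (sres P (hU.trans h) η) := by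
    funext r
    show (show Γ(Y, U) from r) • sres P (hU.trans h) η =
      ((show Γ(Y, U) from r) * p.isFrame.coord.lval hUp (sres P (hU.trans h) η)) • sres P hUp p.e
    rw [mul_smul, p.isFrame.coord_spec]
  rw [key]
  refine (p.isFrame U hUp).comp (g := fun r : Γ(Y, U) => r • sres P hUp p.e) ?_
  exact ⟨hu.mul_left_injective, fun z => ⟨(show Γ(Y, U) from z) * (↑hu.unit⁻¹ : Γ(Y, U)),
    (mul_assoc _ _ _).trans ((congrArg _ hu.val_inv_mul).trans (mul_one _))⟩⟩

/-- The pullback of a functional. -/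
theorem exists_pullFunctional (hL : Scheme.Modules.IsInvertible L) {W : X.Opens}
    (l : LocalHom W L (oUnit X)) :
    ∃ l' : LocalHom (g ⁻¹ᵁ W) ((Scheme.Modules.pullback g).obj L) (oUnit Y),
      ∀ (V : X.Opens) (hV : V ≤ W) (s : Γ(L, V)),
        l'.lval (Scheme.Hom.preimage_mono g hV) (pullSec g L V s) = g.app V (l.lval hV s) := by
  let P := (Scheme.Modules.pullback g).obj L
  have hF : HasFrames W L := hasFrames_of_isInvertible hL W
  let f : ∀ p : FrameIn W L, LocalHom (g ⁻¹ᵁ p.V) P (oUnit Y) := fun p =>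
    (isFrame_pullSec g hL p.isFrame).coord.smulFun (g.app p.V (l.lval p.le p.e))
  have key : ∀ (p : FrameIn W L) (V : X.Opens) (h : V ≤ p.V) (s : Γ(L, V)),
      (f p).lval (Scheme.Hom.preimage_mono g h) (pullSec g L V s) =
        g.app V (l.lval (h.trans p.le) s) := fun p V h s => by
    obtain ⟨r, rfl⟩ := p.isFrame.exists_smul h s
    rw [l.lval_smul, map_mul, pullSec_smul,
      LocalHom.lval_sres _ p.le h, app_rres h, ← sres_pullSec g h]
    show rres _ _ * (isFrame_pullSec g hL p.isFrame).coord.lval _ _ = _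
    rw [(isFrame_pullSec g hL p.isFrame).coord_smul, mul_comm]
  have agree : ∀ p q V (hp : V ≤ g ⁻¹ᵁ p.V) (hq : V ≤ g ⁻¹ᵁ q.V) s,
      (f p).app V hp s = (f q).app V hq s := fun p q V hp hq s => by
    have hV : V ≤ g ⁻¹ᵁ (p.V ⊓ q.V) := le_inf hp hq
    obtain ⟨a, ha⟩ := (isFrame_pullSec g hL (p.isFrame.sres (inf_le_left : p.V ⊓ q.V ≤ p.V))).exists_smul
      hV s
    have h1 : ∀ (r : FrameIn W L) (hr : V ≤ g ⁻¹ᵁ r.V) (hr' : p.V ⊓ q.V ≤ r.V),
        (f r).lval hr s = a * rres hV (g.app _ (l.lval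
          ((inf_le_left : p.V ⊓ q.V ≤ p.V).trans p.le) (sres L inf_le_left p.e))) := fun r hr hr' => by
      rw [← ha, LocalHom.lval_smul, LocalHom.lval_sres _ (Scheme.Hom.preimage_mono g hr') hV, key r _ hr']
    exact (h1 p hp inf_le_left).trans (h1 q hq inf_le_right).symm
  have hc : g ⁻¹ᵁ W ≤ ⨆ p : FrameIn W L, g ⁻¹ᵁ p.V := fun y hy => by
    obtain ⟨p, hp⟩ := Opens.mem_iSup.mp (hF.cover (hy : g y ∈ W))
    exact Opens.mem_iSup.mpr ⟨p, hp⟩
  refine ⟨LocalHom.glue (W := g ⁻¹ᵁ W) (fun p : FrameIn W L => g ⁻¹ᵁ p.V) hc f agree,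
    fun V hV s => ?_⟩
  refine eq_of_rres (fun p : FrameIn W L => g ⁻¹ᵁ (V ⊓ p.V))
    (fun p => Scheme.Hom.preimage_mono g inf_le_left) (fun y hy => ?_) fun p => ?_
  · obtain ⟨p, hp⟩ := Opens.mem_iSup.mp (hF.cover (hV (hy : g y ∈ V)))
    exact Opens.mem_iSup.mpr ⟨p, hy, hp⟩
  · rw [← LocalHom.lval_sres, sres_pullSec g (inf_le_left : V ⊓ p.V ≤ V), ← app_rres (inf_le_left : V ⊓ p.V ≤ V), ← LocalHom.lval_sres,
      ← key p _ inf_le_right]
    exact LocalHom.glue_app (W := g ⁻¹ᵁ W) _ hc f agree p _ _ _ _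

end AlgebraicGeometry.RelPicGlue
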