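import Fermat.Agent.RelPic.Bridge
import Fermat.Agent.RelPic.BridgePull
import Fermat.Prelude.Def_AlgebraicGeometry_RelPicardAlgEquivZeroCut

/-!
# The bridge commutes with base change
-/

set_option autoImplicit false
set_option linter.unusedVariables false
set_option linter.style.haveILetI false

noncomputable section

universe u

open CategoryTheory CategoryTheory.Limits AlgebraicGeometry NeronModelInfra
  AlgebraicGeometry.RelPicard AlgebraicGeometry.RelPicGlue TensorProduct

namespace AlgebraicGeometry.RelPicGlue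

variable {X Y : Scheme.{u}} (g : Y ⟶ X) {L : X.Modules}

/-- A dual basis pulls back. -/
theorem exists_dualBasis_pull (hL : Scheme.Modules.IsInvertible L) {W : X.Opens} {n : ℕ}
    (s : Fin n → Γ(L, W)) (l : Fin n → LocalHom W L (oUnit X))
    (hsl : ∀ (V : X.Opens) (hV : V ≤ W) (x : Γ(L, V)),
      x = ∑ a, (l a).lval hV x • sres L hV (s a)) :
    ∃ l' : Fin n → LocalHom (g ⁻¹ᵁ W) ((Scheme.Modules.pullback g).obj L) (oUnit Y),
      ∀ (U : Y.Opens) (hU : U ≤ g ⁻¹ᵁ W) (z : Γ((Scheme.Modules.pullback g).obj L, U)),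
        z = ∑ a, (l' a).lval hU z •
          sres ((Scheme.Modules.pullback g).obj L) hU (pullSec g L W (s a)) := by
  choose l' hl' using fun a => exists_pullFunctional g hL (l a)
  refine ⟨l', fun U hU z => ?_⟩
  let P := (Scheme.Modules.pullback g).obj L
  let φ := sumHom l' fun a => pullSec g L W (s a)
  have hF := hasFrames_of_isInvertible hL W
  suffices h : φ.app U hU z = z from h.symm
  refine eq_of_sres (fun p : FrameIn W L => U ⊓ g ⁻¹ᵁ p.V) (fun p => inf_le_left) (fun y hy => ?_)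
    fun p => ?_
  · obtain ⟨p, hp⟩ := TopologicalSpace.Opens.mem_iSup.mp (hF.cover (hU hy : g y ∈ W))
    exact TopologicalSpace.Opens.mem_iSup.mpr ⟨p, hy, hp⟩
  · obtain ⟨r, hr⟩ := (isFrame_pullSec g hL p.isFrame).exists_smul
      (inf_le_right : U ⊓ g ⁻¹ᵁ p.V ≤ _) (sres P inf_le_left z)
    have key : φ.app (g ⁻¹ᵁ p.V) (Scheme.Hom.preimage_mono g p.le) (pullSec g L p.V p.e) =
        pullSec g L p.V p.e := by
      conv_rhs => rw [hsl p.V p.le p.e, map_sum]
      rw [sumHom_app]
      refine Finset.sum_congr rfl fun a _ => ?_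
      rw [pullSec_smul, hl' a p.V p.le, sres_pullSec g p.le]
    rw [φ.naturality _ _ hU, ← hr, φ.map_smul,
      ← φ.naturality _ _ (Scheme.Hom.preimage_mono g p.le) inf_le_right, key]

end AlgebraicGeometry.RelPicGlue

namespace Fermat.Agent.RelPic

variable {k : Type u} [Field k] {C : Scheme.{u}} {c : C ⟶ Spec (CommRingCat.of k)}
  {R : Type u} [CommRing R] [Algebra k R] {R' : Type u} [CommRing R'] [Algebra k R']

/-- The morphism of spectra of a map of algebras, over `k`. -/
def baseHom (φ : R →ₐ[k] R') : SchemeHomOver (specMap k R') (specMap k R) :=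
  ⟨Spec.map (CommRingCat.ofHom φ.toRingHom), by
    rw [← Spec.map_comp, ← CommRingCat.ofHom_comp]
    congr 2
    exact φ.comp_algebraMap⟩

variable (c) in
/-- The base change morphism of the curves. -/
abbrev curveMap (φ : R →ₐ[k] R') : curveOver c R' ⟶ curveOver c R :=
  baseChangeSnd c (baseHom φ)

variable (φ : R →ₐ[k] R')

theorem curveMap_fst : curveMap c φ ≫ pullback.fst c (specMap k R) =
    pullback.fst c (specMap k R') :=
  (pullback.lift_fst _ _ _).trans (Category.comp_id _)

theorem curveMap_snd : curveMap c φ ≫ pullback.snd c (specMap k R) =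
    pullback.snd c (specMap k R') ≫ Spec.map (CommRingCat.ofHom φ.toRingHom) :=
  pullback.lift_snd _ _ _

section Chart

variable {A : Type u} [CommRing A] [Algebra k A] (j : Spec (CommRingCat.of A) ⟶ C)
  [IsOpenImmersion j] (hj : j ≫ c = specMap k A)

omit [Algebra k A] in
theorem chartOpen_le_preimage : chartOpen c j R' ≤ curveMap c φ ⁻¹ᵁ chartOpen c j R := by
  unfold chartOpen
  rw [← Scheme.Hom.comp_preimage, curveMap_fst]

theorem secs_curveMap (x : Γ(curveOver c R, chartOpen c j R)) :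
    secs c j hj R' (rres (chartOpen_le_preimage φ j) ((curveMap c φ).app (chartOpen c j R) x)) =
      Algebra.TensorProduct.map φ (AlgHom.id k A) (secs c j hj R x) :=
  secs_square c j hj R j hj R' (Algebra.TensorProduct.map φ (AlgHom.id k A)).toRingHom
    (curveMap c φ)
    (chartMap_change c j hj R j hj R' φ (AlgHom.id k A)
      (by erw [CommRingCat.ofHom_id, Spec.map_id, Category.id_comp])
      (curveMap c φ) (curveMap_fst φ) (curveMap_snd φ))
    (chartOpen_le_preimage φ j) x

end Chart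

namespace Realization

variable {X : Model k} {ε : SchemeHomOver (𝟙 (Spec (CommRingCat.of k))) c}
  (Rz : Realization X c ε) {L : (curveOver c R).Modules}

/-- The pullback of a module to `C_{R'}`. -/
abbrev pullMod (L : (curveOver c R).Modules) : (curveOver c R').Modules :=
  (Scheme.Modules.pullback (curveMap c φ)).obj L

/-- The pullback of sections over an open. -/
def pullAt {W : (curveOver c R).Opens} {W' : (curveOver c R').Opens}
    (h : W' ≤ curveMap c φ ⁻¹ᵁ W) (y : Γ(L, W)) : Γ(pullMod φ L, W') :=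
  sres (pullMod φ L) h (pullSec (curveMap c φ) L W y)

theorem pullAt_sres {W V : (curveOver c R).Opens} {W' V' : (curveOver c R').Opens}
    (hV : V ≤ W) (hV' : V' ≤ W') (h : W' ≤ curveMap c φ ⁻¹ᵁ W) (h' : V' ≤ curveMap c φ ⁻¹ᵁ V)
    (y : Γ(L, W)) : pullAt φ h' (sres L hV y) = sres (pullMod φ L) hV' (pullAt φ h y) := by
  unfold pullAt
  rw [← sres_pullSec (curveMap c φ) hV, sres_sres, sres_sres]

/-- Pullback of sections over the overlap. -/
def pullN : Rz.SecN L →+ Rz.SecN (pullMod φ L) where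
  toFun y := Rz.toN (pullAt φ (chartOpen_le_preimage φ Rz.j01) (Rz.ofN y))
  map_zero' := by
    show sres _ _ (pullSec _ L _ 0) = 0
    rw [map_zero, map_zero]
  map_add' x y := by
    show sres _ _ (pullSec _ L _ (Rz.ofN x + Rz.ofN y)) = _
    rw [map_add, map_add]
    rfl

theorem pullN_smul (b : B01 X R) (y : Rz.SecN L) :
    Rz.pullN φ (b • y) = bMap X R φ b • Rz.pullN φ y := by
  show sres (pullMod φ L) (chartOpen_le_preimage φ Rz.j01)
      (pullSec (curveMap c φ) L (Rz.W01 R) ((Rz.s01 R).symm b • Rz.ofN y)) =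
    (Rz.s01 R').symm (bMap X R φ b) • sres (pullMod φ L) (chartOpen_le_preimage φ Rz.j01)
      (pullSec (curveMap c φ) L (Rz.W01 R) (Rz.ofN y))
  rw [pullSec_smul, sres_smul]
  congr 1
  rw [RingEquiv.eq_symm_apply]
  refine (secs_curveMap φ Rz.j01 Rz.over01 ((Rz.s01 R).symm b)).trans ?_
  exact congrArg _ (RingEquiv.apply_symm_apply (Rz.s01 R) b)

/-- The comparison of base change and pullback. -/
def bcComp : ((Rz.toPre L).bc φ).N →ₗ[B01 X R'] Rz.SecN (pullMod φ L) :=
  letI : Algebra (B01 X R) (B01 X R') := (bMap X R φ).toRingHom.toAlgebra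
  letI : Module (B01 X R) (Rz.SecN (pullMod φ L)) :=
    Module.compHom (Rz.SecN (pullMod φ L)) (bMap X R φ).toRingHom
  haveI : IsScalarTower (B01 X R) (B01 X R') (Rz.SecN (pullMod φ L)) :=
    ⟨fun a b x => mul_smul (bMap X R φ a) b x⟩
  LinearMap.liftBaseChange (B01 X R')
    { toFun := Rz.pullN φ
      map_add' := map_add _
      map_smul' := Rz.pullN_smul φ }

theorem bcComp_tmul (b : B01 X R') (y : Rz.SecN L) :
    letI : Algebra (B01 X R) (B01 X R') := (bMap X R φ).toRingHom.toAlgebra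
    Rz.bcComp φ (b ⊗ₜ[B01 X R] y) = b • Rz.pullN φ y :=
  letI : Algebra (B01 X R) (B01 X R') := (bMap X R φ).toRingHom.toAlgebra
  letI : Module (B01 X R) (Rz.SecN (pullMod φ L)) :=
    Module.compHom (Rz.SecN (pullMod φ L)) (bMap X R φ).toRingHom
  haveI : IsScalarTower (B01 X R) (B01 X R') (Rz.SecN (pullMod φ L)) :=
    ⟨fun a b x => mul_smul (bMap X R φ a) b x⟩
  LinearMap.liftBaseChange_tmul ..

section Piece

variable {W : (curveOver c R).Opens} {W' : (curveOver c R').Opens} (hW : Rz.W01 R ≤ W)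
  (hW' : Rz.W01 R' ≤ W') (hWW' : W' ≤ curveMap c φ ⁻¹ᵁ W)
  {B B' : Type u} [CommRing B] [Algebra R B] [CommRing B'] [Algebra R' B']
  (e : Γ(curveOver c R, W) ≃+* B) (res : B →ₐ[R] B01 X R)
  (he : ∀ x, Rz.s01 R (rres hW x) = res (e x))
  (e' : Γ(curveOver c R', W') ≃+* B') (res' : B' →ₐ[R'] B01 X R')
  (he' : ∀ x, Rz.s01 R' (rres hW' x) = res' (e' x)) (hWa : IsAffineOpen W)

include he' in
theorem res'_smul_pullN (a : B') (y : Γ(L, W)) :
    res' a • Rz.pullN φ (Rz.toN (sres L hW y)) =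
      Rz.toN (sres (pullMod φ L) hW' (e'.symm a • pullAt φ hWW' y)) := by
  show (Rz.s01 R').symm (res' a) • pullAt φ (chartOpen_le_preimage φ Rz.j01) (sres L hW y) = _
  rw [pullAt_sres φ hW hW' hWW' (chartOpen_le_preimage φ Rz.j01), sres_smul]
  congr 1
  rw [RingEquiv.symm_apply_eq, he', RingEquiv.apply_symm_apply]

include hWa in
theorem exists_eq_sum_pullAt (hL : Scheme.Modules.IsInvertible L) :
    ∃ (n : ℕ) (s : Fin n → Γ(L, W)), ∀ z : Γ(pullMod φ L, W'),
      ∃ a : Fin n → Γ(curveOver c R', W'), z = ∑ i, a i • pullAt φ hWW' (s i) := by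
  obtain ⟨n, s, l, hsl⟩ := exists_dualBasis hWa (hasFrames_of_isInvertible hL W)
  obtain ⟨l', hl'⟩ := exists_dualBasis_pull (curveMap c φ) hL s l hsl
  exact ⟨n, s, fun z => ⟨fun i => (l' i).lval hWW' z, hl' W' hWW' z⟩⟩

include hWW' hWa in
theorem map_bc_lat (hL : Scheme.Modules.IsInvertible L) :
    letI : Algebra (B01 X R) (B01 X R') := (bMap X R φ).toRingHom.toAlgebra
    (Submodule.span R' {x : ((Rz.toPre L).bc φ).N |
        ∃ a : B', ∃ m ∈ Rz.lat hW e res he L, x = res' a ⊗ₜ[B01 X R] m}).map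
        ((Rz.bcComp φ).restrictScalars R') = Rz.lat hW' e' res' he' (pullMod φ L) := by
  letI : Algebra (B01 X R) (B01 X R') := (bMap X R φ).toRingHom.toAlgebra
  rw [Submodule.map_span]
  refine le_antisymm (Submodule.span_le.mpr ?_) ?_
  · rintro _ ⟨_, ⟨a, m, ⟨y, rfl⟩, rfl⟩, rfl⟩
    exact ⟨_, ((Rz.bcComp_tmul φ (res' a) (Rz.toN (sres L hW y))).trans
      (Rz.res'_smul_pullN φ hW hW' hWW' e' res' he' a y)).symm⟩
  · rintro _ ⟨z, rfl⟩
    obtain ⟨n, s, hs⟩ := exists_eq_sum_pullAt φ hWW' hWa hL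
    obtain ⟨a, ha⟩ := hs z
    have : Rz.toN (sres (pullMod φ L) hW' z) = ∑ i,
        Rz.bcComp φ (res' (e' (a i)) ⊗ₜ[B01 X R] Rz.toN (sres L hW (s i))) := by
      rw [ha]
      show sres (pullMod φ L) hW' _ = _
      rw [map_sum]
      refine Finset.sum_congr rfl fun i _ => ?_
      refine Eq.trans ?_ ((Rz.bcComp_tmul φ (res' (e' (a i))) (Rz.toN (sres L hW (s i)))).trans
        (Rz.res'_smul_pullN φ hW hW' hWW' e' res' he' (e' (a i)) (s i))).symm
      rw [RingEquiv.symm_apply_apply]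
      rfl
    show Rz.toN (sres (pullMod φ L) hW' z) ∈ _
    rw [this]
    exact Submodule.sum_mem _ fun i _ =>
      Submodule.subset_span ⟨_, ⟨_, _, ⟨s i, rfl⟩, rfl⟩, rfl⟩

end Piece

theorem bcComp_bijective (hL : Scheme.Modules.IsInvertible L) :
    Function.Bijective (Rz.bcComp (L := L) φ) := by
  letI : Algebra (B01 X R) (B01 X R') := (bMap X R φ).toRingHom.toAlgebra
  haveI := Rz.invertible_secN (L := pullMod φ L) (hL.pullback _)
  haveI : Module.Invertible (B01 X R) (Rz.toPre L).N := Rz.invertible_secN hL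
  haveI : Module.Invertible (B01 X R') ((Rz.toPre L).bc φ).N :=
    inferInstanceAs (Module.Invertible (B01 X R') (B01 X R' ⊗[B01 X R] (Rz.toPre L).N))
  refine Module.Invertible.bijective_of_surjective fun z => ?_
  obtain ⟨n, s, hs⟩ := exists_eq_sum_pullAt φ (chartOpen_le_preimage φ Rz.j01)
    (Rz.isAffineOpen01 R) hL
  obtain ⟨a, ha⟩ := hs (Rz.ofN z)
  refine ⟨∑ i, Rz.s01 R' (a i) ⊗ₜ[B01 X R] Rz.toN (s i), ?_⟩
  rw [map_sum]
  refine (Finset.sum_congr rfl fun i _ => ?_).trans ha.symm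
  refine (Rz.bcComp_tmul φ (Rz.s01 R' (a i)) (Rz.toN (s i))).trans ?_
  show (Rz.s01 R').symm (Rz.s01 R' (a i)) •
      (pullAt φ (chartOpen_le_preimage φ Rz.j01) (s i) : Γ(pullMod φ L, Rz.W01 R')) = _
  rw [RingEquiv.symm_apply_apply]

/-- Base change of lattice pairs is pullback of modules. -/
theorem iso_bc_toPre (hL : Scheme.Modules.IsInvertible L) :
    ((Rz.toPre L).bc φ).Iso (Rz.toPre (pullMod φ L)) :=
  ⟨LinearEquiv.ofBijective (Rz.bcComp φ) (Rz.bcComp_bijective φ hL),
    Rz.map_bc_lat φ (Rz.W01_le0 R) (Rz.W01_le0 R') (chartOpen_le_preimage φ Rz.j0)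
      (Rz.s0 R) (res0 X R) (Rz.s01_rres0 R) (Rz.s0 R') (res0 X R') (Rz.s01_rres0 R')
      (Rz.isAffineOpen0 R) hL,
    Rz.map_bc_lat φ (Rz.W01_le1 R) (Rz.W01_le1 R') (chartOpen_le_preimage φ Rz.j1)
      (Rz.s1 R) (res1 X R) (Rz.s01_rres1 R) (Rz.s1 R') (res1 X R') (Rz.s01_rres1 R')
      (Rz.isAffineOpen1 R) hL⟩

theorem mk_toRig_pullbackAlong (M : RigidifiedLineBundle c ε (specMap k R)) :
    Cls.mk (Rz.toRig (M.pullbackAlong (baseHom φ))) = Cls.map φ (Cls.mk (Rz.toRig M)) := by
  rw [Cls.map_mk, Cls.mk_eq_mk]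
  exact (Rz.iso_bc_toPre φ M.isInvertible).symm

/-- The bridge is natural. -/
theorem clsEquiv_classesMap (x : RigidifiedLineBundle.Classes c ε (specMap k R)) :
    Rz.clsEquiv (RigidifiedLineBundle.classesMap (baseHom φ) x) = Cls.map φ (Rz.clsEquiv x) := by
  induction x using Quotient.ind with
  | _ M => exact Rz.mk_toRig_pullbackAlong φ M

end Realization

/-- `FibrewiseAlgEquivZero` on an affine base, in terms of field valued points. -/
theorem fibrewiseAlgEquivZero_iff {ε : SchemeHomOver (𝟙 (Spec (CommRingCat.of k))) c}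
    (M : RigidifiedLineBundle c ε (specMap k R)) :
    FibrewiseAlgEquivZero M ↔ ∀ (K : Type u) [Field K] [IsAlgClosed K] [Algebra k K]
      (φ : R →ₐ[k] K),
      IsAlgEquivZero (pullback.snd c (specMap k K)) (M.pullbackAlong (baseHom φ)).L := by
  constructor
  · intro h K _ _ _ φ
    let s : Spec (CommRingCat.of K) ⟶ Spec (CommRingCat.of R) := (baseHom φ).1
    let e : curveOver c K ⟶ pullback (pullback.snd c (specMap k R)) s :=
      pullback.lift (curveMap c φ) (pullback.snd c (specMap k K)) (curveMap_snd φ)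
    refine IsAlgEquivZero.of_iso ?_ ((h K s).pullback e (pullback.lift_snd _ _ _))
    exact (Scheme.Modules.pullbackComp _ _).app M.L ≪≫
      (Scheme.Modules.pullbackCongr (pullback.lift_fst _ _ _)).app M.L
  · intro h K _ _ s
    obtain ⟨f, rfl⟩ : ∃ f : CommRingCat.of R ⟶ CommRingCat.of K, Spec.map f = s :=
      ⟨Spec.preimage s, Spec.map_preimage s⟩
    letI : Algebra k K := (f.hom.comp (algebraMap k R)).toAlgebra
    let φ : R →ₐ[k] K := { f.hom with commutes' := fun r => rfl }
    have hs : Spec.map (CommRingCat.ofHom φ.toRingHom) = Spec.map f := rfl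
    let e' : pullback (pullback.snd c (specMap k R)) (Spec.map f) ⟶ curveOver c K :=
      pullback.lift (pullback.fst _ _ ≫ pullback.fst c (specMap k R)) (pullback.snd _ _) (by
        rw [Category.assoc, pullback.condition, ← Category.assoc, pullback.condition,
          Category.assoc, ← hs]
        exact congrArg _ (baseHom φ).2)
    have he : e' ≫ curveMap c φ = pullback.fst _ _ := by
      apply pullback.hom_ext
      · rw [Category.assoc, curveMap_fst, pullback.lift_fst]
      · rw [Category.assoc, curveMap_snd, ← Category.assoc, pullback.lift_snd, hs,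
          pullback.condition]
    refine IsAlgEquivZero.of_iso ?_ ((h K φ).pullback e' (pullback.lift_snd _ _ _))
    exact (Scheme.Modules.pullbackComp _ _).app M.L ≪≫
      (Scheme.Modules.pullbackCongr he).app M.L

end Fermat.Agent.RelPic
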