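import Fermat.Agent.RelPic.BridgeFrom

/-!
# Rigidifications on both sides of the bridge
-/

set_option autoImplicit false
set_option linter.unusedVariables false

noncomputable section

universe u

open CategoryTheory CategoryTheory.Limits AlgebraicGeometry NeronModelInfra
  AlgebraicGeometry.RelPicard AlgebraicGeometry.RelPicGlue TensorProduct

namespace Fermat.Agent.RelPic.Realization

variable {k : Type u} [Field k] {C : Scheme.{u}} {c : C ⟶ Spec (CommRingCat.of k)}
  {X : Model k} {ε : SchemeHomOver (𝟙 (Spec (CommRingCat.of k))) c}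
  (Rz : Realization X c ε) {R : Type u} [CommRing R] [Algebra k R]
  {L : (curveOver c R).Modules}

/-- The marked section over `R`. -/
local notation "σR" => rigSection c (specMap k R) ε

variable (R) in
/-- The value in `R` of a function near the marked section. -/
def val0 : Γ(Spec (CommRingCat.of R), σR ⁻¹ᵁ Rz.W0 R) →+* R :=
  (Scheme.ΓSpecIso (CommRingCat.of R)).hom.hom.comp (rres (Rz.top_le_rigSection R))

theorem val0_app (z : Γ(curveOver c R, Rz.W0 R)) :
    Rz.val0 R ((σR).app (Rz.W0 R) z) = evR X R (Rz.s0 R z) :=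
  Rz.rigSection_appLE R z

theorem val0_inv (r : R) (h : σR ⁻¹ᵁ Rz.W0 R ≤ ⊤) :
    Rz.val0 R (rres h ((Scheme.ΓSpecIso (CommRingCat.of R)).inv r)) = r := by
  show (Scheme.ΓSpecIso (CommRingCat.of R)).hom (rres (Rz.top_le_rigSection R) (rres h _)) = r
  rw [rres_rres, rres_self, ← ConcreteCategory.comp_apply, Iso.inv_hom_id]
  rfl

theorem sres0_injective (hL : Scheme.Modules.IsInvertible L) :
    Function.Injective (sres L (Rz.W01_le0 R)) :=
  Rz.sres_injective (Rz.W01_le0 R) (Rz.s0 R) (res0 X R) (Rz.s01_rres0 R) (Rz.isAffineOpen0 R)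
    (res0_injective X R) (hasFrames_of_isInvertible hL _)

theorem toN_sres_smul (b : R ⊗[k] X.A0) (y : Γ(L, Rz.W0 R)) :
    Rz.toN (sres L (Rz.W01_le0 R) ((Rz.s0 R).symm b • y)) =
      res0 X R b • Rz.toN (sres L (Rz.W01_le0 R) y) := by
  show sres L (Rz.W01_le0 R) ((Rz.s0 R).symm b • y) =
    (Rz.s01 R).symm (res0 X R b) • sres L (Rz.W01_le0 R) y
  rw [sres_smul]
  congr 1
  rw [RingEquiv.eq_symm_apply, Rz.s01_rres0, RingEquiv.apply_symm_apply]

theorem rigid_toPre (hL : Scheme.Modules.IsInvertible L)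
    (ρ : LocalHom ⊤ L (pushUnit σR)) (hρ : Attains ρ) : (Rz.toPre L).Rigid := by
  let v : Γ(L, Rz.W0 R) → R := fun y => Rz.val0 R (rho ρ (Rz.W0 R) le_top y)
  have v_smul : ∀ z y, v (z • y) = evR X R (Rz.s0 R z) * v y := fun z y => by
    simp only [v, rho_smul, map_mul, val0_app]
  have v_add : ∀ y y', v (y + y') = v y + v y' := fun y y' => by
    simp only [v, rho_add, map_add]
  let pre : (Rz.toPre L).M0 → Γ(L, Rz.W0 R) := fun m => m.2.choose
  have hpre : ∀ m, Rz.toN (sres L (Rz.W01_le0 R) (pre m)) = m.1 := fun m => m.2.choose_spec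
  have uniq : ∀ (m : (Rz.toPre L).M0) (y : Γ(L, Rz.W0 R)),
      Rz.toN (sres L (Rz.W01_le0 R) y) = m.1 → pre m = y := fun m y hy =>
    Rz.sres0_injective hL ((hpre m).trans hy.symm)
  have pre_smul : ∀ (b : R ⊗[k] X.A0) (m m' : (Rz.toPre L).M0),
      (m'.1 : Rz.SecN L) = res0 X R b • (m.1 : Rz.SecN L) →
      pre m' = (Rz.s0 R).symm b • pre m := fun b m m' h =>
    uniq m' _ ((Rz.toN_sres_smul b (pre m)).trans (by rw [hpre]; exact h.symm))
  let ρ₀ : (Rz.toPre L).M0 →ₗ[R] R :=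
    { toFun := fun m => v (pre m)
      map_add' := fun m m' => by
        rw [uniq (m + m') (pre m + pre m') (by
          show sres L _ (pre m + pre m') = _
          rw [map_add]
          exact congrArg₂ (· + ·) (hpre m) (hpre m')), v_add]
      map_smul' := fun r m => by
        have h : ((r • m).1 : Rz.SecN L) = res0 X R (algebraMap R _ r) • (m.1 : Rz.SecN L) := by
          rw [AlgHom.commutes]
          rfl
        rw [pre_smul _ m (r • m) h, v_smul, RingEquiv.apply_symm_apply, AlgHom.commutes]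
        rfl }
  refine ⟨ρ₀, ?_, fun b m m' h => ?_⟩
  · have h1 : (1 : R) ∈ LinearMap.range ρ₀ := by
      by_contra hc
      obtain ⟨P, hP, hle⟩ := Ideal.exists_le_maximal (LinearMap.range ρ₀)
        (fun h => hc ((Ideal.eq_top_iff_one _).mp h))
      obtain ⟨n, s, l, hsl⟩ := exists_dualBasis (Rz.isAffineOpen0 R)
        (hasFrames_of_isInvertible hL (Rz.W0 R))
      let t : Spec (CommRingCat.of R) := ⟨P, hP.isPrime⟩
      have ht : σR t ∈ Rz.W0 R := Rz.top_le_rigSection R (trivial : t ∈ ⊤)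
      obtain ⟨V, hV, y, hy⟩ := hρ t trivial
      have htV : σR t ∈ V := (Scheme.basicOpen_le _ _ hy : t ∈ σR ⁻¹ᵁ V)
      obtain ⟨a, ha⟩ : ∃ a, t ∈ (Spec (CommRingCat.of R)).basicOpen
          (rho ρ (Rz.W0 R) le_top (s a)) := by
        by_contra hn
        push Not at hn
        have h2 : t ∈ (Spec (CommRingCat.of R)).basicOpen
            (rho ρ (V ⊓ Rz.W0 R) le_top (sres L inf_le_left y)) := by
          rw [rho_sres ρ hV inf_le_left, Scheme.basicOpen_res]
          exact ⟨⟨htV, ht⟩, hy⟩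
        rw [hsl (V ⊓ Rz.W0 R) inf_le_right (sres L inf_le_left y)] at h2
        have h3 : rho ρ (V ⊓ Rz.W0 R) le_top
            (∑ a, (l a).lval inf_le_right (sres L inf_le_left y) • sres L inf_le_right (s a)) =
            ∑ a, (σR).app _ ((l a).lval inf_le_right (sres L inf_le_left y)) *
              rres (Scheme.Hom.preimage_mono σR inf_le_right) (rho ρ (Rz.W0 R) le_top (s a)) := by
          refine (map_sum (ρ.app (V ⊓ Rz.W0 R) le_top) _ _).trans
            (Finset.sum_congr rfl fun a _ => ?_)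
          show rho ρ _ le_top (_ • _) = _
          rw [rho_smul, ← rho_sres ρ le_top]
        rw [h3] at h2
        have hmem : t ∈ σR ⁻¹ᵁ (V ⊓ Rz.W0 R) := ⟨htV, ht⟩
        rw [Scheme.mem_basicOpen _ _ t hmem, map_sum] at h2
        refine (IsLocalRing.mem_maximalIdeal _).mp (Submodule.sum_mem _ fun a _ => ?_) h2
        rw [map_mul]
        refine Ideal.mul_mem_left _ _ ((IsLocalRing.mem_maximalIdeal _).mpr fun hu => hn a ?_)
        have h4 := (Scheme.mem_basicOpen _ _ t hmem).mpr hu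
        rw [Scheme.basicOpen_res] at h4
        exact h4.2
      have h5 : t ∈ (Spec (CommRingCat.of R)).basicOpen
          (rres (Rz.top_le_rigSection R) (rho ρ (Rz.W0 R) le_top (s a))) := by
        rw [Scheme.basicOpen_res]
        exact ⟨trivial, ha⟩
      rw [basicOpen_eq_of_affine'] at h5
      refine h5 (hle ⟨⟨Rz.toN (sres L (Rz.W01_le0 R) (s a)), ⟨_, rfl⟩⟩, ?_⟩)
      show v (pre _) = _
      rw [uniq ⟨Rz.toN (sres L (Rz.W01_le0 R) (s a)), ⟨_, rfl⟩⟩ (s a) rfl]
      rfl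
    intro r
    obtain ⟨m, hm⟩ := h1
    exact ⟨r • m, by rw [map_smul, hm, smul_eq_mul, mul_one]⟩
  · show v (pre m') = evR X R b * v (pre m)
    rw [pre_smul b m m' h, v_smul, RingEquiv.apply_symm_apply]

theorem preimage_le_inf (V : (curveOver c R).Opens) : σR ⁻¹ᵁ V ≤ σR ⁻¹ᵁ (V ⊓ Rz.W0 R) :=
  fun t ht => ⟨ht, Rz.top_le_rigSection R (trivial : t ∈ (⊤ : (Spec (CommRingCat.of R)).Opens))⟩

/-- Extension of a rigidification near the marked section to the whole curve. -/
def extendRho (ρ : LocalHom (Rz.W0 R) L (pushUnit σR)) : LocalHom ⊤ L (pushUnit σR) where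
  app V _ :=
    { toFun := fun x => show Γ(Spec (CommRingCat.of R), σR ⁻¹ᵁ V) from
        rres (Rz.preimage_le_inf V) (rho ρ (V ⊓ Rz.W0 R) inf_le_right (sres L inf_le_left x))
      map_zero' := by
        show rres _ (toFun' (ρ.app _ _ (sres L inf_le_left 0))) = _
        rw [map_zero, map_zero]
        exact map_zero _
      map_add' := fun x y => by
        show rres _ (toFun' (ρ.app _ _ (sres L inf_le_left (x + y)))) = _
        rw [map_add, map_add]
        exact map_add _ _ _ }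
  map_smul V _ r x := by
    show rres (Rz.preimage_le_inf V) (rho ρ (V ⊓ Rz.W0 R) inf_le_right (sres L inf_le_left (r • x))) =
      (σR).app V r * rres (Rz.preimage_le_inf V)
        (rho ρ (V ⊓ Rz.W0 R) inf_le_right (sres L inf_le_left x))
    rw [sres_smul, rho_smul, map_mul, app_rres, rres_rres, rres_self]
  naturality V V' _ h x := by
    show rres (Scheme.Hom.preimage_mono σR h) (rres (Rz.preimage_le_inf V)
        (rho ρ (V ⊓ Rz.W0 R) inf_le_right (sres L inf_le_left x))) =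
      rres (Rz.preimage_le_inf V')
        (rho ρ (V' ⊓ Rz.W0 R) inf_le_right (sres L inf_le_left (sres L h x)))
    rw [sres_sres, show sres L (inf_le_left.trans h : V' ⊓ Rz.W0 R ≤ V) x =
      sres L (inf_le_inf_right _ h) (sres L (inf_le_left : V ⊓ Rz.W0 R ≤ V) x) from
        (sres_sres _ _ _).symm,
      rho_sres ρ inf_le_right (inf_le_inf_right _ h), rres_rres, rres_rres]

theorem rho_extendRho (ρ : LocalHom (Rz.W0 R) L (pushUnit σR)) {V : (curveOver c R).Opens}
    (hV : V ≤ Rz.W0 R) (x : Γ(L, V)) :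
    rho (Rz.extendRho ρ) V le_top x = rho ρ V hV x := by
  show rres (Rz.preimage_le_inf V) (rho ρ (V ⊓ Rz.W0 R) inf_le_right (sres L inf_le_left x)) = _
  rw [rho_sres ρ hV inf_le_left, rres_rres, rres_self]

theorem exists_attains_of_rigid (hL : Scheme.Modules.IsInvertible L) (h : (Rz.toPre L).Rigid) :
    ∃ ρ : LocalHom ⊤ L (pushUnit σR), Attains ρ := by
  obtain ⟨ρ₀, hsurj, hsmul⟩ := h
  obtain ⟨n, s, l, hsl⟩ := exists_dualBasis (Rz.isAffineOpen0 R)
    (hasFrames_of_isInvertible hL (Rz.W0 R))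
  let m : Fin n → (Rz.toPre L).M0 := fun a =>
    ⟨Rz.toN (sres L (Rz.W01_le0 R) (s a)), ⟨_, rfl⟩⟩
  let w : Fin n → Γ(pushUnit σR, Rz.W0 R) := fun a =>
    rres (le_top : σR ⁻¹ᵁ Rz.W0 R ≤ ⊤) ((Scheme.ΓSpecIso (CommRingCat.of R)).inv (ρ₀ (m a)))
  refine ⟨Rz.extendRho (sumHom l w), fun t _ => ?_⟩
  obtain ⟨m₁, hm₁⟩ := hsurj 1
  obtain ⟨y, hy⟩ := m₁.2
  refine ⟨Rz.W0 R, le_top, y, ?_⟩
  rw [Rz.rho_extendRho _ le_rfl]
  have h1 : rho (sumHom l w) (Rz.W0 R) le_rfl y =
      ∑ a, (σR).app (Rz.W0 R) ((l a).lval le_rfl y) *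
        rres (le_top : σR ⁻¹ᵁ Rz.W0 R ≤ ⊤) ((Scheme.ΓSpecIso (CommRingCat.of R)).inv (ρ₀ (m a))) := by
    show toFun' (∑ a, (l a).lval le_rfl y • sres (pushUnit σR) le_rfl (w a)) = _
    refine (map_sum (AddMonoidHom.id Γ(Spec (CommRingCat.of R), σR ⁻¹ᵁ Rz.W0 R))
      (fun a => toFun' ((l a).lval le_rfl y • sres (pushUnit σR) le_rfl (w a))) Finset.univ).trans
      (Finset.sum_congr rfl fun a _ => ?_)
    show (σR).app (Rz.W0 R) ((l a).lval le_rfl y) * rres (Scheme.Hom.preimage_mono σR le_rfl)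
        (rres (le_top : σR ⁻¹ᵁ Rz.W0 R ≤ ⊤)
          ((Scheme.ΓSpecIso (CommRingCat.of R)).inv (ρ₀ (m a)))) = _
    rw [rres_rres]
  have hv : Rz.val0 R (rho (sumHom l w) (Rz.W0 R) le_rfl y) = 1 := by
    rw [h1, map_sum]
    simp only [map_mul, val0_app]
    let b : Fin n → R ⊗[k] X.A0 := fun a => Rz.s0 R ((l a).lval le_rfl y)
    let q : Fin n → (Rz.toPre L).M0 := fun a =>
      ⟨Rz.toN (sres L (Rz.W01_le0 R) ((l a).lval le_rfl y • s a)), ⟨_, rfl⟩⟩
    have hq : ∀ a, ρ₀ (q a) = evR X R (b a) * ρ₀ (m a) := fun a => hsmul (b a) (m a) (q a) (by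
      have := Rz.toN_sres_smul (b a) (s a)
      rw [RingEquiv.symm_apply_apply] at this
      exact this)
    have hm : m₁ = ∑ a, q a := Subtype.ext <| by
      refine hy.symm.trans ?_
      rw [Submodule.coe_sum]
      show sres L (Rz.W01_le0 R) y = ∑ a, sres L (Rz.W01_le0 R) ((l a).lval le_rfl y • s a)
      rw [← map_sum]
      refine congrArg _ ((hsl _ le_rfl y).trans (Finset.sum_congr rfl fun a _ => ?_))
      rw [sres_self]
    rw [← hm₁, hm, map_sum]
    exact Finset.sum_congr rfl fun a _ =>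
      (congrArg (evR X R (b a) * ·) (Rz.val0_inv (ρ₀ (m a)) le_top)).trans (hq a).symm
  have h6 : rres (Rz.top_le_rigSection R) (rho (sumHom l w) (Rz.W0 R) le_rfl y) = 1 := by
    apply (ConcreteCategory.bijective_of_isIso (Scheme.ΓSpecIso (CommRingCat.of R)).hom).1
    rw [map_one]
    exact hv
  have h7 : t ∈ (Spec (CommRingCat.of R)).basicOpen
      (rres (Rz.top_le_rigSection R) (rho (sumHom l w) (Rz.W0 R) le_rfl y)) := by
    rw [h6, Scheme.basicOpen_of_isUnit _ isUnit_one]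
    trivial
  rw [Scheme.basicOpen_res] at h7
  exact h7.2

end Fermat.Agent.RelPic.Realization
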