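import Fermat.Agent.RelPic.BridgeChart
import Fermat.Agent.RelPic.BridgeDual
import Fermat.Agent.RelPic.DualBasis

/-!
# From invertible sheaves on `C_R` to lattice pairs
-/

set_option autoImplicit false
set_option linter.unusedVariables false

noncomputable section

universe u

open CategoryTheory CategoryTheory.Limits AlgebraicGeometry NeronModelInfra
  AlgebraicGeometry.RelPicard AlgebraicGeometry.RelPicGlue TensorProduct

namespace AlgebraicGeometry.RelPicGlue

variable {X : Scheme.{u}} {L : X.Modules} {W : X.Opens}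

theorem LocalHom.lval_swap (l : LocalHom W L (oUnit X)) (hL : HasFrames W L) {V : X.Opens}
    (hV : V ≤ W) (x y : Γ(L, V)) : l.lval hV x • y = l.lval hV y • x := by
  refine eq_of_sres (fun p : FrameIn W L => V ⊓ p.V) (fun p => inf_le_left)
    (by rw [← inf_iSup_eq]; exact le_inf le_rfl (hV.trans hL.cover)) fun p => ?_
  obtain ⟨a, ha⟩ := p.isFrame.exists_smul (inf_le_right : V ⊓ p.V ≤ p.V) (sres L inf_le_left x)
  obtain ⟨b, hb⟩ := p.isFrame.exists_smul (inf_le_right : V ⊓ p.V ≤ p.V) (sres L inf_le_left y)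
  rw [sres_smul, sres_smul, ← l.lval_sres, ← l.lval_sres, ← ha, ← hb, l.lval_smul, l.lval_smul,
    smul_smul, smul_smul]
  congr 1
  ring

theorem eq_one_of_forall_smul (hL : HasFrames W L) (τ : Γ(X, W))
    (h : ∀ (V : X.Opens) (hV : V ≤ W) (x : Γ(L, V)), rres hV τ • x = x) : τ = 1 := by
  refine eq_of_rres (fun p : FrameIn W L => p.V) (fun p => p.le) hL.cover fun p => ?_
  apply (p.isFrame p.V le_rfl).1
  simp only [sres_self, map_one, one_smul, h p.V p.le]

end AlgebraicGeometry.RelPicGlue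

namespace Fermat.Agent.RelPic.Realization

variable {k : Type u} [Field k] {C : Scheme.{u}} {c : C ⟶ Spec (CommRingCat.of k)}
  {X : Model k} {ε : SchemeHomOver (𝟙 (Spec (CommRingCat.of k))) c}
  (Rz : Realization X c ε) {R : Type u} [CommRing R] [Algebra k R]

/-- Sections over the overlap, as a module over `B01`. -/
def SecN (L : (curveOver c R).Modules) : Type u := Γ(L, Rz.W01 R)

variable {L L' : (curveOver c R).Modules}

instance : AddCommGroup (Rz.SecN L) := inferInstanceAs (AddCommGroup Γ(L, Rz.W01 R))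

/-- A section over the overlap, as an element. -/
def toN (x : Γ(L, Rz.W01 R)) : Rz.SecN L := x

/-- An element as a section over the overlap. -/
def ofN (x : Rz.SecN L) : Γ(L, Rz.W01 R) := x

instance instSMulB : SMul (B01 X R) (Rz.SecN L) :=
  ⟨fun b x => Rz.toN ((Rz.s01 R).symm b • Rz.ofN x)⟩

theorem ofN_smul (b : B01 X R) (x : Rz.SecN L) :
    Rz.ofN (b • x) = (Rz.s01 R).symm b • Rz.ofN x := rfl

instance instModuleB : Module (B01 X R) (Rz.SecN L) where
  one_smul x := show (Rz.s01 R).symm 1 • Rz.ofN x = Rz.ofN x by rw [map_one, one_smul]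
  mul_smul a b x :=
    show (Rz.s01 R).symm (a * b) • Rz.ofN x =
      (Rz.s01 R).symm a • ((Rz.s01 R).symm b • Rz.ofN x) by rw [map_mul, mul_smul]
  smul_zero a := show (Rz.s01 R).symm a • (0 : Γ(L, Rz.W01 R)) = 0 from smul_zero _
  smul_add a x y := smul_add ((Rz.s01 R).symm a) (Rz.ofN x) (Rz.ofN y)
  add_smul a b x :=
    show (Rz.s01 R).symm (a + b) • Rz.ofN x =
      (Rz.s01 R).symm a • Rz.ofN x + (Rz.s01 R).symm b • Rz.ofN x by rw [map_add, add_smul]
  zero_smul x := show (Rz.s01 R).symm 0 • Rz.ofN x = 0 by rw [map_zero, zero_smul]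

instance instModuleR : Module R (Rz.SecN L) :=
  Module.compHom (Rz.SecN L) (algebraMap R (B01 X R))

instance instTower : IsScalarTower R (B01 X R) (Rz.SecN L) :=
  ⟨fun r b x =>
    (congrArg (fun z : B01 X R => z • x) (Algebra.smul_def r b)).trans
      (mul_smul (algebraMap R (B01 X R) r) b x)⟩

/-- The image of the sections over a piece. -/
def lat {W : (curveOver c R).Opens} (hW : Rz.W01 R ≤ W) {B : Type u} [CommRing B] [Algebra R B]
    (e : Γ(curveOver c R, W) ≃+* B) (res : B →ₐ[R] B01 X R)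
    (he : ∀ x, Rz.s01 R (rres hW x) = res (e x)) (L : (curveOver c R).Modules) :
    Submodule R (Rz.SecN L) where
  carrier := Set.range fun y : Γ(L, W) => Rz.toN (sres L hW y)
  zero_mem' := ⟨0, map_zero _⟩
  add_mem' := by
    rintro _ _ ⟨a, rfl⟩ ⟨b, rfl⟩
    exact ⟨a + b, map_add _ _ _⟩
  smul_mem' := by
    rintro r _ ⟨a, rfl⟩
    refine ⟨e.symm (algebraMap R B r) • a, ?_⟩
    show sres L hW (e.symm (algebraMap R B r) • a) =
      (Rz.s01 R).symm (algebraMap R (B01 X R) r) • sres L hW a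
    rw [sres_smul]
    congr 1
    rw [← res.commutes r, RingEquiv.eq_symm_apply, he, RingEquiv.apply_symm_apply]

/-- The lattice pair of a module on `C_R`. -/
def toPre (L : (curveOver c R).Modules) : Pre X R where
  N := Rz.SecN L
  M0 := Rz.lat (Rz.W01_le0 R) (Rz.s0 R) (res0 X R) (Rz.s01_rres0 R) L
  M1 := Rz.lat (Rz.W01_le1 R) (Rz.s1 R) (res1 X R) (Rz.s01_rres1 R) L

/-- A functional on the overlap, as a linear map. -/
def funN {W : (curveOver c R).Opens} (hW : Rz.W01 R ≤ W)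
    (l : LocalHom W L (oUnit (curveOver c R))) : Rz.SecN L →ₗ[B01 X R] B01 X R where
  toFun x := Rz.s01 R (l.lval hW (Rz.ofN x))
  map_add' x y := by
    show Rz.s01 R (l.lval hW (Rz.ofN x + Rz.ofN y)) = _
    rw [LocalHom.lval_add, map_add]
  map_smul' b x := by
    rw [ofN_smul, LocalHom.lval_smul, map_mul, RingEquiv.apply_symm_apply]
    rfl

theorem isLattice_lat {W : (curveOver c R).Opens} (hW : Rz.W01 R ≤ W) {B : Type u} [CommRing B]
    [Algebra R B] (e : Γ(curveOver c R, W) ≃+* B) (res : B →ₐ[R] B01 X R)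
    (he : ∀ x, Rz.s01 R (rres hW x) = res (e x)) (hWa : IsAffineOpen W) (hL : HasFrames W L) :
    Pre.IsLattice res (Rz.lat hW e res he L) := by
  obtain ⟨n, s, l, hsl⟩ := exists_dualBasis hWa hL
  refine ⟨n, fun a => Rz.toN (sres L hW (s a)), fun a => Rz.funN hW (l a),
    fun a => ⟨s a, rfl⟩, fun x => ?_, fun x => ⟨?_, fun h => ?_⟩⟩
  · refine (hsl _ hW (Rz.ofN x)).trans (Finset.sum_congr rfl fun a _ => ?_)
    show _ = (Rz.s01 R).symm (Rz.s01 R ((l a).lval hW (Rz.ofN x))) • sres L hW (s a)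
    rw [RingEquiv.symm_apply_apply]
  · rintro ⟨y, rfl⟩ a
    refine ⟨e ((l a).lval le_rfl y), ?_⟩
    show res (e ((l a).lval le_rfl y)) = Rz.s01 R ((l a).lval hW (sres L hW y))
    rw [← he, ← LocalHom.lval_sres]
  · choose b hb using fun a => AlgHom.mem_range (φ := res).mp (h a)
    refine ⟨∑ a, e.symm (b a) • s a, ?_⟩
    show sres L hW (∑ a, e.symm (b a) • s a) = Rz.ofN x
    rw [map_sum, hsl _ hW (Rz.ofN x)]
    refine Finset.sum_congr rfl fun a _ => ?_
    rw [sres_smul]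
    congr 1
    apply (Rz.s01 R).injective
    rw [he, RingEquiv.apply_symm_apply, hb a]
    rfl

theorem invertible_secN (hL : Scheme.Modules.IsInvertible L) :
    Module.Invertible (B01 X R) (Rz.SecN L) := by
  have hF := hasFrames_of_isInvertible hL (Rz.W01 R)
  obtain ⟨n, s, l, hsl⟩ := exists_dualBasis (Rz.isAffineOpen01 R) hF
  refine LatticeQuot.invertible_of_dualBasis (fun a => Rz.toN (s a)) (fun a => Rz.funN le_rfl (l a))
    (fun x => ?_) (fun a x y => ?_) ?_
  · refine (hsl _ le_rfl (Rz.ofN x)).trans (Finset.sum_congr rfl fun a _ => ?_)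
    show _ = (Rz.s01 R).symm (Rz.s01 R ((l a).lval le_rfl (Rz.ofN x))) • s a
    rw [RingEquiv.symm_apply_apply, sres_self]
  · show (Rz.s01 R).symm (Rz.s01 R ((l a).lval le_rfl (Rz.ofN x))) • Rz.ofN y =
      (Rz.s01 R).symm (Rz.s01 R ((l a).lval le_rfl (Rz.ofN y))) • Rz.ofN x
    simp only [RingEquiv.symm_apply_apply]
    exact (l a).lval_swap hF le_rfl _ _
  · show ∑ a, Rz.s01 R ((l a).lval le_rfl (s a)) = 1
    rw [← map_sum, eq_one_of_forall_smul hF (∑ a, (l a).lval le_rfl (s a)) fun V hV x => ?_,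
      map_one]
    rw [map_sum, Finset.sum_smul]
    refine Eq.trans (Finset.sum_congr rfl fun a _ => ?_) (hsl V hV x).symm
    rw [← LocalHom.lval_sres, (l a).lval_swap hF hV]

theorem good_toPre (hL : Scheme.Modules.IsInvertible L) : (Rz.toPre L).Good :=
  ⟨Rz.invertible_secN hL,
    Rz.isLattice_lat (Rz.W01_le0 R) (Rz.s0 R) (res0 X R) (Rz.s01_rres0 R) (Rz.isAffineOpen0 R)
      (hasFrames_of_isInvertible hL _),
    Rz.isLattice_lat (Rz.W01_le1 R) (Rz.s1 R) (res1 X R) (Rz.s01_rres1 R) (Rz.isAffineOpen1 R)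
      (hasFrames_of_isInvertible hL _)⟩

/-- An isomorphism of modules gives a linear equivalence over the overlap. -/
def mapN (e : L ≅ L') : Rz.SecN L ≃ₗ[B01 X R] Rz.SecN L' where
  toFun x := Rz.toN (e.hom.app (Rz.W01 R) (Rz.ofN x))
  invFun x := Rz.toN (e.inv.app (Rz.W01 R) (Rz.ofN x))
  left_inv x := by
    show (e.hom ≫ e.inv).app (Rz.W01 R) (Rz.ofN x) = Rz.ofN x
    rw [e.hom_inv_id]
    rfl
  right_inv x := by
    show (e.inv ≫ e.hom).app (Rz.W01 R) (Rz.ofN x) = Rz.ofN x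
    rw [e.inv_hom_id]
    rfl
  map_add' x y := map_add (e.hom.app (Rz.W01 R)).hom (Rz.ofN x) (Rz.ofN y)
  map_smul' b x := e.hom.app_smul ((Rz.s01 R).symm b) (Rz.ofN x)

theorem map_lat {W : (curveOver c R).Opens} (hW : Rz.W01 R ≤ W) {B : Type u} [CommRing B]
    [Algebra R B] (e : Γ(curveOver c R, W) ≃+* B) (res : B →ₐ[R] B01 X R)
    (he : ∀ x, Rz.s01 R (rres hW x) = res (e x)) (φ : L ≅ L') :
    (Rz.lat hW e res he L).map ((Rz.mapN φ).toLinearMap.restrictScalars R) =
      Rz.lat hW e res he L' := by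
  ext x
  constructor
  · rintro ⟨_, ⟨y, rfl⟩, rfl⟩
    exact ⟨φ.hom.app W y, app_sres φ.hom hW y⟩
  · rintro ⟨y, rfl⟩
    refine ⟨Rz.toN (sres L hW (φ.inv.app W y)), ⟨_, rfl⟩, ?_⟩
    show φ.hom.app (Rz.W01 R) (sres L hW (φ.inv.app W y)) = sres L' hW y
    rw [← app_sres φ.hom hW]
    exact congrArg (sres L' hW) (congr($(φ.inv_hom_id).app W y))

theorem iso_toPre (φ : L ≅ L') : (Rz.toPre L).Iso (Rz.toPre L') :=
  ⟨Rz.mapN φ, Rz.map_lat (Rz.W01_le0 R) (Rz.s0 R) (res0 X R) (Rz.s01_rres0 R) φ,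
    Rz.map_lat (Rz.W01_le1 R) (Rz.s1 R) (res1 X R) (Rz.s01_rres1 R) φ⟩

end Fermat.Agent.RelPic.Realization
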