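import Fermat.Agent.RelPic.ChartHilb

/-!
# A prescribed basis of a quotient and base change
-/

set_option autoImplicit false
set_option linter.style.haveILetI false
set_option linter.unusedSectionVars false

universe u

open TensorProduct

noncomputable section

namespace Fermat.Agent.RelPic

variable {k : Type u} [Field k] {A : Type u} [CommRing A] [Algebra k A] {n : ℕ} {a : Fin n → A}
  {R : Type u} [CommRing R] [Algebra k R]

/-- The map given by the prescribed elements in a quotient. -/
def basisMap (a : Fin n → A) (I : Ideal (R ⊗[k] A)) : (Fin n → R) →ₗ[R] (R ⊗[k] A) ⧸ I :=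
  (Ideal.Quotient.mkₐ R I).toLinearMap ∘ₗ ChartPt.comb a R

/-- Prescribed elements are a basis iff the ideal is that of a chart point. -/
theorem basisMap_bijective_iff (I : Ideal (R ⊗[k] A)) :
    Function.Bijective (basisMap a I) ↔ ∃ p : ChartPt k a R, p.ideal = I := by
  constructor
  · intro h
    refine ChartPt.exists_of_ideal I (fun b => ?_) (fun r hr => ?_)
    · obtain ⟨r, hr⟩ := h.2 (Ideal.Quotient.mk I b)
      exact ⟨r, Ideal.Quotient.eq.mp hr.symm⟩
    · exact h.1 ((Ideal.Quotient.eq_zero_iff_mem.mpr hr).trans (map_zero (basisMap a I)).symm)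
  · rintro ⟨p, rfl⟩
    refine ⟨(injective_iff_map_eq_zero _).mpr fun r hr =>
      (p.comb_mem_ideal_iff r).mp (Ideal.Quotient.eq_zero_iff_mem.mp hr), fun q => ?_⟩
    obtain ⟨b, rfl⟩ := Ideal.Quotient.mk_surjective q
    exact ⟨p.coords b, (Ideal.Quotient.eq.mpr (p.sub_comb_mem b)).symm⟩

variable {S : Type u} [CommRing S] [Algebra k S]

/-- Composite of changes of ring. -/
theorem ChartPt.map_map {T : Type u} [CommRing T] [Algebra k T] (f : R →ₐ[k] S) (g : S →ₐ[k] T)
    (p : ChartPt k a R) : (p.map f).map g = p.map (g.comp f) :=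
  ChartPt.ext (AlgHom.ext fun _ => Matrix.ext fun _ _ => rfl) rfl

theorem ChartPt.toHom_map (f : R →ₐ[k] S) (p : ChartPt k a R) :
    (p.map f).toHom = f.comp p.toHom := by
  refine (chartEquiv (k := k) (a := a)).injective ?_
  show (chartUniv (k := k) a).map _ = (chartUniv (k := k) a).map _
  rw [chartUniv_map_toHom, ← ChartPt.map_map, chartUniv_map_toHom]

variable [Algebra R S] [IsScalarTower k R S]

/-- A prescribed basis after base change. -/
theorem basisMap_map_bijective_iff (I : Ideal (R ⊗[k] A)) :
    Function.Bijective (basisMap a (I.map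
        (Algebra.TensorProduct.map (IsScalarTower.toAlgHom k R S) (AlgHom.id k A)).toRingHom)) ↔
      Function.Bijective ((basisMap a I).baseChange S) := by
  set F := Algebra.TensorProduct.map (IsScalarTower.toAlgHom k R S) (AlgHom.id k A) with hF
  set I' := I.map F.toRingHom
  let g : (R ⊗[k] A) ⧸ I →ₗ[R] (S ⊗[k] A) ⧸ I' :=
    { toFun := Ideal.quotientMap I' F.toRingHom Ideal.le_comap_map
      map_add' := map_add _
      map_smul' := fun r q => by
        obtain ⟨b, rfl⟩ := Ideal.Quotient.mk_surjective q
        rw [RingHom.id_apply, ← Ideal.Quotient.mkₐ_eq_mk R, ← map_smul]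
        show Ideal.Quotient.mk I' (F (r • b)) = r • Ideal.Quotient.mk I' (F b)
        rw [← Ideal.Quotient.mkₐ_eq_mk R I', ← map_smul]
        congr 1
        induction b using TensorProduct.induction_on with
        | zero => simp
        | tmul c x =>
          rw [hF, smul_tmul', Algebra.TensorProduct.map_tmul, Algebra.TensorProduct.map_tmul,
            smul_tmul', Algebra.smul_def r ((IsScalarTower.toAlgHom k R S) c), smul_eq_mul, map_mul]
          rfl
        | add b c hb hc => simp only [smul_add, map_add, hb, hc] }
  let G : S ⊗[R] ((R ⊗[k] A) ⧸ I) →ₗ[S] (S ⊗[k] A) ⧸ I' := g.liftBaseChange S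
  let back : S ⊗[k] A →ₐ[S] S ⊗[R] ((R ⊗[k] A) ⧸ I) :=
    Algebra.TensorProduct.lift (Algebra.ofId S _)
      ((Algebra.TensorProduct.includeRight.restrictScalars k).comp
        (((Ideal.Quotient.mkₐ R I).restrictScalars k).comp Algebra.TensorProduct.includeRight))
      fun r _ => Algebra.commutes r _
  have hbackF : ∀ b, back (F b) = (1 : S) ⊗ₜ[R] Ideal.Quotient.mk I b := by
    intro b
    induction b using TensorProduct.induction_on with
    | zero => rw [map_zero, map_zero, map_zero, tmul_zero]
    | tmul c x =>
      rw [hF, Algebra.TensorProduct.map_tmul]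
      simp only [back, Algebra.TensorProduct.lift_tmul, AlgHom.id_apply, Algebra.ofId_apply,
        AlgHom.comp_apply, AlgHom.restrictScalars_apply, Algebra.TensorProduct.includeRight_apply,
        Algebra.TensorProduct.algebraMap_apply, Algebra.algebraMap_self_apply,
        Algebra.TensorProduct.tmul_mul_tmul, mul_one, one_mul, Ideal.Quotient.mkₐ_eq_mk]
      show algebraMap R S c ⊗ₜ[R] _ = _
      rw [Algebra.algebraMap_eq_smul_one, smul_tmul]
      congr 1
      rw [← Ideal.Quotient.mkₐ_eq_mk R I, ← map_smul, smul_tmul', smul_eq_mul, mul_one]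
    | add b c hb hc => rw [map_add, map_add, hb, hc, map_add, tmul_add]
  have hker : I' ≤ RingHom.ker back :=
    Ideal.map_le_iff_le_comap.mpr fun b hb => by
      show back (F b) = 0
      rw [hbackF, Ideal.Quotient.eq_zero_iff_mem.mpr hb, tmul_zero]
  let B := Ideal.Quotient.liftₐ I' back fun b hb => hker hb
  have hGB : ∀ q, G (B q) = q := by
    intro q
    obtain ⟨b, rfl⟩ := Ideal.Quotient.mk_surjective q
    show G (back b) = Ideal.Quotient.mk I' b
    induction b using TensorProduct.induction_on with
    | zero => rw [map_zero, map_zero, map_zero]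
    | tmul c x =>
      have e : c ⊗ₜ[k] x = c • F ((1 : R) ⊗ₜ x) := by
        rw [hF, Algebra.TensorProduct.map_tmul, map_one, smul_tmul', smul_eq_mul, mul_one]; rfl
      rw [e, map_smul, hbackF, map_smul, LinearMap.liftBaseChange_tmul, one_smul,
        ← Ideal.Quotient.mkₐ_eq_mk S I', map_smul]
      rfl
    | add b c hb hc => rw [map_add, map_add, hb, hc, map_add]
  have hBG : ∀ z, B (G z) = z := by
    intro z
    induction z with
    | zero => rw [map_zero, map_zero]
    | tmul c q =>
      obtain ⟨b, rfl⟩ := Ideal.Quotient.mk_surjective q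
      rw [LinearMap.liftBaseChange_tmul, map_smul]
      show c • back (F b) = _
      rw [hbackF, smul_tmul', smul_eq_mul, mul_one]
    | add u v hu hv => rw [map_add, map_add, hu, hv]
  have hG : Function.Bijective G :=
    ⟨Function.LeftInverse.injective hBG, Function.RightInverse.surjective hGB⟩
  let π : S ⊗[R] (Fin n → R) ≃ₗ[S] (Fin n → S) := TensorProduct.piScalarRight R S S (Fin n)
  have key : G ∘ ((basisMap a I).baseChange S) = basisMap a I' ∘ π := by
    funext z
    show G ((basisMap a I).baseChange S z) = basisMap a I' (π z)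
    induction z with
    | zero => simp only [map_zero]
    | tmul c r =>
      rw [LinearMap.baseChange_tmul, LinearMap.liftBaseChange_tmul]
      show c • Ideal.Quotient.mk I' (F (ChartPt.comb a R r)) = Ideal.Quotient.mk I' _
      rw [← Ideal.Quotient.mkₐ_eq_mk S I', ← map_smul]
      congr 1
      rw [ChartPt.comb_apply, ChartPt.comb_apply, map_sum, Finset.smul_sum]
      refine Finset.sum_congr rfl fun i _ => ?_
      rw [smul_tmul', smul_tmul', smul_eq_mul, smul_eq_mul, mul_one, mul_one, hF,
        Algebra.TensorProduct.map_tmul, smul_tmul', smul_eq_mul, AlgHom.id_apply]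
      simp [π, TensorProduct.piScalarRight_apply, Algebra.smul_def, mul_comm]
    | add u v hu hv => simp only [map_add, hu, hv]
  constructor
  · intro h
    have h2 : Function.Bijective (G ∘ ((basisMap a I).baseChange S)) :=
      key ▸ h.comp π.bijective
    exact (Function.Bijective.of_comp_iff' hG _).mp h2
  · intro h
    have h2 : Function.Bijective (basisMap a I' ∘ π) := key ▸ hG.comp h
    exact (Function.Bijective.of_comp_iff _ π.bijective).mp h2

end Fermat.Agent.RelPic

end
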