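import Fermat.Agent.RelPic.ChartSection

/-!
# The divisor of the sections is finite and flat over the base

Its functions form a direct summand of a power of `H¹(O)`, which is free.
-/

set_option autoImplicit false
set_option linter.style.haveILetI false
set_option linter.unusedSectionVars false

universe u

open TensorProduct

noncomputable section

namespace Fermat.Agent.RelPic

variable {k : Type u} [Field k] {X : Model k} {R : Type u} [CommRing R] [Algebra k R]

/-- A direct summand of a finite projective module. -/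
theorem finite_projective_pi {A : Type u} [CommRing A] {P : Type u} [AddCommGroup P] [Module A P]
    (n : ℕ) (hP : Module.Finite A P ∧ Module.Projective A P) :
    Module.Finite A (Fin n → P) ∧ Module.Projective A (Fin n → P) := by
  haveI := hP.1
  haveI := hP.2
  haveI : Module.Projective A (Π₀ _ : Fin n, P) := inferInstance
  exact ⟨inferInstance,
    Module.Projective.of_equiv (DFinsupp.linearEquivFunOnFintype (R := A) (M := fun _ : Fin n => P))⟩

/-- A direct summand of a finite projective module. -/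
theorem finite_projective_of_retraction {A : Type u} [CommRing A] {P Q : Type u} [AddCommGroup P]
    [Module A P] [AddCommGroup Q] [Module A Q] (i : P →ₗ[A] Q) (r : Q →ₗ[A] P)
    (h : ∀ x, r (i x) = x) (hQ : Module.Finite A Q ∧ Module.Projective A Q) :
    Module.Finite A P ∧ Module.Projective A P := by
  haveI := hQ.1
  haveI := hQ.2
  exact ⟨Module.Finite.of_surjective r fun x => ⟨i x, h x⟩,
    Module.Projective.of_split i r (LinearMap.ext h)⟩

variable (X R) in
/-- `H¹(O)` is finite projective over the base. -/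
theorem finite_projective_H1_unit :
    Module.Finite R (Pre.unit X R).H1 ∧ Module.Projective R (Pre.unit X R).H1 := by
  set S : Submodule k X.A01 := X.V0 ⊔ X.V1 0 with hSdef
  obtain ⟨C, hC⟩ := S.exists_isCompl
  obtain ⟨D, hD⟩ := Model.exists_V0_sup_V1_eq_top (X := X)
  obtain ⟨W, hW, -, hWle⟩ := Model.exists_fg_sup X (D : ℤ) D
  haveI : Module.Finite k C := by
    haveI := hW
    refine Module.Finite.of_surjective
      ((Submodule.projectionOnto C S hC.symm).comp W.subtype) fun c => ?_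
    have hc : (c : X.A01) ∈ S ⊔ W := by
      have h1 : (⊤ : Submodule k X.A01) ≤ S ⊔ W := by
        rw [← hD]
        refine sup_le (le_sup_left.trans le_sup_left) (hWle.trans ?_)
        rw [sub_self]
        exact sup_le le_sup_right (le_sup_right.trans le_sup_left)
      exact h1 trivial
    obtain ⟨a, ha, b, hb, e⟩ := Submodule.mem_sup.mp hc
    refine ⟨⟨b, hb⟩, ?_⟩
    have e2 : b = (c : X.A01) - a := eq_sub_of_add_eq' e
    show Submodule.projectionOnto C S hC.symm b = c
    rw [e2, map_sub, Submodule.projectionOnto_apply_left,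
      (Submodule.projectionOnto_apply_eq_zero_iff hC.symm).mpr ha, sub_zero]
  have hS : (Pre.unit X R).M0 ⊔ (Pre.unit X R).M1 = ext01 X R S := by
    rw [hSdef, ← ext01_sup, ← unit_M0_eq, ← unit_twist_M1_eq, Pre.twist_zero_M1]
  have hcompl : IsCompl ((Pre.unit X R).M0 ⊔ (Pre.unit X R).M1) (ext01 X R C) := by
    rw [hS]
    refine IsCompl.of_eq ?_ ?_
    · rw [ext01_inf, hC.inf_eq_bot]
      exact le_bot_iff.mp (ext01_le fun a ha => by
        rw [(Submodule.mem_bot k).mp ha, tmul_zero]; exact zero_mem _)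
    · rw [ext01_sup, hC.sup_eq_top, ext01_top]
  obtain ⟨π, hπ, hπ'⟩ := exists_retraction_ext01 (X := X) (R := R) C
  have hfin : Module.Finite R (ext01 X R C) :=
    Module.Finite.iff_fg.mpr (ext01_fg (Module.Finite.iff_fg.mp inferInstance))
  have hproj : Module.Projective R (ext01 X R C) :=
    Module.Projective.of_split (ext01 X R C).subtype (π.codRestrict _ hπ)
      (LinearMap.ext fun x => Subtype.ext (hπ' x x.2))
  let e := Submodule.quotientEquivOfIsCompl _ _ hcompl
  exact ⟨Module.Finite.equiv e.symm, Module.Projective.of_equiv e.symm⟩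

namespace Pre

/-- The coefficient of an element of the span of the sections along a functional on them. -/
theorem exists_coeff {L : Pre X R} (h : L.Good) (hA : L.minus.Acyclic) (μ : L.H0 →ₗ[R] R)
    {Z : L.N} (hZ : Z ∈ L.secSpan) :
    ∃ w : B01 X R, ∀ x : L.H0, w • (x : L.N) = μ x • Z := by
  haveI := invertible_H0 h hA
  induction hZ using Submodule.span_induction with
  | mem Z hZ =>
    refine ⟨algebraMap R _ (μ ⟨Z, hZ⟩), fun x => ?_⟩
    rw [algebraMap_smul]
    exact congrArg Subtype.val (LatticeQuot.rankOne μ (⟨Z, hZ⟩ : L.H0) x)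
  | zero => exact ⟨0, fun x => by rw [zero_smul, smul_zero]⟩
  | add a b _ _ ha hb =>
    obtain ⟨u, hu⟩ := ha
    obtain ⟨v, hv⟩ := hb
    exact ⟨u + v, fun x => by rw [add_smul, hu, hv, smul_add]⟩
  | smul c a _ ha =>
    obtain ⟨u, hu⟩ := ha
    exact ⟨c * u, fun x => by rw [mul_smul, hu, smul_comm]⟩

/-- The coefficient functional. -/
def coeff {L : Pre X R} (h : L.Good) (hA : L.minus.Acyclic) (μ : L.H0 →ₗ[R] R) :
    L.secSpan →ₗ[B01 X R] B01 X R where
  toFun Z := (exists_coeff h hA μ Z.2).choose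
  map_add' a b := sub_eq_zero.mp (eq_zero_of_smul_H0 h hA fun x hx => by
    rw [sub_smul, add_smul, (exists_coeff h hA μ (a + b).2).choose_spec ⟨x, hx⟩,
      (exists_coeff h hA μ a.2).choose_spec ⟨x, hx⟩,
      (exists_coeff h hA μ b.2).choose_spec ⟨x, hx⟩, Submodule.coe_add, smul_add, sub_self])
  map_smul' c a := sub_eq_zero.mp (eq_zero_of_smul_H0 h hA fun x hx => by
    rw [sub_smul, RingHom.id_apply, smul_eq_mul, mul_smul,
      (exists_coeff h hA μ (c • a).2).choose_spec ⟨x, hx⟩,
      (exists_coeff h hA μ a.2).choose_spec ⟨x, hx⟩, Submodule.coe_smul, smul_comm, sub_self])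

theorem coeff_spec {L : Pre X R} (h : L.Good) (hA : L.minus.Acyclic) (μ : L.H0 →ₗ[R] R)
    (Z : L.secSpan) (x : L.H0) : coeff h hA μ Z • (x : L.N) = μ x • (Z : L.N) :=
  (exists_coeff h hA μ Z.2).choose_spec x

theorem coeff_sec {L : Pre X R} (h : L.Good) (hA : L.minus.Acyclic) (μ : L.H0 →ₗ[R] R)
    (x : L.H0) (Z : L.secSpan) (hZ : (Z : L.N) = x) :
    coeff h hA μ Z = algebraMap R _ (μ x) := by
  haveI := invertible_H0 h hA
  refine sub_eq_zero.mp (eq_zero_of_smul_H0 h hA fun y hy => ?_)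
  rw [sub_smul, coeff_spec h hA μ Z ⟨y, hy⟩, algebraMap_smul, hZ, sub_eq_zero]
  exact congrArg Subtype.val (LatticeQuot.rankOne μ (⟨y, hy⟩ : L.H0) x)

theorem coeff_mem1 {L : Pre X R} (h : L.Good) (hA : L.minus.Acyclic) (μ : L.H0 →ₗ[R] R)
    (Z : L.secSpan) (hZ : (Z : L.N) ∈ L.M1) : coeff h hA μ Z ∈ (res1 X R).range := by
  obtain ⟨w, hw⟩ := exists_smul_mem_secSpan1 h hA
  refine mem_range1_of_mul (w := w) ?_
  set c := res1 X R (1 + ((1 : R) ⊗ₜ X.g) * w)
  rw [← smul_eq_mul, ← map_smul]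
  have key : ∀ z ∈ L.secSpan1, ∀ hz : z ∈ L.secSpan,
      coeff h hA μ ⟨z, hz⟩ ∈ (res1 X R).range := by
    intro z hz
    induction hz using Submodule.span_induction with
    | mem z hz =>
      obtain ⟨b, x, hx, rfl⟩ := hz
      intro hmem
      have e : (⟨res1 X R b • x, hmem⟩ : L.secSpan) =
          res1 X R b • ⟨x, Submodule.subset_span hx⟩ := Subtype.ext rfl
      rw [e, map_smul, coeff_sec h hA μ ⟨x, hx⟩ _ rfl, smul_eq_mul]
      exact mul_mem (AlgHom.mem_range_self _ b) (Subalgebra.algebraMap_mem _ _)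
    | zero => intro hmem; rw [show (⟨0, hmem⟩ : L.secSpan) = 0 from rfl, map_zero]; exact zero_mem _
    | add a b ha' hb' ha hb =>
      intro hmem
      rw [show (⟨a + b, hmem⟩ : L.secSpan) =
        ⟨a, secSpan1_le ha'⟩ + ⟨b, secSpan1_le hb'⟩ from Subtype.ext rfl, map_add]
      exact add_mem (ha _) (hb _)
    | smul r a ha' ha =>
      intro hmem
      rw [show (⟨r • a, hmem⟩ : L.secSpan) = r • ⟨a, secSpan1_le ha'⟩ from Subtype.ext rfl,
        LinearMap.map_smul_of_tower]
      exact Subalgebra.smul_mem _ (ha _) r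
  exact key _ (hw _ hZ) (c • Z).2

/-- Functions on the divisor, twisted by the bundle: a summand of a power of `H¹(O)`. -/
theorem finite_projective_cokernel {L : Pre X R} (h : L.Good) (hA : L.minus.Acyclic) :
    Module.Finite R (L.N ⧸ (L.secSpan0 ⊔ L.M1)) ∧
      Module.Projective R (L.N ⧸ (L.secSpan0 ⊔ L.M1)) := by
  classical
  obtain ⟨n, σ, α, hexp, -, -⟩ := exists_H0_basis h hA
  let q := (L.secSpan0 ⊔ L.M1).mkQ
  let q' := ((Pre.unit X R).M0 ⊔ (Pre.unit X R).M1).mkQ
  let SR : Submodule R L.N := L.secSpan.restrictScalars R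
  let β : Fin n → SR →ₗ[R] B01 X R := fun i => (coeff h hA (α i)).restrictScalars R
  let Θ : SR →ₗ[R] Fin n → (Pre.unit X R).H1 := LinearMap.pi fun i => q'.comp (β i)
  have hsum : ∀ Z : SR, (Z : L.N) = ∑ i, β i Z • ((σ i : L.H0) : L.N) := by
    rintro ⟨Z, hZ⟩
    show Z = ∑ i, coeff h hA (α i) ⟨Z, hZ⟩ • ((σ i : L.H0) : L.N)
    simp only [coeff_spec h hA _ (⟨Z, hZ⟩ : L.secSpan)]
    have hH : ∀ z ∈ L.secSpan, z = ∑ i, α i (σ i) • z := fun z _ => by
      rw [← Finset.sum_smul]
      have h1 : ∑ i, α i (σ i) = 1 := by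
        haveI := invertible_H0 h hA
        exact LatticeQuot.trace_eq_one hexp
      rw [h1, one_smul]
    exact hH Z hZ
  have hker : LinearMap.ker (q.comp SR.subtype) ≤ LinearMap.ker Θ := by
    rintro ⟨Z, hZ⟩ hq
    have hq' : Z ∈ L.secSpan0 ⊔ L.M1 := (Submodule.Quotient.mk_eq_zero _).mp hq
    obtain ⟨a, ha, b, hb, e⟩ := Submodule.mem_sup.mp hq'
    have hbS : b ∈ L.secSpan := by
      rw [eq_sub_of_add_eq' e]
      exact sub_mem (show Z ∈ L.secSpan from hZ) (secSpan0_le ha)
    have haS : a ∈ L.secSpan := secSpan0_le ha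
    refine LinearMap.mem_ker.mpr (funext fun i => (Submodule.Quotient.mk_eq_zero _).mpr ?_)
    show coeff h hA (α i) ⟨Z, hZ⟩ ∈ _
    rw [show (⟨Z, hZ⟩ : L.secSpan) = ⟨a, haS⟩ + ⟨b, hbS⟩ from Subtype.ext e.symm, map_add]
    refine Submodule.add_mem_sup ?_ (coeff_mem1 h hA _ _ hb)
    clear e hq'
    revert haS
    induction ha using Submodule.span_induction with
    | mem z hz =>
      obtain ⟨c, x, hx, rfl⟩ := hz
      intro haS
      have e : (⟨res0 X R c • x, haS⟩ : L.secSpan) =
          res0 X R c • ⟨x, Submodule.subset_span hx⟩ := Subtype.ext rfl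
      rw [e, map_smul, coeff_sec h hA (α i) ⟨x, hx⟩ _ rfl, smul_eq_mul]
      exact mul_mem (s := (res0 X R).range) (AlgHom.mem_range_self _ c)
        (Subalgebra.algebraMap_mem _ _)
    | zero => intro h0; rw [show (⟨0, h0⟩ : L.secSpan) = 0 from rfl, map_zero]; exact zero_mem _
    | add u v hu' hv' hu hv =>
      intro h0
      rw [show (⟨u + v, h0⟩ : L.secSpan) =
        ⟨u, secSpan0_le hu'⟩ + ⟨v, secSpan0_le hv'⟩ from Subtype.ext rfl, map_add]
      exact add_mem (hu _) (hv _)
    | smul r u hu' hu =>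
      intro h0
      rw [show (⟨r • u, h0⟩ : L.secSpan) = r • ⟨u, secSpan0_le hu'⟩ from Subtype.ext rfl,
        LinearMap.map_smul_of_tower]
      exact Submodule.smul_mem _ r (hu _)
  have hsurj : Function.Surjective (q.comp SR.subtype) := by
    intro y
    obtain ⟨z, rfl⟩ := Submodule.mkQ_surjective _ y
    obtain ⟨Z, hZ, hzZ⟩ := exists_mem_secSpan_add h hA z
    refine ⟨⟨Z, hZ⟩, ((Submodule.Quotient.eq _).mpr ?_).symm⟩
    exact Submodule.mem_sup_right hzZ
  let emb : (L.N ⧸ (L.secSpan0 ⊔ L.M1)) →ₗ[R] Fin n → (Pre.unit X R).H1 :=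
    ((LinearMap.ker (q.comp SR.subtype)).liftQ Θ hker).comp
      (LinearMap.quotKerEquivOfSurjective (q.comp SR.subtype) hsurj).symm.toLinearMap
  let back : (Fin n → (Pre.unit X R).H1) →ₗ[R] (L.N ⧸ (L.secSpan0 ⊔ L.M1)) :=
    ∑ i, (((Pre.unit X R).M0 ⊔ (Pre.unit X R).M1).mapQ (L.secSpan0 ⊔ L.M1)
      (((LinearMap.toSpanSingleton (B01 X R) L.N ((σ i : L.H0) : L.N))).restrictScalars R)
      (sup_le (by
        rintro _ ⟨b, rfl⟩
        exact Submodule.mem_sup_left (Submodule.subset_span ⟨b, _, (σ i).2, rfl⟩)) (by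
        rintro _ ⟨b, rfl⟩
        exact Submodule.mem_sup_right (h.res1_smul_mem b (σ i).2.2)))).comp (LinearMap.proj i)
  refine finite_projective_of_retraction emb back (fun y => ?_)
    (finite_projective_pi _ (finite_projective_H1_unit X R))
  obtain ⟨Z, rfl⟩ := hsurj y
  have e : emb (q.comp SR.subtype Z) = Θ Z := by
    show (LinearMap.ker (q.comp SR.subtype)).liftQ Θ hker
      ((LinearMap.quotKerEquivOfSurjective (q.comp SR.subtype) hsurj).symm _) = _
    rw [← LinearMap.quotKerEquivOfSurjective_apply_mk (q.comp SR.subtype) hsurj Z,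
      LinearEquiv.symm_apply_apply, Submodule.liftQ_apply]
  rw [e]
  show back (Θ Z) = q (Z : L.N)
  rw [hsum Z, map_sum, LinearMap.sum_apply]
  exact Finset.sum_congr rfl fun i _ => rfl

/-- The quotient by the ideal of the sections is finite projective over the base. -/
theorem finite_projective_quotient {L : Pre X R} (h : L.Good) (hA : L.minus.Acyclic) :
    Module.Finite R ((R ⊗[k] X.A0) ⧸ L.secIdeal) ∧
      Module.Projective R ((R ⊗[k] X.A0) ⧸ L.secIdeal) := by
  classical
  haveI := h.invertible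
  obtain ⟨n, s, l, hs, hsum, hmem⟩ := h.lattice0
  let q := (L.secSpan0 ⊔ L.M1).mkQ
  have hkill : ∀ b ∈ L.secIdeal, ∀ x ∈ L.M0, res0 X R b • x ∈ L.secSpan0 := by
    intro b hb
    induction hb using Submodule.span_induction with
    | mem b hb =>
      obtain ⟨y, hy, f, hf, hby⟩ := hb
      intro x hx
      rw [hby, LatticeQuot.rankOne f y x]
      obtain ⟨c, hc⟩ := hf x hx
      rw [← hc]
      exact Submodule.subset_span ⟨c, y, hy, rfl⟩
    | zero => intro x _; rw [map_zero, zero_smul]; exact zero_mem _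
    | add a c _ _ ha hc => intro x hx; rw [map_add, add_smul]; exact add_mem (ha x hx) (hc x hx)
    | smul a c _ hc =>
      intro x hx
      rw [smul_eq_mul, map_mul, mul_smul]
      exact smul_mem_secSpan0 a (hc x hx)
  let I' : Submodule R (R ⊗[k] X.A0) := L.secIdeal.restrictScalars R
  let eI : ((R ⊗[k] X.A0) ⧸ I') ≃ₗ[R] (R ⊗[k] X.A0) ⧸ L.secIdeal :=
    Submodule.Quotient.restrictScalarsEquiv R L.secIdeal
  let m : Fin n → (R ⊗[k] X.A0) →ₗ[R] L.N := fun u =>
    ((LinearMap.toSpanSingleton (B01 X R) L.N (s u)).restrictScalars R).comp (res0 X R).toLinearMap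
  let emb : ((R ⊗[k] X.A0) ⧸ I') →ₗ[R] Fin n → (L.N ⧸ (L.secSpan0 ⊔ L.M1)) :=
    LinearMap.pi fun u => I'.mapQ (L.secSpan0 ⊔ L.M1) (m u) fun b hb =>
      Submodule.mem_sup_left (hkill b hb _ (hs u))
  -- the functionals of the lattice descend to the cokernel
  have hM0 : Function.Surjective (q.comp L.M0.subtype) := by
    intro y
    obtain ⟨z, rfl⟩ := Submodule.mkQ_surjective _ y
    obtain ⟨a, ha, b, hb, e⟩ := Submodule.mem_sup.mp
      (hA.sup_eq_top ▸ Submodule.mem_top : z ∈ L.minus.M0 ⊔ L.minus.M1)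
    refine ⟨⟨a, ha⟩, (Submodule.Quotient.eq _).mpr ?_⟩
    show a - z ∈ _
    rw [← e, sub_add_cancel_left]
    exact Submodule.mem_sup_right (neg_mem (minus_M1_le h hb))
  let pre : Fin n → L.M0 →ₗ[R] (R ⊗[k] X.A0) := fun u =>
    (LinearEquiv.ofInjective (res0 X R).toLinearMap (res0_injective X R)).symm.toLinearMap ∘ₗ
      (((l u).restrictScalars R).comp L.M0.subtype).codRestrict _ fun x => (hmem x).mp x.2 u
  have hpre : ∀ u (x : L.M0), res0 X R (pre u x) = l u x := fun u x =>
    congrArg Subtype.val ((LinearEquiv.ofInjective (res0 X R).toLinearMap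
      (res0_injective X R)).apply_symm_apply ⟨l u x, (hmem x).mp x.2 u⟩)
  have hker : ∀ u, LinearMap.ker (q.comp L.M0.subtype) ≤ LinearMap.ker (I'.mkQ.comp (pre u)) := by
    intro u x hx
    have hx' : (x : L.N) ∈ L.secSpan0 ⊔ L.M1 := (Submodule.Quotient.mk_eq_zero _).mp hx
    obtain ⟨a, ha, b, hb, e⟩ := Submodule.mem_sup.mp hx'
    have hbH : b ∈ L.H0 := ⟨by rw [eq_sub_of_add_eq' e]; exact sub_mem x.2 (secSpan0_le_M0 h ha), hb⟩
    have hxS : (x : L.N) ∈ L.secSpan0 := e ▸ add_mem ha (H0_le_secSpan0 hbH)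
    refine LinearMap.mem_ker.mpr ((Submodule.Quotient.mk_eq_zero _).mpr ?_)
    show pre u x ∈ L.secIdeal
    obtain ⟨c, hc, hcx⟩ : ∃ c ∈ L.secIdeal, res0 X R c = l u (x : L.N) := by
      generalize (x : L.N) = z at hxS ⊢
      induction hxS using Submodule.span_induction with
      | mem z hz =>
        obtain ⟨b', y, hy, rfl⟩ := hz
        obtain ⟨e', he'⟩ := (hmem y).mp hy.1 u
        refine ⟨b' * e', L.secIdeal.mul_mem_left _ (Ideal.subset_span
          ⟨y, hy, l u, fun m hm => (hmem m).mp hm u, he'⟩), ?_⟩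
        rw [map_smul, smul_eq_mul, map_mul]
        exact congrArg _ he'
      | zero => exact ⟨0, zero_mem _, by rw [map_zero, map_zero]⟩
      | add v w _ _ hv hw =>
        obtain ⟨p, hp, hpv⟩ := hv
        obtain ⟨p', hp', hpw⟩ := hw
        exact ⟨p + p', add_mem hp hp', by rw [map_add, map_add, hpv, hpw]⟩
      | smul r v _ hv =>
        obtain ⟨p, hp, hpv⟩ := hv
        exact ⟨r • p, I'.smul_mem r hp, by rw [map_smul, LinearMap.map_smul_of_tower, hpv]⟩
    rwa [res0_injective (X := X) R ((hpre u x).trans hcx.symm)]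
  let back : (Fin n → (L.N ⧸ (L.secSpan0 ⊔ L.M1))) →ₗ[R] (R ⊗[k] X.A0) ⧸ I' :=
    ∑ u, (((LinearMap.ker (q.comp L.M0.subtype)).liftQ (I'.mkQ.comp (pre u)) (hker u)).comp
      (LinearMap.quotKerEquivOfSurjective (q.comp L.M0.subtype) hM0).symm.toLinearMap).comp
        (LinearMap.proj u)
  have hfp := finite_projective_of_retraction emb back (fun y => ?_)
    (finite_projective_pi _ (finite_projective_cokernel h hA))
  · haveI := hfp.1
    haveI := hfp.2
    exact ⟨Module.Finite.equiv eI, Module.Projective.of_equiv eI⟩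
  obtain ⟨b, rfl⟩ := Submodule.mkQ_surjective _ y
  have hmem0 : ∀ u, res0 X R b • s u ∈ L.M0 := fun u => h.res0_smul_mem b (hs u)
  have e : ∀ u, emb (I'.mkQ b) u = q.comp L.M0.subtype ⟨_, hmem0 u⟩ := fun u => rfl
  have e' : ∀ u, (LinearMap.quotKerEquivOfSurjective (q.comp L.M0.subtype) hM0).symm
      (emb (I'.mkQ b) u) = Submodule.Quotient.mk ⟨_, hmem0 u⟩ := fun u => by
    rw [e, ← LinearMap.quotKerEquivOfSurjective_apply_mk (q.comp L.M0.subtype) hM0,
      LinearEquiv.symm_apply_apply]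
  simp only [back, LinearMap.sum_apply, LinearMap.comp_apply, LinearMap.proj_apply,
    LinearEquiv.coe_coe, e', Submodule.liftQ_apply]
  rw [← map_sum]
  congr 1
  refine res0_injective (X := X) R ?_
  rw [map_sum]
  simp only [hpre, map_smul, smul_eq_mul]
  rw [← Finset.mul_sum, LatticeQuot.trace_eq_one hsum, mul_one]

end Pre

end Fermat.Agent.RelPic

end
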