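import Fermat.Agent.RelPic.ChartPoint
import Mathlib.RingTheory.Smooth.Basic

/-!
# The chart of divisors is smooth

An invertible ideal lifts along a square-zero thickening: lift the idempotent matrix of a dual
basis, then a row fixed by it.
-/

set_option autoImplicit false
set_option linter.style.haveILetI false

universe u

open TensorProduct Polynomial

noncomputable section

namespace Fermat.Agent.RelPic

variable {k : Type u} [Field k] {X : Model k} {n : ℕ} {a : Fin n → X.A0}

/-- Lifting an idempotent along a square-zero kernel. -/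
theorem exists_idempotent_lift {A : Type u} [CommRing A] {m : ℕ} (E : Matrix (Fin m) (Fin m) A)
    {K : Ideal A} (hK : ∀ u ∈ K, ∀ v ∈ K, u * v = 0) (hE : ∀ i j, (E * E - E) i j ∈ K) :
    ∃ F : Matrix (Fin m) (Fin m) A, F * F = F ∧ ∀ i j, (F - E) i j ∈ K := by
  refine ⟨3 • (E * E) - 2 • (E * E * E), sub_eq_zero.mp ?_, fun i j => ?_⟩
  · have hd : (E * E - E) * (E * E - E) = 0 := by
      ext i j
      rw [Matrix.mul_apply, Matrix.zero_apply]
      exact Finset.sum_eq_zero fun l _ => hK _ (hE i l) _ (hE l j)
    have e : (3 • (E * E) - 2 • (E * E * E)) * (3 • (E * E) - 2 • (E * E * E)) -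
        (3 • (E * E) - 2 • (E * E * E)) =
        (4 • (E * E) - 4 • E - 3 • 1) * ((E * E - E) * (E * E - E)) := by
      noncomm_ring
    rw [e, hd, mul_zero]
  · have e : 3 • (E * E) - 2 • (E * E * E) - E = (1 - 2 • E) * (E * E - E) := by
      noncomm_ring
    rw [e, Matrix.mul_apply]
    exact sum_mem fun l _ => K.mul_mem_left _ (hE l j)

variable {R : Type u} [CommRing R] [Algebra k R]

/-- An ideal with the prescribed basis of the quotient lifts along a square-zero thickening. -/
theorem ChartPt.exists_lift [IsAlgClosed k] (N : Ideal R) (hN : N ^ 2 = ⊥)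
    (p : ChartPt k a (R ⧸ N)) : ∃ p' : ChartPt k a R, p'.map (Ideal.Quotient.mkₐ k N) = p := by
  classical
  set mk := Ideal.Quotient.mkₐ k N with hmk
  have hsurj : Function.Surjective mk := Ideal.Quotient.mk_surjective
  set π := Algebra.TensorProduct.map mk (AlgHom.id k X.A0) with hπdef
  have hπ : Function.Surjective π :=
    Algebra.TensorProduct.map_surjective _ _ hsurj Function.surjective_id
  have hNN : ∀ u ∈ N, ∀ v ∈ N, u * v = 0 := fun u hu v hv => by
    have := Ideal.mul_mem_mul hu hv
    rwa [← pow_two, hN, Submodule.mem_bot] at this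
  let K : Ideal (R ⊗[k] X.A0) := N.map (algebraMap R (R ⊗[k] X.A0))
  have hker : ∀ z, π z = 0 → z ∈ K := fun z hz => by
    have h : z ∈ RingHom.ker π := hz
    rw [hπdef, Algebra.TensorProduct.rTensor_ker _ hsurj] at h
    have e : RingHom.ker mk = N := Ideal.mk_ker
    rw [e] at h
    exact h
  have hK0 : ∀ z ∈ K, π z = 0 := fun z hz => by
    have h : K ≤ RingHom.ker π := Ideal.map_le_iff_le_comap.mpr fun r hr => by
      show π (algebraMap R (R ⊗[k] X.A0) r) = 0
      rw [Algebra.TensorProduct.algebraMap_apply, hπdef, Algebra.TensorProduct.map_tmul]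
      show mk r ⊗ₜ[k] _ = 0
      rw [show mk r = 0 from Ideal.Quotient.eq_zero_iff_mem.mpr hr, zero_tmul]
    exact h hz
  have hKK : ∀ u ∈ K, ∀ v ∈ K, u * v = 0 := fun u hu v hv => by
    have h : u * v ∈ (N * N).map (algebraMap R (R ⊗[k] X.A0)) := by
      rw [Ideal.map_mul]; exact Ideal.mul_mem_mul hu hv
    rw [← pow_two, hN, Ideal.map_bot, Submodule.mem_bot] at h
    exact h
  obtain ⟨d⟩ := p.isDiv_ideal.nonempty_data
  set P := fPoly X (R ⧸ N) d.q
  have hreg : ∀ {b c}, P * b = P * c → b = c := fun {b c} h =>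
    sub_eq_zero.mp (fPoly_mul_eq_zero X _ d.monic (by rw [mul_sub]; exact sub_eq_zero.mpr h))
  choose w hw using fun i j => d.dvd (d.x j) (d.x_mem j) i
  choose E0 hE0 using fun i j => hπ (w i j)
  choose x0 hx0 using fun j => hπ (d.x j)
  let E : Matrix (Fin d.n) (Fin d.n) (R ⊗[k] X.A0) := Matrix.of E0
  have hwx : ∀ j, ∑ i, d.x i * w i j = d.x j := fun j => by
    refine hreg ?_
    have h2 : ∑ l, d.x l * d.y l = P := d.sum_eq
    rw [Finset.mul_sum]
    conv_rhs => rw [← h2, Finset.sum_mul]
    refine Finset.sum_congr rfl fun i _ => ?_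
    calc P * (d.x i * w i j) = d.x i * (P * w i j) := by ring
      _ = d.x i * d.y i * d.x j := by rw [← hw i j]; ring
  have hww : ∀ i j, ∑ l, w i l * w l j = w i j := fun i j => by
    refine hreg ?_
    rw [Finset.mul_sum, ← hw i j]
    have hsum : ∀ l, P * (w i l * w l j) = d.y i * (d.x l * w l j) := fun l => by
      rw [← mul_assoc, ← hw i l]; ring
    simp only [hsum]
    rw [← Finset.mul_sum, hwx, mul_comm]
  have hEK : ∀ i j, (E * E - E) i j ∈ K := fun i j => hker _ (by
    rw [Matrix.sub_apply, Matrix.mul_apply, map_sub, map_sum]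
    simp only [E, Matrix.of_apply, map_mul, hE0]
    rw [hww, sub_self])
  obtain ⟨F, hFF, hFE⟩ := exists_idempotent_lift E hKK hEK
  have hF : ∀ i j, π (F i j) = w i j := fun i j => by
    have h := hK0 _ (hFE i j)
    rw [Matrix.sub_apply, map_sub, sub_eq_zero] at h
    rw [h, ← hE0 i j]
    rfl
  let x : Fin d.n → R ⊗[k] X.A0 := Matrix.vecMul x0 F
  have hxF : Matrix.vecMul x F = x := by
    show Matrix.vecMul (Matrix.vecMul x0 F) F = _
    rw [Matrix.vecMul_vecMul, hFF]
  have hx : ∀ j, π (x j) = d.x j := fun j => by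
    show π (∑ i, x0 i * F i j) = _
    rw [map_sum]
    simp only [map_mul, hx0, hF]
    exact hwx j
  set I : Ideal (R ⊗[k] X.A0) := Ideal.span (Set.range x)
  have hgen : ∀ b ∈ p.ideal, ∃ c : Fin d.n → (R ⧸ N) ⊗[k] X.A0, ∑ i, c i * d.x i = b := by
    intro b hb
    choose c hc using fun i => d.dvd b hb i
    refine ⟨c, hreg ?_⟩
    have h2 : ∑ l, d.x l * d.y l = P := d.sum_eq
    rw [Finset.mul_sum]
    calc ∑ i, P * (c i * d.x i) = ∑ i, b * (d.x i * d.y i) :=
          Finset.sum_congr rfl fun i _ => by rw [← mul_assoc, ← hc i]; ring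
      _ = P * b := by rw [← Finset.mul_sum, h2, mul_comm]
  have hImap : I.map π.toRingHom = p.ideal := by
    rw [Ideal.map_span]
    refine le_antisymm (Ideal.span_le.mpr ?_) fun b hb => ?_
    · rintro _ ⟨_, ⟨j, rfl⟩, rfl⟩
      show π (x j) ∈ p.ideal
      rw [hx]
      exact d.x_mem j
    · obtain ⟨c, rfl⟩ := hgen b hb
      exact sum_mem fun i _ => Ideal.mul_mem_left _ _
        (Ideal.subset_span ⟨x i, ⟨i, rfl⟩, hx i⟩)
  -- coordinates modulo `N`, lifted linearly
  obtain ⟨sec, hsec⟩ := ((mk.toLinearMap.compLeft (Fin n))).exists_rightInverse_of_surjective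
    (LinearMap.range_eq_top.mpr fun v =>
      ⟨fun i => (hsurj (v i)).choose, funext fun i => (hsurj (v i)).choose_spec⟩)
  have hsec' : ∀ v i, mk (sec v i) = v i := fun v i => congrFun (LinearMap.congr_fun hsec v) i
  let T : R ⊗[k] X.A0 →ₗ[R] (Fin n → R) := LinearMap.liftBaseChange R
    (sec ∘ₗ (p.coords.restrictScalars k ∘ₗ
      (Algebra.TensorProduct.includeRight :
        X.A0 →ₐ[k] (R ⧸ N) ⊗[k] X.A0).toLinearMap))
  have hT : ∀ b i, mk (T b i) = p.coords (π b) i := by
    intro b
    induction b using TensorProduct.induction_on with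
    | zero => simp
    | tmul r y =>
      intro i
      rw [hπdef, Algebra.TensorProduct.map_tmul]
      show mk ((r • sec _) i) = _
      rw [Pi.smul_apply, smul_eq_mul, map_mul, hsec']
      show mk r * p.coords ((1 : R ⧸ N) ⊗ₜ y) i = _
      rw [← smul_eq_mul, ← Pi.smul_apply, ← map_smul, smul_tmul', smul_eq_mul, mul_one]
      rfl
    | add b c hb hc =>
      intro i
      rw [map_add, Pi.add_apply, map_add, hb, hc, map_add, map_add]
      rfl
  have hKI : ∀ z ∈ K, ∀ b, π b ∈ p.ideal → T (z * b) = 0 := by
    intro z hz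
    induction hz using Submodule.span_induction with
    | mem z hz =>
      obtain ⟨r, hr, rfl⟩ := hz
      intro b hb
      rw [← Algebra.smul_def, map_smul]
      funext i
      refine hNN r hr _ ?_
      rw [← Ideal.Quotient.eq_zero_iff_mem]
      show mk (T b i) = 0
      rw [hT, ChartPt.mem_ideal.mp hb]
      rfl
    | zero => intro b _; rw [zero_mul, map_zero]
    | add z z' _ _ h h' => intro b hb; rw [add_mul, map_add, h b hb, h' b hb, add_zero]
    | smul c z _ h =>
      intro b hb
      rw [smul_eq_mul, mul_comm c, mul_assoc]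
      exact h _ (by rw [map_mul]; exact p.ideal.mul_mem_left _ hb)
  have hcomb : ∀ r : Fin n → R, π (comb a R r) = comb a (R ⧸ N) (mk ∘ r) := fun r => by
    rw [comb_apply, comb_apply, map_sum]
    refine Finset.sum_congr rfl fun i _ => ?_
    rw [smul_tmul', smul_eq_mul, mul_one, hπdef, Algebra.TensorProduct.map_tmul, smul_tmul',
      smul_eq_mul, mul_one]
    rfl
  obtain ⟨p', hp'⟩ : ∃ p' : ChartPt k a R, p'.ideal = I := by
    refine exists_of_ideal I (fun b => ?_) (fun r hr => ?_)
    · -- the prescribed elements span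
      have hW : ∀ b, ∃ r, ∃ z ∈ K, b - comb a R r - z ∈ I := by
        intro b
        choose r hr using fun i => hsurj (p.coords (π b) i)
        have h1 : π (b - comb a R r) ∈ p.ideal := by
          rw [map_sub, hcomb, show (mk ∘ r) = p.coords (π b) from funext hr]
          exact p.sub_comb_mem _
        rw [← hImap] at h1
        obtain ⟨i, hi, e⟩ := (Ideal.mem_map_iff_of_surjective _ hπ).mp h1
        refine ⟨r, b - comb a R r - i, hker _ ?_, by rwa [sub_sub_cancel]⟩
        rw [map_sub]
        exact sub_eq_zero.mpr e.symm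
      obtain ⟨r, z, hz, hbz⟩ := hW b
      suffices h : ∀ y, ∃ r', z * y - comb a R r' ∈ I by
        obtain ⟨r', hr'⟩ := h 1
        refine ⟨r + r', ?_⟩
        rw [mul_one] at hr'
        have e := add_mem hbz hr'
        rw [map_add]
        convert e using 1
        ring
      clear hbz
      induction hz using Submodule.span_induction with
      | mem z hz =>
        obtain ⟨c, hc, rfl⟩ := hz
        intro y
        obtain ⟨r', z', hz', h'⟩ := hW y
        refine ⟨c • r', ?_⟩
        have h2 := I.mul_mem_left (algebraMap R (R ⊗[k] X.A0) c) h'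
        rwa [mul_sub, mul_sub, hKK _ (Ideal.mem_map_of_mem _ hc) _ hz', sub_zero,
          ← Algebra.smul_def c (comb a R r'), ← map_smul] at h2
      | zero => exact fun y => ⟨0, by simp⟩
      | add u v _ _ hu hv =>
        intro y
        obtain ⟨r₁, h₁⟩ := hu y
        obtain ⟨r₂, h₂⟩ := hv y
        exact ⟨r₁ + r₂, by rw [map_add, add_mul, add_sub_add_comm]; exact add_mem h₁ h₂⟩
      | smul c u _ ih =>
        intro y
        obtain ⟨r₁, h₁⟩ := ih (c * y)
        exact ⟨r₁, by rwa [smul_eq_mul, mul_comm c u, mul_assoc]⟩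
    · -- and are independent
      obtain ⟨c, hc⟩ := (Ideal.mem_span_range_iff_exists_fun).mp hr
      have hr0 : mk ∘ r = 0 := by
        refine (p.comb_mem_ideal_iff _).mp ?_
        rw [← hcomb, ← hc, map_sum]
        exact sum_mem fun i _ => by rw [map_mul, hx]; exact p.ideal.mul_mem_left _ (d.x_mem i)
      have h1 : ∑ i, π (c i) * d.x i = 0 := by
        have h := congrArg π hc
        simp only [map_sum, map_mul, hx] at h
        rw [h, hcomb, hr0, map_zero]
      have hFc : ∀ i, (F.mulVec c) i ∈ K := fun i => hker _ (hreg (by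
        show P * π (∑ j, F i j * c j) = P * 0
        rw [mul_zero, map_sum, Finset.mul_sum]
        simp only [map_mul, hF]
        calc ∑ j, P * (w i j * π (c j)) = ∑ j, d.y i * (π (c j) * d.x j) :=
              Finset.sum_congr rfl fun j _ => by rw [← mul_assoc, ← hw i j]; ring
          _ = 0 := by rw [← Finset.mul_sum, h1, mul_zero]))
      have h2 : comb a R r = ∑ i, (F.mulVec c) i * x i := by
        rw [← hc]
        have h := Matrix.dotProduct_mulVec x F c
        rw [hxF] at h
        simp only [dotProduct] at h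
        simp only [mul_comm _ (x _)]
        exact h.symm
      have hTa : ∀ i j, T ((1 : R) ⊗ₜ[k] a i) j - (Pi.single i 1 : Fin n → R) j ∈ N := by
        intro i j
        rw [← Ideal.Quotient.eq_zero_iff_mem]
        show mk (T ((1 : R) ⊗ₜ[k] a i) j - (Pi.single i 1 : Fin n → R) j) = 0
        rw [map_sub, hT, hπdef, Algebra.TensorProduct.map_tmul]
        show p.coords (mk 1 ⊗ₜ a i) j - _ = 0
        rw [map_one, coords_apply, act_tmul, one_smul, p.spec]
        rcases eq_or_ne j i with rfl | hj <;> simp [*]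
      have h3 : T (comb a R r) = r := by
        rw [comb_apply, map_sum]
        funext j
        rw [Finset.sum_apply]
        simp only [map_smul, Pi.smul_apply, smul_eq_mul]
        have h4 : ∀ i, r i * T ((1 : R) ⊗ₜ[k] a i) j = r i * (Pi.single i 1 : Fin n → R) j :=
          fun i => sub_eq_zero.mp (by
            rw [← mul_sub]
            exact hNN _ (Ideal.Quotient.eq_zero_iff_mem.mp (congrFun hr0 i)) _ (hTa i j))
        simp only [h4]
        simp [Pi.single_apply]
      rw [← h3, h2, map_sum]
      exact Finset.sum_eq_zero fun i _ => hKI _ (hFc i) _ (by rw [hx]; exact d.x_mem i)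
  refine ⟨p', eq_of_ideal_eq ?_⟩
  rw [ideal_map, hp', ← hImap]

/-- The chart of divisors is formally smooth. -/
theorem chartRing_formallySmooth [IsAlgClosed k] :
    Algebra.FormallySmooth k (ChartRing (k := k) a) := by
  refine Algebra.FormallySmooth.of_comp_surjective fun R _ _ N hN φ => ?_
  obtain ⟨p, hp⟩ := ((chartUniv (k := k) a).map φ).exists_lift N hN
  refine ⟨p.toHom, chartEquiv.injective ?_⟩
  show (chartUniv (k := k) a).map _ = (chartUniv (k := k) a).map φ
  rw [← hp]
  have h := chartUniv_map_toHom p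
  conv_rhs => rw [← h]
  rfl

end Fermat.Agent.RelPic

end
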