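import Fermat.Agent.RelPic.FibrePoint

/-!
# Cutting a bundle down to one without cohomology

Over any field `K` a bundle becomes acyclic after tensoring with a bundle defined over `k`.
-/

set_option autoImplicit false
set_option linter.unusedSectionVars false
set_option linter.style.haveILetI false

universe u

open TensorProduct

noncomputable section

namespace Fermat.Agent.RelPic

variable {k : Type u} [Field k] {X : Model k} {K : Type u} [Field K] [Algebra k K]

namespace Pre

theorem sup_eq_top_congr {L L' : Pre X K} (e : Iso L L') (h : L.M0 ⊔ L.M1 = ⊤) :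
    L'.M0 ⊔ L'.M1 = ⊤ := by
  obtain ⟨e, h0, h1⟩ := e
  rw [← h0, ← h1, ← Submodule.map_sup, h, Submodule.map_top, LinearMap.range_eq_top]
  exact e.surjective

/-- Base change along a field extension keeps the Euler characteristic. -/
theorem Good.chi_bc_of_base {N : Pre X k} (h : N.Good) (φ : k →ₐ[k] K) :
    (N.bc φ).chi = N.chi := by
  rw [h.chi_bc φ, ← chi_congr (bc_id h), h.chi_bc]
  exact congrArg _ (Subsingleton.elim _ _)

/-- Twists commute with extension of the field. -/
theorem bc_twist_iso {R : Type u} [CommRing R] [Algebra k R] {R' : Type u} [CommRing R']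
    [Algebra k R'] [Algebra R R'] [IsScalarTower k R R'] {L : Pre X R} (h : L.Good) (m : ℤ) :
    Iso ((L.twist m).bc (IsScalarTower.toAlgHom k R R'))
      ((L.bc (IsScalarTower.toAlgHom k R R')).twist m) := by
  refine ⟨LinearEquiv.refl _ _, Submodule.map_id _, (Submodule.map_id _).trans ?_⟩
  rw [bc_twist_M1 (R' := R') h m]
  exact bc_M1 (R' := R') (h.twist m)

theorem unit_twist_bc (m : ℤ) :
    Iso (((Pre.unit X k).twist m).bc (Algebra.ofId k K)) ((Pre.unit X K).twist m) := by
  rw [Subsingleton.elim (Algebra.ofId k K) (IsScalarTower.toAlgHom k k K)]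
  exact (bc_twist_iso (good_unit X k) m).trans (twist_congr (bc_unit _) m)

variable [IsAlgClosed k]

/-- Tensoring with minus a rational point removes one section. -/
theorem Good.exists_point_step {P : Pre X K} (hP : P.Good) (hsup : P.M0 ⊔ P.M1 = ⊤) {n : ℕ}
    (hchi : P.chi = (n + 1 : ℕ)) :
    ∃ p : X.A0 →ₐ[k] k,
      (P.tensor (idealPre X K (pointIdeal ((Algebra.ofId k K).comp p)))).M0 ⊔
          (P.tensor (idealPre X K (pointIdeal ((Algebra.ofId k K).comp p)))).M1 = ⊤ ∧
        (P.tensor (idealPre X K (pointIdeal ((Algebra.ofId k K).comp p)))).chi = n := by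
  obtain ⟨hf, -⟩ := hP.pairFinite
  haveI : FiniteDimensional K P.H0 := hf
  haveI : Subsingleton (P.N ⧸ (P.M0 ⊔ P.M1)) :=
    Submodule.Quotient.subsingleton_iff.mpr hsup
  have h1 : Module.finrank K P.H1 = 0 := Module.finrank_zero_of_subsingleton
  have hne : P.H0 ≠ ⊥ := by
    intro h0
    rw [chi, h0, finrank_bot, h1] at hchi
    push_cast at hchi
    omega
  obtain ⟨s, hs, hs0⟩ := Submodule.exists_mem_ne_zero_of_ne_bot hne
  obtain ⟨p, hp⟩ := hP.exists_point_not_mem hs.1 hs0
  refine ⟨p, ?_⟩
  set I := pointIdeal ((Algebra.ofId k K).comp p)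
  set Q := P.tensor (idealPre X K I)
  have hQ : Q.Good := hP.tensor (good_idealPre (isDiv_pointIdeal _))
  obtain ⟨hfQ, hfQ1⟩ := hQ.pairFinite
  have hchiQ : Q.chi = n := by
    rw [hP.chi_tensor_point, hchi]
    push_cast
    ring
  let ι : Q.H0 →ₗ[K] P.H0 :=
    LinearMap.codRestrict P.H0 (((mulIdeal P I).restrictScalars K).comp Q.H0.subtype)
      fun w => (hP.map_H0_mulIdeal_le I ⟨w, w.2, rfl⟩).2
  have hι : Function.Injective ι := fun a b hab => Subtype.ext
    (hP.mulIdeal_injective I (congrArg Subtype.val hab))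
  have hlt : Module.finrank K Q.H0 < Module.finrank K P.H0 := by
    rw [← LinearMap.finrank_range_of_inj hι]
    refine Submodule.finrank_lt fun htop => hp ?_
    obtain ⟨w, hw⟩ := LinearMap.range_eq_top.mp htop ⟨s, hs⟩
    have hws : mulIdeal P I (w : Q.N) = s := congrArg Subtype.val hw
    rw [← hws]
    exact (hP.map_H0_mulIdeal_le I ⟨w, w.2, rfl⟩).1
  refine ⟨?_, hchiQ⟩
  have e : Module.finrank K Q.H1 = 0 := by
    rw [chi] at hchi hchiQ
    rw [h1] at hchi
    push_cast at hchi
    omega
  haveI : FiniteDimensional K Q.H1 := hfQ1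
  exact Submodule.Quotient.subsingleton_iff.mp (Module.finrank_zero_iff.mp e)

/-- **Cut lemma.** -/
theorem Good.exists_acyclic {L : Pre X K} (hL : L.Good) :
    ∃ N : Pre X k, N.Good ∧ (L.tensor (N.bc (Algebra.ofId k K))).Acyclic := by
  obtain ⟨m, hm⟩ := hL.exists_twist_nat
  suffices key : ∀ (n : ℕ) (N : Pre X k), N.Good →
      (L.tensor (N.bc (Algebra.ofId k K))).M0 ⊔ (L.tensor (N.bc (Algebra.ofId k K))).M1 = ⊤ →
      (L.tensor (N.bc (Algebra.ofId k K))).chi = n →
      ∃ N : Pre X k, N.Good ∧ (L.tensor (N.bc (Algebra.ofId k K))).Acyclic by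
    have e : Iso (L.twist (m : ℤ)) (L.tensor (((Pre.unit X k).twist (m : ℤ)).bc
        (Algebra.ofId k K))) :=
      (twist_iso_tensor hL m).symm.trans (tensor_congr (Iso.refl L) (unit_twist_bc (m : ℤ)).symm)
    refine key _ _ ((good_unit X k).twist m) (sup_eq_top_congr e hm)
      (show _ = ((Module.finrank K (L.twist (m : ℤ)).H0 : ℕ) : ℤ) from ?_)
    haveI : Subsingleton (L.twist (m : ℤ)).H1 := Submodule.Quotient.subsingleton_iff.mpr hm
    rw [← chi_congr e, chi, Module.finrank_zero_of_subsingleton (M := (L.twist (m : ℤ)).H1)]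
    simp
  intro n
  induction n with
  | zero =>
    intro N hN hsup hchi
    have hP := hL.tensor (hN.bc (Algebra.ofId k K))
    obtain ⟨hf, -⟩ := hP.pairFinite
    haveI : Subsingleton (L.tensor (N.bc (Algebra.ofId k K))).H1 :=
      Submodule.Quotient.subsingleton_iff.mpr hsup
    rw [chi, Module.finrank_zero_of_subsingleton (M := (L.tensor (N.bc (Algebra.ofId k K))).H1)]
      at hchi
    refine ⟨N, hN, ⟨disjoint_iff.mpr ?_, codisjoint_iff.mpr hsup⟩⟩
    haveI : FiniteDimensional K (L.tensor (N.bc (Algebra.ofId k K))).H0 := hf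
    exact Submodule.finrank_eq_zero.mp (show Module.finrank K
      (L.tensor (N.bc (Algebra.ofId k K))).H0 = 0 by omega)
  | succ n ih =>
    intro N hN hsup hchi
    obtain ⟨p, hsup', hchi'⟩ :=
      (hL.tensor (hN.bc (Algebra.ofId k K))).exists_point_step hsup hchi
    have hO := good_idealPre (isDiv_pointIdeal p)
    have e : Iso ((L.tensor (N.bc (Algebra.ofId k K))).tensor
        (idealPre X K (pointIdeal ((Algebra.ofId k K).comp p))))
        (L.tensor ((N.tensor (idealPre X k (pointIdeal p))).bc (Algebra.ofId k K))) := by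
      refine (tensor_assoc _ _ _).trans (tensor_congr (Iso.refl L) ?_)
      refine Iso.trans (tensor_congr (Iso.refl _) ?_) (bc_tensor _ _ _).symm
      rw [← pointIdeal_map p (Algebra.ofId k K)]
      exact (idealPre_bc (isDiv_pointIdeal p) (Algebra.ofId k K)).symm
    exact ih _ (hN.tensor hO) (sup_eq_top_congr e hsup') ((chi_congr e).symm.trans hchi')

/-- The cut lemma in degree zero: the bundle from `k` has Euler characteristic zero. -/
theorem Good.exists_chi_zero_acyclic {L : Pre X K} (hL : L.Good)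
    (hchi : L.chi = (Pre.unit X K).chi) :
    ∃ N : Pre X k, N.Good ∧ N.chi = 0 ∧ (L.tensor (N.bc (Algebra.ofId k K))).Acyclic := by
  obtain ⟨N, hN, hA⟩ := hL.exists_acyclic
  refine ⟨N, hN, ?_, hA⟩
  have e : (L.tensor (N.bc (Algebra.ofId k K))).chi = 0 := by
    haveI : Subsingleton (L.tensor (N.bc (Algebra.ofId k K))).H1 :=
      Submodule.Quotient.subsingleton_iff.mpr (codisjoint_iff.mp hA.codisjoint)
    have hbot : (L.tensor (N.bc (Algebra.ofId k K))).H0 = ⊥ := disjoint_iff.mp hA.disjoint
    rw [chi, hbot, finrank_bot,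
      Module.finrank_zero_of_subsingleton (M := (L.tensor (N.bc (Algebra.ofId k K))).H1)]
    simp
  rw [hL.chi_tensor (hN.bc _), hN.chi_bc_of_base, hchi] at e
  linarith

theorem DegZero.chi_eq {L : Pre X K} (hd : L.DegZero) (hL : L.Good) :
    L.chi = (Pre.unit X K).chi :=
  (chi_congr (bc_id hL)).symm.trans (hd K (AlgHom.id k K))

theorem DegZero.exists_acyclic {L : Pre X K} (hd : L.DegZero) (hL : L.Good) :
    ∃ N : Pre X k, N.Good ∧ N.chi = 0 ∧ (L.tensor (N.bc (Algebra.ofId k K))).Acyclic :=
  hL.exists_chi_zero_acyclic (hd.chi_eq hL)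

end Pre

end Fermat.Agent.RelPic

end
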