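import Fermat.Agent.RelPic.ChartTriv
import Fermat.Agent.RelPic.ChartQuot
import Fermat.Agent.RelPic.ChartSmooth
import Fermat.Agent.RelPic.ChartBasis
import Fermat.Agent.RelPic.FibreCut
import Fermat.Agent.RelPic.MainInput

/-!
# The charts of the relative Picard functor

An index is a bundle `N` on the curve over `k`, elements `a` of `A0` and an element `h` of the ring
of divisors with basis `a`; the chart consists of the classes `L` with `(L ⊗ N)(-Q)` without
cohomology, whose section has a divisor with basis `a`, inside `D(h)`.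
-/

set_option autoImplicit false
set_option linter.style.haveILetI false
set_option linter.unusedSectionVars false

universe u

open TensorProduct

noncomputable section

namespace Fermat.Agent.RelPic

variable {k : Type u} [Field k] {X : Model k} {R : Type u} [CommRing R] [Algebra k R]
  {S : Type u} [CommRing S] [Algebra k S]

/-- The prime under a field valued point. -/
def kerPoint {K : Type u} [Field K] [Algebra k K] (φ : R →ₐ[k] K) : PrimeSpectrum R :=
  ⟨RingHom.ker φ, RingHom.ker_isPrime _⟩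

theorem kerPoint_comp (φ : R →ₐ[k] S) (q : PrimeSpectrum S) :
    kerPoint ((pointHom k q).comp φ) = PrimeSpectrum.comap φ.toRingHom q :=
  PrimeSpectrum.ext (Ideal.ext fun r => by
    simp [kerPoint, PrimeSpectrum.comap, RingHom.mem_ker, Ideal.algebraMap_residueField_eq_zero])

/-- A field valued point factors through the residue field of its kernel. -/
theorem exists_pointHom_factor {K : Type u} [Field K] [Algebra k K] (φ : R →ₐ[k] K) :
    ∃ ψ : (kerPoint φ).asIdeal.ResidueField →ₐ[k] K, ψ.comp (pointHom k _) = φ := by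
  set p : PrimeSpectrum R := kerPoint φ
  let g : (R ⧸ p.asIdeal) →ₐ[k] K := Ideal.Quotient.liftₐ p.asIdeal φ fun _ h => h
  have hg : Function.Injective g := by
    intro x y h
    obtain ⟨x, rfl⟩ := Ideal.Quotient.mk_surjective x
    obtain ⟨y, rfl⟩ := Ideal.Quotient.mk_surjective y
    refine Ideal.Quotient.eq.mpr ?_
    show φ (x - y) = 0
    rw [map_sub, sub_eq_zero]
    exact h
  refine ⟨IsFractionRing.liftAlgHom hg, AlgHom.ext fun r => ?_⟩
  show IsFractionRing.lift hg (algebraMap R p.asIdeal.ResidueField r) = φ r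
  rw [← Ideal.algebraMap_quotient_residueField_mk]
  exact IsFractionRing.lift_algebraMap hg _

/-- The range of `Spec` of a map of algebras lies in a set of primes iff the residue points do. -/
theorem range_comap_subset_iff (φ : R →ₐ[k] S) (U : Set (PrimeSpectrum R)) :
    Set.range (PrimeSpectrum.comap φ.toRingHom) ⊆ U ↔
      ∀ q : PrimeSpectrum S, kerPoint ((pointHom k q).comp φ) ∈ U := by
  simp only [kerPoint_comp]
  exact ⟨fun h q => h ⟨q, rfl⟩, by rintro h _ ⟨q, rfl⟩; exact h q⟩

namespace Pre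

/-- Transfer of acyclicity to a field valued point. -/
theorem Good.acyclic_bc_iff {L : Pre X R} (h : L.Good) {K : Type u} [Field K] [Algebra k K]
    (φ : R →ₐ[k] K) :
    (L.bc φ).Acyclic ↔ (L.bc (pointHom k (kerPoint φ))).Acyclic := by
  obtain ⟨ψ, hψ⟩ := exists_pointHom_factor φ
  conv_lhs => rw [← hψ]
  exact ⟨fun hc => ((h.bc _).acyclic_bc_field_iff ψ).mp (hc.congr (bc_bc L _ _).symm),
    fun hc => (((h.bc _).acyclic_bc_field_iff ψ).mpr hc).congr (bc_bc L _ _)⟩

/-- A partner in a product equal to the trivial bundle is the dual. -/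
theorem iso_dual_of_tensor_unit {A B : Pre X R} (hA : A.Good) (hB : B.Good)
    (e : Iso (A.tensor B) (Pre.unit X R)) : Iso A B.dual :=
  (tensor_unit hA).symm.trans ((tensor_congr (dual_tensor_self hB).symm (Iso.refl _)).trans
    ((tensor_assoc _ _ _).trans ((tensor_congr (Iso.refl _) ((tensor_comm _ _).trans e)).trans
      ((tensor_comm _ _).trans (tensor_unit hB.dual)))))

theorem tensor_unit_right {L : Pre X R} (h : L.Good) : Iso (L.tensor (Pre.unit X R)) L :=
  (tensor_comm _ _).trans (tensor_unit h)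

/-- The bundle of a divisor after base change. -/
theorem dual_idealPre_bc {I : Ideal (R ⊗[k] X.A0)} (hI : IsDiv I) (φ : R →ₐ[k] S) :
    Iso ((idealPre X R I).dual.bc φ)
      (idealPre X S (I.map (Algebra.TensorProduct.map φ (AlgHom.id k X.A0)).toRingHom)).dual :=
  iso_dual_of_tensor_unit ((good_idealPre hI).dual.bc φ) (good_idealPre (hI.map φ))
    ((tensor_congr (Iso.refl _) (idealPre_bc hI φ).symm).trans ((bc_tensor _ _ φ).symm.trans
      ((bc_congr (dual_tensor_self (good_idealPre hI)) φ).trans (bc_unit φ))))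

/-- Twists by modules on the base do not affect vanishing at infinity. -/
theorem ModEquiv.minus {L L' : Pre X R} (e : ModEquiv L L') : ModEquiv L.minus L'.minus := by
  obtain ⟨P, _, _, _, e⟩ := e
  exact ⟨P, inferInstance, inferInstance, inferInstance,
    (minus_congr (e.trans (tensor_comm _ _))).trans
      ((minus_tensor _ _).trans (tensor_comm _ _))⟩

/-- Bundles equal up to a twist are isomorphic over a field. -/
theorem ModEquiv.iso_field {K : Type u} [Field K] [Algebra k K] {L L' : Pre X K} (h : L.Good)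
    (e : ModEquiv L L') : Iso L' L := by
  obtain ⟨P, _, _, _, e⟩ := e
  haveI : Module.Free K P := Module.Free.of_divisionRing K P
  obtain ⟨f⟩ := (Module.Invertible.free_iff_linearEquiv (R := K) (M := P)).mp inferInstance
  exact e.trans ((tensor_congr (Iso.refl _) ((ofModule_congr f).trans ofModule_self)).trans
    (tensor_unit_right h))

theorem ModEquiv.acyclic {L L' : Pre X R} (h : L.Good) (h' : L'.Good) (e : ModEquiv L L')
    (hL : L.Acyclic) : L'.Acyclic :=
  h'.acyclic_of_forall fun _ =>
    (hL.bc h _).congr (ModEquiv.iso_field (h.bc _) (e.bc _)).symm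

/-! ### The condition defining a chart -/

variable {n : ℕ} {a : Fin n → X.A0}

/-- A bundle over `k`, over `R`. -/
abbrev constBundle (N : Pre X k) (R : Type u) [CommRing R] [Algebra k R] : Pre X R :=
  N.bc (Algebra.ofId k R)

theorem constBundle_bc (N : Pre X k) (φ : R →ₐ[k] S) :
    Iso ((constBundle N R).bc φ) (constBundle N S) := by
  have e : φ.comp (Algebra.ofId k R) = Algebra.ofId k S := AlgHom.ext fun c => φ.commutes c
  have h := bc_bc N (Algebra.ofId k R) φ
  rw [e] at h
  exact h

/-- `G` lies in the chart of `(a, h)`. -/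
def InChart (h : ChartRing (k := k) a) (G : Pre X R) : Prop :=
  G.minus.Acyclic ∧ ∃ p : ChartPt k a R, p.ideal = G.secIdeal ∧ IsUnit (p.toHom h)

variable {h : ChartRing (k := k) a}

theorem InChart.congr {G G' : Pre X R} (hG : G.Good) (hG' : G'.Good) (e : ModEquiv G G')
    (hc : InChart h G) : InChart h G' :=
  ⟨e.minus.acyclic hG.minus hG'.minus hc.1, by rw [secIdeal_modEquiv hG e]; exact hc.2⟩

theorem InChart.bc {G : Pre X R} (hG : G.Good) (hc : InChart h G) (φ : R →ₐ[k] S) :
    InChart h (G.bc φ) := by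
  obtain ⟨hA, p, hp, hu⟩ := hc
  exact ⟨(hA.bc hG.minus φ).congr (minus_bc G φ), p.map φ,
    by rw [ChartPt.ideal_map, hp, secIdeal_bc hG hA φ],
    by rw [ChartPt.toHom_map]; exact hu.map φ⟩

theorem InChart.of_bc_field {K : Type u} [Field K] [Algebra k K] {K' : Type u} [Field K']
    [Algebra k K'] {G : Pre X K} (hG : G.Good) (φ : K →ₐ[k] K') (hc : InChart h (G.bc φ)) :
    InChart h G := by
  obtain ⟨hA', p', hp', hu⟩ := hc
  have hA : G.minus.Acyclic :=
    (hG.minus.acyclic_bc_field_iff φ).mp (hA'.congr (minus_bc G φ).symm)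
  letI := φ.toRingHom.toAlgebra
  haveI : IsScalarTower k K K' := IsScalarTower.of_algebraMap_eq' φ.comp_algebraMap.symm
  have hφ : IsScalarTower.toAlgHom k K K' = φ := AlgHom.ext fun _ => rfl
  have hb : Function.Bijective (basisMap a G.secIdeal) := by
    refine (Module.FaithfullyFlat.lTensor_bijective_iff_bijective K K' _).mp
      ((basisMap_map_bijective_iff (S := K') G.secIdeal).mp
        ((basisMap_bijective_iff _).mpr ⟨p', ?_⟩))
    rw [hp', secIdeal_bc hG hA φ, hφ]
  obtain ⟨p, hp⟩ := (basisMap_bijective_iff _).mp hb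
  refine ⟨hA, p, hp, isUnit_iff_ne_zero.mpr fun h0 => hu.ne_zero ?_⟩
  have e : p.map φ = p' := ChartPt.eq_of_ideal_eq (by
    rw [ChartPt.ideal_map, hp, hp', secIdeal_bc hG hA φ])
  rw [← e, ChartPt.toHom_map, AlgHom.comp_apply, h0, map_zero]

/-- The condition at a field valued point only depends on the prime. -/
theorem inChart_bc_iff {G : Pre X R} (hG : G.Good) {K : Type u} [Field K] [Algebra k K]
    (φ : R →ₐ[k] K) :
    InChart h (G.bc φ) ↔
      InChart h (G.bc (pointHom k (kerPoint φ))) := by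
  obtain ⟨ψ, hψ⟩ := exists_pointHom_factor φ
  have e : ModEquiv ((G.bc (pointHom k (kerPoint φ))).bc ψ) (G.bc φ) :=
    ModEquiv.of_iso ((hG.bc _).bc ψ) (by
      conv_rhs => rw [← hψ]
      exact bc_bc G _ ψ)
  exact ⟨fun hc => InChart.of_bc_field (hG.bc _) ψ
      (InChart.congr (hG.bc φ) ((hG.bc _).bc ψ) (e.symm ((hG.bc _).bc ψ)) hc),
    fun hc => InChart.congr ((hG.bc _).bc ψ) (hG.bc φ) e (hc.bc (hG.bc _) ψ)⟩

/-- A bundle lies in a chart if it does so at every point. -/
theorem inChart_of_forall {G : Pre X R} (hG : G.Good)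
    (hp : ∀ q : PrimeSpectrum R, InChart h (G.bc (pointHom k q))) : InChart h G := by
  have hA : G.minus.Acyclic :=
    hG.minus.acyclic_of_forall fun q => (hp q).1.congr (minus_bc G _).symm
  obtain ⟨hf, hpr⟩ := finite_projective_quotient hG hA
  haveI := hf
  haveI := hpr
  have hpb : ∀ q : PrimeSpectrum R,
      Function.Bijective ((basisMap a G.secIdeal).baseChange q.asIdeal.ResidueField) := fun q => by
    obtain ⟨-, p, hpq, -⟩ := hp q
    refine (basisMap_map_bijective_iff _).mp ((basisMap_bijective_iff _).mpr ⟨p, ?_⟩)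
    rw [hpq, secIdeal_bc hG hA]
  obtain ⟨p, hpi⟩ := (basisMap_bijective_iff _).mp (ProjMaps.bijective_of_forall _ hpb)
  refine ⟨hA, p, hpi, ?_⟩
  by_contra hu
  obtain ⟨m, hm, hvm⟩ := exists_max_ideal_of_mem_nonunits hu
  set q : PrimeSpectrum R := ⟨m, hm.isPrime⟩
  obtain ⟨-, p', hp', hu'⟩ := hp q
  have e : p.map (pointHom k q) = p' := ChartPt.eq_of_ideal_eq (by
    rw [ChartPt.ideal_map, hpi, hp', secIdeal_bc hG hA])
  rw [← e, ChartPt.toHom_map] at hu'
  exact hu'.ne_zero (Ideal.algebraMap_residueField_eq_zero.mpr hvm)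

/-- The points of `G` in the chart. -/
def chartLocus (h : ChartRing (k := k) a) (G : Pre X R) : Set (PrimeSpectrum R) :=
  {p | InChart h (G.bc (pointHom k p))}

theorem comap_mem_chartLocus {G : Pre X R} (hG : G.Good) (ι : R →ₐ[k] S) (q : PrimeSpectrum S) :
    PrimeSpectrum.comap ι.toRingHom q ∈ chartLocus h G ↔ q ∈ chartLocus h (G.bc ι) := by
  rw [← kerPoint_comp]
  refine Iff.trans (inChart_bc_iff hG _).symm ⟨fun hc => ?_, fun hc => ?_⟩
  · exact hc.congr (hG.bc _) ((hG.bc ι).bc _)
      (ModEquiv.of_iso (hG.bc _) (bc_bc G ι (pointHom k q)).symm)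
  · exact hc.congr ((hG.bc ι).bc _) (hG.bc _)
      (ModEquiv.of_iso ((hG.bc ι).bc _) (bc_bc G ι (pointHom k q)))

/-- Openness of the chart locus is local on the base. -/
theorem isOpen_chartLocus_of_local {G : Pre X R} (hG : G.Good)
    (hloc : ∀ p ∈ chartLocus h G, ∃ r, p ∈ PrimeSpectrum.basicOpen r ∧
      IsOpen (chartLocus h (G.bc (IsScalarTower.toAlgHom k R (Localization.Away r))))) :
    IsOpen (chartLocus h G) := by
  refine isOpen_iff_forall_mem_open.mpr fun p hp => ?_
  obtain ⟨r, hpr, ho⟩ := hloc p hp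
  set ι := IsScalarTower.toAlgHom k R (Localization.Away r)
  have hcomap : PrimeSpectrum.comap ι.toRingHom =
      PrimeSpectrum.comap (algebraMap R (Localization.Away r)) := rfl
  refine ⟨PrimeSpectrum.comap (algebraMap R (Localization.Away r)) ''
      chartLocus h (G.bc ι), ?_,
    (PrimeSpectrum.localization_away_isOpenEmbedding (Localization.Away r) r).isOpenMap _ ho, ?_⟩
  · rintro _ ⟨q, hq, rfl⟩
    rw [← hcomap]
    exact (comap_mem_chartLocus hG ι q).mpr hq
  · obtain ⟨q, rfl⟩ := (PrimeSpectrum.localization_away_comap_range (Localization.Away r) r).ge hpr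
    rw [← hcomap] at hp
    exact ⟨q, (comap_mem_chartLocus hG ι q).mp hp, rfl⟩

/-- With a divisor in the chart of `a`, the locus is the non-vanishing of `h`. -/
theorem chartLocus_eq_basicOpen {G : Pre X R} (hG : G.Good) (hA : G.minus.Acyclic)
    (p : ChartPt k a R) (hp : p.ideal = G.secIdeal) :
    chartLocus h G = PrimeSpectrum.basicOpen (p.toHom h) := by
  ext q
  have e : (p.map (pointHom k q)).ideal = (G.bc (pointHom k q)).secIdeal := by
    rw [ChartPt.ideal_map, hp, secIdeal_bc hG hA]
  constructor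
  · rintro ⟨-, p', hp', hu⟩ hmem
    rw [← ChartPt.eq_of_ideal_eq (e.trans hp'.symm), ChartPt.toHom_map] at hu
    exact hu.ne_zero (Ideal.algebraMap_residueField_eq_zero.mpr hmem)
  · intro hq
    refine ⟨(hA.bc hG.minus _).congr (minus_bc G _), _, e, ?_⟩
    rw [ChartPt.toHom_map]
    exact isUnit_iff_ne_zero.mpr fun h0 => hq (Ideal.algebraMap_residueField_eq_zero.mp h0)

theorem isOpen_chartLocus_of_acyclic {G : Pre X R} (hG : G.Good) (hA : G.minus.Acyclic) :
    IsOpen (chartLocus h G) := by
  obtain ⟨hf, hpj⟩ := finite_projective_quotient hG hA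
  haveI := hf
  haveI := hpj
  refine isOpen_chartLocus_of_local hG fun p hp => ?_
  obtain ⟨-, p', hp', -⟩ := hp
  have hb : Function.Bijective ((basisMap a G.secIdeal).baseChange p.asIdeal.ResidueField) :=
    (basisMap_map_bijective_iff _).mp ((basisMap_bijective_iff _).mpr
      ⟨p', hp'.trans (secIdeal_bc hG hA _)⟩)
  obtain ⟨V, ⟨s, rfl⟩, hps, hsV⟩ :=
    PrimeSpectrum.isTopologicalBasis_basic_opens.exists_subset_of_mem_open
      (u := {q | Function.Bijective ((basisMap a G.secIdeal).baseChange q.asIdeal.ResidueField)})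
      hb (ProjMaps.isOpen_bijective _)
  refine ⟨s, hps, ?_⟩
  set ι := IsScalarTower.toAlgHom k R (Localization.Away s)
  have hG2 : (G.bc ι).Good := hG.bc ι
  have hA2 : (G.bc ι).minus.Acyclic := (hA.bc hG.minus ι).congr (minus_bc G ι)
  obtain ⟨hf2, hpj2⟩ := finite_projective_quotient hG2 hA2
  haveI := hf2
  haveI := hpj2
  obtain ⟨p2, hp2⟩ : ∃ p : ChartPt k a (Localization.Away s), p.ideal = (G.bc ι).secIdeal := by
    refine (basisMap_bijective_iff _).mp (ProjMaps.bijective_of_forall _ fun q => ?_)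
    set q0 := PrimeSpectrum.comap (algebraMap R (Localization.Away s)) q
    have hq0 := hsV ((PrimeSpectrum.localization_away_comap_range (Localization.Away s) s).le
      ⟨q, rfl⟩ : q0 ∈ _)
    obtain ⟨p1, hp1⟩ := (basisMap_bijective_iff _).mp ((basisMap_map_bijective_iff _).mpr hq0)
    refine (basisMap_map_bijective_iff _).mp ((basisMap_bijective_iff _).mpr ?_)
    obtain ⟨ψ, hψ⟩ := exists_pointHom_factor ((pointHom k q).comp ι)
    have e : kerPoint ((pointHom k q).comp ι) = q0 := kerPoint_comp ι q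
    obtain ⟨p1', hp1'⟩ : ∃ p : ChartPt k a (kerPoint ((pointHom k q).comp ι)).asIdeal.ResidueField,
        p.ideal = G.secIdeal.map (Algebra.TensorProduct.map
          (pointHom k (kerPoint ((pointHom k q).comp ι))) (AlgHom.id k X.A0)).toRingHom := by
      rw [e]
      exact ⟨p1, hp1⟩
    refine ⟨p1'.map ψ, ?_⟩
    rw [ChartPt.ideal_map, hp1', ← secIdeal_bc hG hA, ← secIdeal_bc (hG.bc _)
      ((hA.bc hG.minus _).congr (minus_bc G _)), secIdeal_congr (bc_bc G _ ψ), hψ,
      ← secIdeal_congr (bc_bc G ι (pointHom k q)), secIdeal_bc hG2 hA2]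
  rw [chartLocus_eq_basicOpen hG2 hA2 p2 hp2]
  exact (PrimeSpectrum.basicOpen _).isOpen

/-- The points of a chart are open. -/
theorem isOpen_inChart {G : Pre X R} (hG : G.Good) : IsOpen (chartLocus h G) := by
  refine isOpen_chartLocus_of_local hG fun p hp => ?_
  obtain ⟨V, ⟨r, rfl⟩, hpr, hrV⟩ :=
    PrimeSpectrum.isTopologicalBasis_basic_opens.exists_subset_of_mem_open
      (u := {q | (G.minus.bc (pointHom k q)).Acyclic})
      (hp.1.congr (minus_bc G _).symm) hG.minus.isOpen_acyclic
  refine ⟨r, hpr, ?_⟩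
  set ι := IsScalarTower.toAlgHom k R (Localization.Away r)
  refine isOpen_chartLocus_of_acyclic (hG.bc ι) ((hG.bc ι).minus.acyclic_of_forall fun q => ?_)
  have hq : kerPoint ((pointHom k q).comp ι) ∈ {q | (G.minus.bc (pointHom k q)).Acyclic} := by
    rw [kerPoint_comp]
    exact hrV ((PrimeSpectrum.localization_away_comap_range (Localization.Away r) r).le ⟨q, rfl⟩)
  exact (((hG.minus.acyclic_bc_iff _).mpr hq).congr (bc_bc _ ι _).symm).congr
    (bc_congr (minus_bc G ι) _)

end Pre

/-! ### The universal bundles -/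

variable {n : ℕ} {a : Fin n → X.A0}

/-- The bundle of the universal divisor on a chart. -/
abbrev chartDiv (a : Fin n → X.A0) {T : Type u} [CommRing T] [Algebra k T]
    (ι : ChartRing (k := k) a →ₐ[k] T) : Pre X T :=
  (idealPre X T ((chartUniv (k := k) a).map ι).ideal).dual

/-- The bundle classified by the chart of `(N, a)`. -/
abbrev chartBundle (N : Pre X k) (a : Fin n → X.A0) {T : Type u} [CommRing T] [Algebra k T]
    (ι : ChartRing (k := k) a →ₐ[k] T) : Pre X T :=
  (chartDiv a ι).tensor (Pre.constBundle N.dual T)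

variable [IsAlgClosed k]

theorem good_chartDiv {T : Type u} [CommRing T] [Algebra k T]
    (ι : ChartRing (k := k) a →ₐ[k] T) : (chartDiv a ι).Good :=
  (good_idealPre (ChartPt.isDiv_ideal _)).dual

theorem good_chartBundle {N : Pre X k} (hN : N.Good) {T : Type u} [CommRing T] [Algebra k T]
    (ι : ChartRing (k := k) a →ₐ[k] T) : (chartBundle N a ι).Good :=
  (good_chartDiv ι).tensor (hN.dual.bc _)

theorem chartDiv_bc {T : Type u} [CommRing T] [Algebra k T]
    (ι : ChartRing (k := k) a →ₐ[k] T) (φ : T →ₐ[k] R) :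
    Pre.Iso ((chartDiv a ι).bc φ) (chartDiv a (φ.comp ι)) := by
  have e := Pre.dual_idealPre_bc (ChartPt.isDiv_ideal ((chartUniv (k := k) a).map ι)) φ
  rwa [← ChartPt.ideal_map, ChartPt.map_map] at e

theorem chartBundle_bc (N : Pre X k) {T : Type u} [CommRing T] [Algebra k T]
    (ι : ChartRing (k := k) a →ₐ[k] T) (φ : T →ₐ[k] R) :
    Pre.Iso ((chartBundle N a ι).bc φ) (chartBundle N a (φ.comp ι)) :=
  (Pre.bc_tensor _ _ φ).trans (Pre.tensor_congr (chartDiv_bc ι φ) (Pre.constBundle_bc N.dual φ))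

theorem chartBundle_tensor {N : Pre X k} (hN : N.Good) {T : Type u} [CommRing T] [Algebra k T]
    (ι : ChartRing (k := k) a →ₐ[k] T) :
    Pre.Iso ((chartBundle N a ι).tensor (Pre.constBundle N T)) (chartDiv a ι) :=
  (Pre.tensor_assoc _ _ _).trans ((Pre.tensor_congr (Pre.Iso.refl _)
    ((Pre.bc_tensor _ _ _).symm.trans ((Pre.bc_congr (Pre.dual_tensor_self hN) _).trans
      (Pre.bc_unit _)))).trans (Pre.tensor_unit_right (good_chartDiv ι)))

/-- The bundle of a class over `k`. -/
def indexBundle (x : Shrink.{u} (Cls X k)) : Pre X k :=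
  (Quotient.out ((equivShrink.{u} (Cls X k)).symm x)).1

theorem good_indexBundle (x : Shrink.{u} (Cls X k)) : (indexBundle x).Good :=
  (Quotient.out ((equivShrink.{u} (Cls X k)).symm x)).2.1

variable (X) in
/-- The indices of the charts. -/
structure ChartIndex : Type u where
  x : Shrink.{u} (Cls X k)
  n : ℕ
  a : Fin n → X.A0
  h : ChartRing (k := k) a
  acyclic : (chartDiv a (IsScalarTower.toAlgHom k (ChartRing (k := k) a)
    (Localization.Away h))).minus.Acyclic
  degZero : (chartBundle (indexBundle x) a (IsScalarTower.toAlgHom k (ChartRing (k := k) a)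
    (Localization.Away h))).DegZero

namespace ChartIndex

variable (i : ChartIndex X)

/-- The ring of a chart. -/
abbrev H : Type u := Localization.Away i.h

/-- The structure map of a chart. -/
abbrev ι : ChartRing (k := k) i.a →ₐ[k] i.H :=
  IsScalarTower.toAlgHom k (ChartRing (k := k) i.a) i.H

/-- The class of a chart. -/
def univ : Cls X i.H :=
  Cls.norm (chartBundle (indexBundle i.x) i.a i.ι) (good_chartBundle (good_indexBundle i.x) i.ι)

theorem smooth : Algebra.Smooth k i.H := by
  haveI := chartRing_formallySmooth (k := k) (a := i.a)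
  haveI := chartRing_finiteType (k := k) (a := i.a)
  haveI : Algebra.FormallySmooth (ChartRing (k := k) i.a) i.H :=
    Algebra.FormallySmooth.of_isLocalization (Submonoid.powers i.h)
  haveI : Algebra.FormallySmooth k i.H :=
    Algebra.FormallySmooth.comp k (ChartRing (k := k) i.a) i.H
  haveI : Algebra.FiniteType (ChartRing (k := k) i.a) i.H :=
    IsLocalization.finiteType_of_monoid_fg (Submonoid.powers i.h) i.H
  haveI : Algebra.FiniteType k i.H :=
    Algebra.FiniteType.trans (R := k) (S := ChartRing (k := k) i.a) (A := i.H) inferInstance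
      inferInstance
  exact ⟨inferInstance, Algebra.FinitePresentation.of_finiteType.mp inferInstance⟩

theorem map_univ (ψ : i.H →ₐ[k] R) :
    Cls.map ψ i.univ = Cls.norm (chartBundle (indexBundle i.x) i.a (ψ.comp i.ι))
      (good_chartBundle (good_indexBundle i.x) _) := by
  rw [univ, Cls.map_norm]
  exact Cls.norm_congr _ _ (Pre.ModEquiv.of_iso
    ((good_chartBundle (good_indexBundle i.x) i.ι).bc ψ) (chartBundle_bc _ i.ι ψ))

theorem inChart_point (ψ : i.H →ₐ[k] R) :
    (chartDiv i.a (ψ.comp i.ι)).minus.Acyclic :=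
  ((i.acyclic.bc (good_chartDiv i.ι).minus ψ).congr (Pre.minus_bc _ ψ)).congr
    (Pre.minus_congr (chartDiv_bc i.ι ψ))

theorem secIdeal_point (ψ : i.H →ₐ[k] R) :
    (chartDiv i.a (ψ.comp i.ι)).secIdeal = ((chartUniv (k := k) i.a).map (ψ.comp i.ι)).ideal :=
  Pre.secIdeal_dual_idealPre (ChartPt.isDiv_ideal _) (i.inChart_point ψ)

/-- The bundles whose class lies in a chart. -/
theorem exists_iff (L : RigBundle X R) :
    (∃ ψ : i.H →ₐ[k] R, Cls.map ψ i.univ = Cls.mk L) ↔
      Pre.InChart i.h (L.1.tensor (Pre.constBundle (indexBundle i.x) R)) := by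
  set N := indexBundle i.x
  have hN : N.Good := good_indexBundle i.x
  have hG : (L.1.tensor (Pre.constBundle N R)).Good := L.2.1.tensor (hN.bc _)
  constructor
  · rintro ⟨ψ, hψ⟩
    rw [map_univ] at hψ
    obtain ⟨L', hL', e⟩ := Cls.norm_spec _ (good_chartBundle hN (ψ.comp i.ι))
    rw [hψ, Cls.mk_eq_mk] at hL'
    have e1 : Pre.ModEquiv (chartBundle N i.a (ψ.comp i.ι)) L.1 :=
      e.trans (Pre.ModEquiv.of_iso L'.2.1 hL')
    have e2 : Pre.ModEquiv (chartDiv i.a (ψ.comp i.ι)) (L.1.tensor (Pre.constBundle N R)) :=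
      (Pre.ModEquiv.of_iso (good_chartDiv _) (chartBundle_tensor hN _).symm).trans
        (e1.tensor (Pre.ModEquiv.of_iso (hN.bc _) (Pre.Iso.refl _)))
    refine Pre.InChart.congr (good_chartDiv _) hG e2 ⟨i.inChart_point ψ, _, (i.secIdeal_point ψ).symm, ?_⟩
    rw [show ((chartUniv (k := k) i.a).map (ψ.comp i.ι)).toHom = ψ.comp i.ι from
      toHom_chartUniv_map _]
    exact (IsLocalization.Away.algebraMap_isUnit i.h).map ψ
  · rintro ⟨hA, p, hp, hu⟩
    let ψ : i.H →ₐ[k] R := IsLocalization.Away.liftAlgHom i.h hu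
    have hψ : ψ.comp i.ι = p.toHom := AlgHom.ext fun x => IsLocalization.Away.lift_eq i.h hu x
    refine ⟨ψ, ?_⟩
    rw [map_univ, ← Cls.norm_mk L]
    refine Cls.norm_congr _ L.2.1 ?_
    have hDiv : chartDiv i.a (ψ.comp i.ι) =
        (idealPre X R (L.1.tensor (Pre.constBundle N R)).secIdeal).dual := by
      show (idealPre X R ((chartUniv (k := k) i.a).map (ψ.comp i.ι)).ideal).dual = _
      rw [hψ, chartUniv_map_toHom, hp]
    have e2 : Pre.ModEquiv (chartDiv i.a (ψ.comp i.ι)) (L.1.tensor (Pre.constBundle N R)) :=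
      hDiv ▸ Pre.modEquiv_dual_idealPre hG hA (hp ▸ p.isDiv_ideal)
    refine (e2.tensor (Pre.ModEquiv.of_iso (hN.dual.bc _) (Pre.Iso.refl _))).trans
      (Pre.ModEquiv.of_iso (hG.tensor (hN.dual.bc _)) ?_)
    exact (Pre.tensor_assoc _ _ _).trans ((Pre.tensor_congr (Pre.Iso.refl _)
      ((Pre.tensor_comm _ _).trans ((Pre.bc_tensor _ _ _).symm.trans
        ((Pre.bc_congr (Pre.dual_tensor_self hN) _).trans (Pre.bc_unit _))))).trans
      (Pre.tensor_unit_right L.2.1))

theorem injective (φ ψ : i.H →ₐ[k] R) (e : Cls.map φ i.univ = Cls.map ψ i.univ) : φ = ψ := by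
  rw [map_univ, map_univ] at e
  set N := indexBundle i.x
  have hN : N.Good := good_indexBundle i.x
  obtain ⟨A, hA, eA⟩ := Cls.norm_spec _ (good_chartBundle hN (φ.comp i.ι))
  obtain ⟨B, hB, eB⟩ := Cls.norm_spec _ (good_chartBundle hN (ψ.comp i.ι))
  rw [← hA, ← hB, Cls.mk_eq_mk] at e
  have e1 : Pre.ModEquiv (chartBundle N i.a (φ.comp i.ι)) (chartBundle N i.a (ψ.comp i.ι)) :=
    (eA.trans (Pre.ModEquiv.of_iso A.2.1 e)).trans (eB.symm (good_chartBundle hN _))
  have e2 : Pre.ModEquiv (chartDiv i.a (φ.comp i.ι)) (chartDiv i.a (ψ.comp i.ι)) :=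
    ((Pre.ModEquiv.of_iso (good_chartDiv _) (chartBundle_tensor hN _).symm).trans
      (e1.tensor (Pre.ModEquiv.of_iso (hN.bc _) (Pre.Iso.refl _)))).trans
        (Pre.ModEquiv.of_iso ((good_chartBundle hN _).tensor (hN.bc _)) (chartBundle_tensor hN _))
  have hI := Pre.secIdeal_modEquiv (good_chartDiv _) e2
  rw [secIdeal_point, secIdeal_point] at hI
  have hp := congrArg ChartPt.toHom (ChartPt.eq_of_ideal_eq hI)
  rw [toHom_chartUniv_map, toHom_chartUniv_map] at hp
  exact IsLocalization.algHom_ext (Submonoid.powers i.h) hp.symm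

end ChartIndex

/-- The functions on a finite subscheme over a field have a basis from `A0`. -/
theorem exists_chartPt_of_finite {K : Type u} [Field K] [Algebra k K]
    {G : Pre X K} (hG : G.Good) (hA : G.minus.Acyclic) :
    ∃ (m : ℕ) (pre : Fin m → X.A0) (p : ChartPt k pre K), p.ideal = G.secIdeal := by
  -- a basis of the functions on the divisor from `A0`
  haveI hfin := (Pre.finite_projective_quotient hG hA).1
  let gen : X.A0 → (K ⊗[k] X.A0) ⧸ G.secIdeal := fun b =>
    Ideal.Quotient.mkₐ K G.secIdeal ((1 : K) ⊗ₜ b)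
  have hspan : ⊤ ≤ Submodule.span K (Set.range gen) := fun q _ => by
    obtain ⟨b, rfl⟩ := Ideal.Quotient.mkₐ_surjective K G.secIdeal q
    induction b using TensorProduct.induction_on with
    | zero => rw [map_zero]; exact zero_mem _
    | tmul c y =>
      rw [show c ⊗ₜ[k] y = c • ((1 : K) ⊗ₜ[k] y) by rw [smul_tmul', smul_eq_mul, mul_one], map_smul]
      exact Submodule.smul_mem _ _ (Submodule.subset_span ⟨y, rfl⟩)
    | add u v hu hv => rw [map_add]; exact add_mem (hu trivial) (hv trivial)
  obtain ⟨b, hbsub, hbspan, hblin⟩ := exists_linearIndependent K (Set.range gen)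
  haveI : Fintype b := Set.Finite.fintype hblin.setFinite
  let e := (Fintype.equivFin b).symm
  choose pre hpre using fun j => hbsub (e j).2
  refine ⟨_, pre, ?_⟩
  let bas : Module.Basis (Fin (Fintype.card b)) K ((K ⊗[k] X.A0) ⧸ G.secIdeal) :=
    Module.Basis.mk (hblin.comp e e.injective) (by
      rw [Set.range_comp, e.surjective.range_eq, Set.image_univ, Subtype.range_coe_subtype,
        Set.ofPred_mem_eq, hbspan]
      exact hspan)
  refine (basisMap_bijective_iff _).mp ?_
  have hb : basisMap pre G.secIdeal = bas.equivFun.symm.toLinearMap := by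
    refine LinearMap.ext fun r => ?_
    show Ideal.Quotient.mkₐ K G.secIdeal (ChartPt.comb pre K r) = bas.equivFun.symm r
    rw [ChartPt.comb_apply, map_sum, Module.Basis.equivFun_symm_apply]
    refine Finset.sum_congr rfl fun j _ => ?_
    rw [map_smul, Module.Basis.coe_mk]
    exact congrArg _ (hpre j)
  rw [hb]
  exact bas.equivFun.symm.bijective

/-- A point of the chart of degree zero without speciality has such a neighbourhood. -/
theorem exists_chart_nhd {K : Type u} [Field K] [Algebra k K] {m : ℕ} {pre : Fin m → X.A0}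
    {N : Pre X k} (hN : N.Good) (π : ChartRing (k := k) pre →ₐ[k] K)
    (h1 : (chartDiv pre π).minus.Acyclic)
    (h2 : (chartBundle N pre π).chi = (Pre.unit X k).chi) :
    ∃ h : ChartRing (k := k) pre, π h ≠ 0 ∧
      (chartDiv pre (IsScalarTower.toAlgHom k (ChartRing (k := k) pre)
        (Localization.Away h))).minus.Acyclic ∧
      (chartBundle N pre (IsScalarTower.toAlgHom k (ChartRing (k := k) pre)
        (Localization.Away h))).DegZero := by
  let ι0 := AlgHom.id k (ChartRing (k := k) pre)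
  have hE0 : (chartDiv pre ι0).Good := good_chartDiv ι0
  have hL0 : (chartBundle N pre ι0).Good := good_chartBundle hN ι0
  set q : PrimeSpectrum (ChartRing (k := k) pre) := kerPoint π with hq
  have hq1 : ((chartDiv pre ι0).minus.bc (pointHom k q)).Acyclic := by
    refine (hE0.minus.acyclic_bc_iff π).mp (h1.congr ?_)
    exact (Pre.minus_congr (chartDiv_bc ι0 π).symm).trans (Pre.minus_bc _ π).symm
  have hq2 : (chartBundle N pre ι0).chiAt q = (Pre.unit X k).chi :=
    (hL0.chi_bc π).symm.trans ((Pre.chi_congr (chartBundle_bc N ι0 π)).trans h2)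
  obtain ⟨V, ⟨h, rfl⟩, hqh, hsub⟩ :=
    PrimeSpectrum.isTopologicalBasis_basic_opens.exists_subset_of_mem_open
      (u := {q | ((chartDiv pre ι0).minus.bc (pointHom k q)).Acyclic} ∩
        {q | (chartBundle N pre ι0).chiAt q = (Pre.unit X k).chi}) ⟨hq1, hq2⟩
      (hE0.minus.isOpen_acyclic.inter (hL0.isLocallyConstant_chiAt.isOpen_fiber _))
  let H := Localization.Away h
  let ιH : ChartRing (k := k) pre →ₐ[k] H := IsScalarTower.toAlgHom k _ H
  have hpts : ∀ {K' : Type u} [Field K'] [Algebra k K'] (φ : H →ₐ[k] K'),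
      kerPoint (φ.comp ιH) ∈
        PrimeSpectrum.basicOpen h := fun φ => by
    show φ (algebraMap _ H h) ≠ 0
    exact ((IsLocalization.Away.algebraMap_isUnit (S := H) h).map φ).ne_zero
  have hAH : (chartDiv pre ιH).minus.Acyclic := by
    refine (good_chartDiv ιH).minus.acyclic_of_forall fun q' => ?_
    refine (((hE0.minus.acyclic_bc_iff ((pointHom k q').comp ιH)).mpr
      (hsub (hpts (pointHom k q'))).1).congr (Pre.bc_bc _ ιH _).symm).congr (Pre.bc_congr ?_ _)
    exact (Pre.minus_bc _ ιH).trans (Pre.minus_congr (chartDiv_bc ι0 ιH))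
  have hdH : (chartBundle N pre ιH).DegZero := by
    refine (good_chartBundle hN ιH).degZero_iff.mpr fun q' => ?_
    have e0 := chartBundle_bc N ι0 ((pointHom k q').comp ιH)
    rw [show ((pointHom k q').comp ιH).comp ι0 = (pointHom k q').comp ιH from AlgHom.comp_id _] at e0
    have e1 := Pre.chi_congr ((chartBundle_bc N ιH (pointHom k q')).trans e0.symm)
    exact e1.trans ((hL0.chi_bc _).trans (hsub (hpts (pointHom k q'))).2)
  exact ⟨h, hqh, hAH, hdH⟩

/-- Every class of degree zero over an algebraically closed field lies in a chart. -/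
theorem exists_chartIndex {K : Type u} [Field K] [Algebra k K] [IsAlgClosed K] (L : RigBundle X K)
    (hd : L.1.DegZero) :
    ∃ (i : ChartIndex X) (ψ : i.H →ₐ[k] K), Cls.map ψ i.univ = Cls.mk L := by
  obtain ⟨N', hN', -, hA'⟩ := hd.exists_acyclic L.2.1
  set Q := (Pre.unit X k).minus
  have hQ : Q.Good := (Pre.good_unit X k).minus
  set N1 := N'.tensor Q.dual
  have hN1 : N1.Good := hN'.tensor hQ.dual
  set x := equivShrink.{u} (Cls X k) (Cls.norm N1 hN1)
  set N := indexBundle x with hNdef
  have hN : N.Good := good_indexBundle x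
  have eN : Pre.ModEquiv N1 N := by
    obtain ⟨L', hL', e⟩ := Cls.norm_spec N1 hN1
    refine e.trans (Pre.ModEquiv.of_iso L'.2.1 (Cls.mk_eq_mk.mp ?_))
    rw [hL', Cls.mk, Quotient.out_eq, Equiv.symm_apply_apply]
  set G := L.1.tensor (Pre.constBundle N K) with hGdef
  have hG : G.Good := L.2.1.tensor (hN.bc _)
  have hA : G.minus.Acyclic := by
    have e1 : Pre.Iso N1.minus N' :=
      (Pre.minus_tensor _ _).trans ((Pre.tensor_congr (Pre.Iso.refl _)
        ((Pre.minus_congr (Pre.tensor_unit_right hQ.dual).symm).trans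
          ((Pre.minus_tensor _ _).trans (Pre.dual_tensor_self hQ)))).trans
        (Pre.tensor_unit_right hN'))
    have e2 : Pre.Iso (L.1.tensor (Pre.constBundle N1 K)).minus
        (L.1.tensor (Pre.constBundle N' K)) :=
      (Pre.minus_tensor _ _).trans (Pre.tensor_congr (Pre.Iso.refl _)
        ((Pre.minus_bc N1 _).symm.trans (Pre.bc_congr e1 _)))
    have e3 : Pre.ModEquiv (L.1.tensor (Pre.constBundle N1 K)) G :=
      (Pre.ModEquiv.of_iso L.2.1 (Pre.Iso.refl _)).tensor (eN.bc _)
    exact e3.minus.acyclic (L.2.1.tensor (hN1.bc _)).minus hG.minus (hA'.congr e2.symm)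
  obtain ⟨m, pre, p, hp⟩ := exists_chartPt_of_finite hG hA
  -- a neighbourhood of the point in the chart
  let π := p.toHom
  have hDivπ : chartDiv pre π = (idealPre X K G.secIdeal).dual := by
    show (idealPre X K ((chartUniv (k := k) pre).map π).ideal).dual = _
    rw [chartUniv_map_toHom, hp]
  have eDiv : Pre.ModEquiv (chartDiv pre π) G :=
    hDivπ ▸ Pre.modEquiv_dual_idealPre hG hA (hp ▸ p.isDiv_ideal)
  have eL : Pre.ModEquiv (chartBundle N pre π) L.1 :=
    (eDiv.tensor (Pre.ModEquiv.of_iso (hN.dual.bc _) (Pre.Iso.refl _))).trans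
      (Pre.ModEquiv.of_iso (hG.tensor (hN.dual.bc _)) ((Pre.tensor_assoc _ _ _).trans
        ((Pre.tensor_congr (Pre.Iso.refl _) ((Pre.tensor_comm _ _).trans
          ((Pre.bc_tensor _ _ _).symm.trans ((Pre.bc_congr (Pre.dual_tensor_self hN) _).trans
            (Pre.bc_unit _))))).trans (Pre.tensor_unit_right L.2.1))))
  have hE1 : (chartDiv pre π).minus.Acyclic :=
    ((eDiv.symm (good_chartDiv π)).minus).acyclic hG.minus (good_chartDiv π).minus hA
  have hE2 : (chartBundle N pre π).chi = (Pre.unit X k).chi := by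
    rw [← eL.chi_eq (good_chartBundle hN π), hd.chi_eq L.2.1,
      ← Pre.chi_congr (Pre.bc_unit (Algebra.ofId k K)), (Pre.good_unit X k).chi_bc_of_base]
  obtain ⟨h, hqh, hAH, hdH⟩ := exists_chart_nhd hN π hE1 hE2
  have hu : IsUnit (π h) := isUnit_iff_ne_zero.mpr hqh
  refine ⟨⟨x, _, pre, h, hAH, hdH⟩, IsLocalization.Away.liftAlgHom h (f := π) hu, ?_⟩
  rw [ChartIndex.map_univ, ← Cls.norm_mk L]
  refine Cls.norm_congr _ L.2.1 ?_
  have e1 : (IsLocalization.Away.liftAlgHom h (f := π) hu : Localization.Away h →ₐ[k] K).comp (IsScalarTower.toAlgHom k _ (Localization.Away h)) = π :=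
    AlgHom.ext fun y => IsLocalization.Away.lift_eq h (g := π.toRingHom) hu y
  show Pre.ModEquiv (chartBundle N pre
    ((IsLocalization.Away.liftAlgHom h (f := π) hu : Localization.Away h →ₐ[k] K).comp (IsScalarTower.toAlgHom k _ (Localization.Away h)))) L.1
  rw [e1]
  exact eL

variable (X) in
/-- The charts. -/
def charts : Charts X where
  J := ChartIndex X
  H i := i.H
  smooth i := i.smooth
  univ i := i.univ
  degZero i := (Cls.isDegZero_norm_iff _).mpr i.degZero
  inj := fun i {R} _ _ φ ψ e => i.injective φ ψ e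
  isOpen := by
    intro i R _ _ x _
    obtain ⟨L, rfl⟩ := Cls.mk_surjective x
    set G := L.1.tensor (Pre.constBundle (indexBundle i.x) R)
    have hG : G.Good := L.2.1.tensor ((good_indexBundle i.x).bc _)
    refine ⟨⟨Pre.chartLocus i.h G, Pre.isOpen_inChart hG⟩, fun {S} _ _ φ => ?_⟩
    rw [Cls.map_mk, i.exists_iff (L.map φ)]
    show _ ↔ Set.range _ ⊆ Pre.chartLocus i.h G
    rw [range_comap_subset_iff]
    have hGS : (G.bc φ).Good := hG.bc φ
    have e : Pre.ModEquiv ((L.map φ).1.tensor (Pre.constBundle (indexBundle i.x) S)) (G.bc φ) :=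
      Pre.ModEquiv.of_iso ((L.map φ).2.1.tensor ((good_indexBundle i.x).bc _))
        ((Pre.tensor_congr (Pre.Iso.refl _) (Pre.constBundle_bc _ φ).symm).trans
          (Pre.bc_tensor _ _ φ).symm)
    have hmove : ∀ q : PrimeSpectrum S,
        Pre.InChart i.h ((G.bc φ).bc (pointHom k q)) ↔
          Pre.InChart i.h (G.bc ((pointHom k q).comp φ)) := fun q =>
      ⟨fun hc => hc.congr (hGS.bc _) (hG.bc _)
          (Pre.ModEquiv.of_iso (hGS.bc _) (Pre.bc_bc G φ _)),
        fun hc => hc.congr (hG.bc _) (hGS.bc _)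
          (Pre.ModEquiv.of_iso (hG.bc _) (Pre.bc_bc G φ _).symm)⟩
    constructor
    · intro hc q
      exact (Pre.inChart_bc_iff hG _).mp ((hmove q).mp
        ((hc.congr ((L.map φ).2.1.tensor ((good_indexBundle i.x).bc _)) hGS e).bc hGS _))
    · intro hc
      exact (Pre.inChart_of_forall hGS fun q => (hmove q).mpr
        ((Pre.inChart_bc_iff hG _).mpr (hc q))).congr hGS
          ((L.map φ).2.1.tensor ((good_indexBundle i.x).bc _))
          (e.symm ((L.map φ).2.1.tensor ((good_indexBundle i.x).bc _)))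
  cover := by
    intro K _ _ _ x hx
    obtain ⟨L, rfl⟩ := Cls.mk_surjective x
    exact exists_chartIndex L (Cls.isDegZero_mk_iff.mp hx)

end Fermat.Agent.RelPic

end
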