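import Fermat.Agent.RelPic.Rings

/-!
# Ideals with a prescribed basis of the quotient

The ideals of `R ⊗ A0` whose quotient has the basis `a : Fin n → A0` over `R` are the points of an
affine scheme of finite type over `k`: an action `A0 → Mat n R` and a cyclic vector `v` with
`a i • v = eᵢ`.
-/

set_option autoImplicit false

universe u

open TensorProduct

noncomputable section

namespace Fermat.Agent.RelPic

variable {k : Type u} [Field k]

/-- A multiplication table with cyclic vector in which `a i` has coordinate vector `eᵢ`. -/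
@[ext]
structure ChartPt (k : Type u) [Field k] {A : Type u} [CommRing A] [Algebra k A] {n : ℕ} (a : Fin n → A) (R : Type u)
    [CommRing R] [Algebra k R] : Type u where
  ρ : A →ₐ[k] Matrix (Fin n) (Fin n) R
  v : Fin n → R
  spec : ∀ i, (ρ (a i)).mulVec v = Pi.single i 1

namespace ChartPt

variable {A : Type u} [CommRing A] [Algebra k A] {n : ℕ} {a : Fin n → A}
  {R : Type u} [CommRing R] [Algebra k R] {R' : Type u} [CommRing R'] [Algebra k R']

/-- Change of ring. -/
def map (f : R →ₐ[k] R') (p : ChartPt k a R) : ChartPt k a R' where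
  ρ := f.mapMatrix.comp p.ρ
  v := f ∘ p.v
  spec i := by
    have h := RingHom.map_mulVec f.toRingHom (p.ρ (a i)) p.v
    funext j
    refine (h j).symm.trans ?_
    rw [p.spec]
    rcases eq_or_ne j i with rfl | hj <;> simp [*]

@[simp] theorem map_v (f : R →ₐ[k] R') (p : ChartPt k a R) : (p.map f).v = f ∘ p.v := rfl

theorem map_ρ (f : R →ₐ[k] R') (p : ChartPt k a R) (x : A) :
    (p.map f).ρ x = f.mapMatrix (p.ρ x) := rfl

/-- The action extended to `R ⊗ A`. -/
def act (p : ChartPt k a R) : R ⊗[k] A →ₐ[R] Matrix (Fin n) (Fin n) R :=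
  Algebra.TensorProduct.lift (Algebra.ofId R _) p.ρ fun r _ => Algebra.commutes r _

theorem act_tmul (p : ChartPt k a R) (r : R) (x : A) : p.act (r ⊗ₜ x) = r • p.ρ x := by
  simp [act, Algebra.smul_def]

/-- Coordinates of a residue class. -/
def coords (p : ChartPt k a R) : R ⊗[k] A →ₗ[R] (Fin n → R) where
  toFun b := (p.act b).mulVec p.v
  map_add' b c := by rw [map_add, Matrix.add_mulVec]
  map_smul' r b := by rw [map_smul, Matrix.smul_mulVec, RingHom.id_apply]

theorem coords_apply (p : ChartPt k a R) (b : R ⊗[k] A) : p.coords b = (p.act b).mulVec p.v := rfl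

/-- The combination of the prescribed elements with given coordinates. -/
def comb (a : Fin n → A) (R : Type u) [CommRing R] [Algebra k R] : (Fin n → R) →ₗ[R] R ⊗[k] A :=
  Fintype.linearCombination R fun i => (1 : R) ⊗ₜ a i

theorem comb_apply (r : Fin n → R) : comb a R r = ∑ i, r i • ((1 : R) ⊗ₜ[k] a i) :=
  Fintype.linearCombination_apply ..

theorem coords_comb (p : ChartPt k a R) (r : Fin n → R) : p.coords (comb a R r) = r := by
  funext j
  rw [comb_apply, map_sum, Finset.sum_apply, Finset.sum_eq_single j]
  · simp [coords_apply, act_tmul, p.spec]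
  · intro i _ hi
    simp [coords_apply, act_tmul, p.spec, Ne.symm hi]
  · simp

/-- The ideal of the point. -/
def ideal (p : ChartPt k a R) : Ideal (R ⊗[k] A) where
  carrier := {b | p.coords b = 0}
  zero_mem' := map_zero _
  add_mem' {b c} hb hc := by
    simp only [Set.mem_ofPred_eq, map_add] at hb hc ⊢
    rw [hb, hc, add_zero]
  smul_mem' c b hb := by
    simp only [Set.mem_ofPred_eq, smul_eq_mul, coords_apply, map_mul] at hb ⊢
    rw [← Matrix.mulVec_mulVec, hb, Matrix.mulVec_zero]

theorem mem_ideal {p : ChartPt k a R} {b : R ⊗[k] A} : b ∈ p.ideal ↔ p.coords b = 0 := Iff.rfl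

theorem sub_comb_mem (p : ChartPt k a R) (b : R ⊗[k] A) :
    b - comb a R (p.coords b) ∈ p.ideal := by
  rw [mem_ideal, map_sub, coords_comb, sub_self]

theorem comb_mem_ideal_iff (p : ChartPt k a R) (r : Fin n → R) :
    comb a R r ∈ p.ideal ↔ r = 0 := by rw [mem_ideal, coords_comb]

/-- A point is determined by its ideal. -/
theorem eq_of_ideal_eq {p q : ChartPt k a R} (h : p.ideal = q.ideal) : p = q := by
  have hc : ∀ b, p.coords b = q.coords b := fun b => by
    have h1 := p.sub_comb_mem b
    rw [h, mem_ideal, map_sub, coords_comb, sub_eq_zero] at h1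
    exact h1.symm
  have hv : p.v = q.v := by
    have h1 := hc 1
    simpa [coords_apply] using h1
  refine ChartPt.ext (AlgHom.ext fun x => Matrix.ext fun i j => ?_) hv
  have h1 := hc ((1 : R) ⊗ₜ (x * a j))
  rw [coords_apply, coords_apply, act_tmul, act_tmul, one_smul, one_smul, map_mul, map_mul,
    ← Matrix.mulVec_mulVec, ← Matrix.mulVec_mulVec, p.spec, q.spec] at h1
  simpa using congrFun h1 i

/-- An ideal with the prescribed basis of the quotient comes from a point. -/
theorem exists_of_ideal (I : Ideal (R ⊗[k] A))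
    (hspan : ∀ b, ∃ r : Fin n → R, b - comb a R r ∈ I)
    (hind : ∀ r : Fin n → R, comb a R r ∈ I → r = 0) :
    ∃ p : ChartPt k a R, p.ideal = I := by
  let e : (Fin n → R) →ₗ[R] (R ⊗[k] A) ⧸ I :=
    (Ideal.Quotient.mkₐ R I).toLinearMap ∘ₗ comb a R
  have he : Function.Bijective e := by
    refine ⟨(injective_iff_map_eq_zero e).mpr fun r hr => hind r ?_, fun q => ?_⟩
    · exact Ideal.Quotient.eq_zero_iff_mem.mp hr
    · obtain ⟨b, rfl⟩ := Ideal.Quotient.mk_surjective q
      obtain ⟨r, hr⟩ := hspan b
      exact ⟨r, (Ideal.Quotient.eq.mpr hr).symm⟩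
  let E := LinearEquiv.ofBijective e he
  let bas : Module.Basis (Fin n) R ((R ⊗[k] A) ⧸ I) := Module.Basis.ofEquivFun E.symm
  have hbas : ∀ j, bas j = Ideal.Quotient.mk I ((1 : R) ⊗ₜ a j) := fun j => by
    simp only [bas, Module.Basis.coe_ofEquivFun, LinearEquiv.symm_symm]
    show Ideal.Quotient.mk I (comb a R _) = _
    rw [comb_apply, Finset.sum_eq_single j]
    · simp
    · intro i _ hi; simp [hi]
    · simp
  let act' : (R ⊗[k] A) →ₐ[R] Matrix (Fin n) (Fin n) R :=
    ((LinearMap.toMatrixAlgEquiv bas).toAlgHom.comp (Algebra.lmul R ((R ⊗[k] A) ⧸ I))).comp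
      (Ideal.Quotient.mkₐ R I)
  have hact : ∀ b c : R ⊗[k] A, (act' b).mulVec (bas.repr (Ideal.Quotient.mk I c)) =
      bas.repr (Ideal.Quotient.mk I (b * c)) := fun b c => by
    rw [map_mul]
    exact LinearMap.toMatrix_mulVec_repr bas bas
      (Algebra.lmul R _ (Ideal.Quotient.mk I b)) (Ideal.Quotient.mk I c)
  let p : ChartPt k a R :=
    { ρ := (act'.restrictScalars k).comp Algebra.TensorProduct.includeRight
      v := bas.repr (Ideal.Quotient.mk I 1)
      spec := fun i => by
        refine (hact _ 1).trans ?_
        simp only [mul_one, Algebra.TensorProduct.includeRight_apply, RingHom.coe_coe]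
        rw [← hbas, Module.Basis.repr_self]
        funext j
        rcases eq_or_ne j i with rfl | hj <;> simp [*] }
  have hp : p.act = act' :=
    Algebra.TensorProduct.ext' fun r x => by
      rw [act_tmul]
      show r • act' (1 ⊗ₜ x) = act' (r ⊗ₜ x)
      rw [← map_smul, smul_tmul', smul_eq_mul, mul_one]
  refine ⟨p, Ideal.ext fun b => ?_⟩
  rw [mem_ideal, coords_apply, hp, ← Ideal.Quotient.eq_zero_iff_mem]
  show (act' b).mulVec (bas.repr (Ideal.Quotient.mk I 1)) = 0 ↔ _
  rw [hact, mul_one, ← LinearEquiv.map_eq_zero_iff bas.repr]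
  exact ⟨fun h => Finsupp.ext fun i => congrFun h i, fun h => by rw [h]; rfl⟩

/-- The ideal after a change of ring. -/
theorem ideal_map (f : R →ₐ[k] R') (p : ChartPt k a R) :
    (p.map f).ideal = p.ideal.map (Algebra.TensorProduct.map f (AlgHom.id k A)).toRingHom := by
  set F := Algebra.TensorProduct.map f (AlgHom.id k A) with hF
  have hact : ∀ b, (p.map f).act (F b) = f.mapMatrix (p.act b) := fun b => by
    induction b using TensorProduct.induction_on with
    | zero => simp
    | tmul r x =>
      rw [hF, Algebra.TensorProduct.map_tmul, act_tmul, act_tmul, AlgHom.id_apply, map_ρ]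
      ext i j
      simp [Matrix.map_apply]
    | add x y hx hy => rw [map_add, map_add, hx, hy, map_add, map_add]
  have hcoords : ∀ b, (p.map f).coords (F b) = f ∘ p.coords b := fun b => by
    funext i
    rw [coords_apply, hact]
    exact (RingHom.map_mulVec f.toRingHom (p.act b) p.v i).symm
  refine le_antisymm ?_ (Ideal.map_le_iff_le_comap.mpr fun b hb => ?_)
  · intro b hb
    have key : ∀ c : R' ⊗[k] A,
        c - comb a R' ((p.map f).coords c) ∈ p.ideal.map F.toRingHom := by
      intro c
      induction c using TensorProduct.induction_on with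
      | zero => simp
      | tmul r x =>
        have h1 := Ideal.mem_map_of_mem F.toRingHom (p.sub_comb_mem ((1 : R) ⊗ₜ x))
        have e : F (comb a R (p.coords ((1 : R) ⊗ₜ x))) =
            comb a R' (f ∘ p.coords ((1 : R) ⊗ₜ x)) := by
          rw [comb_apply, comb_apply, map_sum]
          refine Finset.sum_congr rfl fun i _ => ?_
          simp [hF, smul_tmul']
        have e2 : F ((1 : R) ⊗ₜ x) = (1 : R') ⊗ₜ x := by simp [hF]
        rw [AlgHom.toRingHom_eq_coe, RingHom.coe_coe, map_sub, e, e2, ← hcoords, e2] at h1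
        have e3 : r ⊗ₜ[k] x = r • ((1 : R') ⊗ₜ[k] x) := by rw [smul_tmul', smul_eq_mul, mul_one]
        rw [e3, map_smul, map_smul, ← smul_sub, Algebra.smul_def]
        exact Ideal.mul_mem_left _ _ h1
      | add x y hx hy =>
        rw [map_add, map_add, add_sub_add_comm]
        exact add_mem hx hy
    have := key b
    rwa [mem_ideal.mp hb, map_zero, sub_zero] at this
  · show F b ∈ (p.map f).ideal
    rw [mem_ideal, hcoords, mem_ideal.mp hb]
    funext i
    exact map_zero f

end ChartPt

/-! ### The universal table -/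

variable {A : Type u} [CommRing A] [Algebra k A] {n : ℕ} (a : Fin n → A)

/-- Variables: matrix entries and the coordinates of the cyclic vector. -/
abbrev ChartVar (A : Type u) (n : ℕ) : Type u := (A × Fin n × Fin n) ⊕ Fin n

/-- The generic matrix of `x`. -/
def chartGen (x : A) : Matrix (Fin n) (Fin n) (MvPolynomial (ChartVar A n) k) :=
  Matrix.of fun i j => MvPolynomial.X (Sum.inl (x, i, j))

/-- The generic vector. -/
def chartVec : Fin n → MvPolynomial (ChartVar A n) k := fun i => MvPolynomial.X (Sum.inr i)

/-- The relations of a point. -/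
def chartRel : Set (MvPolynomial (ChartVar A n) k) :=
  {q | (∃ x y i j, q = (chartGen (k := k) (x + y) - (chartGen x + chartGen y) :
      Matrix (Fin n) (Fin n) (MvPolynomial (ChartVar A n) k)) i j) ∨
    (∃ x y i j, q = (chartGen (k := k) (x * y) - chartGen x * chartGen y :
      Matrix (Fin n) (Fin n) (MvPolynomial (ChartVar A n) k)) i j) ∨
    (∃ (c : k) (i j : Fin n), q = (chartGen (k := k) (algebraMap k A c) -
      algebraMap k _ c : Matrix (Fin n) (Fin n) (MvPolynomial (ChartVar A n) k)) i j) ∨
    ∃ i j, q = ((chartGen (k := k) (a i)).mulVec chartVec - Pi.single i 1 :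
      Fin n → MvPolynomial (ChartVar A n) k) j}

/-- The ring of multiplication tables. -/
abbrev ChartRing : Type u := MvPolynomial (ChartVar A n) k ⧸ Ideal.span (chartRel (k := k) a)

variable {a}

theorem chartMk_eq_zero {q : MvPolynomial (ChartVar A n) k} (hq : q ∈ chartRel (k := k) a) :
    Ideal.Quotient.mk (Ideal.span (chartRel (k := k) a)) q = 0 :=
  Ideal.Quotient.eq_zero_iff_mem.mpr (Ideal.subset_span hq)

variable (a) in
/-- The universal point. -/
def chartUniv : ChartPt k a (ChartRing (k := k) a) :=
  let π := Ideal.Quotient.mkₐ k (Ideal.span (chartRel (k := k) a))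
  let M : A → Matrix (Fin n) (Fin n) (ChartRing (k := k) a) := fun x => π.mapMatrix (chartGen x)
  have hadd : ∀ x y, M (x + y) = M x + M y := fun x y => Matrix.ext fun i j => by
    have h := chartMk_eq_zero (a := a) (k := k) (Or.inl ⟨x, y, i, j, rfl⟩)
    rw [Matrix.sub_apply, map_sub, sub_eq_zero] at h
    exact h.trans (by simp [M, π, Matrix.add_apply])
  have hmul : ∀ x y, M (x * y) = M x * M y := fun x y => by
    rw [← map_mul]
    refine Matrix.ext fun i j => ?_
    have h := chartMk_eq_zero (a := a) (k := k) (Or.inr (Or.inl ⟨x, y, i, j, rfl⟩))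
    rw [Matrix.sub_apply, map_sub, sub_eq_zero] at h
    exact h
  have hc : ∀ c : k, M (algebraMap k A c) = algebraMap k _ c := fun c => by
    rw [← AlgHom.commutes π.mapMatrix c]
    refine Matrix.ext fun i j => ?_
    have h := chartMk_eq_zero (a := a) (k := k) (Or.inr (Or.inr (Or.inl ⟨c, i, j, rfl⟩)))
    rw [Matrix.sub_apply, map_sub, sub_eq_zero] at h
    exact h
  { ρ :=
      { toFun := M
        map_one' := by rw [← map_one (algebraMap k A), hc, map_one]
        map_mul' := hmul
        map_zero' := by rw [← map_zero (algebraMap k A), hc, map_zero]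
        map_add' := hadd
        commutes' := hc }
    v := π ∘ chartVec
    spec := fun i => funext fun j => by
      have h := chartMk_eq_zero (a := a) (k := k) (Or.inr (Or.inr (Or.inr ⟨i, j, rfl⟩)))
      rw [Pi.sub_apply, map_sub, sub_eq_zero] at h
      refine (RingHom.map_mulVec π.toRingHom (chartGen (a i)) chartVec j).symm.trans (h.trans ?_)
      rcases eq_or_ne j i with rfl | hj <;> simp [*] }

theorem chartUniv_ρ_apply (x : A) (i j : Fin n) :
    (chartUniv (k := k) a).ρ x i j =
      Ideal.Quotient.mk _ (MvPolynomial.X (Sum.inl (x, i, j))) := rfl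

theorem chartUniv_v_apply (i : Fin n) :
    (chartUniv (k := k) a).v i = Ideal.Quotient.mk _ (MvPolynomial.X (Sum.inr i)) := rfl

variable {R : Type u} [CommRing R] [Algebra k R]

/-- The classifying map of a point. -/
def ChartPt.toHom (p : ChartPt k a R) : ChartRing (k := k) a →ₐ[k] R :=
  Ideal.Quotient.liftₐ _
    (MvPolynomial.aeval (Sum.elim (fun t : A × Fin n × Fin n => p.ρ t.1 t.2.1 t.2.2) p.v))
    (by
      intro q hq
      induction hq using Submodule.span_induction with
      | mem q hq =>
        set φ : MvPolynomial (ChartVar A n) k →ₐ[k] R :=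
          MvPolynomial.aeval (Sum.elim (fun t : A × Fin n × Fin n => p.ρ t.1 t.2.1 t.2.2) p.v)
          with hφ
        have hg : ∀ x, φ.mapMatrix (chartGen x) = p.ρ x := fun x => Matrix.ext fun i j => by
          simp [hφ, chartGen]
        rcases hq with ⟨x, y, i, j, rfl⟩ | ⟨x, y, i, j, rfl⟩ | ⟨c, i, j, rfl⟩ | ⟨i, j, rfl⟩
        · have e : φ.mapMatrix (chartGen (x + y) - (chartGen x + chartGen y)) = 0 := by
            rw [map_sub, map_add, hg, hg, hg, map_add, sub_self]
          exact congrFun (congrFun e i) j
        · have e : φ.mapMatrix (chartGen (x * y) - chartGen x * chartGen y) = 0 := by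
            rw [map_sub, map_mul, hg, hg, hg, map_mul, sub_self]
          exact congrFun (congrFun e i) j
        · have e : φ.mapMatrix (chartGen (algebraMap k A c) - algebraMap k _ c) = 0 := by
            rw [map_sub, hg, AlgHom.commutes, AlgHom.commutes, sub_self]
          exact congrFun (congrFun e i) j
        · have hvec : (φ ∘ chartVec : Fin n → R) = p.v := funext fun l => by simp [hφ, chartVec]
          rw [Pi.sub_apply, map_sub]
          erw [RingHom.map_mulVec φ.toRingHom]
          show (φ.mapMatrix (chartGen (a i))).mulVec (φ ∘ chartVec) j - _ = 0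
          rw [hg, hvec, p.spec, sub_eq_zero]
          rcases eq_or_ne j i with rfl | hj <;> simp [*]
      | zero => exact map_zero _
      | add x y _ _ hx hy => rw [map_add, hx, hy, add_zero]
      | smul c x _ hx => rw [smul_eq_mul, map_mul, hx, mul_zero])

theorem chartUniv_map_toHom (p : ChartPt k a R) : (chartUniv (k := k) a).map p.toHom = p := by
  refine ChartPt.ext (AlgHom.ext fun x => Matrix.ext fun i j => ?_) (funext fun i => ?_)
  · show p.toHom ((chartUniv (k := k) a).ρ x i j) = _
    rw [chartUniv_ρ_apply, ChartPt.toHom]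
    simp
  · show p.toHom ((chartUniv (k := k) a).v i) = _
    rw [chartUniv_v_apply, ChartPt.toHom]
    simp

theorem toHom_chartUniv_map (φ : ChartRing (k := k) a →ₐ[k] R) :
    ((chartUniv (k := k) a).map φ).toHom = φ := by
  refine Ideal.Quotient.algHom_ext k ?_
  refine MvPolynomial.algHom_ext fun t => ?_
  rcases t with ⟨x, i, j⟩ | i <;> simp [ChartPt.toHom, ChartPt.map_ρ, chartUniv_ρ_apply,
    chartUniv_v_apply]

/-- The points are the maps out of the ring of tables. -/
def chartEquiv : (ChartRing (k := k) a →ₐ[k] R) ≃ ChartPt k a R where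
  toFun φ := (chartUniv a).map φ
  invFun p := p.toHom
  left_inv := toHom_chartUniv_map
  right_inv := chartUniv_map_toHom

theorem chartRing_finiteType [Algebra.FiniteType k A] :
    Algebra.FiniteType k (ChartRing (k := k) a) := by
  classical
  obtain ⟨S, hS⟩ := ‹Algebra.FiniteType k A›
  set U := chartUniv (k := k) a
  let gens : Finset (ChartRing (k := k) a) :=
    (S ×ˢ (Finset.univ ×ˢ Finset.univ)).image (fun t => U.ρ t.1 t.2.1 t.2.2) ∪
      Finset.univ.image U.v
  refine ⟨⟨gens, top_le_iff.mp fun q _ => ?_⟩⟩
  set T := Algebra.adjoin k (gens : Set (ChartRing (k := k) a))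
  have hρ : ∀ x : A, ∀ i j, U.ρ x i j ∈ T := by
    intro x
    have hx : x ∈ Algebra.adjoin k (S : Set A) := by rw [hS]; trivial
    induction hx using Algebra.adjoin_induction with
    | mem x hx =>
      intro i j
      refine Algebra.subset_adjoin (Finset.mem_coe.mpr ?_)
      refine Finset.mem_union_left _ (Finset.mem_image.mpr ⟨(x, i, j), ?_, rfl⟩)
      simpa using hx
    | algebraMap c =>
      intro i j
      rw [AlgHom.commutes, Matrix.algebraMap_matrix_apply]
      split_ifs
      · exact T.algebraMap_mem c
      · exact T.zero_mem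
    | add x y _ _ hx hy => intro i j; rw [map_add, Matrix.add_apply]; exact add_mem (hx i j) (hy i j)
    | mul x y _ _ hx hy =>
      intro i j
      rw [map_mul, Matrix.mul_apply]
      exact sum_mem fun l _ => mul_mem (hx i l) (hy l j)
  obtain ⟨q, rfl⟩ := Ideal.Quotient.mk_surjective q
  induction q using MvPolynomial.induction_on with
  | C c => exact T.algebraMap_mem c
  | add p q hp hq => rw [map_add]; exact add_mem (hp trivial) (hq trivial)
  | mul_X p t hp =>
    rw [map_mul]
    refine mul_mem (hp trivial) ?_
    rcases t with ⟨x, i, j⟩ | i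
    · exact hρ x i j
    · exact Algebra.subset_adjoin (Finset.mem_coe.mpr
        (Finset.mem_union_right _ (Finset.mem_image.mpr ⟨i, Finset.mem_univ _, rfl⟩)))

end Fermat.Agent.RelPic

end
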