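import Fermat.Agent.RelPic.Rings

/-!
# Monic polynomials in `f`

They are regular on the affine piece and the overlap and are units near infinity.
-/

set_option autoImplicit false
set_option linter.style.haveILetI false

universe u

open TensorProduct Polynomial

noncomputable section

namespace Fermat.Agent.RelPic

variable {k : Type u} [Field k] (X : Model k) (R : Type u) [CommRing R] [Algebra k R]

/-- A monic polynomial in `f` over `R`. -/
def fPoly (q : R[X]) : R ⊗[k] X.A0 := aeval ((1 : R) ⊗ₜ X.f) q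

theorem fPoly_map {R' : Type u} [CommRing R'] [Algebra k R'] (φ : R →ₐ[k] R') (q : R[X]) :
    Algebra.TensorProduct.map φ (AlgHom.id k X.A0) (fPoly X R q) =
      fPoly X R' (q.map φ.toRingHom) := by
  induction q using Polynomial.induction_on' with
  | add p q hp hq => simp only [fPoly, map_add, Polynomial.map_add] at hp hq ⊢; rw [hp, hq]
  | monomial n r =>
    simp [fPoly, aeval_monomial, Algebra.TensorProduct.algebraMap_apply,
      Algebra.TensorProduct.tmul_pow, Algebra.TensorProduct.tmul_mul_tmul]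

/-- Multiplication by a monic polynomial in `f` is injective on `R ⊗ A0`. -/
theorem fPoly_mul_eq_zero {q : R[X]} (hq : q.Monic) {b : R ⊗[k] X.A0}
    (h : fPoly X R q * b = 0) : b = 0 := by
  classical
  letI : Algebra k[X] X.A0 := (aeval X.f : k[X] →ₐ[k] X.A0).toRingHom.toAlgebra
  haveI : Module.Finite k[X] X.A0 := X.finite0
  haveI : IsScalarTower k k[X] X.A0 :=
    IsScalarTower.of_algebraMap_eq fun c => ((aeval X.f).commutes c).symm
  haveI : Module.IsTorsionFree k[X] X.A0 :=
    haveI : FaithfulSMul k[X] X.A0 :=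
      (faithfulSMul_iff_algebraMap_injective k[X] X.A0).mpr X.injective0
    inferInstance
  obtain ⟨n, e⟩ : Σ n, Module.Basis (Fin n) k[X] X.A0 := Module.basisOfFiniteTypeTorsionFree'
  let T : Fin n → R ⊗[k] X.A0 →ₗ[R] R[X] := fun l =>
    LinearMap.liftBaseChange R (((Polynomial.mapAlg k R).toLinearMap).comp
      ((e.coord l).restrictScalars k))
  have hTt : ∀ l (r : R) (x : X.A0), T l (r ⊗ₜ x) = r • (e.coord l x).map (algebraMap k R) := by
    intro l r x
    show LinearMap.liftBaseChange R _ (r ⊗ₜ x) = _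
    rw [LinearMap.liftBaseChange_tmul]
    simp [Polynomial.mapAlg_eq_map]
  have hX : ∀ l b, T l (((1 : R) ⊗ₜ X.f) * b) = Polynomial.X * T l b := by
    intro l b
    induction b using TensorProduct.induction_on with
    | zero => simp
    | tmul r x =>
      have hx : X.f * x = (Polynomial.X : k[X]) • x := by
        rw [Algebra.smul_def]
        show _ = aeval X.f Polynomial.X * x
        rw [aeval_X]
      rw [Algebra.TensorProduct.tmul_mul_tmul, one_mul, hTt, hTt, hx, map_smul, smul_eq_mul,
        Polynomial.map_mul, Polynomial.map_X, mul_smul_comm]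
    | add x y hx hy => rw [mul_add, map_add, hx, hy, map_add, mul_add]
  have hq' : ∀ (p : R[X]) l b, T l (fPoly X R p * b) = p * T l b := by
    intro p l
    induction p using Polynomial.induction_on with
    | C c =>
      intro b
      rw [fPoly, aeval_C, ← Algebra.smul_def, map_smul, Polynomial.smul_eq_C_mul]
    | add p q hp hq =>
      intro b
      rw [fPoly, map_add, add_mul, map_add, add_mul]
      exact congrArg₂ (· + ·) (hp b) (hq b)
    | monomial n c hn =>
      intro b
      have e : fPoly X R (C c * Polynomial.X ^ (n + 1)) * b =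
          fPoly X R (C c * Polynomial.X ^ n) * (((1 : R) ⊗ₜ X.f) * b) := by
        rw [pow_succ, ← mul_assoc (C c), fPoly, map_mul, aeval_X, mul_assoc]
        rfl
      rw [e, hn, hX, pow_succ]
      ring
  have hrec : ∀ b : R ⊗[k] X.A0, b = ∑ l, fPoly X R (T l b) * ((1 : R) ⊗ₜ e l) := by
    intro b
    induction b using TensorProduct.induction_on with
    | zero => simp [fPoly]
    | tmul r x =>
      have e1 : ∀ p : k[X], fPoly X R (p.map (algebraMap k R)) = (1 : R) ⊗ₜ aeval X.f p := by
        intro p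
        rw [fPoly, aeval_map_algebraMap]
        exact aeval_algHom_apply
          (Algebra.TensorProduct.includeRight : X.A0 →ₐ[k] R ⊗[k] X.A0) X.f p
      simp only [hTt, fPoly, map_smul, Algebra.smul_mul_assoc]
      simp only [← fPoly.eq_def, e1, Algebra.TensorProduct.tmul_mul_tmul, one_mul]
      rw [← Finset.smul_sum, ← TensorProduct.tmul_sum]
      have hx : ∑ l, aeval X.f (e.coord l x) * e l = x := by
        conv_rhs => rw [← e.sum_repr x]
        exact Finset.sum_congr rfl fun l _ => (Algebra.smul_def _ _).symm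
      rw [hx, smul_tmul', smul_eq_mul, mul_one]
    | add x y hx hy =>
      conv_lhs => rw [hx, hy]
      simp only [fPoly, map_add, add_mul, Finset.sum_add_distrib]
  rw [hrec b]
  refine Finset.sum_eq_zero fun l _ => ?_
  have h0 : q * T l b = 0 := by rw [← hq', h, map_zero]
  rw [show T l b = 0 from hq.isRegular.left (h0.trans (mul_zero _).symm)]
  simp [fPoly]

theorem exists_pow_mul_mem0 (z : B01 X R) :
    ∃ n : ℕ, ∀ m, n ≤ m → res0 X R ((1 : R) ⊗ₜ X.f) ^ m * z ∈ (res0 X R).range := by
  induction z using TensorProduct.induction_on with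
  | zero => exact ⟨0, fun m _ => by rw [mul_zero]; exact zero_mem _⟩
  | tmul r a =>
    obtain ⟨n, b, hb⟩ := X.exists_pow_mul0 a
    refine ⟨n, fun m hm => ⟨r ⊗ₜ (X.f ^ (m - n) * b), ?_⟩⟩
    rw [← map_pow, Algebra.TensorProduct.tmul_pow, one_pow]
    show res0 X R _ = res0 X R _ * (r ⊗ₜ a)
    rw [res0_tmul, res0_tmul, Algebra.TensorProduct.tmul_mul_tmul, one_mul, map_mul, ← hb,
      map_pow, map_pow, ← mul_assoc, ← pow_add, Nat.sub_add_cancel hm]
  | add x y hx hy =>
    obtain ⟨n, hn⟩ := hx
    obtain ⟨n', hn'⟩ := hy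
    refine ⟨max n n', fun m hm => ?_⟩
    rw [mul_add]
    exact add_mem (hn m (le_trans (le_max_left _ _) hm)) (hn' m (le_trans (le_max_right _ _) hm))

theorem exists_pow_mul_mem1 (z : B01 X R) :
    ∃ n : ℕ, ∀ m, n ≤ m → res1 X R ((1 : R) ⊗ₜ X.g) ^ m * z ∈ (res1 X R).range := by
  induction z using TensorProduct.induction_on with
  | zero => exact ⟨0, fun m _ => by rw [mul_zero]; exact zero_mem _⟩
  | tmul r a =>
    obtain ⟨n, b, hb⟩ := X.exists_pow_mul1 a
    refine ⟨n, fun m hm => ⟨r ⊗ₜ (X.g ^ (m - n) * b), ?_⟩⟩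
    rw [← map_pow, Algebra.TensorProduct.tmul_pow, one_pow]
    show res1 X R _ = res1 X R _ * (r ⊗ₜ a)
    rw [res1_tmul, res1_tmul, Algebra.TensorProduct.tmul_mul_tmul, one_mul, map_mul, ← hb,
      map_pow, map_pow, ← mul_assoc, ← pow_add, Nat.sub_add_cancel hm]
  | add x y hx hy =>
    obtain ⟨n, hn⟩ := hx
    obtain ⟨n', hn'⟩ := hy
    refine ⟨max n n', fun m hm => ?_⟩
    rw [mul_add]
    exact add_mem (hn m (le_trans (le_max_left _ _) hm)) (hn' m (le_trans (le_max_right _ _) hm))

theorem res1_g_mul_res0_f :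
    res1 X R ((1 : R) ⊗ₜ X.g) * res0 X R ((1 : R) ⊗ₜ X.f) = 1 := by
  rw [res0_tmul, res1_tmul, Algebra.TensorProduct.tmul_mul_tmul, one_mul, mul_comm (X.ι1 X.g),
    X.mul_eq_one]
  rfl

/-- Multiplication by a monic polynomial in `f` is injective on the overlap. -/
theorem res0_fPoly_mul_eq_zero {q : R[X]} (hq : q.Monic) {z : B01 X R}
    (h : res0 X R (fPoly X R q) * z = 0) : z = 0 := by
  obtain ⟨n, hn⟩ := exists_pow_mul_mem0 X R z
  obtain ⟨b, hb⟩ := hn n le_rfl
  replace hb : res0 X R b = res0 X R ((1 : R) ⊗ₜ X.f) ^ n * z := hb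
  have hb0 : b = 0 := by
    refine fPoly_mul_eq_zero X R hq (res0_injective (X := X) R ?_)
    rw [map_mul, map_zero, hb, mul_left_comm, h, mul_zero]
  rw [hb0, map_zero] at hb
  have h1 : (res1 X R ((1 : R) ⊗ₜ X.g)) ^ n * (res0 X R ((1 : R) ⊗ₜ X.f) ^ n * z) = 0 := by
    rw [← hb, mul_zero]
  rwa [← mul_assoc, ← mul_pow, res1_g_mul_res0_f, one_pow, one_mul] at h1

/-- At infinity a monic polynomial in `f` is a pole times a function `≡ 1 mod g`. -/
theorem exists_res1_eq_fPoly {q : R[X]} (hq : q.Monic) :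
    ∃ w : R ⊗[k] X.A1,
      res1 X R ((1 : R) ⊗ₜ X.g) ^ q.natDegree * res0 X R (fPoly X R q) =
        res1 X R (1 + ((1 : R) ⊗ₜ X.g) * w) := by
  set G := (1 : R) ⊗ₜ[k] X.g
  set F := (1 : R) ⊗ₜ[k] X.f
  refine ⟨∑ j ∈ Finset.range q.natDegree, q.coeff j • G ^ (q.natDegree - (j + 1)), ?_⟩
  have hGF : ∀ {i j : ℕ}, j ≤ i → res1 X R G ^ i * res0 X R F ^ j = res1 X R G ^ (i - j) := by
    intro i j hji
    obtain ⟨d, rfl⟩ := Nat.exists_eq_add_of_le hji
    rw [Nat.add_sub_cancel_left, add_comm j d, pow_add, mul_assoc, ← mul_pow, res1_g_mul_res0_f,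
      one_pow, mul_one]
  rw [fPoly, aeval_eq_sum_range, Finset.sum_range_succ, hq.coeff_natDegree, one_smul, map_add,
    map_sum, mul_add, Finset.mul_sum, map_add, map_one, map_mul, map_sum, Finset.mul_sum]
  rw [map_pow, hGF le_rfl, Nat.sub_self, pow_zero, add_comm]
  congr 1
  refine Finset.sum_congr rfl fun j hj => ?_
  have hj' := Finset.mem_range.mp hj
  rw [map_smul, map_smul, map_pow, map_pow, mul_smul_comm, mul_smul_comm, hGF hj'.le, ← pow_succ']
  congr 2
  omega

end Fermat.Agent.RelPic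

end
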