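import Fermat.Agent.RelPic.ChartHilb
import Fermat.Agent.RelPic.ChartPoly

/-!
# The ideals of the chart are invertible

For a ring of finite type over an algebraically closed `k` this is checked at closed points, where
the fibre is the Dedekind domain `A0`; the general case is a base change of the universal one.
-/

set_option autoImplicit false
set_option linter.style.haveILetI false

universe u

open TensorProduct Polynomial

noncomputable section

namespace Fermat.Agent.RelPic

variable {k : Type u} [Field k] {X : Model k} {R : Type u} [CommRing R] [Algebra k R]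
  {n : ℕ} {a : Fin n → X.A0}

/-- The determinant trick: if `s ∉ Q` moves `I` into `N + P I` with `P ≤ Q`, some element outside
`Q` moves it into `N`. -/
theorem exists_mul_mem_of_mul_le {A : Type u} [CommRing A] {I N P Q : Ideal A} (hI : I.FG)
    (hP : P ≤ Q) (hQ : Q.IsPrime) {s : A} (hs : s ∉ Q) (h : ∀ g ∈ I, s * g ∈ P * I ⊔ N) :
    ∃ u, u ∉ Q ∧ ∀ g ∈ I, u * g ∈ N := by
  classical
  haveI : Module.Finite A ↥(Submodule.map N.mkQ I) := Module.Finite.iff_fg.mpr (Submodule.FG.map N.mkQ hI)
  set M := Submodule.map N.mkQ I with hM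
  let φ : Module.End A ↥M := LinearMap.lsmul A _ s
  have hrange : LinearMap.range φ ≤ P • (⊤ : Submodule A ↥M) := by
    rintro _ ⟨⟨m, g, hg, rfl⟩, rfl⟩
    refine (Submodule.mem_smul_top_iff P M _).mpr ?_
    obtain ⟨v, hv, w, hw, e⟩ := Submodule.mem_sup.mp (h g hg)
    have e2 : s • N.mkQ g = N.mkQ v := by
      rw [← map_smul, smul_eq_mul, ← e, map_add, Submodule.mkQ_apply N w,
        (Submodule.Quotient.mk_eq_zero N).mpr hw, add_zero]
    show s • N.mkQ g ∈ P • M
    rw [e2, hM, ← Submodule.map_smul'', smul_eq_mul]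
    exact Submodule.mem_map_of_mem hv
  obtain ⟨q, hq, -, hcoef, hev⟩ :=
    LinearMap.exists_monic_and_natDegree_eq_and_coeff_mem_pow_and_aeval_eq_zero A φ P hrange
  refine ⟨q.eval s, ?_, fun g hg => ?_⟩
  · rw [eval_eq_sum_range, Finset.sum_range_succ, hq.coeff_natDegree, one_mul]
    intro h
    refine hs (hQ.mem_of_pow_mem q.natDegree ((Ideal.add_mem_iff_right _ ?_).mp h))
    refine sum_mem fun i hi => Ideal.mul_mem_right _ _ (hP ?_)
    exact Ideal.pow_le_self (by have := Finset.mem_range.mp hi; omega) (hcoef i)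
  · have h := DFunLike.congr_fun hev ⟨N.mkQ g, g, hg, rfl⟩
    have e : φ = algebraMap A (Module.End A ↥M) s := rfl
    rw [e, aeval_algebraMap_apply, LinearMap.zero_apply, coe_aeval_eq_eval,
      Module.algebraMap_end_apply] at h
    have h' : q.eval s • N.mkQ g = 0 := congrArg Subtype.val h
    rwa [← map_smul, Submodule.mkQ_apply, Submodule.Quotient.mk_eq_zero, smul_eq_mul] at h'

/-- Over a base of finite type, an ideal `I` is invertible relative to `P ∈ I` if `P` vanishes on no
fibre and `I` meets the ideal of a fibre in their product. -/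
theorem exists_ideal_mul_eq_of_fibres [IsAlgClosed k] {A : Type u} [CommRing A] [Algebra k A]
    [IsDedekindDomain A] [Algebra.FiniteType k A] [Algebra.FiniteType k R]
    {I : Ideal (R ⊗[k] A)} (hI : I.FG) {P : R ⊗[k] A} (hPI : P ∈ I)
    (hP0 : ∀ (ψ : R →ₐ[k] k) (π : R ⊗[k] A →ₐ[k] A), (∀ r x, π (r ⊗ₜ x) = ψ r • x) → π P ≠ 0)
    (hmul : ∀ (m : Ideal R) b, b ∈ I → b ∈ m.map (algebraMap R (R ⊗[k] A)) →
      b ∈ m.map (algebraMap R (R ⊗[k] A)) * I) :
    ∃ J : Ideal (R ⊗[k] A), I * J = Ideal.span {P} := by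
  classical
  let C : Ideal (R ⊗[k] A) := (Ideal.span {P}).colon (I : Set (R ⊗[k] A))
  have hC : ∀ {z}, z ∈ C ↔ ∀ x ∈ I, z * x ∈ Ideal.span {P} := fun {z} => by
    simp only [C, Submodule.mem_colon, SetLike.mem_coe, smul_eq_mul]
  refine ⟨C, le_antisymm (Ideal.mul_le.mpr fun x hx z hz => mul_comm z x ▸ hC.mp hz x hx) ?_⟩
  rw [Ideal.span_le, Set.singleton_subset_iff, SetLike.mem_coe]
  let E : Ideal (R ⊗[k] A) := (I * C).colon ({P} : Set (R ⊗[k] A))
  have hE : ∀ {z}, z ∈ E ↔ z * P ∈ I * C := fun {z} => by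
    simp [E, Submodule.mem_colon]
  suffices h : E = ⊤ by
    simpa using hE.mp (h ▸ Submodule.mem_top : (1 : R ⊗[k] A) ∈ E)
  refine Classical.by_contradiction fun hne => ?_
  obtain ⟨Q, hQ, hEQ⟩ := Ideal.exists_le_maximal E hne
  have hIQ : I ≤ Q := fun x hx => hEQ (hE.mpr (Ideal.mul_mem_mul hx (hC.mpr fun y _ =>
    Ideal.mul_mem_right _ _ (Ideal.mem_span_singleton_self P))))
  haveI := hQ
  haveI : Algebra.FiniteType k (R ⊗[k] A) :=
    Algebra.FiniteType.trans (inferInstanceAs (Algebra.FiniteType k R))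
      (Algebra.FiniteType.baseChange (A := A) R)
  letI : Field ((R ⊗[k] A) ⧸ Q) := Ideal.Quotient.field Q
  haveI : Module.Finite k ((R ⊗[k] A) ⧸ Q) := finite_of_finite_type_of_isJacobsonRing k _
  have hbij : Function.Bijective (algebraMap k ((R ⊗[k] A) ⧸ Q)) :=
    IsAlgClosed.algebraMap_bijective_of_isIntegral
  let χ : R ⊗[k] A →ₐ[k] k :=
    (AlgEquiv.ofBijective (Algebra.ofId k ((R ⊗[k] A) ⧸ Q)) hbij).symm.toAlgHom.comp
      (Ideal.Quotient.mkₐ k Q)
  have hχ : ∀ z, χ z = 0 ↔ z ∈ Q := fun z => by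
    simp only [χ, AlgHom.comp_apply]
    rw [← Ideal.Quotient.eq_zero_iff_mem]
    exact map_eq_zero_iff _ (AlgEquiv.injective _)
  let ψ : R →ₐ[k] k := χ.comp Algebra.TensorProduct.includeLeft
  let π : R ⊗[k] A →ₐ[k] A :=
    Algebra.TensorProduct.lift ((Algebra.ofId k A).comp ψ) (AlgHom.id k A)
      fun _ _ => Commute.all _ _
  have hπ : ∀ r x, π (r ⊗ₜ x) = ψ r • x := fun r x => by
    simp [π, Algebra.smul_def, Algebra.ofId_apply]
  set P' := (RingHom.ker ψ).map (algebraMap R (R ⊗[k] A)) with hP'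
  have hker : ∀ b, π b = 0 → b ∈ P' := by
    intro b hb
    suffices h : ∀ c, c - (1 : R) ⊗ₜ π c ∈ P' by
      simpa [hb] using h b
    intro c
    induction c using TensorProduct.induction_on with
    | zero => simp
    | tmul r x =>
      have e : r ⊗ₜ[k] x - (1 : R) ⊗ₜ π (r ⊗ₜ x) =
          algebraMap R (R ⊗[k] A) (r - algebraMap k R (ψ r)) * ((1 : R) ⊗ₜ x) := by
        rw [hπ, Algebra.TensorProduct.algebraMap_apply, Algebra.algebraMap_self_apply,
          Algebra.TensorProduct.tmul_mul_tmul, mul_one, one_mul, sub_tmul,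
          Algebra.algebraMap_eq_smul_one, smul_tmul]
      rw [e]
      exact Ideal.mul_mem_right _ _ (Ideal.mem_map_of_mem _ (by simp [RingHom.mem_ker]))
    | add x y hx hy =>
      rw [map_add, tmul_add, add_sub_add_comm]
      exact add_mem hx hy
  have hP'Q : P' ≤ Q := Ideal.map_le_iff_le_comap.mpr fun r hr => by
    rw [Ideal.mem_comap, ← hχ, Algebra.TensorProduct.algebraMap_apply, Algebra.algebraMap_self_apply]
    exact hr
  have hsurj : Function.Surjective π := fun x => ⟨(1 : R) ⊗ₜ x, by rw [hπ, map_one, one_smul]⟩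
  have hP0 : π P ≠ 0 := hP0 ψ π hπ
  set Ib := I.map π.toRingHom
  have hdvd : Ib ∣ Ideal.span {π P} := Ideal.dvd_iff_le.mpr
    ((Ideal.span_singleton_le_iff_mem _).mpr (Ideal.mem_map_of_mem _ hPI))
  obtain ⟨J, hJ⟩ := hdvd
  obtain ⟨x, hx, y, hy, s, hs, hxy⟩ : ∃ x ∈ I, ∃ y ∈ J, ∃ s, s ∉ Q ∧ π x * y = π P * π s := by
    by_contra hcon
    push Not at hcon
    have key : ∀ z ∈ Ib * J, ∃ s ∈ Q, z = π P * π s := by
      intro z hz
      refine Submodule.mul_induction_on hz (fun u hu y hy => ?_) (fun u v hu hv => ?_)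
      · obtain ⟨x, hx, rfl⟩ := (Ideal.mem_map_iff_of_surjective _ hsurj).mp hu
        have : π x * y ∈ Ideal.span {π P} := hJ ▸ Ideal.mul_mem_mul hu hy
        obtain ⟨w, hw⟩ := Ideal.mem_span_singleton'.mp this
        obtain ⟨s, rfl⟩ := hsurj w
        exact ⟨s, by_contra fun hs => hcon x hx y hy s hs (hw.symm.trans (mul_comm _ _)),
          hw.symm.trans (mul_comm _ _)⟩
      · obtain ⟨s, hs, rfl⟩ := hu
        obtain ⟨t, ht, rfl⟩ := hv
        exact ⟨s + t, add_mem hs ht, by rw [map_add, mul_add]⟩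
    obtain ⟨s, hs, e⟩ := key (π P) (hJ ▸ Ideal.mem_span_singleton_self _)
    have h1 : π (1 - s) = 0 := by
      rw [map_sub, map_one, sub_eq_zero]
      exact (mul_left_cancel₀ hP0 ((mul_one _).trans e))
    exact hQ.ne_top ((Ideal.eq_top_iff_one Q).mpr (by
      simpa using add_mem (hP'Q (hker _ h1)) hs))
  -- `s` moves the ideal into `(x) + m I`
  set N : Ideal (R ⊗[k] A) := Ideal.span {x}
  have hstep : ∀ g ∈ I, s * g ∈ P' * I ⊔ N := by
    intro g hg
    have : π g * y ∈ Ideal.span {π P} := hJ ▸ Ideal.mul_mem_mul (Ideal.mem_map_of_mem _ hg) hy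
    obtain ⟨w, hw⟩ := Ideal.mem_span_singleton'.mp this
    obtain ⟨l, rfl⟩ := hsurj w
    have h0 : π (s * g - l * x) = 0 := by
      rw [map_sub, map_mul, map_mul, sub_eq_zero]
      refine mul_left_cancel₀ hP0 ?_
      linear_combination (-(π g)) * hxy - π x * hw
    have hmem : s * g - l * x ∈ P' * I :=
      hmul _ _ (sub_mem (Ideal.mul_mem_left _ _ hg) (Ideal.mul_mem_left _ _ hx)) (hker _ h0)
    exact Submodule.mem_sup.mpr ⟨_, hmem, l * x,
      Ideal.mul_mem_left _ _ (Ideal.mem_span_singleton_self x), sub_add_cancel _ _⟩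
  obtain ⟨u, huQ, huI⟩ := exists_mul_mem_of_mul_le hI hP'Q hQ.isPrime hs hstep
  obtain ⟨r, hr⟩ := Ideal.mem_span_singleton'.mp (huI P hPI)
  have hru : r * u ∈ C := hC.mpr fun g hg => by
    obtain ⟨w, hw⟩ := Ideal.mem_span_singleton'.mp (huI g hg)
    rw [mul_assoc, ← hw, Ideal.mem_span_singleton']
    exact ⟨w * u, by linear_combination -(w : R ⊗[k] A) * hr⟩
  have hu2 : u * u ∈ E := hE.mpr (by
    have e : u * u * P = x * (r * u) := by linear_combination -u * hr
    rw [e]
    exact Ideal.mul_mem_mul hx hru)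
  exact (hQ.isPrime.mem_or_mem (hEQ hu2)).elim huQ huQ

namespace ChartPt

/-- The characteristic polynomial of `f`. -/
def fChar (p : ChartPt k a R) : R[X] := (p.ρ X.f).charpoly

theorem fChar_monic (p : ChartPt k a R) : p.fChar.Monic := Matrix.charpoly_monic _

theorem fPoly_fChar_mem (p : ChartPt k a R) : fPoly X R p.fChar ∈ p.ideal := by
  rw [mem_ideal, coords_apply, fPoly, ← aeval_algHom_apply, act_tmul, one_smul, fChar,
    Matrix.aeval_self_charpoly, Matrix.zero_mulVec]

theorem fChar_map {R' : Type u} [CommRing R'] [Algebra k R'] (φ : R →ₐ[k] R')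
    (p : ChartPt k a R) : (p.map φ).fChar = p.fChar.map φ.toRingHom := by
  rw [fChar, fChar, map_ρ]
  exact Matrix.charpoly_map _ φ.toRingHom

theorem ideal_fg [Algebra.FiniteType k X.A0] (p : ChartPt k a R) : p.ideal.FG := by
  have : Algebra.FinitePresentation k X.A0 := Algebra.FinitePresentation.of_finiteType.mp ‹_›
  let e : ((R ⊗[k] X.A0) ⧸ p.ideal) ≃ₗ[R] (Fin n → R) :=
    (Submodule.Quotient.restrictScalarsEquiv R p.ideal).symm ≪≫ₗ
      (Submodule.quotEquivOfEq _ _
        (SetLike.ext fun b => (LinearMap.mem_ker (f := p.coords)).symm)) ≪≫ₗ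
      p.coords.quotKerEquivOfSurjective fun r => ⟨_, p.coords_comb r⟩
  have := Module.finitePresentation_of_projective R (Fin n → R)
  have : Module.FinitePresentation R ((R ⊗[k] X.A0) ⧸ p.ideal) :=
    Module.FinitePresentation.of_equiv e.symm
  exact (Ideal.Quotient.mkₐ_ker R p.ideal) ▸
    Algebra.FinitePresentation.ker_fG_of_surjective _ Ideal.Quotient.mk_surjective

/-- Reductions of the ideal are injective on the quotient. -/
theorem mem_map_mul (p : ChartPt k a R) (P : Ideal R) {b : R ⊗[k] X.A0} (hb : b ∈ p.ideal)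
    (hbP : b ∈ P.map (algebraMap R (R ⊗[k] X.A0))) :
    b ∈ P.map (algebraMap R (R ⊗[k] X.A0)) * p.ideal := by
  set P' := P.map (algebraMap R (R ⊗[k] X.A0))
  suffices h : ∀ c ∈ P', c - comb a R (p.coords c) ∈ P' * p.ideal by
    have := h b hbP
    rwa [mem_ideal.mp hb, map_zero, sub_zero] at this
  intro c hc
  induction hc using Submodule.span_induction with
  | mem c hc =>
    obtain ⟨r, hr, rfl⟩ := hc
    have e : algebraMap R (R ⊗[k] X.A0) r - comb a R (p.coords (algebraMap R _ r)) =
        algebraMap R (R ⊗[k] X.A0) r * (1 - comb a R (p.coords 1)) := by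
      rw [Algebra.algebraMap_eq_smul_one, map_smul, map_smul, ← smul_sub, smul_one_mul]
    rw [e]
    exact Ideal.mul_mem_mul (Ideal.mem_map_of_mem _ hr) (p.sub_comb_mem 1)
  | zero => simp
  | add x y _ _ hx hy =>
    rw [map_add, map_add, add_sub_add_comm]
    exact add_mem hx hy
  | smul z x hxm hx =>
    rw [smul_eq_mul]
    have e : z * x - comb a R (p.coords (z * x)) =
        z * (x - comb a R (p.coords x)) +
          (z * comb a R (p.coords x) - comb a R (p.coords (z * comb a R (p.coords x)))) := by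
      have e1 : p.coords (z * x) = p.coords (z * comb a R (p.coords x)) := by
        have h := Ideal.mul_mem_left p.ideal z (p.sub_comb_mem x)
        rw [mem_ideal, mul_sub, map_sub, sub_eq_zero] at h
        exact h
      rw [e1]
      ring
    rw [e]
    refine add_mem (Ideal.mul_mem_left _ z hx) ?_
    have hcoord : ∀ i, p.coords x i ∈ P := by
      clear e hx z
      intro i
      induction hxm using Submodule.span_induction generalizing i with
      | mem c hc =>
        obtain ⟨r, hr, rfl⟩ := hc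
        rw [Algebra.algebraMap_eq_smul_one, map_smul, Pi.smul_apply, smul_eq_mul]
        exact P.mul_mem_right _ hr
      | zero => simp
      | add x y _ _ hx hy => rw [map_add, Pi.add_apply]; exact add_mem (hx i) (hy i)
      | smul w y _ hy =>
        rw [smul_eq_mul, coords_apply, map_mul, ← Matrix.mulVec_mulVec]
        simp only [Matrix.mulVec, dotProduct]
        exact sum_mem fun j _ => P.mul_mem_left _ (hy j)
    rw [comb_apply, Finset.mul_sum, map_sum, map_sum, ← Finset.sum_sub_distrib]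
    refine sum_mem fun i _ => ?_
    have e2 : z * (p.coords x i • ((1 : R) ⊗ₜ[k] a i)) -
        comb a R (p.coords (z * (p.coords x i • ((1 : R) ⊗ₜ[k] a i)))) =
        algebraMap R (R ⊗[k] X.A0) (p.coords x i) *
          (z * ((1 : R) ⊗ₜ a i) - comb a R (p.coords (z * ((1 : R) ⊗ₜ a i)))) := by
      rw [mul_smul_comm, map_smul, map_smul, ← smul_sub, Algebra.smul_def]
    rw [e2]
    exact Ideal.mul_mem_mul (Ideal.mem_map_of_mem _ (hcoord i)) (p.sub_comb_mem _)

variable [IsAlgClosed k]

/-- Invertibility over a ring of finite type. -/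
theorem exists_mul_eq_of_finiteType [Algebra.FiniteType k R] (p : ChartPt k a R) :
    ∃ J : Ideal (R ⊗[k] X.A0), p.ideal * J = Ideal.span {fPoly X R p.fChar} := by
  refine exists_ideal_mul_eq_of_fibres p.ideal_fg p.fPoly_fChar_mem (fun ψ π hπ => ?_)
    fun m _ => p.mem_map_mul m
  have e : π (fPoly X R p.fChar) = aeval X.f (p.fChar.map ψ.toRingHom) := by
    simp only [fPoly]
    induction p.fChar using Polynomial.induction_on' with
    | add p q hp hq => simp only [map_add, Polynomial.map_add]; rw [hp, hq]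
    | monomial j r =>
      simp [aeval_monomial, Algebra.TensorProduct.algebraMap_apply,
        Algebra.TensorProduct.tmul_pow, Algebra.TensorProduct.tmul_mul_tmul, hπ, Algebra.smul_def]
  rw [e]
  exact fun h => (p.fChar_monic.map _).ne_zero (X.injective0 (h.trans (map_zero _).symm))

/-- **The ideal of a point of the chart is invertible.** -/
theorem exists_mul_eq [Algebra.FiniteType k X.A0] (p : ChartPt k a R) :
    ∃ J : Ideal (R ⊗[k] X.A0), p.ideal * J = Ideal.span {fPoly X R p.fChar} := by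
  haveI := chartRing_finiteType (k := k) (a := a)
  obtain ⟨J, hJ⟩ := exists_mul_eq_of_finiteType (chartUniv (k := k) a)
  obtain ⟨φ, rfl⟩ : ∃ φ, (chartUniv (k := k) a).map φ = p := ⟨_, chartUniv_map_toHom p⟩
  set F := (Algebra.TensorProduct.map φ (AlgHom.id k X.A0)).toRingHom
  refine ⟨J.map F, ?_⟩
  rw [ideal_map, ← Ideal.map_mul, hJ, Ideal.map_span, Set.image_singleton, fChar_map, ← fPoly_map]
  rfl

end ChartPt

end Fermat.Agent.RelPic

end
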