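import Fermat.Agent.RelPic.OfModule

/-!
# Sections vanishing at the point at infinity

`minus L` is `L(-Q)`, `Q` the point `einf`: the same overlap and lattice on the affine piece, the
functions vanishing at `Q` near infinity.
-/

set_option autoImplicit false
set_option linter.style.haveILetI false
set_option linter.unusedSectionVars false

universe u

open TensorProduct

noncomputable section

namespace Fermat.Agent.RelPic

variable {k : Type u} [Field k] (X : Model k) (R : Type u) [CommRing R] [Algebra k R]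

/-- Evaluation at the point at infinity. -/
def evInf : R ⊗[k] X.A1 →ₐ[R] R :=
  Algebra.TensorProduct.lift (AlgHom.id R R) ((Algebra.ofId k R).comp X.einf) fun _ _ => .all _ _

theorem evInf_tmul (r : R) (a : X.A1) : evInf X R (r ⊗ₜ a) = r * algebraMap k R (X.einf a) := by
  simp [evInf, Algebra.ofId_apply]

theorem evInf_g : evInf X R ((1 : R) ⊗ₜ X.g) = 0 := by
  rw [evInf_tmul, X.einf_g, map_zero, mul_zero]

theorem evInf_map {S : Type u} [CommRing S] [Algebra k S] (φ : R →ₐ[k] S) (b : R ⊗[k] X.A1) :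
    evInf X S (Algebra.TensorProduct.map φ (AlgHom.id k X.A1) b) = φ (evInf X R b) := by
  induction b with
  | zero => simp
  | tmul r a => rw [Algebra.TensorProduct.map_tmul, evInf_tmul, evInf_tmul, map_mul, φ.commutes,
      AlgHom.id_apply]
  | add a b ha hb => simp only [map_add, ha, hb]

/-- The kernel of the evaluation is spanned by the functions over `k` vanishing at infinity. -/
theorem ker_evInf_le_span {b : R ⊗[k] X.A1} (hb : evInf X R b = 0) :
    b ∈ Submodule.span R ((fun q => (1 : R) ⊗ₜ[k] q) '' {q | X.einf q = 0}) := by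
  suffices h : ∀ c, c - algebraMap R _ (evInf X R c) ∈
      Submodule.span R ((fun q => (1 : R) ⊗ₜ[k] q) '' {q | X.einf q = 0}) by
    simpa [hb] using h b
  intro c
  induction c with
  | zero => simp
  | tmul r a =>
    have e : r ⊗ₜ[k] a - algebraMap R (R ⊗[k] X.A1) (evInf X R (r ⊗ₜ a)) =
        r • ((1 : R) ⊗ₜ[k] (a - algebraMap k X.A1 (X.einf a))) := by
      rw [smul_tmul', smul_eq_mul, mul_one, tmul_sub, evInf_tmul,
        Algebra.TensorProduct.algebraMap_apply, Algebra.algebraMap_self_apply,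
        Algebra.algebraMap_eq_smul_one (A := X.A1), ← smul_tmul, Algebra.smul_def, mul_comm]
    rw [e]
    exact Submodule.smul_mem _ _ (Submodule.subset_span
      ⟨_, by simp [AlgHom.commutes], rfl⟩)
  | add a c ha hc => rw [map_add, map_add, add_sub_add_comm]; exact add_mem ha hc

/-- Evaluation at infinity on the image of `res1`. -/
def ev1 : (res1 X R).toLinearMap.range →ₗ[R] R :=
  (evInf X R).toLinearMap ∘ₗ
    (LinearEquiv.ofInjective (res1 X R).toLinearMap (res1_injective X R)).symm.toLinearMap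

variable {X R}

theorem ev1_eq {z : (res1 X R).toLinearMap.range} {b : R ⊗[k] X.A1}
    (h : res1 X R b = (z : B01 X R)) : ev1 X R z = evInf X R b := by
  show evInf X R ((LinearEquiv.ofInjective (res1 X R).toLinearMap (res1_injective X R)).symm z) = _
  congr 1
  rw [LinearEquiv.symm_apply_eq]
  exact Subtype.ext h.symm

/-- A dual basis of the ideal of the point at infinity. -/
theorem Model.exists_infData (X : Model k) : ∃ (n : ℕ) (q v : Fin n → X.A1),
    (∀ j, X.einf (q j) = 0) ∧ ∑ j, q j * v j = X.g ∧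
      ∀ a, X.einf a = 0 → ∀ j, X.g ∣ a * v j := by
  obtain ⟨J, hJ⟩ : RingHom.ker X.einf ∣ Ideal.span {X.g} := Ideal.dvd_iff_le.mpr
    ((Ideal.span_singleton_le_iff_mem _).mpr X.einf_g)
  have hmem : X.g ∈ RingHom.ker X.einf * J := hJ ▸ Ideal.mem_span_singleton_self _
  obtain ⟨n, q, v, hq, hv, hsum⟩ : ∃ (n : ℕ) (q v : Fin n → X.A1),
      (∀ j, q j ∈ RingHom.ker X.einf) ∧ (∀ j, v j ∈ J) ∧ ∑ j, q j * v j = X.g := by
    refine Submodule.mul_induction_on hmem
      (fun x hx y hy => ⟨1, fun _ => x, fun _ => y, fun _ => hx, fun _ => hy, by simp⟩) ?_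
    rintro a b ⟨n, q, v, hq, hv, rfl⟩ ⟨m, q', v', hq', hv', rfl⟩
    refine ⟨n + m, Fin.append q q', Fin.append v v', Fin.addCases ?_ ?_, Fin.addCases ?_ ?_, ?_⟩
    all_goals first
      | (intro i; simpa [Fin.append_left, Fin.append_right] using hq i)
      | (intro i; simpa [Fin.append_left, Fin.append_right] using hq' i)
      | (intro i; simpa [Fin.append_left, Fin.append_right] using hv i)
      | (intro i; simpa [Fin.append_left, Fin.append_right] using hv' i)
      | simp [Fin.sum_univ_add, Fin.append_left, Fin.append_right]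
  exact ⟨n, q, v, hq, hsum,
    fun a ha j => Ideal.mem_span_singleton.mp (hJ ▸ Ideal.mul_mem_mul ha (hv j))⟩

namespace Pre

/-- Sections vanishing at the point at infinity. -/
abbrev minus (L : Pre X R) : Pre X R where
  N := L.N
  M0 := L.M0
  M1 := Submodule.span R
    {x | ∃ b, evInf X R b = 0 ∧ ∃ m ∈ L.M1, x = res1 X R b • m}

theorem minus_M1_le {L : Pre X R} (h : L.Good) : L.minus.M1 ≤ L.M1 :=
  Submodule.span_le.mpr (by rintro _ ⟨b, -, m, hm, rfl⟩; exact h.res1_smul_mem b hm)

theorem ev1_minus {L : Pre X R} {x : L.N} (hx : x ∈ L.minus.M1)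
    {l : L.N →ₗ[B01 X R] B01 X R} (hl : ∀ m ∈ L.M1, l m ∈ (res1 X R).toLinearMap.range) :
    ∃ b, evInf X R b = 0 ∧ res1 X R b = l x := by
  induction hx using Submodule.span_induction with
  | mem x hx =>
    obtain ⟨b, hb, m, hm, rfl⟩ := hx
    obtain ⟨c, hc⟩ := hl m hm
    refine ⟨b * c, by rw [map_mul, hb, zero_mul], ?_⟩
    rw [map_mul, map_smul, smul_eq_mul]
    exact congrArg (_ * ·) hc
  | zero => exact ⟨0, map_zero _, by rw [map_zero, map_zero]⟩
  | add a c _ _ ha hc =>
    obtain ⟨b, hb, e⟩ := ha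
    obtain ⟨b', hb', e'⟩ := hc
    exact ⟨b + b', by rw [map_add, hb, hb', add_zero], by rw [map_add, map_add, e, e']⟩
  | smul r a _ ha =>
    obtain ⟨b, hb, e⟩ := ha
    exact ⟨r • b, by rw [map_smul, hb, smul_zero],
      by rw [map_smul, LinearMap.map_smul_of_tower, e]⟩

theorem Good.minus {L : Pre X R} (h : L.Good) : L.minus.Good where
  invertible := h.invertible
  lattice0 := h.lattice0
  lattice1 := by
    obtain ⟨n, s, l, hs, hsum, hmem⟩ := h.lattice1
    obtain ⟨m, q, v, hq, hqv, hdvd⟩ := X.exists_infData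
    let F : B01 X R := res0 X R ((1 : R) ⊗ₜ X.f)
    refine IsLattice.of_stable (ι := Fin m × Fin n)
      (fun t => res1 X R ((1 : R) ⊗ₜ q t.1) • s t.2)
      (fun t => (F * res1 X R ((1 : R) ⊗ₜ v t.1)) • l t.2)
      (fun t => Submodule.subset_span ⟨_, by rw [evInf_tmul, hq, map_zero, mul_zero], _, hs t.2, rfl⟩)
      (fun x => ?_) (fun b x hx => ?_) (fun x hx t => ?_)
    · simp only [LinearMap.smul_apply, smul_eq_mul, smul_smul]
      rw [Fintype.sum_prod_type, Finset.sum_comm]
      conv_lhs => rw [hsum x]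
      refine Finset.sum_congr rfl fun i _ => ?_
      dsimp only
      rw [← Finset.sum_smul]
      congr 1
      have e : ∀ j, F * res1 X R ((1 : R) ⊗ₜ v j) * l i x * res1 X R ((1 : R) ⊗ₜ q j) =
          F * res1 X R ((1 : R) ⊗ₜ (q j * v j)) * l i x := fun j => by
        rw [show (1 : R) ⊗ₜ[k] (q j * v j) = ((1 : R) ⊗ₜ q j) * ((1 : R) ⊗ₜ v j) by simp, map_mul]
        ring
      simp only [e]
      rw [← Finset.sum_mul, ← Finset.mul_sum, ← map_sum, ← tmul_sum, hqv,
        show F * res1 X R ((1 : R) ⊗ₜ X.g) = 1 from (fUnit X R).val_inv, one_mul]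
    · induction hx using Submodule.span_induction with
      | mem x hx =>
        obtain ⟨c, hc, w, hw, rfl⟩ := hx
        exact Submodule.subset_span ⟨b * c, by rw [map_mul, hc, mul_zero], w, hw,
          by rw [map_mul, mul_smul]⟩
      | zero => rw [smul_zero]; exact zero_mem _
      | add a c _ _ ha hc => rw [smul_add]; exact add_mem ha hc
      | smul r a _ ha => rw [smul_comm]; exact Submodule.smul_mem _ r ha
    · obtain ⟨b, hb, hbx⟩ := ev1_minus hx (l := l t.2) (fun m hm => (hmem m).mp hm t.2)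
      show F * res1 X R ((1 : R) ⊗ₜ v t.1) * l t.2 x ∈ (res1 X R).range
      rw [← hbx]
      have key : ∀ c ∈ Submodule.span R ((fun q => (1 : R) ⊗ₜ[k] q) '' {q | X.einf q = 0}),
          F * res1 X R ((1 : R) ⊗ₜ v t.1) * res1 X R c ∈ (res1 X R).range := by
        intro c hc
        induction hc using Submodule.span_induction with
        | mem c hc =>
          obtain ⟨a, ha, rfl⟩ := hc
          obtain ⟨w, hw⟩ := hdvd a ha t.1
          refine ⟨(1 : R) ⊗ₜ w, ?_⟩
          have e : F * res1 X R ((1 : R) ⊗ₜ v t.1) * res1 X R ((1 : R) ⊗ₜ a) =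
              F * res1 X R ((1 : R) ⊗ₜ (X.g * w)) := by
            rw [mul_assoc, ← map_mul, Algebra.TensorProduct.tmul_mul_tmul, one_mul, mul_comm _ a, hw]
          rw [e, show (1 : R) ⊗ₜ[k] (X.g * w) = ((1 : R) ⊗ₜ X.g) * ((1 : R) ⊗ₜ w) by simp, map_mul,
            ← mul_assoc, show F * res1 X R ((1 : R) ⊗ₜ X.g) = 1 from (fUnit X R).val_inv, one_mul]
          rfl
        | zero => rw [map_zero, mul_zero]; exact zero_mem _
        | add a c _ _ ha hc => rw [map_add, mul_add]; exact add_mem ha hc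
        | smul r a _ ha => rw [map_smul, mul_smul_comm]; exact Subalgebra.smul_mem _ ha r
      exact key b (ker_evInf_le_span X R hb)

theorem minus_congr {L L' : Pre X R} (e : Iso L L') : Iso L.minus L'.minus := by
  obtain ⟨e, h0, h1⟩ := e
  refine ⟨e, h0, ?_⟩
  show Submodule.map _ (Submodule.span R _) = Submodule.span R _
  rw [Submodule.map_span]
  congr 1
  ext z
  constructor
  · rintro ⟨_, ⟨b, hb, m, hm, rfl⟩, rfl⟩
    exact ⟨b, hb, e m, h1 ▸ ⟨m, hm, rfl⟩, map_smul e _ _⟩
  · rintro ⟨b, hb, m, hm, rfl⟩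
    rw [← h1] at hm
    obtain ⟨m', hm', rfl⟩ := hm
    exact ⟨_, ⟨b, hb, m', hm', rfl⟩, map_smul e _ _⟩

/-- Tensoring commutes with vanishing at infinity. -/
theorem minus_tensor (L M : Pre X R) : Iso (L.tensor M).minus (L.tensor M.minus) := by
  refine ⟨LinearEquiv.refl _ _, Submodule.map_id _, ?_⟩
  refine (Submodule.map_id _).trans (le_antisymm (Submodule.span_le.mpr ?_) (Submodule.span_le.mpr ?_))
  · rintro _ ⟨b, hb, z, hz, rfl⟩
    induction hz using Submodule.span_induction with
    | mem z hz =>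
      obtain ⟨x, hx, y, hy, rfl⟩ := hz
      exact Submodule.subset_span ⟨x, hx, _, Submodule.subset_span ⟨b, hb, y, hy, rfl⟩,
        (tmul_smul (res1 X R b) x y).symm⟩
    | zero => simp
    | add a c _ _ ha hc => rw [smul_add]; exact add_mem ha hc
    | smul r a _ ha => rw [smul_comm]; exact Submodule.smul_mem _ r ha
  · rintro _ ⟨x, hx, y, hy, rfl⟩
    induction hy using Submodule.span_induction with
    | mem y hy =>
      obtain ⟨b, hb, w, hw, rfl⟩ := hy
      exact Submodule.subset_span ⟨b, hb, _, Submodule.subset_span ⟨x, hx, w, hw, rfl⟩,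
        tmul_smul (res1 X R b) x w⟩
    | zero => rw [tmul_zero]; exact zero_mem _
    | add a c _ _ ha hc => rw [tmul_add]; exact add_mem ha hc
    | smul r a _ ha =>
      rw [← algebraMap_smul (B01 X R) r a, tmul_smul, algebraMap_smul]
      exact Submodule.smul_mem _ r ha

/-- Base change commutes with vanishing at infinity. -/
theorem minus_bc (L : Pre X R) {S : Type u} [CommRing S] [Algebra k S] (φ : R →ₐ[k] S) :
    Iso (L.minus.bc φ) (L.bc φ).minus := by
  letI : Algebra (B01 X R) (B01 X S) := (bMap X R φ).toRingHom.toAlgebra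
  refine ⟨LinearEquiv.refl _ _, Submodule.map_id _, ?_⟩
  refine (Submodule.map_id _).trans (le_antisymm (Submodule.span_le.mpr ?_) (Submodule.span_le.mpr ?_))
  · rintro _ ⟨a, x, hx, rfl⟩
    induction hx using Submodule.span_induction with
    | mem x hx =>
      obtain ⟨b, hb, m, hm, rfl⟩ := hx
      refine Submodule.subset_span ⟨Algebra.TensorProduct.map φ (AlgHom.id k X.A1) b * a,
        by rw [map_mul, evInf_map, hb, map_zero, zero_mul], res1 X S 1 ⊗ₜ m,
        Submodule.subset_span ⟨1, m, hm, rfl⟩, ?_⟩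
      rw [map_one, smul_tmul', smul_eq_mul, mul_one, map_mul, ← bMap_res1, tmul_smul, smul_tmul',
        Algebra.smul_def]
      rfl
    | zero => rw [tmul_zero]; exact zero_mem _
    | add u v _ _ hu hv => rw [tmul_add]; exact add_mem hu hv
    | smul r u _ hu =>
      rw [← algebraMap_smul (B01 X R) r u, tmul_smul]
      have e : ∀ (c : B01 X S) (y : L.N),
          algebraMap R (B01 X R) r • (c ⊗ₜ[B01 X R] y) = φ r • (c ⊗ₜ[B01 X R] y) := fun c y => by
        rw [smul_tmul', smul_tmul', Algebra.smul_def, Algebra.smul_def]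
        congr 2
      rw [e]
      exact Submodule.smul_mem _ _ hu
  · rintro _ ⟨b, hb, z, hz, rfl⟩
    induction hz using Submodule.span_induction with
    | mem z hz =>
      obtain ⟨a, m, hm, rfl⟩ := hz
      have key : ∀ c ∈ Submodule.span S ((fun q => (1 : S) ⊗ₜ[k] q) '' {q | X.einf q = 0}),
          (res1 X S c ⊗ₜ m : B01 X S ⊗[B01 X R] L.N) ∈ (L.minus.bc φ).M1 := by
        intro c hc
        induction hc using Submodule.span_induction with
        | mem c hc =>
          obtain ⟨q, hq, rfl⟩ := hc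
          refine Submodule.subset_span ⟨1, res1 X R ((1 : R) ⊗ₜ q) • m, Submodule.subset_span
            ⟨_, by rw [evInf_tmul, hq, map_zero, mul_zero], m, hm, rfl⟩, ?_⟩
          rw [tmul_smul, smul_tmul', Algebra.smul_def, map_one, mul_one]
          show _ = bMap X R φ (res1 X R ((1 : R) ⊗ₜ q)) ⊗ₜ m
          rw [bMap_res1, Algebra.TensorProduct.map_tmul, map_one]
          rfl
        | zero => rw [map_zero, zero_tmul]; exact zero_mem _
        | add u v _ _ hu hv => rw [map_add, add_tmul]; exact add_mem hu hv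
        | smul r u _ hu => rw [map_smul, ← smul_tmul']; exact Submodule.smul_mem _ r hu
      rw [smul_tmul', smul_eq_mul, ← map_mul]
      exact key _ (ker_evInf_le_span X S (by rw [map_mul, hb, zero_mul]))
    | zero => rw [smul_zero]; exact zero_mem _
    | add u v _ _ hu hv => rw [smul_add]; exact add_mem hu hv
    | smul r u _ hu => rw [smul_comm]; exact Submodule.smul_mem _ r hu

/-- A global coefficient test for vanishing at infinity. -/
theorem mem_minus_of_ev1 {L : Pre X R} {n : ℕ} {s : Fin n → L.N}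
    {l : Fin n → L.N →ₗ[B01 X R] B01 X R} (hs : ∀ i, s i ∈ L.M1)
    (hsum : ∀ x, x = ∑ i, l i x • s i) {x : L.N}
    (h : ∀ i, ∃ b, evInf X R b = 0 ∧ res1 X R b = l i x) : x ∈ L.minus.M1 := by
  rw [hsum x]
  refine sum_mem fun i _ => ?_
  obtain ⟨b, hb, e⟩ := h i
  rw [← e]
  exact Submodule.subset_span ⟨b, hb, s i, hs i, rfl⟩

end Pre

end Fermat.Agent.RelPic

end
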