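import Fermat.Agent.RelPic.Rings
import Fermat.Agent.AV.Places

/-!
# The rings of a two-piece model over a domain, and rational points
-/

set_option autoImplicit false
set_option linter.unusedSectionVars false

universe u

open TensorProduct

noncomputable section

namespace Fermat.Agent.RelPic

variable {k : Type u} [Field k] [IsAlgClosed k]

/-- Over an algebraically closed field the tensor product of two domains is a domain. -/
theorem isDomain_tensor (R A : Type u) [CommRing R] [IsDomain R] [Algebra k R] [CommRing A]
    [IsDomain A] [Algebra k A] : IsDomain (R ⊗[k] A) := by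
  have := Fermat.Agent.AV.isDomain_tensorProduct k (FractionRing R) (FractionRing A)
  let φ : R ⊗[k] A →ₐ[k] FractionRing R ⊗[k] FractionRing A :=
    Algebra.TensorProduct.map (IsScalarTower.toAlgHom k R (FractionRing R))
      (IsScalarTower.toAlgHom k A (FractionRing A))
  have hinj : Function.Injective φ := TensorProduct.map_injective_of_flat_flat
    (IsScalarTower.toAlgHom k R (FractionRing R)).toLinearMap
    (IsScalarTower.toAlgHom k A (FractionRing A)).toLinearMap
    (IsFractionRing.injective R (FractionRing R)) (IsFractionRing.injective A (FractionRing A))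
  exact hinj.isDomain φ

variable {X : Model k} (R : Type u) [CommRing R] [IsDomain R] [Algebra k R]

theorem isDomain_R_A0 : IsDomain (R ⊗[k] X.A0) := isDomain_tensor R X.A0

theorem isDomain_R_A1 : IsDomain (R ⊗[k] X.A1) := isDomain_tensor R X.A1

theorem isDomain_b01 : IsDomain (B01 X R) := isDomain_tensor R X.A01

/-- A point of `A0` is determined by its kernel. -/
theorem algHom_ext_of_ker {A : Type u} [CommRing A] [Algebra k A] {ev ev' : A →ₐ[k] k}
    (h : RingHom.ker ev = RingHom.ker ev') : ev = ev' := AlgHom.ext fun a => by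
  have h1 : a - algebraMap k A (ev a) ∈ RingHom.ker ev := by simp
  rw [h, RingHom.mem_ker, map_sub, AlgHom.commutes] at h1
  exact (sub_eq_zero.mp h1).symm

/-- An element of a Dedekind domain vanishes at finitely many points. -/
theorem finite_setOf_eval_eq_zero {A : Type u} [CommRing A] [IsDedekindDomain A] [Algebra k A]
    {a : A} (ha : a ≠ 0) : {ev : A →ₐ[k] k | ev a = 0}.Finite := by
  have hfin := Ideal.finite_factors (I := Ideal.span {a}) (by simpa using ha)
  by_cases hA : IsField A
  · let := hA.toField
    refine Set.Finite.subset Set.finite_empty fun ev hev => ?_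
    obtain ⟨b, hb⟩ := hA.mul_inv_cancel ha
    have := congrArg ev hb
    rw [map_mul, hev, zero_mul, map_one] at this
    exact zero_ne_one this
  have key : ∀ ev : A →ₐ[k] k, (RingHom.ker ev).IsMaximal := fun ev =>
    RingHom.ker_isMaximal_of_surjective ev fun c => ⟨algebraMap k A c, ev.commutes c⟩
  have hne : ∀ ev : A →ₐ[k] k, RingHom.ker ev ≠ ⊥ := fun ev h =>
    Ring.ne_bot_of_isMaximal_of_not_isField (key ev) hA h
  let F : (A →ₐ[k] k) → IsDedekindDomain.HeightOneSpectrum A := fun ev =>
    ⟨RingHom.ker ev, (key ev).isPrime, hne ev⟩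
  refine Set.Finite.of_finite_image (f := F) (hfin.subset ?_) fun ev _ ev' _ he =>
    algHom_ext_of_ker (congrArg IsDedekindDomain.HeightOneSpectrum.asIdeal he)
  rintro _ ⟨ev, hev, rfl⟩
  exact Ideal.dvd_iff_le.mpr ((Ideal.span_singleton_le_iff_mem _).mpr hev)

/-- A nonzero element over a domain is nonzero at all but finitely many rational points. -/
theorem finite_setOf_map_eq_zero {A : Type u} [CommRing A] [IsDedekindDomain A] [Algebra k A]
    {x : R ⊗[k] A} (hx : x ≠ 0) :
    {ev : A →ₐ[k] k | Algebra.TensorProduct.map (AlgHom.id k R) ev x = 0}.Finite := by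
  classical
  let b := Module.Basis.ofVectorSpace k R
  let e := TensorProduct.equivFinsuppOfBasisLeft (N := A) b
  obtain ⟨i, hi⟩ : ∃ i, e x i ≠ 0 := by
    by_contra h
    push Not at h
    exact hx (e.map_eq_zero_iff.mp (Finsupp.ext h))
  refine (finite_setOf_eval_eq_zero hi).subset fun ev hev => ?_
  have h1 : ∀ y : R ⊗[k] A, TensorProduct.equivFinsuppOfBasisLeft (N := k) b
      (Algebra.TensorProduct.map (AlgHom.id k R) ev y) i = ev (e y i) := by
    intro y
    induction y using TensorProduct.induction_on with
    | zero => simp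
    | tmul r a => simp [e, smul_eq_mul, map_smul]
    | add p q hp hq => simp only [map_add, Finsupp.add_apply, hp, hq]
  have := h1 x
  rw [show Algebra.TensorProduct.map (AlgHom.id k R) ev x = 0 from hev, map_zero,
    Finsupp.zero_apply] at this
  exact this.symm

theorem finite_setOf_A0_eq_zero {x : R ⊗[k] X.A0} (hx : x ≠ 0) :
    {ev : X.A0 →ₐ[k] k | Algebra.TensorProduct.map (AlgHom.id k R) ev x = 0}.Finite :=
  finite_setOf_map_eq_zero R hx

/-- There are infinitely many rational points. -/
theorem infinite_points : Infinite (X.A0 →ₐ[k] k) := by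
  let : Algebra (Polynomial k) X.A0 := (Polynomial.aeval X.f).toRingHom.toAlgebra
  have : Module.Finite (Polynomial k) X.A0 := X.finite0
  have hex : ∀ c : k, ∃ ev : X.A0 →ₐ[k] k, ev X.f = c := by
    intro c
    have : (RingHom.ker (Polynomial.aeval c : Polynomial k →ₐ[k] k)).IsMaximal :=
      RingHom.ker_isMaximal_of_surjective _ fun t => ⟨Polynomial.C t, Polynomial.aeval_C c t⟩
    obtain ⟨Q, hQ, hQc⟩ := Ideal.exists_ideal_over_maximal_of_isIntegral (S := X.A0)
      (RingHom.ker (Polynomial.aeval c : Polynomial k →ₐ[k] k)) (by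
        exact ((RingHom.injective_iff_ker_eq_bot _).mp X.injective0).trans_le bot_le)
    let : Field (X.A0 ⧸ Q) := Ideal.Quotient.field Q
    have : Module.Finite k (X.A0 ⧸ Q) := finite_of_finite_type_of_isJacobsonRing k (X.A0 ⧸ Q)
    let e : k ≃ₐ[k] X.A0 ⧸ Q := AlgEquiv.ofBijective (Algebra.ofId k (X.A0 ⧸ Q))
      IsAlgClosed.algebraMap_bijective_of_isIntegral
    refine ⟨e.symm.toAlgHom.comp (Ideal.Quotient.mkₐ k Q), ?_⟩
    apply e.injective
    show e (e.symm (Ideal.Quotient.mk Q X.f)) = algebraMap k (X.A0 ⧸ Q) c
    rw [e.apply_symm_apply, ← Ideal.Quotient.mk_algebraMap, Ideal.Quotient.eq]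
    have h1 : (Polynomial.X - Polynomial.C c : Polynomial k) ∈ Q.under (Polynomial k) := by
      rw [Ideal.under_def, hQc, RingHom.mem_ker, map_sub, Polynomial.aeval_X, Polynomial.aeval_C,
        Algebra.algebraMap_self_apply, sub_self]
    simpa [RingHom.algebraMap_toAlgebra] using h1
  choose ev hev using hex
  exact Infinite.of_injective ev fun a b hab => by rw [← hev a, ← hev b, hab]

end Fermat.Agent.RelPic

end
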