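import Fermat.Agent.RelPic.Loci
import Fermat.Agent.RelPic.FibreRings

/-!
# Euler characteristics of modified bundles over a field
-/

set_option autoImplicit false
set_option linter.unusedSectionVars false
set_option linter.style.haveILetI false

universe u

open TensorProduct

noncomputable section

namespace Fermat.Agent.RelPic

/-! ### Pairs of subspaces -/

section Pair

variable {K : Type u} [Field K] {V : Type u} [AddCommGroup V] [Module K V]

/-- The Euler characteristic of two subspaces. -/
def pairChi (A B : Submodule K V) : ℤ :=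
  (Module.finrank K ↥(A ⊓ B) : ℤ) - (Module.finrank K (V ⧸ (A ⊔ B)) : ℤ)

/-- Finite dimensionality of the intersection and of the cokernel. -/
def PairFinite (A B : Submodule K V) : Prop :=
  FiniteDimensional K ↥(A ⊓ B) ∧ FiniteDimensional K (V ⧸ (A ⊔ B))

theorem pairChi_comm (A B : Submodule K V) : pairChi A B = pairChi B A := by
  rw [pairChi, pairChi, inf_comm, sup_comm]

theorem PairFinite.symm {A B : Submodule K V} (h : PairFinite A B) : PairFinite B A := by
  unfold PairFinite at h ⊢
  rwa [inf_comm, sup_comm]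

/-- Shrinking one of the subspaces. -/
theorem pairChi_of_le {A' A B : Submodule K V} (hle : A' ≤ A)
    [FiniteDimensional K (↥A ⧸ A'.comap A.subtype)] (h : PairFinite A B) :
    PairFinite A' B ∧
      pairChi A B = pairChi A' B + Module.finrank K (↥A ⧸ A'.comap A.subtype) := by
  obtain ⟨hinf, hq⟩ := h
  have hfin : FiniteDimensional K ↥(A' ⊓ B) :=
    Submodule.finiteDimensional_of_le (inf_le_inf_right B hle)
  let φ : ↥(A ⊓ B) →ₗ[K] ↥A ⧸ A'.comap A.subtype :=
    (A'.comap A.subtype).mkQ.comp (Submodule.inclusion inf_le_left)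
  let ψ : ↥A ⧸ A'.comap A.subtype →ₗ[K] V ⧸ (A' ⊔ B) :=
    (A'.comap A.subtype).liftQ ((A' ⊔ B).mkQ.comp A.subtype) fun x hx => by
      rw [LinearMap.mem_ker, LinearMap.comp_apply, Submodule.mkQ_apply,
        Submodule.Quotient.mk_eq_zero]
      exact Submodule.mem_sup_left hx
  let π : V ⧸ (A' ⊔ B) →ₗ[K] V ⧸ (A ⊔ B) :=
    Submodule.mapQ _ _ LinearMap.id (sup_le_sup_right hle B)
  have hkerφ : LinearMap.ker φ = (A' ⊓ B).comap (A ⊓ B).subtype := by
    ext x
    simp only [φ, LinearMap.mem_ker, LinearMap.comp_apply, Submodule.mkQ_apply,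
      Submodule.Quotient.mk_eq_zero, Submodule.mem_comap, Submodule.subtype_apply,
      Submodule.coe_inclusion, Submodule.mem_inf]
    exact ⟨fun h => ⟨h, x.2.2⟩, fun h => h.1⟩
  have hψφ : LinearMap.ker ψ = LinearMap.range φ := by
    refine le_antisymm (fun q hq => ?_) ?_
    · induction q using Submodule.Quotient.induction_on with
      | _ a =>
        simp only [ψ, LinearMap.mem_ker, Submodule.liftQ_apply, LinearMap.comp_apply,
          Submodule.mkQ_apply, Submodule.Quotient.mk_eq_zero, Submodule.subtype_apply] at hq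
        obtain ⟨a', ha', b, hb, hab⟩ := Submodule.mem_sup.mp hq
        have hbA : b ∈ A := by
          rw [eq_sub_of_add_eq' hab]
          exact sub_mem a.2 (hle ha')
        refine ⟨⟨b, hbA, hb⟩, ?_⟩
        simp only [φ, LinearMap.comp_apply, Submodule.mkQ_apply, Submodule.Quotient.eq,
          Submodule.mem_comap, Submodule.subtype_apply, AddSubgroupClass.coe_sub,
          Submodule.coe_inclusion]
        rw [← hab, sub_add_eq_sub_sub, sub_right_comm, sub_self, zero_sub]
        exact neg_mem ha'
    · rintro _ ⟨x, rfl⟩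
      simp only [φ, ψ, LinearMap.mem_ker, LinearMap.comp_apply, Submodule.mkQ_apply,
        Submodule.liftQ_apply, Submodule.Quotient.mk_eq_zero, Submodule.subtype_apply,
        Submodule.coe_inclusion]
      exact Submodule.mem_sup_right x.2.2
  have hπψ : LinearMap.ker π = LinearMap.range ψ := by
    refine le_antisymm (fun q hq => ?_) ?_
    · induction q using Submodule.Quotient.induction_on with
      | _ v =>
        simp only [π, LinearMap.mem_ker, Submodule.mapQ_apply, LinearMap.id_apply, Submodule.Quotient.mk_eq_zero] at hq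
        obtain ⟨a, ha, b, hb, rfl⟩ := Submodule.mem_sup.mp hq
        refine ⟨Submodule.Quotient.mk ⟨a, ha⟩, ?_⟩
        simp only [ψ, Submodule.liftQ_apply, LinearMap.comp_apply, Submodule.mkQ_apply,
          Submodule.subtype_apply, Submodule.Quotient.eq]
        rw [sub_add_eq_sub_sub, sub_self, zero_sub]
        exact neg_mem (Submodule.mem_sup_right hb)
    · rintro _ ⟨q, rfl⟩
      induction q using Submodule.Quotient.induction_on with
      | _ a =>
        simp only [ψ, π, LinearMap.mem_ker, Submodule.liftQ_apply, LinearMap.comp_apply,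
          Submodule.mkQ_apply, Submodule.subtype_apply, Submodule.mapQ_apply, LinearMap.id_apply,
          Submodule.Quotient.mk_eq_zero]
        exact Submodule.mem_sup_left a.2
  have hπ : Function.Surjective π := fun q => by
    induction q using Submodule.Quotient.induction_on with
    | _ v => exact ⟨Submodule.Quotient.mk v, rfl⟩
  have hq' : FiniteDimensional K (V ⧸ (A' ⊔ B)) := by
    refine Module.finite_def.mpr (Submodule.fg_of_fg_map_of_fg_inf_ker π ?_ ?_)
    · rw [Submodule.map_top, LinearMap.range_eq_top.mpr hπ]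
      exact Module.finite_def.mp inferInstance
    · rw [top_inf_eq, hπψ]
      exact Module.Finite.iff_fg.mp inferInstance
  refine ⟨⟨hfin, hq'⟩, ?_⟩
  have e1 := φ.finrank_range_add_finrank_ker
  have e2 := ψ.finrank_range_add_finrank_ker
  have e3 := π.finrank_range_add_finrank_ker
  rw [hkerφ] at e1
  rw [hψφ] at e2
  rw [hπψ, LinearMap.range_eq_top.mpr hπ, finrank_top] at e3
  have e4 : Module.finrank K ↥((A' ⊓ B).comap (A ⊓ B).subtype) = Module.finrank K ↥(A' ⊓ B) :=
    (Submodule.comapSubtypeEquivOfLe (inf_le_inf_right B hle)).finrank_eq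
  rw [pairChi, pairChi]
  omega

/-- Comparison along an injective map of the ambient space. -/
theorem pairChi_map {W : Type u} [AddCommGroup W] [Module K W] (ι : W →ₗ[K] V)
    (hι : Function.Injective ι) {A B : Submodule K W} (h : PairFinite A B)
    [FiniteDimensional K (V ⧸ LinearMap.range ι)] :
    PairFinite (A.map ι) (B.map ι) ∧
      pairChi (A.map ι) (B.map ι) = pairChi A B - Module.finrank K (V ⧸ LinearMap.range ι) := by
  obtain ⟨hinf, hq⟩ := h
  have e0 : ↥(A ⊓ B) ≃ₗ[K] ↥(A.map ι ⊓ B.map ι) :=
    (Submodule.equivMapOfInjective ι hι (A ⊓ B)).trans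
      (LinearEquiv.ofEq _ _ (Submodule.map_inf ι hι))
  let α : W ⧸ (A ⊔ B) →ₗ[K] V ⧸ (A.map ι ⊔ B.map ι) :=
    Submodule.mapQ _ _ ι (by rw [← Submodule.map_sup]; exact Submodule.le_comap_map _ _)
  have hle : A.map ι ⊔ B.map ι ≤ LinearMap.range ι :=
    sup_le LinearMap.map_le_range LinearMap.map_le_range
  let β : V ⧸ (A.map ι ⊔ B.map ι) →ₗ[K] V ⧸ LinearMap.range ι :=
    Submodule.mapQ _ _ LinearMap.id hle
  have hα : Function.Injective α := by
    rw [← LinearMap.ker_eq_bot, eq_bot_iff]
    intro q hq
    induction q using Submodule.Quotient.induction_on with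
    | _ w =>
      simp only [α, LinearMap.mem_ker, Submodule.mapQ_apply, Submodule.Quotient.mk_eq_zero] at hq
      rw [← Submodule.map_sup] at hq
      obtain ⟨w', hw', he⟩ := hq
      rw [Submodule.mem_bot, Submodule.Quotient.mk_eq_zero]
      rwa [← hι he]
  have hβα : LinearMap.ker β = LinearMap.range α := by
    refine le_antisymm (fun q hq => ?_) ?_
    · induction q using Submodule.Quotient.induction_on with
      | _ v =>
        simp only [β, LinearMap.mem_ker, Submodule.mapQ_apply, LinearMap.id_apply, Submodule.Quotient.mk_eq_zero] at hq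
        obtain ⟨w, rfl⟩ := hq
        exact ⟨Submodule.Quotient.mk w, rfl⟩
    · rintro _ ⟨q, rfl⟩
      induction q using Submodule.Quotient.induction_on with
      | _ w => simp [α, β, Submodule.Quotient.mk_eq_zero]
  have hβ : Function.Surjective β := fun q => by
    induction q using Submodule.Quotient.induction_on with
    | _ v => exact ⟨Submodule.Quotient.mk v, rfl⟩
  have hq' : FiniteDimensional K (V ⧸ (A.map ι ⊔ B.map ι)) := by
    refine Module.finite_def.mpr (Submodule.fg_of_fg_map_of_fg_inf_ker β ?_ ?_)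
    · rw [Submodule.map_top, LinearMap.range_eq_top.mpr hβ]
      exact Module.finite_def.mp inferInstance
    · rw [top_inf_eq, hβα]
      exact Module.Finite.iff_fg.mp inferInstance
  have hinf' : FiniteDimensional K ↥(A.map ι ⊓ B.map ι) := Module.Finite.equiv e0
  refine ⟨⟨hinf', hq'⟩, ?_⟩
  have e1 := β.finrank_range_add_finrank_ker
  rw [hβα, LinearMap.range_eq_top.mpr hβ, finrank_top, LinearMap.finrank_range_of_inj hα] at e1
  rw [pairChi, pairChi, ← e0.finrank_eq]
  omega

end Pair

variable {k : Type u} [Field k] {X : Model k} {K : Type u} [Field K] [Algebra k K]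

namespace Pre

theorem chi_eq_pairChi (L : Pre X K) : L.chi = pairChi L.M0 L.M1 := rfl

theorem Good.pairFinite {L : Pre X K} (h : L.Good) : PairFinite L.M0 L.M1 := by
  obtain ⟨m, hm⟩ := h.exists_twist_nat
  haveI := h.finite_P0 hm
  haveI := h.finite_Q1 m
  refine ⟨Submodule.finiteDimensional_of_le (S₂ := L.P0 m)
    (inf_le_inf_left _ (h.M1_le_twist m)), ?_⟩
  let ψ : L.Q1 m →ₗ[K] L.N ⧸ (L.M0 ⊔ L.M1) :=
    (L.Q1Sub m).liftQ ((L.M0 ⊔ L.M1).mkQ.comp (L.twist (m : ℤ)).M1.subtype) fun x hx => by
      rw [LinearMap.mem_ker, LinearMap.comp_apply, Submodule.mkQ_apply,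
        Submodule.Quotient.mk_eq_zero]
      exact Submodule.mem_sup_right hx
  refine Module.Finite.of_surjective ψ fun q => ?_
  induction q using Submodule.Quotient.induction_on with
  | _ y =>
    obtain ⟨a, ha, b, hb, rfl⟩ :=
      Submodule.mem_sup.mp (show y ∈ L.M0 ⊔ (L.twist (m : ℤ)).M1 by rw [hm]; trivial)
    refine ⟨Submodule.Quotient.mk ⟨b, hb⟩, ?_⟩
    show Submodule.Quotient.mk b = _
    rw [Submodule.Quotient.eq, sub_add_eq_sub_sub, sub_right_comm, sub_self, zero_sub]
    exact neg_mem (Submodule.mem_sup_left ha)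

/-- Euler characteristic of a subbundle. -/
theorem chi_eq_of_injective {L' L : Pre X K} (h : L'.Good) (hL : L.Good) (ι : L'.N →ₗ[K] L.N)
    (hι : Function.Injective ι) (h0 : L'.M0.map ι ≤ L.M0) (h1 : L'.M1.map ι ≤ L.M1)
    [FiniteDimensional K (L.N ⧸ LinearMap.range ι)]
    [FiniteDimensional K (↥L.M0 ⧸ (L'.M0.map ι).comap L.M0.subtype)]
    [FiniteDimensional K (↥L.M1 ⧸ (L'.M1.map ι).comap L.M1.subtype)] :
    L.chi = L'.chi + Module.finrank K (↥L.M0 ⧸ (L'.M0.map ι).comap L.M0.subtype) +
      Module.finrank K (↥L.M1 ⧸ (L'.M1.map ι).comap L.M1.subtype) -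
      Module.finrank K (L.N ⧸ LinearMap.range ι) := by
  obtain ⟨-, e1⟩ := pairChi_map ι hι h.pairFinite
  obtain ⟨hf2, e2⟩ := pairChi_of_le h0 hL.pairFinite
  obtain ⟨-, e3⟩ := pairChi_of_le h1 hf2.symm
  rw [chi_eq_pairChi, chi_eq_pairChi, e2, pairChi_comm, e3, pairChi_comm, e1]
  omega

end Pre

end Fermat.Agent.RelPic

end
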