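import Fermat.Agent.RelPic.DualBasis
import Fermat.Agent.RelPic.FibreIndex

/-!
# Lattices over a field: quotients by ideals, the ideal of a section

Everything is stated for a lattice given by a finite dual basis inside an invertible module over
an arbitrary algebra `A`, and applied to the overlap ring of a model.
-/

set_option autoImplicit false
set_option linter.unusedSectionVars false
set_option linter.style.haveILetI false

universe u

open TensorProduct

noncomputable section

namespace Fermat.Agent.RelPic

namespace LatticeQuot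

/-- An invertible module modulo an ideal of finite colength has that colength. -/
theorem finrank_quotient_invertible (K : Type u) [Field K] {B : Type u} [CommRing B] [Algebra K B]
    {M : Type u} [AddCommGroup M] [Module B M] [Module K M] [IsScalarTower K B M]
    [Module.Invertible B M] (I : Ideal B) [FiniteDimensional K (B ⧸ I)] :
    FiniteDimensional K (M ⧸ (I • ⊤ : Submodule B M).restrictScalars K) ∧
      Module.finrank K (M ⧸ (I • ⊤ : Submodule B M).restrictScalars K) =
        Module.finrank K (B ⧸ I) := by
  haveI : IsArtinianRing (B ⧸ I) := IsArtinianRing.of_finite K (B ⧸ I)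
  haveI : Module.Free (B ⧸ I) ((B ⧸ I) ⊗[B] M) := inferInstance
  obtain ⟨e⟩ := (Module.Invertible.free_iff_linearEquiv (R := B ⧸ I)
    (M := (B ⧸ I) ⊗[B] M)).mp inferInstance
  let e' : (M ⧸ (I • ⊤ : Submodule B M)) ≃ₗ[B] B ⧸ I :=
    (TensorProduct.quotTensorEquivQuotSMul M I).symm.trans (e.restrictScalars B)
  let eK : (M ⧸ (I • ⊤ : Submodule B M).restrictScalars K) ≃ₗ[K] B ⧸ I :=
    (Submodule.Quotient.restrictScalarsEquiv K (I • ⊤ : Submodule B M)).trans
      (e'.restrictScalars K)
  exact ⟨Module.Finite.equiv eK.symm, eK.finrank_eq⟩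

variable {K : Type u} [Field K] {B : Type u} [CommRing B] [Algebra K B] {A : Type u} [CommRing A]
  [Algebra K A] {res : B →ₐ[K] A} {N : Type u} [AddCommGroup N] [Module A N] [Module K N]
  [IsScalarTower K A N] {M : Submodule K N}

/-- The product of an ideal and a lattice. -/
def idealSMul (res : B →ₐ[K] A) (I : Ideal B) (M : Submodule K N) : Submodule K N :=
  Submodule.span K {y | ∃ a ∈ I, ∃ x ∈ M, y = res a • x}

theorem smul_mem_idealSMul {I : Ideal B} {a : B} (ha : a ∈ I) {x : N} (hx : x ∈ M) :
    res a • x ∈ idealSMul res I M :=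
  Submodule.subset_span ⟨a, ha, x, hx, rfl⟩

theorem rankOne [Module.Invertible A N] (l : N →ₗ[A] A) (x y : N) : l x • y = l y • x := by
  have e := congrArg (TensorProduct.lid A N ∘ l.rTensor N)
    (Module.Invertible.tmul_comm (R := A) (m₁ := x) (m₂ := y))
  simpa using e

variable [Module.Invertible A N] {n : ℕ} {s : Fin n → N} {l : Fin n → N →ₗ[A] A}
  (hs : ∀ i, s i ∈ M) (hsum : ∀ x, x = ∑ i, l i x • s i)
  (hmem : ∀ x, x ∈ M ↔ ∀ i, l i x ∈ res.range)

include hsum in
theorem trace_eq_one : ∑ i, l i (s i) = 1 := by
  apply (Module.Invertible.toModuleEnd_bijective A N).1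
  refine LinearMap.ext fun z => ?_
  show (∑ i, l i (s i)) • z = (1 : A) • z
  rw [one_smul, Finset.sum_smul]
  conv_rhs => rw [hsum z]
  exact Finset.sum_congr rfl fun i _ => rankOne (l i) (s i) z

include hmem in
theorem smul_mem (b : B) {x : N} (hx : x ∈ M) : res b • x ∈ M := by
  rw [hmem] at hx ⊢
  intro i
  rw [map_smul, smul_eq_mul]
  exact mul_mem (AlgHom.mem_range_self _ b) (hx i)

include hs hsum hmem in
/-- Quotients of a lattice by ideals of finite colength. -/
theorem finrank_quotient_idealSMul (hres : Function.Injective res) (I : Ideal B)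
    [FiniteDimensional K (B ⧸ I)] :
    FiniteDimensional K (↥M ⧸ (idealSMul res I M).comap M.subtype) ∧
      Module.finrank K (↥M ⧸ (idealSMul res I M).comap M.subtype) =
        Module.finrank K (B ⧸ I) := by
  classical
  letI : Module B M :=
    { smul := fun b x => ⟨res b • (x : N), smul_mem hmem b x.2⟩
      one_smul := fun x => Subtype.ext (show res 1 • (x : N) = x by rw [map_one, one_smul])
      mul_smul := fun a b x => Subtype.ext
        (show res (a * b) • (x : N) = res a • res b • (x : N) by rw [map_mul, mul_smul])
      smul_zero := fun a => Subtype.ext (smul_zero (res a))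
      smul_add := fun a x y => Subtype.ext (smul_add (res a) (x : N) (y : N))
      add_smul := fun a b x => Subtype.ext
        (show res (a + b) • (x : N) = res a • (x : N) + res b • (x : N) by rw [map_add, add_smul])
      zero_smul := fun x => Subtype.ext
        (show res 0 • (x : N) = 0 by rw [map_zero, zero_smul]) }
  haveI : IsScalarTower K B M := ⟨fun c b x => Subtype.ext
    (show res (c • b) • (x : N) = c • res b • (x : N) by rw [map_smul, smul_assoc])⟩
  choose lB hlB using fun (i : Fin n) (x : M) => (hmem x).mp x.2 i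
  let lam : Fin n → M →ₗ[B] B := fun i =>
    { toFun := lB i
      map_add' := fun x y => hres (by
        show res (lB i (x + y)) = res (lB i x + lB i y)
        rw [map_add]
        exact (hlB i _).trans ((map_add (l i) (x : N) (y : N)).trans
          (congrArg₂ (· + ·) (hlB i x).symm (hlB i y).symm)))
      map_smul' := fun b x => hres (by
        show res (lB i (b • x)) = res (b * lB i x)
        rw [map_mul]
        exact (hlB i _).trans ((map_smul (l i) (res b) (x : N)).trans
          (congrArg (res b * ·) (hlB i x).symm))) }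
  have hlam : ∀ i x, res (lam i x) = l i (x : N) := hlB
  haveI : Module.Invertible B M := by
    refine invertible_of_dualBasis (fun i => (⟨s i, hs i⟩ : M)) lam (fun x => Subtype.ext ?_)
      (fun i x y => Subtype.ext ?_) (hres ?_)
    · rw [Submodule.coe_sum]
      conv_lhs => rw [hsum x]
      exact Finset.sum_congr rfl fun i _ => congrArg (· • s i) (hlam i x).symm
    · show res (lam i x) • (y : N) = res (lam i y) • (x : N)
      rw [hlam, hlam]
      exact rankOne (l i) (x : N) (y : N)
    · rw [map_one, map_sum]
      exact (Finset.sum_congr rfl fun i _ => hlam i _).trans (trace_eq_one hsum)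
  have heq : (I • ⊤ : Submodule B M).restrictScalars K = (idealSMul res I M).comap M.subtype := by
    refine le_antisymm (fun x hx => ?_) fun x hx => ?_
    · rw [Submodule.restrictScalars_mem] at hx
      show (x : N) ∈ idealSMul res I M
      induction hx using Submodule.smul_induction_on' with
      | smul a ha y _ => exact smul_mem_idealSMul ha y.2
      | add y _ z _ hy hz => exact add_mem hy hz
    · have key : ∀ y ∈ idealSMul res I M, ∃ z : M, (z : N) = y ∧
          z ∈ (I • ⊤ : Submodule B M).restrictScalars K := by
        intro y hy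
        induction hy using Submodule.span_induction with
        | mem y hy =>
          obtain ⟨a, ha, w, hw, rfl⟩ := hy
          exact ⟨a • (⟨w, hw⟩ : M), rfl, Submodule.smul_mem_smul (N := (⊤ : Submodule B M)) ha Submodule.mem_top⟩
        | zero => exact ⟨0, rfl, zero_mem _⟩
        | add a b _ _ ha hb =>
          obtain ⟨u, rfl, hu⟩ := ha
          obtain ⟨v, rfl, hv⟩ := hb
          exact ⟨u + v, rfl, add_mem hu hv⟩
        | smul c a _ ha =>
          obtain ⟨u, rfl, hu⟩ := ha
          exact ⟨c • u, rfl, Submodule.smul_mem _ c hu⟩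
      obtain ⟨z, hz, hz'⟩ := key _ hx
      rwa [← Subtype.ext hz]
  obtain ⟨hfin, hdim⟩ := finrank_quotient_invertible K (M := M) I
  rw [← heq]
  exact ⟨hfin, hdim⟩

/-- The ideal of a section: what carries the lattice into its multiples. -/
def colon (res : B →ₐ[K] A) (M : Submodule K N) (t : N) : Ideal B where
  carrier := {a | ∀ x ∈ M, ∃ b, res a • x = res b • t}
  zero_mem' := fun x _ => ⟨0, by rw [map_zero, zero_smul, zero_smul]⟩
  add_mem' := fun {a a'} ha ha' x hx => by
    obtain ⟨b, hb⟩ := ha x hx
    obtain ⟨b', hb'⟩ := ha' x hx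
    exact ⟨b + b', by rw [map_add, map_add, add_smul, add_smul, hb, hb']⟩
  smul_mem' := fun c a ha x hx => by
    obtain ⟨b, hb⟩ := ha x hx
    exact ⟨c * b, by rw [smul_eq_mul, map_mul, map_mul, mul_smul, mul_smul, hb]⟩

include hmem in
theorem coeff_mem_colon {t : N} {i : Fin n} {a : B} (ha : res a = l i t) : a ∈ colon res M t :=
  fun x hx => by
  obtain ⟨b, hb⟩ := (hmem x).mp hx i
  refine ⟨b, ?_⟩
  rw [ha, ← rankOne (l i) x t]
  exact congrArg (· • t) hb.symm

include hsum hmem in
theorem colon_ne_bot {t : N} (ht : t ∈ M) (h0 : t ≠ 0) : colon res M t ≠ ⊥ := by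
  intro hbot
  refine h0 ((hsum t).trans (Finset.sum_eq_zero fun i _ => ?_))
  obtain ⟨a, ha⟩ := (hmem t).mp ht i
  change res a = _ at ha
  have h1 : a ∈ colon res M t := coeff_mem_colon hmem ha
  rw [hbot, Ideal.mem_bot] at h1
  rw [← ha, h1, map_zero, zero_smul]

/-- The multiples of a section over the piece. -/
def multiples (res : B →ₐ[K] A) (t : N) : Submodule K N :=
  LinearMap.range ((LinearMap.toSpanSingleton A N t).restrictScalars K ∘ₗ res.toLinearMap)

omit [Module.Invertible A N] in
theorem mem_multiples_iff {t x : N} : x ∈ multiples res t ↔ ∃ b, res b • t = x := Iff.rfl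

include hs hsum hmem in
/-- The ideal of a section carries the lattice onto its multiples. -/
theorem multiples_eq {t : N} (ht : t ∈ M) :
    multiples res t = idealSMul res (colon res M t) M := by
  refine le_antisymm ?_ (Submodule.span_le.mpr ?_)
  · intro y hy
    obtain ⟨b, rfl⟩ := mem_multiples_iff.mp hy
    have e : res b • t = ∑ i, res b • l i t • s i := by
      rw [← Finset.smul_sum, ← hsum t]
    show res b • t ∈ _
    rw [e]
    refine sum_mem fun i _ => ?_
    obtain ⟨a, ha⟩ := (hmem t).mp ht i
    change res a = _ at ha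
    rw [← ha, smul_smul, ← map_mul]
    exact smul_mem_idealSMul (Ideal.mul_mem_left _ b (coeff_mem_colon hmem ha)) (hs i)
  · rintro _ ⟨a, ha, x, hx, rfl⟩
    obtain ⟨b, hb⟩ := ha x hx
    exact mem_multiples_iff.mpr ⟨b, hb.symm⟩

omit [Module.Invertible A N] in
theorem eq_smul_of_colon_eq_top {t : N} (htop : colon res M t = ⊤) {x : N} (hx : x ∈ M) :
    ∃ b, res b • t = x := by
  obtain ⟨b, hb⟩ := (htop ▸ Submodule.mem_top : (1 : B) ∈ colon res M t) x hx
  exact ⟨b, by rw [← hb, map_one, one_smul]⟩

end LatticeQuot

end Fermat.Agent.RelPic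

end
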