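import Fermat.Agent.RelPic.ChartMinus
import Fermat.Agent.RelPic.ChartPoly
import Fermat.Agent.RelPic.FibreLattice

/-!
# The global sections generate near infinity

If `L(-Q)` has no cohomology the sections of `L` generate it near `Q`, so outside the zeros of a
monic polynomial in `f`.
-/

set_option autoImplicit false
set_option linter.style.haveILetI false
set_option linter.unusedSectionVars false

universe u

open TensorProduct Polynomial

noncomputable section

namespace Fermat.Agent.RelPic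

variable {k : Type u} [Field k] {X : Model k} {R : Type u} [CommRing R] [Algebra k R]

/-- A function equal to `1` at infinity divides one which is `1` modulo `g`. -/
theorem exists_mul_eq_one_add {c : R ⊗[k] X.A1} (hc : evInf X R c = 1) :
    ∃ d w, c * d = 1 + ((1 : R) ⊗ₜ X.g) * w := by
  obtain ⟨m, hm⟩ : ∃ m, RingHom.ker X.einf ^ m ≤ Ideal.span {X.g} := by
    haveI : IsNoetherianRing X.A1 := inferInstance
    have h := Ideal.exists_radical_pow_le_of_fg (Ideal.span {X.g}) (IsNoetherian.noetherian _)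
    rwa [X.radical_g] at h
  set inc : X.A1 →+* R ⊗[k] X.A1 :=
    (Algebra.TensorProduct.includeRight : X.A1 →ₐ[k] R ⊗[k] X.A1).toRingHom
  have hker : 1 - c ∈ (RingHom.ker X.einf).map inc := by
    have h := ker_evInf_le_span X R (b := 1 - c) (by rw [map_sub, map_one, hc, sub_self])
    generalize 1 - c = z at h ⊢
    induction h using Submodule.span_induction with
    | mem z hz =>
      obtain ⟨q, hq, rfl⟩ := hz
      exact Ideal.mem_map_of_mem inc hq
    | zero => exact zero_mem _
    | add a b _ _ ha hb => exact add_mem ha hb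
    | smul r a _ ha => rw [Algebra.smul_def]; exact Ideal.mul_mem_left _ _ ha
  have hpow : (1 - c) ^ m ∈ Ideal.span {inc X.g} := by
    have h := Ideal.pow_mem_pow hker m
    rw [← Ideal.map_pow] at h
    have h' := Ideal.map_mono hm h
    rwa [Ideal.map_span, Set.image_singleton] at h'
  obtain ⟨w, hw⟩ := Ideal.mem_span_singleton.mp hpow
  refine ⟨∑ i ∈ Finset.range m, (1 - c) ^ i, -w, ?_⟩
  have := geom_sum_mul (1 - c) m
  rw [sub_sub_cancel_left, hw] at this
  show _ = 1 + inc X.g * -w
  linear_combination -this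

/-- Functions near infinity are integral over polynomials in `g`. -/
theorem isIntegralElem_g (w : R ⊗[k] X.A1) :
    (aeval ((1 : R) ⊗ₜ[k] X.g) : R[X] →ₐ[R] R ⊗[k] X.A1).toRingHom.IsIntegralElem w := by
  induction w using TensorProduct.induction_on with
  | zero => exact RingHom.isIntegralElem_zero _
  | tmul r a =>
    have e : r ⊗ₜ[k] a = (aeval ((1 : R) ⊗ₜ[k] X.g) : R[X] →ₐ[R] R ⊗[k] X.A1).toRingHom (C r) *
        ((1 : R) ⊗ₜ a) := by
      show _ = aeval _ (C r) * _
      rw [aeval_C, ← Algebra.smul_def, smul_tmul', smul_eq_mul, mul_one]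
    rw [e]
    refine RingHom.IsIntegralElem.mul _ (RingHom.isIntegralElem_map _) ?_
    obtain ⟨p, hp, hpa⟩ := X.finite1.to_isIntegral a
    refine ⟨p.map (Polynomial.mapRingHom (algebraMap k R)), hp.map _, ?_⟩
    rw [Polynomial.eval₂_map]
    have e2 : (aeval ((1 : R) ⊗ₜ[k] X.g) : R[X] →ₐ[R] R ⊗[k] X.A1).toRingHom.comp
        (Polynomial.mapRingHom (algebraMap k R)) =
        (Algebra.TensorProduct.includeRight : X.A1 →ₐ[k] R ⊗[k] X.A1).toRingHom.comp
          (aeval X.g : k[X] →ₐ[k] X.A1).toRingHom := by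
      refine RingHom.ext fun q => ?_
      show aeval ((1 : R) ⊗ₜ[k] X.g) (q.map (algebraMap k R)) =
        Algebra.TensorProduct.includeRight (aeval X.g q)
      rw [aeval_map_algebraMap]
      exact aeval_algHom_apply
        (Algebra.TensorProduct.includeRight : X.A1 →ₐ[k] R ⊗[k] X.A1) X.g q
    rw [e2, show ((1 : R) ⊗ₜ[k] a) =
      (Algebra.TensorProduct.includeRight : X.A1 →ₐ[k] R ⊗[k] X.A1).toRingHom a from rfl,
      ← Polynomial.hom_eval₂, hpa, map_zero]
  | add a b ha hb => exact RingHom.IsIntegralElem.add _ ha hb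

/-- A function which is `1` modulo `g` divides, near infinity, a monic polynomial in `f`. -/
theorem exists_fPoly_eq_mul (w : R ⊗[k] X.A1) :
    ∃ P : R[X], P.Monic ∧ ∃ u : B01 X R,
      res0 X R (fPoly X R P) = u * res1 X R (1 + ((1 : R) ⊗ₜ X.g) * w) := by
  set Gg := (1 : R) ⊗ₜ[k] X.g with hGg
  set φ := (aeval Gg : R[X] →ₐ[R] R ⊗[k] X.A1).toRingHom with hφ
  set c := 1 + Gg * w with hc
  obtain ⟨p, hp, hpw⟩ := isIntegralElem_g w
  set n := p.natDegree
  -- `Q (g)` is a multiple of `c`, with `Q (0) = 1`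
  set Q : R[X] := ∑ i ∈ Finset.range (n + 1), p.coeff i * (-1) ^ (n - i) * Polynomial.X ^ (n - i)
  have hQ0 : Q.coeff 0 = 1 := by
    rw [Polynomial.finsetSum_coeff, Finset.sum_eq_single n]
    · simp [n, hp.coeff_natDegree]
    · intro i hi hin
      rw [coeff_mul_X_pow', if_neg]
      have := Finset.mem_range.mp hi
      omega
    · simp
  have hQc : φ Q ∈ Ideal.span {c} := by
    have hmk : ∀ i ∈ Finset.range (n + 1),
        Ideal.Quotient.mk (Ideal.span {c}) (φ (p.coeff i * (-1) ^ (n - i) * Polynomial.X ^ (n - i))) =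
        Ideal.Quotient.mk (Ideal.span {c}) (φ (p.coeff i) * w ^ i * (-1) ^ n * Gg ^ n) := by
      intro i hi
      have hi' : i ≤ n := Nat.lt_succ_iff.mp (Finset.mem_range.mp hi)
      have h1 : Ideal.Quotient.mk (Ideal.span {c}) (Gg * w) = -1 := by
        rw [eq_neg_iff_add_eq_zero, ← map_one (Ideal.Quotient.mk (Ideal.span {c})), ← map_add,
          add_comm]
        exact Ideal.Quotient.eq_zero_iff_mem.mpr (Ideal.mem_span_singleton_self _)
      obtain ⟨j, hj⟩ := Nat.exists_eq_add_of_le hi'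
      rw [hj, Nat.add_sub_cancel_left]
      have e : φ (p.coeff i) * w ^ i * (-1) ^ (i + j) * Gg ^ (i + j) =
          φ (p.coeff i) * (-1) ^ (i + j) * Gg ^ j * (Gg * w) ^ i := by ring
      rw [e, map_mul (Ideal.Quotient.mk (Ideal.span {c})) _ ((Gg * w) ^ i),
        map_pow (Ideal.Quotient.mk (Ideal.span {c})) (Gg * w), h1]
      simp only [map_mul, map_pow, map_neg, map_one, hφ]
      simp only [AlgHom.toRingHom_eq_coe, RingHom.coe_coe, aeval_X]
      rw [pow_add]
      have : ((-1 : (R ⊗[k] X.A1) ⧸ Ideal.span {c}) ^ i) * (-1) ^ i = 1 := by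
        rw [← pow_add, show i + i = 2 * i by omega, pow_mul]; ring
      linear_combination (-(Ideal.Quotient.mk (Ideal.span {c}) (aeval Gg (p.coeff i))) *
        (-1) ^ j * Ideal.Quotient.mk (Ideal.span {c}) Gg ^ j) * this
    rw [← Ideal.Quotient.eq_zero_iff_mem, map_sum, map_sum, Finset.sum_congr rfl hmk, ← map_sum,
      ← Finset.sum_mul, ← Finset.sum_mul, ← Polynomial.eval₂_eq_sum_range, hpw, zero_mul, zero_mul,
      map_zero]
  obtain ⟨v, hv⟩ := Ideal.mem_span_singleton'.mp hQc
  refine ⟨Q.reflect Q.natDegree, ?_, res0 X R ((1 : R) ⊗ₜ X.f) ^ Q.natDegree * res1 X R v, ?_⟩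
  · refine monic_of_natDegree_le_of_coeff_eq_one Q.natDegree ?_ ?_
    · exact (natDegree_le_iff_coeff_eq_zero).mpr fun m hm => by
        rw [coeff_reflect, revAt_eq_self_of_lt hm]
        exact coeff_eq_zero_of_natDegree_lt hm
    · rw [coeff_reflect, revAt_le le_rfl, Nat.sub_self, hQ0]
  · rw [mul_assoc, ← map_mul (res1 X R), hv]
    show res0 X R (fPoly X R _) = _ * res1 X R (aeval Gg Q)
    have hdeg : (Q.reflect Q.natDegree).natDegree < Q.natDegree + 1 :=
      Nat.lt_succ_of_le ((natDegree_le_iff_coeff_eq_zero).mpr fun m hm => by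
        rw [coeff_reflect, revAt_eq_self_of_lt hm]
        exact coeff_eq_zero_of_natDegree_lt hm)
    rw [fPoly, aeval_eq_sum_range' hdeg, aeval_eq_sum_range (p := Q), map_sum, map_sum,
      Finset.mul_sum, ← Finset.sum_range_reflect]
    refine Finset.sum_congr rfl fun j hj => ?_
    have hj' : j ≤ Q.natDegree := Nat.lt_succ_iff.mp (Finset.mem_range.mp hj)
    rw [Nat.add_sub_cancel, coeff_reflect, revAt_le (Nat.sub_le _ _), Nat.sub_sub_self hj',
      map_smul, map_smul, mul_smul_comm]
    congr 1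
    obtain ⟨d, hd⟩ := Nat.exists_eq_add_of_le hj'
    rw [hd, Nat.add_sub_cancel_left, map_pow, map_pow, add_comm, pow_add, mul_assoc, ← mul_pow,
      mul_comm (res0 X R ((1 : R) ⊗ₜ X.f)), res1_g_mul_res0_f, one_pow, mul_one]

namespace Pre

variable (L : Pre X R)

/-- Combinations of global sections with coefficients regular on the affine piece. -/
def secSpan0 : Submodule R L.N :=
  Submodule.span R {z | ∃ b, ∃ h ∈ L.H0, z = res0 X R b • h}

/-- Combinations of global sections with coefficients regular near infinity. -/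
def secSpan1 : Submodule R L.N :=
  Submodule.span R {z | ∃ b, ∃ h ∈ L.H0, z = res1 X R b • h}

/-- Combinations of global sections on the overlap. -/
def secSpan : Submodule (B01 X R) L.N := Submodule.span (B01 X R) (L.H0 : Set L.N)

variable {L}

theorem smul_mem_secSpan0 (b : R ⊗[k] X.A0) {z : L.N} (hz : z ∈ L.secSpan0) :
    res0 X R b • z ∈ L.secSpan0 := by
  induction hz using Submodule.span_induction with
  | mem z hz =>
    obtain ⟨c, h, hh, rfl⟩ := hz
    exact Submodule.subset_span ⟨b * c, h, hh, by rw [map_mul, mul_smul]⟩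
  | zero => rw [smul_zero]; exact zero_mem _
  | add a c _ _ ha hc => rw [smul_add]; exact add_mem ha hc
  | smul r a _ ha => rw [smul_comm]; exact Submodule.smul_mem _ r ha

theorem smul_mem_secSpan1 (b : R ⊗[k] X.A1) {z : L.N} (hz : z ∈ L.secSpan1) :
    res1 X R b • z ∈ L.secSpan1 := by
  induction hz using Submodule.span_induction with
  | mem z hz =>
    obtain ⟨c, h, hh, rfl⟩ := hz
    exact Submodule.subset_span ⟨b * c, h, hh, by rw [map_mul, mul_smul]⟩
  | zero => rw [smul_zero]; exact zero_mem _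
  | add a c _ _ ha hc => rw [smul_add]; exact add_mem ha hc
  | smul r a _ ha => rw [smul_comm]; exact Submodule.smul_mem _ r ha

theorem secSpan1_le : (L.secSpan1 : Set L.N) ⊆ L.secSpan := by
  intro z hz
  induction hz using Submodule.span_induction with
  | mem z hz =>
    obtain ⟨c, h, hh, rfl⟩ := hz
    exact Submodule.smul_mem _ _ (Submodule.subset_span hh)
  | zero => exact zero_mem L.secSpan
  | add a c _ _ ha hc => exact add_mem ha hc
  | smul r a _ ha => exact Submodule.smul_of_tower_mem L.secSpan r ha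

theorem secSpan0_le : (L.secSpan0 : Set L.N) ⊆ L.secSpan := by
  intro z hz
  induction hz using Submodule.span_induction with
  | mem z hz =>
    obtain ⟨c, h, hh, rfl⟩ := hz
    exact Submodule.smul_mem _ _ (Submodule.subset_span hh)
  | zero => exact zero_mem L.secSpan
  | add a c _ _ ha hc => exact add_mem ha hc
  | smul r a _ ha => exact Submodule.smul_of_tower_mem L.secSpan r ha

theorem secSpan0_le_M0 (h : L.Good) : L.secSpan0 ≤ L.M0 :=
  Submodule.span_le.mpr (by rintro _ ⟨b, x, hx, rfl⟩; exact h.res0_smul_mem b hx.1)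

theorem H0_le_secSpan0 : L.H0 ≤ L.secSpan0 :=
  fun x hx => Submodule.subset_span ⟨1, x, hx, by rw [map_one, one_smul]⟩

/-- A near-infinity section splits into a global one and one vanishing at infinity. -/
theorem exists_split (h : L.Good) (hA : L.minus.Acyclic) {x : L.N} (hx : x ∈ L.M1) :
    ∃ a ∈ L.H0, ∃ y ∈ L.minus.M1, x = a + y := by
  obtain ⟨a, ha, y, hy, e⟩ := Submodule.mem_sup.mp
    (hA.sup_eq_top ▸ Submodule.mem_top : x ∈ L.minus.M0 ⊔ L.minus.M1)
  refine ⟨a, ⟨ha, ?_⟩, y, hy, e.symm⟩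
  rw [eq_sub_of_add_eq e]
  exact sub_mem hx (minus_M1_le h hy)

theorem eq_zero_of_mem_minus (hA : L.minus.Acyclic) {x : L.N} (h0 : x ∈ L.M0)
    (h1 : x ∈ L.minus.M1) : x = 0 :=
  Submodule.disjoint_def.mp hA.disjoint x h0 h1

/-- Some `1 + g w` carries `L` near infinity into the span of the sections. -/
theorem exists_smul_mem_secSpan1 (h : L.Good) (hA : L.minus.Acyclic) :
    ∃ w, ∀ x ∈ L.M1, res1 X R (1 + ((1 : R) ⊗ₜ X.g) * w) • x ∈ L.secSpan1 := by
  classical
  obtain ⟨n, s, l, hs, hsum, hmem⟩ := h.lattice1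
  choose a ha y hy hsplit using fun i => exists_split h hA (hs i)
  choose C hC hCy using fun i j => ev1_minus (hy i) (l := l j) (fun m hm => (hmem m).mp hm j)
  let A : Matrix (Fin n) (Fin n) (R ⊗[k] X.A1) := 1 - Matrix.of C
  have hAs : ∀ i, ∑ j, res1 X R (A i j) • s j = a i := fun i => by
    have e : ∀ j, res1 X R (A i j) • s j =
        res1 X R ((1 : Matrix (Fin n) (Fin n) (R ⊗[k] X.A1)) i j) • s j - l j (y i) • s j := fun j => by
      rw [← hCy, ← sub_smul, ← map_sub]
      rfl
    simp only [e]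
    rw [Finset.sum_sub_distrib, ← hsum, Finset.sum_eq_single i]
    · rw [Matrix.one_apply_eq, map_one, one_smul]
      exact sub_eq_of_eq_add (hsplit i)
    · intro j _ hj; rw [Matrix.one_apply_ne (Ne.symm hj), map_zero, zero_smul]
    · simp
  have hdet : ∀ j, res1 X R A.det • s j ∈ L.secSpan1 := fun j => by
    have e : res1 X R A.det • s j = ∑ i, res1 X R (A.adjugate j i) • a i := by
      simp only [← hAs, Finset.smul_sum, smul_smul, ← map_mul]
      rw [Finset.sum_comm]
      simp only [← Finset.sum_smul, ← map_sum, ← Matrix.mul_apply, Matrix.adjugate_mul,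
        Matrix.smul_apply, smul_eq_mul]
      rw [Finset.sum_eq_single j]
      · rw [Matrix.one_apply_eq, mul_one]
      · intro i _ hi; rw [Matrix.one_apply_ne (Ne.symm hi), mul_zero, map_zero, zero_smul]
      · simp
    rw [e]
    exact sum_mem fun i _ => Submodule.subset_span ⟨_, a i, ha i, rfl⟩
  have hev : evInf X R A.det = 1 := by
    rw [AlgHom.map_det]
    have e : (evInf X R).mapMatrix A = 1 := by
      ext i j
      show evInf X R (A i j) = _
      show evInf X R ((1 : Matrix (Fin n) (Fin n) (R ⊗[k] X.A1)) i j - C i j) = _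
      rw [map_sub, hC, sub_zero]
      rcases eq_or_ne i j with rfl | hij <;> simp [*]
    rw [e, Matrix.det_one]
  obtain ⟨d, w, hdw⟩ := exists_mul_eq_one_add hev
  refine ⟨w, fun x hx => ?_⟩
  rw [hsum x, Finset.smul_sum]
  refine sum_mem fun j _ => ?_
  obtain ⟨b, hb⟩ := (hmem x).mp hx j
  replace hb : res1 X R b = l j x := hb
  rw [← hdw, map_mul, smul_smul, ← hb,
    show res1 X R A.det * res1 X R d * res1 X R b = res1 X R (d * b) * res1 X R A.det by
      rw [map_mul]; ring, mul_smul]
  exact smul_mem_secSpan1 _ (hdet j)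

/-- A monic polynomial in `f` carries everything into the span of the sections. -/
theorem exists_fPoly_smul_mem (h : L.Good) (hA : L.minus.Acyclic) :
    ∃ P : R[X], P.Monic ∧ ∀ z : L.N, res0 X R (fPoly X R P) • z ∈ L.secSpan := by
  obtain ⟨w, hw⟩ := exists_smul_mem_secSpan1 h hA
  obtain ⟨n, s, l, hs, hsum, -⟩ := h.lattice1
  obtain ⟨P, hP, u, hu⟩ := exists_fPoly_eq_mul w
  refine ⟨P, hP, fun z => ?_⟩
  rw [hsum z, Finset.smul_sum]
  refine sum_mem fun i _ => ?_
  rw [smul_comm, hu, mul_smul]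
  exact Submodule.smul_mem _ _ (Submodule.smul_mem _ _ (secSpan1_le (hw _ (hs i))))

/-- Nothing but `0` kills all the sections. -/
theorem eq_zero_of_smul_H0 (h : L.Good) (hA : L.minus.Acyclic) {b : B01 X R}
    (hb : ∀ x ∈ L.H0, b • x = 0) : b = 0 := by
  obtain ⟨P, hP, hPz⟩ := exists_fPoly_smul_mem h hA
  haveI := h.invertible
  have hspan : ∀ z ∈ L.secSpan, b • z = 0 := by
    intro z hz
    induction hz using Submodule.span_induction with
    | mem z hz => exact hb z hz
    | zero => exact smul_zero b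
    | add a c _ _ ha hc => rw [smul_add, ha, hc, add_zero]
    | smul r a _ ha => rw [smul_comm, ha, smul_zero]
  refine res0_fPoly_mul_eq_zero X R hP ?_
  apply (Module.Invertible.toModuleEnd_bijective (B01 X R) L.N).1
  refine LinearMap.ext fun z => ?_
  show (res0 X R (fPoly X R P) * b) • z = (0 : B01 X R) • z
  rw [zero_smul, mul_comm, mul_smul, hspan _ (hPz z)]

/-- Comaximality of `g` and `1 + g w` near infinity. -/
theorem mem_range1_of_mul {w : R ⊗[k] X.A1} {z : B01 X R}
    (hz : res1 X R (1 + ((1 : R) ⊗ₜ X.g) * w) * z ∈ (res1 X R).range) : z ∈ (res1 X R).range := by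
  obtain ⟨j, hj⟩ := exists_pow_mul_mem1 X R z
  have hcop : IsCoprime (1 + ((1 : R) ⊗ₜ[k] X.g) * w) ((1 : R) ⊗ₜ[k] X.g) := ⟨1, -w, by ring⟩
  obtain ⟨a, b, hab⟩ := hcop.pow_right (n := j)
  have e : z = res1 X R a * (res1 X R (1 + ((1 : R) ⊗ₜ X.g) * w) * z) +
      res1 X R b * (res1 X R ((1 : R) ⊗ₜ X.g) ^ j * z) := by
    rw [← mul_assoc, ← mul_assoc, ← add_mul, ← map_pow, ← map_mul, ← map_mul, ← map_add, hab,
      map_one, one_mul]
  rw [e]
  exact add_mem (mul_mem (AlgHom.mem_range_self _ a) hz)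
    (mul_mem (AlgHom.mem_range_self _ b) (hj j le_rfl))

/-- Everything is a near-infinity section plus a combination of global ones. -/
theorem exists_mem_secSpan_add (h : L.Good) (hA : L.minus.Acyclic) (z : L.N) :
    ∃ Z ∈ L.secSpan, z - Z ∈ L.M1 := by
  obtain ⟨w, hw⟩ := exists_smul_mem_secSpan1 h hA
  obtain ⟨n, s, l, hs, hsum, hmem⟩ := h.lattice1
  choose j hj using fun i => exists_pow_mul_mem1 X R (l i z)
  set M := Finset.univ.sup j
  have hM : res1 X R ((1 : R) ⊗ₜ X.g) ^ M • z ∈ L.M1 := by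
    rw [hmem]
    intro i
    rw [map_smul, smul_eq_mul]
    exact hj i M (Finset.le_sup (Finset.mem_univ i))
  have hcop : IsCoprime (1 + ((1 : R) ⊗ₜ[k] X.g) * w) ((1 : R) ⊗ₜ[k] X.g) := ⟨1, -w, by ring⟩
  obtain ⟨a, b, hab⟩ := hcop.pow_right (n := M)
  refine ⟨res1 X R a • res1 X R (1 + ((1 : R) ⊗ₜ X.g) * w) • z, ?_, ?_⟩
  · refine Submodule.smul_mem _ _ ?_
    rw [hsum z, Finset.smul_sum]
    exact sum_mem fun i _ => by
      rw [smul_comm]; exact Submodule.smul_mem _ _ (secSpan1_le (hw _ (hs i)))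
  · have e : z - res1 X R a • res1 X R (1 + ((1 : R) ⊗ₜ X.g) * w) • z =
        res1 X R b • (res1 X R ((1 : R) ⊗ₜ X.g) ^ M • z) := by
      rw [sub_eq_iff_eq_add, smul_smul, smul_smul, ← add_smul, add_comm, ← map_pow, ← map_mul,
        ← map_mul, ← map_add, hab, map_one, one_smul]
    rw [e]
    exact h.res1_smul_mem b hM

end Pre

end Fermat.Agent.RelPic

end
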