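import Fermat.Agent.RelPic.ChartNear
import Fermat.Agent.RelPic.ChartDiv

/-!
# The divisor of the global sections

When `L(-Q)` has no cohomology the global sections of `L` form an invertible module on the base;
`secIdeal` is the ideal of their zeros on the affine piece.
-/

set_option autoImplicit false
set_option linter.style.haveILetI false
set_option linter.unusedSectionVars false

universe u

open TensorProduct

noncomputable section

namespace Fermat.Agent.RelPic

variable {k : Type u} [Field k] {X : Model k} {R : Type u} [CommRing R] [Algebra k R]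

namespace Pre

/-- The value at infinity of a functional on the global sections. -/
def valInf (L : Pre X R) (l : L.N →ₗ[B01 X R] B01 X R)
    (hl : ∀ m ∈ L.M1, l m ∈ (res1 X R).toLinearMap.range) : L.H0 →ₗ[R] R :=
  ev1 X R ∘ₗ ((l.restrictScalars R).comp L.H0.subtype).codRestrict _ fun x => hl x x.2.2

/-- A dual basis of the global sections. -/
theorem exists_H0_basis {L : Pre X R} (h : L.Good) (hA : L.minus.Acyclic) :
    ∃ (n : ℕ) (σ : Fin n → L.H0) (α : Fin n → L.H0 →ₗ[R] R),
      (∀ x, x = ∑ i, α i x • σ i) ∧ (∀ i x y, α i x • y = α i y • x) ∧ ∑ i, α i (σ i) = 1 := by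
  classical
  haveI := h.invertible
  obtain ⟨n, s, l, hs, hsum, hmem⟩ := h.lattice1
  have hl : ∀ i, ∀ m ∈ L.M1, l i m ∈ (res1 X R).toLinearMap.range := fun i m hm =>
    (hmem m).mp hm i
  choose a ha y hy hsplit using fun i => exists_split h hA (hs i)
  let σ : Fin n → L.H0 := fun i => ⟨a i, ha i⟩
  let α : Fin n → L.H0 →ₗ[R] R := fun i => L.valInf (l i) (hl i)
  have hα : ∀ i (x : L.H0) b, res1 X R b = l i (x : L.N) → α i x = evInf X R b :=
    fun i x b hb => ev1_eq hb
  have hdiff : ∀ x : L.H0, (x : L.N) - ∑ i, α i x • s i ∈ L.minus.M1 := by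
    intro x
    choose b hb using fun i => hl i x x.2.2
    replace hb : ∀ i, res1 X R (b i) = l i x := hb
    have e : (x : L.N) - ∑ i, α i x • s i =
        ∑ i, res1 X R (b i - algebraMap R _ (α i x)) • s i := by
      simp only [map_sub, sub_smul, Finset.sum_sub_distrib, AlgHom.commutes, algebraMap_smul, hb]
      rw [← hsum]
    rw [e]
    exact sum_mem fun i _ => Submodule.subset_span
      ⟨_, by rw [map_sub, AlgHom.commutes, ← hα i x _ (hb i), Algebra.algebraMap_self_apply,
        sub_self], s i, hs i, rfl⟩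
  have hexp : ∀ x, x = ∑ i, α i x • σ i := fun x => by
    refine Subtype.ext (sub_eq_zero.mp (eq_zero_of_mem_minus hA ?_ ?_))
    · exact sub_mem x.2.1 (∑ i, α i x • σ i : L.H0).2.1
    · have e : (x : L.N) - ((∑ i, α i x • σ i : L.H0) : L.N) =
          ((x : L.N) - ∑ i, α i x • s i) + ∑ i, α i x • y i := by
        rw [Submodule.coe_sum]
        simp only [Submodule.coe_smul, hsplit, smul_add, Finset.sum_add_distrib, σ]
        abel
      rw [e]
      exact add_mem (hdiff x) (sum_mem fun i _ => L.minus.M1.smul_mem _ (hy i))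
  refine ⟨n, σ, α, hexp, fun i x z => ?_, ?_⟩
  · refine Subtype.ext (sub_eq_zero.mp (eq_zero_of_mem_minus hA ?_ (mem_minus_of_ev1 hs hsum
      fun j => ?_)))
    · exact sub_mem (α i x • z).2.1 (α i z • x).2.1
    · obtain ⟨bx, hbx⟩ := hl j x x.2.2
      obtain ⟨bz, hbz⟩ := hl j z z.2.2
      replace hbx : res1 X R bx = l j x := hbx
      replace hbz : res1 X R bz = l j z := hbz
      refine ⟨α i x • bz - α i z • bx, ?_, ?_⟩
      · rw [map_sub, map_smul, map_smul, ← hα j x bx hbx, ← hα j z bz hbz, smul_eq_mul, smul_eq_mul,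
          sub_eq_zero]
        obtain ⟨cx, hcx⟩ := hl i x x.2.2
        obtain ⟨cz, hcz⟩ := hl i z z.2.2
        replace hcx : res1 X R cx = l i x := hcx
        replace hcz : res1 X R cz = l i z := hcz
        rw [hα i x cx hcx, hα i z cz hcz, hα j x bx hbx, hα j z bz hbz, ← map_mul, ← map_mul]
        congr 1
        refine res1_injective X R ?_
        rw [map_mul, map_mul, hcx, hcz, hbx, hbz]
        have h1 := congrArg (l j) (LatticeQuot.rankOne (l i) (x : L.N) (z : L.N))
        simpa using h1
      · rw [map_sub, map_smul, map_smul, hbx, hbz]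
        simp only [map_sub, LinearMap.map_smul_of_tower, Submodule.coe_smul]
  · have ht := LatticeQuot.trace_eq_one (N := L.N) hsum
    choose c hc using fun i => hl i (a i) (ha i).2
    replace hc : ∀ i, res1 X R (c i) = l i (a i) := hc
    choose d hd0 hd using fun i => ev1_minus (hy i) (l := l i) (hl i)
    have e : ∑ i, (c i + d i) = 1 := by
      refine res1_injective X R ?_
      rw [map_sum, map_one, ← ht]
      exact Finset.sum_congr rfl fun i _ => by rw [map_add, hc, hd, ← map_add, ← hsplit]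
    have := congrArg (evInf X R) e
    rw [map_sum, map_one] at this
    rw [← this]
    exact Finset.sum_congr rfl fun i _ => by rw [map_add, hd0, add_zero]; exact hα i (σ i) _ (hc i)

theorem invertible_H0 {L : Pre X R} (h : L.Good) (hA : L.minus.Acyclic) :
    Module.Invertible R L.H0 := by
  obtain ⟨n, σ, α, h1, h2, h3⟩ := exists_H0_basis h hA
  exact LatticeQuot.invertible_of_dualBasis σ α h1 h2 h3

/-- The ideal on the affine piece of the zeros of the global sections. -/
def secIdeal (L : Pre X R) : Ideal (R ⊗[k] X.A0) :=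
  Ideal.span {b | ∃ x ∈ L.H0, ∃ l ∈ L.dual.M0, res0 X R b = l x}

theorem secIdeal_mono_iso {L L' : Pre X R} (e : Iso L L') : L.secIdeal ≤ L'.secIdeal := by
  obtain ⟨e, h0, h1⟩ := e
  refine Ideal.span_mono ?_
  rintro b ⟨x, hx, l, hl, hb⟩
  refine ⟨e x, ⟨h0 ▸ ⟨x, hx.1, rfl⟩, h1 ▸ ⟨x, hx.2, rfl⟩⟩, l ∘ₗ e.symm.toLinearMap,
    fun m hm => ?_, ?_⟩
  · rw [← h0] at hm
    obtain ⟨m', hm', rfl⟩ := hm
    show l (e.symm (e m')) ∈ _
    rw [e.symm_apply_apply]
    exact hl m' hm'
  · show _ = l (e.symm (e x))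
    rw [e.symm_apply_apply, hb]

theorem secIdeal_congr {L L' : Pre X R} (e : Iso L L') : L.secIdeal = L'.secIdeal :=
  le_antisymm (secIdeal_mono_iso e) (secIdeal_mono_iso e.symm)

theorem secIdeal_le_tensor (L : Pre X R) (P : Type u) [AddCommGroup P] [Module R P]
    [Module.Invertible R P] : L.secIdeal ≤ (L.tensor (ofModule X (R := R) P)).secIdeal := by
  obtain ⟨n, p, μ, hμ⟩ := exists_trace (R := R) (P := P)
  refine Ideal.span_le.mpr ?_
  rintro b ⟨x, hx, l, hl, hb⟩
  have e : b = ∑ i, μ i (p i) • b := by rw [← Finset.sum_smul, hμ, one_smul]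
  rw [SetLike.mem_coe, e]
  refine sum_mem fun i _ => Ideal.subset_span ?_
  refine ⟨x ⊗ₜ ((1 : B01 X R) ⊗ₜ p i), ⟨?_, ?_⟩,
    TensorProduct.lift ((LinearMap.mul (B01 X R) (B01 X R)).compl₁₂ l (extFun (μ i))),
    fun m hm => ?_, ?_⟩
  · exact tmul_mem_tensor_M0 hx.1 ⟨(1 : R ⊗[k] X.A0) ⊗ₜ p i, by simp⟩
  · exact tmul_mem_tensor_M1 hx.2 ⟨(1 : R ⊗[k] X.A1) ⊗ₜ p i, by simp⟩
  · induction hm using Submodule.span_induction with
    | mem m hm =>
      obtain ⟨y, hy, z, hz, rfl⟩ := hm
      rw [TensorProduct.lift.tmul]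
      obtain ⟨c, hc⟩ := hl y hy
      obtain ⟨d, hd⟩ := extFun_mem (res0 X R) (μ i) hz
      exact ⟨c * d, by
        show res0 X R (c * d) = l y * extFun (μ i) z
        rw [map_mul, ← hc, ← hd]; rfl⟩
    | zero => rw [map_zero]; exact zero_mem _
    | add u v _ _ hu hv => rw [map_add]; exact add_mem hu hv
    | smul r u _ hu => rw [LinearMap.map_smul_of_tower]; exact Submodule.smul_mem _ r hu
  · rw [TensorProduct.lift.tmul]
    show _ = l x * extFun (μ i) ((1 : B01 X R) ⊗ₜ p i)
    rw [extFun_tmul, map_smul, hb, mul_smul_comm, mul_one]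

theorem secIdeal_modEquiv {L L' : Pre X R} (h : L.Good) (e : ModEquiv L L') :
    L'.secIdeal = L.secIdeal := by
  refine le_antisymm ?_ ?_
  · obtain ⟨P, _, _, _, e'⟩ := e.symm h
    exact (secIdeal_le_tensor L' P).trans (secIdeal_congr e').ge
  · obtain ⟨P, _, _, _, e'⟩ := e
    exact (secIdeal_le_tensor L P).trans (secIdeal_congr e').ge

theorem sup_eq_top_of_acyclic {L : Pre X R} (h : L.Good) (hA : L.minus.Acyclic) :
    L.M0 ⊔ (L.twist ((0 : ℕ) : ℤ)).M1 = ⊤ := by
  rw [Nat.cast_zero, twist_zero_M1]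
  exact top_le_iff.mp (hA.sup_eq_top ▸ sup_le_sup_left (minus_M1_le h) L.M0)

section Tower

attribute [local instance] b01Algebra

variable {R' : Type u} [CommRing R'] [Algebra k R'] [Algebra R R'] [IsScalarTower k R R']

theorem H0_bc {L : Pre X R} (h : L.Good) (hA : L.minus.Acyclic) :
    (L.bc (IsScalarTower.toAlgHom k R R')).H0 = L.bcS R' L.H0 := by
  have := h.bc_P0 (R' := R') (sup_eq_top_of_acyclic h hA)
  have e : ∀ {T : Type u} [CommRing T] [Algebra k T] (M : Pre X T), M.P0 0 = M.H0 := fun M => by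
    show M.M0 ⊓ (M.twist ((0 : ℕ) : ℤ)).M1 = M.M0 ⊓ M.M1
    rw [Nat.cast_zero, twist_zero_M1]
  rwa [e, e] at this

theorem secIdeal_bc_toAlgHom {L : Pre X R} (h : L.Good) (hA : L.minus.Acyclic) :
    (L.bc (IsScalarTower.toAlgHom k R R')).secIdeal =
      L.secIdeal.map
        (Algebra.TensorProduct.map (IsScalarTower.toAlgHom k R R') (AlgHom.id k X.A0)).toRingHom := by
  set φ := IsScalarTower.toAlgHom k R R'
  set F := Algebra.TensorProduct.map φ (AlgHom.id k X.A0)
  obtain ⟨n, s, l, hs, hsum, hmem⟩ := h.lattice0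
  have hl : ∀ i, l i ∈ L.dual.M0 := fun i m hm => (hmem m).mp hm i
  refine le_antisymm (Ideal.span_le.mpr ?_) ?_
  · rintro b ⟨x, hx, l', hl', hb⟩
    rw [H0_bc h hA] at hx
    have key : ∃ c ∈ L.secIdeal.map F.toRingHom, res0 X R' c = l' x := by
      clear hb
      induction hx using Submodule.span_induction with
      | mem x hx =>
        obtain ⟨y, hy, rfl⟩ := hx
        have hy' : L.incl R' y =
            ∑ i, bMap X R φ (l i y) • L.incl R' (s i) := by
          conv_lhs => rw [hsum y, map_sum]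
          exact Finset.sum_congr rfl fun i _ => incl_smul R' L _ _
        have hmem0 : ∀ i, L.incl R' (s i) ∈ (L.bc φ).M0 := fun i => by
          rw [bc_M0 h]; exact incl_mem_bcS (hs i)
        choose d hd using fun i => hl' _ (hmem0 i)
        choose c hc using fun i => (hmem y).mp hy.1 i
        refine ⟨∑ i, F (c i) * d i, sum_mem fun i _ => Ideal.mul_mem_right _ _
          (Ideal.mem_map_of_mem _ (Ideal.subset_span ⟨y, hy, l i, hl i, hc i⟩)), ?_⟩
        rw [hy', map_sum, map_sum]
        refine Finset.sum_congr rfl fun i _ => ?_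
        rw [map_smul, smul_eq_mul, map_mul, ← bMap_res0]
        exact congrArg₂ (· * ·) (congrArg (bMap X R φ) (hc i)) (hd i)
      | zero => exact ⟨0, zero_mem _, by rw [map_zero, map_zero]⟩
      | add u v _ _ hu hv =>
        obtain ⟨a, ha, hau⟩ := hu
        obtain ⟨c, hc, hcv⟩ := hv
        exact ⟨a + c, add_mem ha hc, by rw [map_add, map_add, hau, hcv]⟩
      | smul r u _ hu =>
        obtain ⟨a, ha, hau⟩ := hu
        exact ⟨r • a, by rw [Algebra.smul_def]; exact Ideal.mul_mem_left _ _ ha,
          by rw [map_smul, LinearMap.map_smul_of_tower, hau]⟩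
    obtain ⟨c, hc, hc'⟩ := key
    rwa [SetLike.mem_coe, res0_injective (X := X) R' (hb.trans hc'.symm)]
  · refine Ideal.map_le_iff_le_comap.mpr (Ideal.span_le.mpr ?_)
    rintro b ⟨x, hx, l', hl', hb⟩
    refine Ideal.subset_span ⟨L.incl R' x, (H0_bc h hA).ge (incl_mem_bcS hx), L.bcFun R' l',
      fun m hm => ?_, ?_⟩
    · rw [bc_M0 h] at hm
      induction hm using Submodule.span_induction with
      | mem m hm =>
        obtain ⟨y, hy, rfl⟩ := hm
        obtain ⟨c, hc⟩ := hl' y hy
        refine ⟨F c, ?_⟩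
        rw [bcFun_incl, ← hc]
        exact (bMap_res0 φ c).symm
      | zero => rw [map_zero]; exact zero_mem _
      | add u v _ _ hu hv => rw [map_add]; exact add_mem hu hv
      | smul r u _ hu => rw [LinearMap.map_smul_of_tower]; exact Submodule.smul_mem _ r hu
    · show res0 X R' (F b) = _
      rw [bcFun_incl, ← hb, bMap_res0]

end Tower

theorem secIdeal_bc {L : Pre X R} (h : L.Good) (hA : L.minus.Acyclic) {S : Type u} [CommRing S]
    [Algebra k S] (φ : R →ₐ[k] S) :
    (L.bc φ).secIdeal =
      L.secIdeal.map (Algebra.TensorProduct.map φ (AlgHom.id k X.A0)).toRingHom := by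
  letI := φ.toRingHom.toAlgebra
  haveI : IsScalarTower k R S := IsScalarTower.of_algebraMap_eq' φ.comp_algebraMap.symm
  exact secIdeal_bc_toAlgHom h hA

/-- The divisor of a bundle `O(D)`, `D` without speciality, is `D`. -/
theorem secIdeal_dual_idealPre {I : Ideal (R ⊗[k] X.A0)} (hI : IsDiv I)
    (hA : (idealPre X R I).dual.minus.Acyclic) : (idealPre X R I).dual.secIdeal = I := by
  obtain ⟨d⟩ := hI.nonempty_data
  set E := (idealPre X R I).dual
  let ι : E.N := (I.map (res0 X R).toRingHom).subtype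
  have hι : ι ∈ E.H0 := by
    refine ⟨?_, fun m hm => hm⟩
    rintro m ⟨b, -, hb⟩
    exact ⟨b, hb⟩
  refine le_antisymm (Ideal.span_le.mpr ?_) fun b hb => ?_
  · rintro b ⟨x, hx, L, hL, hb⟩
    -- every section is a multiple of the tautological one
    obtain ⟨M, hMx, hMy⟩ := d.exists_M
    obtain ⟨u, v, huv, hint⟩ := d.exists_coeff1 hMy
    obtain ⟨w, hw⟩ := exists_res1_eq_fPoly X R d.monic
    obtain ⟨c, hc⟩ := hx.2 (d.t M none) (d.t_mem1 hMx none)
    replace hc : res1 X R c = x (d.t M none) := hc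
    set r := evInf X R c
    have hxr : x = r • ι := by
      refine sub_eq_zero.mp (eq_zero_of_mem_minus hA (sub_mem hx.1 (E.M0.smul_mem r hι.1)) ?_)
      -- the values of `x - r ι` on near-infinity sections vanish at `Q`
      have key : ∀ z ∈ (idealPre X R I).M1, ∃ e, evInf X R e = 0 ∧
          res1 X R e = (x - r • ι : E.N) z := by
        intro z hz
        obtain ⟨p, hp⟩ := hz
        replace hp : res1 X R p = (z : B01 X R) := hp
        obtain ⟨q, hq⟩ := hx.2 z ⟨p, hp⟩
        replace hq : res1 X R q = x z := hq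
        refine ⟨q - r • p, ?_, ?_⟩
        · have e : (1 + ((1 : R) ⊗ₜ X.g) * w) * q = p * c := by
            refine res1_injective X R ?_
            have e2 : (res1 X R (1 + ((1 : R) ⊗ₜ X.g) * w)) * x z =
                (z : B01 X R) * x (d.t M none) := by
              rw [← hw, ← smul_eq_mul, ← smul_eq_mul (z : B01 X R), ← map_smul, ← map_smul]
              congr 1
              exact Subtype.ext (mul_comm _ _)
            rw [map_mul, map_mul, hq, hp, hc, e2]
          have h1 := congrArg (evInf X R) e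
          rw [map_mul, map_mul, map_add, map_one, map_mul, evInf_g, zero_mul, add_zero, one_mul]
            at h1
          rw [map_sub, map_smul, smul_eq_mul, h1, mul_comm, sub_self]
        · rw [map_sub, map_smul, hq, hp]
          rfl
      obtain ⟨n₁, s₁, l₁, hs₁, hsum₁, hmem₁⟩ := (good_idealPre hI).lattice1
      choose e he0 he using fun j => key (s₁ j) (hs₁ j)
      have e1 : (x - r • ι : E.N) = ∑ j, res1 X R (e j) • l₁ j := by
        refine LinearMap.ext fun z => ?_
        conv_lhs => rw [hsum₁ z, map_sum]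
        rw [LinearMap.sum_apply]
        exact Finset.sum_congr rfl fun j _ => by
          rw [map_smul, LinearMap.smul_apply, smul_eq_mul, smul_eq_mul, he j, mul_comm]
      rw [e1]
      exact sum_mem fun j _ => Submodule.subset_span
        ⟨e j, he0 j, l₁ j, fun m hm => (hmem₁ m).mp hm j, rfl⟩
    have hιexp : ι = ∑ i, res0 X R (d.x i) • d.l i := by
      refine LinearMap.ext fun z => ?_
      show (z : B01 X R) = _
      rw [LinearMap.sum_apply, ← d.sum_l_mul z]
      exact Finset.sum_congr rfl fun i _ => by rw [LinearMap.smul_apply, smul_eq_mul, mul_comm]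
    choose g hg using fun i => hL (d.l i) (fun m hm => d.l_mem_range0 i m hm)
    have e2 : b = r • ∑ i, d.x i * g i := by
      refine res0_injective (X := X) R ?_
      rw [hb, hxr, LinearMap.map_smul_of_tower, map_smul, hιexp, map_sum, map_sum]
      congr 1
      refine Finset.sum_congr rfl fun i _ => ?_
      rw [map_smul, smul_eq_mul, map_mul]
      exact congrArg _ (hg i).symm
    rw [SetLike.mem_coe, e2, Algebra.smul_def]
    exact I.mul_mem_left _ (sum_mem fun i _ => I.mul_mem_right _ (d.x_mem i))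
  · have : res0 X R b = ((⟨res0 X R b, Ideal.mem_map_of_mem _ hb⟩ :
        ↥(I.map (res0 X R).toRingHom)) : B01 X R) := rfl
    exact Ideal.subset_span ⟨ι, hι, LinearMap.applyₗ ⟨res0 X R b, Ideal.mem_map_of_mem _ hb⟩,
      fun m hm => hm _ ⟨b, hb, rfl⟩, this⟩

end Pre

end Fermat.Agent.RelPic

end
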