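import Fermat.Agent.RelPic.ChartSection

/-!
# A bundle is the bundle of the divisor of its sections

`L ≅ O(D) ⊗ H⁰(L)` for `L(-Q)` without cohomology and `D` the zeros of the sections.
-/

set_option autoImplicit false
set_option linter.style.haveILetI false
set_option linter.unusedSectionVars false

universe u

open TensorProduct

noncomputable section

namespace Fermat.Agent.RelPic

variable {k : Type u} [Field k] {X : Model k} {R : Type u} [CommRing R] [Algebra k R]

namespace Pre

theorem value_mem_secIdeal {L : Pre X R} (h : L.Good) {f : L.N →ₗ[B01 X R] B01 X R} {x : L.N}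
    (hx : x ∈ L.H0) : f x ∈ L.secIdeal.map (res0 X R).toRingHom := by
  obtain ⟨n, s, l, hs, hsum, hmem⟩ := h.lattice0
  rw [hsum x, map_sum]
  refine sum_mem fun i _ => ?_
  obtain ⟨c, hc⟩ := (hmem x).mp hx.1 i
  rw [map_smul, smul_eq_mul, ← hc]
  exact Ideal.mul_mem_right _ _ (Ideal.mem_map_of_mem _
    (Ideal.subset_span ⟨x, hx, l i, fun m hm => (hmem m).mp hm i, hc⟩))

/-- The values of a functional on the sections, inside the ideal of their divisor. -/
def valFun {L : Pre X R} (h : L.Good) (f : L.N →ₗ[B01 X R] B01 X R) :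
    L.H0 →ₗ[R] ↥(L.secIdeal.map (res0 X R).toRingHom) where
  toFun x := ⟨f x, value_mem_secIdeal h x.2⟩
  map_add' _ _ := Subtype.ext (map_add f _ _)
  map_smul' r x := Subtype.ext (LinearMap.map_smul_of_tower f r (x : L.N))

/-- Near infinity, the functions vanishing on the divisor are spanned by values of sections. -/
theorem mem_span_values1 {L : Pre X R} (h : L.Good) (hA : L.minus.Acyclic) {n : ℕ}
    {s : Fin n → L.N} {l : Fin n → L.N →ₗ[B01 X R] B01 X R} (hs : ∀ i, s i ∈ L.M1)
    (hsum : ∀ x, x = ∑ i, l i x • s i) {z : B01 X R}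
    (hz : z ∈ L.secIdeal.map (res0 X R).toRingHom) (hz1 : z ∈ (res1 X R).range) :
    z ∈ Submodule.span R {w | ∃ b, ∃ i, ∃ x ∈ L.H0, w = res1 X R b * l i x} := by
  classical
  haveI := h.invertible
  obtain ⟨w, hw⟩ := exists_smul_mem_secSpan1 h hA
  set C := res1 X R (1 + ((1 : R) ⊗ₜ X.g) * w) with hC
  set T := Submodule.span R {w | ∃ b, ∃ i, ∃ x ∈ L.H0, w = res1 X R b * l i x}
  have hstab : ∀ b, ∀ y ∈ T, res1 X R b * y ∈ T := by
    intro b y hy
    induction hy using Submodule.span_induction with
    | mem y hy =>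
      obtain ⟨c, i, x, hx, rfl⟩ := hy
      exact Submodule.subset_span ⟨b * c, i, x, hx, by rw [map_mul, mul_assoc]⟩
    | zero => rw [mul_zero]; exact zero_mem _
    | add a c _ _ ha hc => rw [mul_add]; exact add_mem ha hc
    | smul r a _ ha => rw [mul_smul_comm]; exact T.smul_mem r ha
  have hCT : C ∈ T := by
    have e : C = ∑ i, l i (C • s i) := by
      simp only [map_smul, smul_eq_mul]
      rw [← Finset.mul_sum, LatticeQuot.trace_eq_one hsum, mul_one]
    rw [e]
    refine sum_mem fun i _ => ?_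
    have hmem := hw _ (hs i)
    generalize C • s i = y at hmem ⊢
    induction hmem using Submodule.span_induction with
    | mem y hy =>
      obtain ⟨b, x, hx, rfl⟩ := hy
      exact Submodule.subset_span ⟨b, i, x, hx, by rw [map_smul, smul_eq_mul]⟩
    | zero => rw [map_zero]; exact zero_mem _
    | add a c _ _ ha hc => rw [map_add]; exact add_mem ha hc
    | smul r a _ ha => rw [LinearMap.map_smul_of_tower]; exact T.smul_mem r ha
  have hpow : ∀ c, ∀ i, ∀ x ∈ L.H0, ∃ j, ∀ m, j ≤ m →
      res1 X R ((1 : R) ⊗ₜ X.g) ^ m * (c * l i x) ∈ T := by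
    intro c i x hx
    obtain ⟨j, hj⟩ := exists_pow_mul_mem1 X R c
    refine ⟨j, fun m hm => ?_⟩
    obtain ⟨b, hb⟩ := hj m hm
    rw [← mul_assoc, ← hb]
    exact Submodule.subset_span ⟨b, i, x, hx, rfl⟩
  have hlarge : ∀ c : B01 X R, ∃ j, ∀ m, j ≤ m → res1 X R ((1 : R) ⊗ₜ X.g) ^ m * (c * z) ∈ T := by
    clear hz1
    induction hz using Submodule.span_induction with
    | mem y hy =>
      obtain ⟨b, hb, rfl⟩ := hy
      intro c
      induction hb using Submodule.span_induction generalizing c with
      | mem b hb =>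
        obtain ⟨x, hx, f, -, hbx⟩ := hb
        choose j hj using fun i => hpow (c * f (s i)) i x hx
        refine ⟨Finset.univ.sup j, fun m hm => ?_⟩
        have e : c * res0 X R b = ∑ i, c * f (s i) * l i x := by
          rw [hbx]
          conv_lhs => rw [hsum x, map_sum, Finset.mul_sum]
          exact Finset.sum_congr rfl fun i _ => by rw [map_smul, smul_eq_mul]; ring
        show _ * (c * res0 X R b) ∈ T
        rw [e, Finset.mul_sum]
        exact sum_mem fun i _ => hj i m ((Finset.le_sup (Finset.mem_univ i)).trans hm)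
      | zero => exact ⟨0, fun m _ => by rw [map_zero, mul_zero, mul_zero]; exact zero_mem _⟩
      | add a a' _ _ ha ha' =>
        obtain ⟨j, hj⟩ := ha c
        obtain ⟨j', hj'⟩ := ha' c
        refine ⟨max j j', fun m hm => ?_⟩
        rw [map_add, mul_add, mul_add]
        exact add_mem (hj m (le_trans (le_max_left _ _) hm)) (hj' m (le_trans (le_max_right _ _) hm))
      | smul a a' _ ha' =>
        obtain ⟨j, hj⟩ := ha' (c * res0 X R a)
        refine ⟨j, fun m hm => ?_⟩
        rw [smul_eq_mul, map_mul, ← mul_assoc c]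
        exact hj m hm
    | zero => intro c; exact ⟨0, fun m _ => by rw [mul_zero, mul_zero]; exact zero_mem _⟩
    | add a a' _ _ ha ha' =>
      intro c
      obtain ⟨j, hj⟩ := ha c
      obtain ⟨j', hj'⟩ := ha' c
      refine ⟨max j j', fun m hm => ?_⟩
      rw [mul_add, mul_add]
      exact add_mem (hj m (le_trans (le_max_left _ _) hm)) (hj' m (le_trans (le_max_right _ _) hm))
    | smul a a' _ ha' =>
      intro c
      obtain ⟨j, hj⟩ := ha' (c * a)
      refine ⟨j, fun m hm => ?_⟩
      rw [smul_eq_mul, ← mul_assoc c]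
      exact hj m hm
  obtain ⟨j, hj⟩ := hlarge 1
  have hcop : IsCoprime (1 + ((1 : R) ⊗ₜ[k] X.g) * w) ((1 : R) ⊗ₜ[k] X.g) := ⟨1, -w, by ring⟩
  obtain ⟨a, b, hab⟩ := hcop.pow_right (n := j)
  obtain ⟨p, hp⟩ := hz1
  have e : z = res1 X R (a * p) * C +
      res1 X R b * (res1 X R ((1 : R) ⊗ₜ X.g) ^ j * (1 * z)) := by
    have h1 : res1 X R a * C + res1 X R b * res1 X R ((1 : R) ⊗ₜ X.g) ^ j = 1 := by
      rw [hC, ← map_pow, ← map_mul, ← map_mul, ← map_add, hab, map_one]
    rw [map_mul]
    replace hp : res1 X R p = z := hp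
    rw [hp]
    linear_combination (-z) * h1
  rw [e]
  exact add_mem (hstab _ _ hCT) (hstab _ _ (hj j le_rfl))

/-- **A bundle is `O(D)` up to the sections**, `D` their divisor. -/
theorem modEquiv_dual_idealPre {L : Pre X R} (h : L.Good) (hA : L.minus.Acyclic)
    (hI : IsDiv L.secIdeal) : ModEquiv (idealPre X R L.secIdeal).dual L := by
  classical
  haveI := h.invertible
  haveI := invertible_H0 h hA
  have hE := good_idealPre hI
  haveI := hE.invertible
  set E := idealPre X R L.secIdeal
  refine ⟨L.H0, inferInstance, inferInstance, inferInstance, Iso.symm ?_⟩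
  have hsrc : (E.dual.tensor (ofModule X (R := R) L.H0)).Good := hE.dual.tensor good_ofModule
  haveI := hsrc.invertible
  obtain ⟨n, s, l, hs, hsum, hmem⟩ := h.lattice0
  let Li : Fin n → B01 X R ⊗[R] L.H0 →ₗ[B01 X R] E.N := fun i =>
    (valFun h (l i)).liftBaseChange (B01 X R)
  let Φ : (E.dual.tensor (ofModule X (R := R) L.H0)).N →ₗ[B01 X R] L.N :=
    ∑ i, (LinearMap.toSpanSingleton (B01 X R) L.N (s i)).comp (TensorProduct.lift
      ((LinearMap.id : E.dual.N →ₗ[B01 X R] E.N →ₗ[B01 X R] B01 X R).compl₂ (Li i)))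
  have hΦ : ∀ (φ : E.dual.N) (b : B01 X R) (x : L.H0),
      Φ (φ ⊗ₜ (b ⊗ₜ x)) = ∑ i, (b * φ (valFun h (l i) x)) • s i := by
    intro φ b x
    simp only [Φ, LinearMap.sum_apply, LinearMap.comp_apply, TensorProduct.lift.tmul,
      LinearMap.compl₂_apply, LinearMap.id_apply, LinearMap.toSpanSingleton_apply, Li,
      LinearMap.liftBaseChange_tmul, map_smul, smul_eq_mul]
  -- every functional on `L` takes the expected value
  have hval : ∀ (φ : E.dual.N) (x : L.H0) (f : L.N →ₗ[B01 X R] B01 X R),
      f (Φ (φ ⊗ₜ ((1 : B01 X R) ⊗ₜ x))) = φ (valFun h f x) := by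
    intro φ x f
    have e : valFun h f x = ∑ i, f (s i) • valFun h (l i) x := by
      refine Subtype.ext ?_
      rw [AddSubmonoidClass.coe_finsetSum]
      show f (x : L.N) = ∑ i, f (s i) * l i (x : L.N)
      conv_lhs => rw [hsum (x : L.N), map_sum]
      exact Finset.sum_congr rfl fun i _ => by rw [map_smul, smul_eq_mul, mul_comm]
    rw [hΦ, map_sum, e, map_sum]
    exact Finset.sum_congr rfl fun i _ => by
      rw [map_smul, map_smul, smul_eq_mul, smul_eq_mul, one_mul, mul_comm]
  -- lattices onto lattices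
  have hle : ∀ {B : Type u} [CommRing B] [Algebra R B] (res : B →ₐ[R] B01 X R)
      (Msrc : Submodule R (E.dual.tensor (ofModule X (R := R) L.H0)).N) (ME : Submodule R E.N)
      (M : Submodule R L.N),
      IsLattice res Msrc → IsLattice res ME → IsLattice res M →
      (∀ (φ : E.dual.N), (∀ m ∈ ME, φ m ∈ res.toLinearMap.range) → ∀ x : L.H0,
        φ ⊗ₜ ((1 : B01 X R) ⊗ₜ x) ∈ Msrc) →
      (∀ (m : ℕ) (S : Fin m → L.N) (f : Fin m → L.N →ₗ[B01 X R] B01 X R),
        (∀ i, S i ∈ M) → (∀ x, x = ∑ i, f i x • S i) →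
        (∀ x, x ∈ M ↔ ∀ i, f i x ∈ res.range) → ∀ z ∈ ME,
          (z : B01 X R) ∈ Submodule.span R {w | ∃ b, ∃ i, ∃ x ∈ L.H0, w = res b * f i x}) →
      M ≤ Msrc.map (Φ.restrictScalars R) := by
    intro B _ _ res Msrc ME M hMsrc hME hM hgenmem hgen
    obtain ⟨m, S, f, hS, hSsum, hSmem⟩ := hM
    obtain ⟨m', σ, τ, hσ, hτsum, hτmem⟩ := hME
    intro y hy
    have htr : ∑ t, τ t (σ t) = 1 := LatticeQuot.trace_eq_one hτsum
    have hy' : y = ∑ t, τ t (σ t) • y := by rw [← Finset.sum_smul, htr, one_smul]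
    rw [hy']
    refine sum_mem fun t _ => ?_
    have hz := hgen m S f hS hSsum hSmem (σ t) (hσ t)
    have key : ∀ w ∈ Submodule.span R {w | ∃ b, ∃ i, ∃ x ∈ L.H0, w = res b * f i x},
        ∀ z : E.N, (z : B01 X R) = w → τ t z • y ∈ Msrc.map (Φ.restrictScalars R) := by
      intro w hw
      induction hw using Submodule.span_induction with
      | mem w hw =>
        obtain ⟨b, i, x, hx, rfl⟩ := hw
        intro z hz
        obtain rfl : z = res b • valFun h (f i) ⟨x, hx⟩ := Subtype.ext hz
        obtain ⟨c, hc⟩ := (hSmem y).mp hy i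
        replace hc : res c = f i y := hc
        refine ⟨res (b * c) • (τ t ⊗ₜ ((1 : B01 X R) ⊗ₜ (⟨x, hx⟩ : L.H0))),
          hMsrc.smul_mem (b * c) (hgenmem _ (fun m hm => (hτmem m).mp hm t) _), ?_⟩
        show Φ _ = _
        rw [map_smul, map_smul, smul_eq_mul, mul_smul, map_mul, mul_smul, ← hval _ _ (f i),
          LatticeQuot.rankOne (f i) _ y, ← hc]
      | zero =>
        intro z hz
        obtain rfl : z = 0 := Subtype.ext hz
        rw [map_zero, zero_smul]
        exact zero_mem _
      | add u v hu' hv' hu hv =>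
        intro z hz
        have huI : u ∈ L.secIdeal.map (res0 X R).toRingHom := by
          clear hu hv hz hv'
          induction hu' using Submodule.span_induction with
          | mem w hw =>
            obtain ⟨b, i, x, hx, rfl⟩ := hw
            exact Ideal.mul_mem_left _ _ (value_mem_secIdeal h hx)
          | zero => exact zero_mem _
          | add p q _ _ hp hq => exact add_mem hp hq
          | smul r p _ hp => exact Submodule.smul_of_tower_mem _ r hp
        have hvI : v ∈ L.secIdeal.map (res0 X R).toRingHom := by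
          rw [eq_sub_of_add_eq' hz.symm]
          exact sub_mem z.2 huI
        obtain rfl : z = (⟨u, huI⟩ : E.N) + ⟨v, hvI⟩ := Subtype.ext hz
        rw [map_add, add_smul]
        exact add_mem (hu _ rfl) (hv _ rfl)
      | smul r u hu' hu =>
        intro z hz
        have huI : u ∈ L.secIdeal.map (res0 X R).toRingHom := by
          clear hu hz
          induction hu' using Submodule.span_induction with
          | mem w hw =>
            obtain ⟨b, i, x, hx, rfl⟩ := hw
            exact Ideal.mul_mem_left _ _ (value_mem_secIdeal h hx)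
          | zero => exact zero_mem _
          | add p q _ _ hp hq => exact add_mem hp hq
          | smul r p _ hp => exact Submodule.smul_of_tower_mem _ r hp
        obtain rfl : z = r • (⟨u, huI⟩ : E.N) := Subtype.ext hz
        rw [LinearMap.map_smul_of_tower, smul_assoc]
        exact Submodule.smul_mem _ r (hu _ rfl)
    exact key _ hz _ rfl
  have h0 : L.M0 ≤ ((E.dual.tensor (ofModule X (R := R) L.H0)).M0).map (Φ.restrictScalars R) := by
    refine hle (res0 X R) _ E.M0 _ hsrc.lattice0 hE.lattice0 h.lattice0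
      (fun φ hφ x => tmul_mem_tensor_M0 hφ ⟨(1 : R ⊗[k] X.A0) ⊗ₜ x, by simp⟩) ?_
    intro m S f hS hSsum hSmem z hz
    obtain ⟨c, hc, hcz⟩ := hz
    rw [show (z : B01 X R) = res0 X R c from hcz.symm]
    clear hcz
    induction hc using Submodule.span_induction with
    | mem c hc =>
      obtain ⟨x, hx, g, hg, hcx⟩ := hc
      rw [hcx, hSsum x, map_sum]
      refine sum_mem fun i _ => ?_
      obtain ⟨b, hb⟩ := hg _ (hS i)
      rw [map_smul, smul_eq_mul, ← hb, mul_comm]
      exact Submodule.subset_span ⟨b, i, x, hx, rfl⟩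
    | zero => rw [map_zero]; exact zero_mem _
    | add a b _ _ ha hb => rw [map_add]; exact add_mem ha hb
    | smul a b _ hb =>
      rw [smul_eq_mul, map_mul]
      generalize res0 X R b = w at hb ⊢
      induction hb using Submodule.span_induction with
      | mem w hw =>
        obtain ⟨b', i, x, hx, rfl⟩ := hw
        exact Submodule.subset_span ⟨a * b', i, x, hx, by rw [map_mul, mul_assoc]⟩
      | zero => rw [mul_zero]; exact zero_mem _
      | add p q _ _ hp hq => rw [mul_add]; exact add_mem hp hq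
      | smul r p _ hp => rw [mul_smul_comm]; exact Submodule.smul_mem _ r hp
  have h1 : L.M1 ≤ ((E.dual.tensor (ofModule X (R := R) L.H0)).M1).map (Φ.restrictScalars R) :=
    hle (res1 X R) _ E.M1 _ hsrc.lattice1 hE.lattice1 h.lattice1
      (fun φ hφ x => tmul_mem_tensor_M1 hφ ⟨(1 : R ⊗[k] X.A1) ⊗ₜ x, by simp⟩)
      (fun m S f hS hSsum _ z hz => mem_span_values1 h hA hS hSsum z.2 hz)
  have hsurj : Function.Surjective Φ := by
    intro y
    have : y ∈ LinearMap.range Φ := by
      rw [hsum y]
      refine sum_mem fun i _ => Submodule.smul_mem _ _ ?_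
      obtain ⟨z, -, hz⟩ := h0 (hs i)
      exact ⟨z, hz⟩
    exact this
  have hbij : Function.Bijective Φ := Module.Invertible.bijective_of_surjective hsurj
  refine ⟨LinearEquiv.ofBijective Φ hbij, le_antisymm ?_ h0, le_antisymm ?_ h1⟩
  · refine Submodule.map_le_iff_le_comap.mpr (Submodule.span_le.mpr ?_)
    rintro _ ⟨φ, hφ, _, ⟨w, rfl⟩, rfl⟩
    show Φ _ ∈ L.M0
    induction w using TensorProduct.induction_on with
    | zero => rw [map_zero, tmul_zero, map_zero]; exact zero_mem _
    | tmul b x =>
      rw [LinearMap.rTensor_tmul, hΦ]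
      refine sum_mem fun i _ => ?_
      obtain ⟨c, hc⟩ := (hmem x).mp x.2.1 i
      obtain ⟨d, hd⟩ := hφ (valFun h (l i) x) ⟨c, Ideal.subset_span
        ⟨x, x.2, l i, fun m hm => (hmem m).mp hm i, hc⟩, hc⟩
      replace hd : res0 X R d = φ (valFun h (l i) x) := hd
      rw [AlgHom.toLinearMap_apply, ← hd, ← map_mul]
      exact h.res0_smul_mem _ (hs i)
    | add a b ha hb => rw [map_add, tmul_add, map_add]; exact add_mem ha hb
  · refine Submodule.map_le_iff_le_comap.mpr (Submodule.span_le.mpr ?_)
    rintro _ ⟨φ, hφ, _, ⟨w, rfl⟩, rfl⟩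
    show Φ _ ∈ L.M1
    induction w using TensorProduct.induction_on with
    | zero => rw [map_zero, tmul_zero, map_zero]; exact zero_mem _
    | tmul b x =>
      obtain ⟨m, S, f, hS, hSsum, hSmem⟩ := h.lattice1
      rw [LinearMap.rTensor_tmul, AlgHom.toLinearMap_apply,
        show res1 X R b ⊗ₜ[R] x = res1 X R b • ((1 : B01 X R) ⊗ₜ[R] x) by
          rw [smul_tmul', smul_eq_mul, mul_one], tmul_smul, map_smul]
      refine h.res1_smul_mem b ((hSmem _).mpr fun i => ?_)
      rw [hval]
      exact hφ _ ((hSmem x).mp x.2.2 i)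
    | add a b ha hb => rw [map_add, tmul_add, map_add]; exact add_mem ha hb

end Pre

end Fermat.Agent.RelPic

end
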