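import Fermat.Agent.RelPic.BaseChange

/-!
# The complex of projective modules computing cohomology

For `m` large, `phi : M0 ⊓ M1(m) → M1(m) / M1` is a map of finite projective `R`-modules with
kernel `H0` and cokernel `H1`, and it commutes with base change.
-/

set_option autoImplicit false
set_option linter.style.haveILetI false
set_option linter.unusedSectionVars false

universe u

open TensorProduct

noncomputable section

namespace Fermat.Agent.RelPic

variable {k : Type u} [Field k] {X : Model k} {R : Type u} [CommRing R] [Algebra k R]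
  {R' : Type u} [CommRing R'] [Algebra k R'] [Algebra R R'] [IsScalarTower k R R']

attribute [local instance] b01Algebra

namespace Pre

variable (L : Pre X R)

/-- Degree zero term of the complex. -/
abbrev P0 (m : ℕ) : Submodule R L.N := L.M0 ⊓ (L.twist (m : ℤ)).M1

/-- The sublattice `M1` inside `M1(m)`. -/
abbrev Q1Sub (m : ℕ) : Submodule R ↥(L.twist (m : ℤ)).M1 :=
  L.M1.comap (L.twist (m : ℤ)).M1.subtype

/-- Degree one term of the complex. -/
abbrev Q1 (m : ℕ) : Type u := ↥(L.twist (m : ℤ)).M1 ⧸ L.Q1Sub m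

/-- The differential. -/
def phi (m : ℕ) : ↥(L.P0 m) →ₗ[R] L.Q1 m :=
  (L.Q1Sub m).mkQ.comp (Submodule.inclusion inf_le_right)

variable {L}

theorem Good.M1_le_twist (h : L.Good) (m : ℕ) : L.M1 ≤ (L.twist (m : ℤ)).M1 := by
  conv_lhs => rw [← twist_zero_M1 L]
  exact twist_M1_mono h (Int.natCast_nonneg m)

theorem phi_eq_zero_iff {m : ℕ} (x : L.P0 m) : L.phi m x = 0 ↔ (x : L.N) ∈ L.M1 := by
  simp [phi, Submodule.Quotient.mk_eq_zero]

theorem injective_phi_iff (h : L.Good) (m : ℕ) : Function.Injective (L.phi m) ↔ L.H0 = ⊥ := by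
  rw [injective_iff_map_eq_zero]
  constructor
  · intro hi
    rw [eq_bot_iff]
    intro x hx
    have := hi ⟨x, hx.1, h.M1_le_twist m hx.2⟩ ((phi_eq_zero_iff _).mpr hx.2)
    exact congrArg Subtype.val this
  · intro hb x hx
    have : (x : L.N) ∈ L.H0 := ⟨x.2.1, (phi_eq_zero_iff _).mp hx⟩
    rw [hb, Submodule.mem_bot] at this
    exact Subtype.ext this

theorem surjective_phi_iff (h : L.Good) {m : ℕ} (hm : L.M0 ⊔ (L.twist (m : ℤ)).M1 = ⊤) :
    Function.Surjective (L.phi m) ↔ L.M0 ⊔ L.M1 = ⊤ := by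
  constructor
  · intro hs
    refine top_le_iff.mp (hm ▸ sup_le le_sup_left fun t ht => ?_)
    obtain ⟨p, hp⟩ := hs (Submodule.Quotient.mk ⟨t, ht⟩)
    simp only [phi, LinearMap.comp_apply, Submodule.mkQ_apply, Submodule.Quotient.eq,
      Submodule.mem_comap, Submodule.subtype_apply, AddSubgroupClass.coe_sub,
      Submodule.coe_inclusion] at hp
    have : t = (p : L.N) - ((p : L.N) - t) := by abel
    rw [this]
    exact sub_mem (Submodule.mem_sup_left p.2.1) (Submodule.mem_sup_right hp)
  · intro htop q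
    induction q using Submodule.Quotient.induction_on with
    | _ t =>
      obtain ⟨a, ha, b, hb, hab⟩ :=
        Submodule.mem_sup.mp (show (t : L.N) ∈ L.M0 ⊔ L.M1 by rw [htop]; trivial)
      have hat : a ∈ (L.twist (m : ℤ)).M1 := by
        rw [eq_sub_of_add_eq hab]
        exact sub_mem t.2 (h.M1_le_twist m hb)
      refine ⟨⟨a, ha, hat⟩, ?_⟩
      simp only [phi, LinearMap.comp_apply, Submodule.mkQ_apply, Submodule.Quotient.eq,
        Submodule.mem_comap, Submodule.subtype_apply, AddSubgroupClass.coe_sub,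
        Submodule.coe_inclusion]
      rw [← hab, sub_add_eq_sub_sub, sub_self, zero_sub]
      exact neg_mem hb

theorem bijective_phi_iff (h : L.Good) {m : ℕ} (hm : L.M0 ⊔ (L.twist (m : ℤ)).M1 = ⊤) :
    Function.Bijective (L.phi m) ↔ L.Acyclic := by
  rw [Function.Bijective, injective_phi_iff h, surjective_phi_iff h hm, Acyclic, isCompl_iff,
    disjoint_iff, codisjoint_iff, H0]

theorem Good.projective_P0 (h : L.Good) {m : ℕ} (hm : L.M0 ⊔ (L.twist (m : ℤ)).M1 = ⊤) :
    Module.Projective R ↥(L.P0 m) := by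
  obtain ⟨π, hπ, hπ'⟩ := h.exists_retraction_inf hm
  exact h.projective_of_retraction π hπ hπ'

theorem Good.finite_P0 (h : L.Good) {m : ℕ} (hm : L.M0 ⊔ (L.twist (m : ℤ)).M1 = ⊤) :
    Module.Finite R ↥(L.P0 m) :=
  Module.Finite.iff_fg.mpr (h.fg_inf hm)

theorem Good.projective_Q1 (h : L.Good) (m : ℕ) : Module.Projective R (L.Q1 m) := by
  obtain ⟨π, hπ, hπ'⟩ := h.exists_retraction_M1
  haveI : Module.Projective R ↥(L.twist (m : ℤ)).M1 :=
    (h.twist _).projective_of_retraction _
      (h.twist (m : ℤ)).exists_retraction_M1.choose_spec.1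
      (h.twist (m : ℤ)).exists_retraction_M1.choose_spec.2
  let i : L.Q1 m →ₗ[R] ↥(L.twist (m : ℤ)).M1 :=
    (L.Q1Sub m).liftQ
      (LinearMap.id - ((π.comp (L.twist (m : ℤ)).M1.subtype).codRestrict _
        fun x => h.M1_le_twist m (hπ _)))
      fun x hx => by
        rw [LinearMap.mem_ker]
        exact Subtype.ext (sub_eq_zero.mpr (hπ' _ hx).symm)
  refine Module.Projective.of_split i (L.Q1Sub m).mkQ (LinearMap.ext fun q => ?_)
  induction q using Submodule.Quotient.induction_on with
  | _ t =>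
    simp only [i, LinearMap.comp_apply, Submodule.liftQ_apply, Submodule.mkQ_apply,
      LinearMap.id_apply, Submodule.Quotient.eq, LinearMap.sub_apply, sub_sub_cancel_left]
    exact neg_mem (hπ _)

theorem Good.finite_Q1 (h : L.Good) (m : ℕ) : Module.Finite R (L.Q1 m) := by
  obtain ⟨F, hF, hFle, hsup⟩ := h.exists_fg_sup m
  haveI := Module.Finite.iff_fg.mpr hF
  refine Module.Finite.of_surjective ((L.Q1Sub m).mkQ.comp (Submodule.inclusion hFle)) fun q => ?_
  induction q using Submodule.Quotient.induction_on with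
  | _ t =>
    obtain ⟨a, ha, b, hb, hab⟩ := Submodule.mem_sup.mp (hsup t.2)
    refine ⟨⟨a, ha⟩, ?_⟩
    simp only [LinearMap.comp_apply, Submodule.mkQ_apply, Submodule.Quotient.eq,
      Submodule.mem_comap, Submodule.subtype_apply, AddSubgroupClass.coe_sub,
      Submodule.coe_inclusion]
    rw [← hab, sub_add_eq_sub_sub, sub_self, zero_sub]
    exact neg_mem hb

/-! ### Base change -/

variable (R')

local notation "bL" => Pre.bc (IsScalarTower.toAlgHom k R R')

theorem Good.bc_sup_eq_top (h : L.Good) {m : ℕ} (hm : L.M0 ⊔ (L.twist (m : ℤ)).M1 = ⊤) :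
    (bL L).M0 ⊔ ((bL L).twist (m : ℤ)).M1 = ⊤ := by
  rw [bc_M0 h, bc_twist_M1 h, ← bcS_sup, hm, bcS_top]

theorem Good.bc_P0 (h : L.Good) {m : ℕ} (hm : L.M0 ⊔ (L.twist (m : ℤ)).M1 = ⊤) :
    (bL L).P0 m = L.bcS R' (L.P0 m) := by
  refine le_antisymm ?_ (le_inf ?_ ?_)
  · obtain ⟨π, π0, π1, A, B, hπ, h0, h1, hπeq⟩ := h.exists_retraction_inf_eq hm
    intro y hy
    obtain ⟨z, rfl⟩ := L.eqvMap_surjective R' y
    have fix : ∀ {W : Submodule R L.N} (ρ : L.N →ₗ[R] L.N), (∀ x ∈ W, ρ x = x) →
        L.eqvMap R' z ∈ L.bcS R' W → ρ.baseChange R' z = z := by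
      intro W ρ hρ hz
      have key : ∀ y ∈ L.bcS R' W,
          (h.eqv (R' := R')).conj (ρ.baseChange R') y = y := by
        intro y hy
        induction hy using Submodule.span_induction with
        | mem y hy =>
            obtain ⟨x, hx, rfl⟩ := hy
            have e : L.incl R' x = h.eqv (R' := R') ((1 : R') ⊗ₜ x) := by
              exact ((L.eqvMap_tmul R' 1 x).trans (one_smul R' (L.incl R' x))).symm
            rw [e, LinearEquiv.conj_apply_apply, LinearEquiv.symm_apply_apply,
              LinearMap.baseChange_tmul, hρ x hx]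
        | zero => simp
        | add a b _ _ ha hb => simp only [map_add, ha, hb]
        | smul r a _ ha => simp only [map_smul, ha]
      have := key _ hz
      rw [show L.eqvMap R' z = h.eqv (R' := R') z from rfl, LinearEquiv.conj_apply_apply,
        LinearEquiv.symm_apply_apply] at this
      exact (h.eqv (R' := R')).injective this
    have e0 := fix π0 h0 (bc_M0 (R' := R') h ▸ hy.1)
    have e1 := fix π1 h1 (bc_twist_M1 (R' := R') h (m : ℤ) ▸ hy.2)
    have ez : π.baseChange R' z = z := by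
      rw [hπeq]
      simp [LinearMap.baseChange_add, LinearMap.baseChange_comp, LinearMap.baseChange_sub, e0, e1]
    rw [← ez]
    clear ez e0 e1 fix hy
    induction z with
    | zero => simp
    | tmul r x =>
        rw [LinearMap.baseChange_tmul, eqvMap_tmul]
        exact Submodule.smul_mem _ r (incl_mem_bcS (hπ x))
    | add a b ha hb => rw [map_add, map_add]; exact add_mem ha hb
  · rw [bc_M0 h]; exact bcS_mono inf_le_left
  · rw [bc_twist_M1 h]; exact bcS_mono inf_le_right

/-- Extension of a direct summand. -/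
def subEquivMap (W : Submodule R L.N) : R' ⊗[R] W →ₗ[R'] ↥(L.bcS R' W) :=
  ((L.eqvMap R').comp (W.subtype.baseChange R')).codRestrict _ fun z => by
    induction z with
    | zero => simp
    | tmul r x =>
        rw [LinearMap.comp_apply, LinearMap.baseChange_tmul, eqvMap_tmul]
        exact Submodule.smul_mem _ r (incl_mem_bcS x.2)
    | add a b ha hb => rw [map_add]; exact add_mem ha hb

theorem coe_subEquivMap_tmul (W : Submodule R L.N) (r : R') (x : W) :
    ((subEquivMap R' W (r ⊗ₜ x) : L.bcS R' W) : (bL L).N) = r • L.incl R' x := by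
  exact L.eqvMap_tmul R' r (x : L.N)

theorem subEquivMap_bijective (h : L.Good) {W : Submodule R L.N} (π : L.N →ₗ[R] L.N)
    (hπ : ∀ x, π x ∈ W) (hπ' : ∀ x ∈ W, π x = x) :
    Function.Bijective (subEquivMap R' W) := by
  constructor
  · intro a b hab
    have h1 : W.subtype.baseChange R' a = W.subtype.baseChange R' b :=
      eqvMap_injective h (congrArg Subtype.val hab)
    have h2 := congrArg ((π.codRestrict W hπ).baseChange R') h1
    have e : (π.codRestrict W hπ).comp W.subtype = LinearMap.id :=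
      LinearMap.ext fun x => Subtype.ext (hπ' x x.2)
    rwa [← LinearMap.comp_apply, ← LinearMap.comp_apply, ← LinearMap.baseChange_comp, e,
      LinearMap.baseChange_id, LinearMap.id_apply, LinearMap.id_apply] at h2
  · rintro ⟨y, hy⟩
    induction hy using Submodule.span_induction with
    | mem y hy =>
        obtain ⟨x, hx, rfl⟩ := hy
        exact ⟨(1 : R') ⊗ₜ ⟨x, hx⟩,
          Subtype.ext ((coe_subEquivMap_tmul R' W 1 ⟨x, hx⟩).trans (one_smul R' (L.incl R' x)))⟩
    | zero => exact ⟨0, map_zero _⟩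
    | add a b _ _ ha hb =>
        obtain ⟨u, hu⟩ := ha
        obtain ⟨v, hv⟩ := hb
        exact ⟨u + v, by rw [map_add, hu, hv]; rfl⟩
    | smul r a _ ha =>
        obtain ⟨u, hu⟩ := ha
        exact ⟨r • u, by rw [map_smul, hu]; rfl⟩

/-- The complex commutes with base change. -/
theorem Good.exists_complex_bc (h : L.Good) {m : ℕ}
    (hm : L.M0 ⊔ (L.twist (m : ℤ)).M1 = ⊤) :
    ∃ (eP : R' ⊗[R] ↥(L.P0 m) ≃ₗ[R'] ↥((bL L).P0 m))
      (eQ : R' ⊗[R] L.Q1 m ≃ₗ[R'] (bL L).Q1 m),
      ∀ x, (bL L).phi m (eP x) = eQ ((L.phi m).baseChange R' x) := by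
  obtain ⟨π, hπ, hπ'⟩ := h.exists_retraction_inf hm
  obtain ⟨π1, hπ1, hπ1'⟩ := (h.twist (m : ℤ)).exists_retraction_M1
  let eP : R' ⊗[R] ↥(L.P0 m) ≃ₗ[R'] ↥((bL L).P0 m) :=
    (LinearEquiv.ofBijective _ (subEquivMap_bijective R' h π hπ hπ')).trans
      (LinearEquiv.ofEq _ _ (h.bc_P0 R' hm).symm)
  let eT : R' ⊗[R] ↥(L.twist (m : ℤ)).M1 ≃ₗ[R'] ↥((bL L).twist (m : ℤ)).M1 :=
    (LinearEquiv.ofBijective _
      (subEquivMap_bijective R' h (W := (L.twist (m : ℤ)).M1) π1 hπ1 hπ1')).trans
      (LinearEquiv.ofEq _ _ (bc_twist_M1 h (m : ℤ)).symm)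
  have eT_tmul : ∀ (r : R') (x : ↥(L.twist (m : ℤ)).M1),
      (eT (r ⊗ₜ x) : (bL L).N) = r • L.incl R' x := fun r x => coe_subEquivMap_tmul R' _ r x
  let g : R' ⊗[R] ↥(L.twist (m : ℤ)).M1 →ₗ[R'] (bL L).Q1 m :=
    ((bL L).Q1Sub m).mkQ.comp eT.toLinearMap
  have hgker : LinearMap.ker ((L.Q1Sub m).mkQ.baseChange R') = LinearMap.ker g := by
    apply le_antisymm
    · intro z hz
      have hex := lTensor_exact R' (LinearMap.exact_subtype_mkQ (L.Q1Sub m))
        (Submodule.mkQ_surjective _)
      obtain ⟨w, rfl⟩ := (hex z).mp hz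
      rw [LinearMap.mem_ker]
      clear hz
      induction w with
      | zero => simp
      | tmul r x =>
          show Submodule.Quotient.mk (eT (r ⊗ₜ (x : ↥(L.twist (m : ℤ)).M1))) = 0
          rw [Submodule.Quotient.mk_eq_zero, Submodule.mem_comap, Submodule.subtype_apply,
            eT_tmul, bc_M1 h]
          exact Submodule.smul_mem _ r (incl_mem_bcS x.2)
      | add a b ha hb => rw [map_add, map_add, ha, hb, add_zero]
    · intro z hz
      have hz' : (eT z : (bL L).N) ∈ (bL L).M1 := by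
        simpa [g, Submodule.Quotient.mk_eq_zero] using hz
      rw [bc_M1 h] at hz'
      have : ∀ y ∈ L.bcS R' L.M1, ∃ w ∈ LinearMap.ker ((L.Q1Sub m).mkQ.baseChange R'),
          (eT w : (bL L).N) = y := by
        intro y hy
        induction hy using Submodule.span_induction with
        | mem y hy =>
            obtain ⟨x, hx, rfl⟩ := hy
            refine ⟨(1 : R') ⊗ₜ ⟨x, h.M1_le_twist m hx⟩, ?_, ?_⟩
            · rw [LinearMap.mem_ker, LinearMap.baseChange_tmul, Submodule.mkQ_apply,
                (Submodule.Quotient.mk_eq_zero _).mpr (show _ ∈ L.Q1Sub m from hx), tmul_zero]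
            · exact (eT_tmul 1 _).trans (one_smul R' (L.incl R' x))
        | zero => exact ⟨0, zero_mem _, by simp⟩
        | add a b _ _ ha hb =>
            obtain ⟨u, hu, hu'⟩ := ha
            obtain ⟨v, hv, hv'⟩ := hb
            exact ⟨u + v, add_mem hu hv, by rw [map_add, Submodule.coe_add, hu', hv']⟩
        | smul r a _ ha =>
            obtain ⟨u, hu, hu'⟩ := ha
            exact ⟨r • u, Submodule.smul_mem _ r hu, by rw [map_smul, Submodule.coe_smul, hu']⟩
      obtain ⟨w, hw, hw'⟩ := this _ hz'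
      rwa [← eT.injective (Subtype.ext hw')]
  have hbs : Function.Surjective ((L.Q1Sub m).mkQ.baseChange R') :=
    LinearMap.lTensor_surjective _ (Submodule.mkQ_surjective _)
  have hgs : Function.Surjective g := (Submodule.mkQ_surjective _).comp eT.surjective
  let eQ : R' ⊗[R] L.Q1 m ≃ₗ[R'] (bL L).Q1 m :=
    (LinearMap.quotKerEquivOfSurjective _ hbs).symm ≪≫ₗ Submodule.quotEquivOfEq _ _ hgker ≪≫ₗ
      LinearMap.quotKerEquivOfSurjective g hgs
  have eQ_spec : ∀ z, eQ ((L.Q1Sub m).mkQ.baseChange R' z) = g z := by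
    intro z
    have : (LinearMap.quotKerEquivOfSurjective _ hbs).symm
        ((L.Q1Sub m).mkQ.baseChange R' z) = Submodule.Quotient.mk z := by
      rw [LinearEquiv.symm_apply_eq]
      rfl
    simp only [eQ, LinearEquiv.trans_apply, this, Submodule.quotEquivOfEq_mk]
    rfl
  refine ⟨eP, eQ, fun x => ?_⟩
  rw [show (L.phi m).baseChange R' x = (L.Q1Sub m).mkQ.baseChange R'
    ((Submodule.inclusion inf_le_right).baseChange R' x) from
      LinearMap.congr_fun
        (LinearMap.baseChange_comp (A := R') (Submodule.inclusion inf_le_right)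
          (L.Q1Sub m).mkQ) x, eQ_spec]
  show Submodule.Quotient.mk _ = Submodule.Quotient.mk _
  congr 1
  apply Subtype.ext
  induction x with
  | zero => simp
  | tmul r y =>
      rw [LinearMap.baseChange_tmul, LinearEquiv.coe_coe, eT_tmul, Submodule.coe_inclusion]
      exact coe_subEquivMap_tmul R' _ r y
  | add a b ha hb =>
      simp only [map_add, Submodule.coe_add, LinearEquiv.coe_coe] at ha hb ⊢
      rw [ha, hb]

theorem Good.bijective_phi_bc_iff (h : L.Good) {m : ℕ}
    (hm : L.M0 ⊔ (L.twist (m : ℤ)).M1 = ⊤) :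
    Function.Bijective ((L.phi m).baseChange R') ↔ (bL L).Acyclic := by
  obtain ⟨eP, eQ, he⟩ := h.exists_complex_bc R' hm
  rw [← bijective_phi_iff h.bc_toAlgHom (h.bc_sup_eq_top R' hm),
    ← Function.Bijective.of_comp_iff _ eP.bijective, ← Function.Bijective.of_comp_iff' eQ.bijective]
  exact Iff.of_eq (congrArg _ (funext fun x => (he x).symm))

section Field

variable {K : Type u} [Field K] [Algebra k K]

theorem chi_eq_finrank {L : Pre X K} (h : L.Good) {m : ℕ}
    (hm : L.M0 ⊔ (L.twist (m : ℤ)).M1 = ⊤) :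
    L.chi = (Module.finrank K ↥(L.P0 m) : ℤ) - (Module.finrank K (L.Q1 m) : ℤ) := by
  haveI := h.finite_P0 hm
  haveI := h.finite_Q1 m
  have h1 : Module.finrank K L.H0 = Module.finrank K (LinearMap.ker (L.phi m)) := by
    refine LinearEquiv.finrank_eq
      { toFun := fun x => ⟨⟨x, x.2.1, h.M1_le_twist m x.2.2⟩, (phi_eq_zero_iff _).mpr x.2.2⟩
        invFun := fun x => ⟨x.1, x.1.2.1, (phi_eq_zero_iff _).mp x.2⟩
        map_add' := fun x y => rfl
        map_smul' := fun c x => rfl
        left_inv := fun x => rfl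
        right_inv := fun x => rfl }
  let ψ : L.Q1 m →ₗ[K] L.H1 :=
    (L.Q1Sub m).liftQ ((L.M0 ⊔ L.M1).mkQ.comp (L.twist (m : ℤ)).M1.subtype) fun x hx => by
      simpa [Submodule.Quotient.mk_eq_zero] using
        Submodule.mem_sup_right (S := L.M0) (show (x : L.N) ∈ L.M1 from hx)
  have hψ : Function.Surjective ψ := by
    intro q
    induction q using Submodule.Quotient.induction_on with
    | _ y =>
      obtain ⟨a, ha, b, hb, hab⟩ :=
        Submodule.mem_sup.mp (show y ∈ L.M0 ⊔ (L.twist (m : ℤ)).M1 by rw [hm]; trivial)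
      refine ⟨Submodule.Quotient.mk ⟨b, hb⟩, ?_⟩
      show Submodule.Quotient.mk b = _
      rw [Submodule.Quotient.eq, ← hab, sub_add_eq_sub_sub, sub_right_comm, sub_self, zero_sub]
      exact neg_mem (Submodule.mem_sup_left ha)
  have hker : LinearMap.ker ψ = LinearMap.range (L.phi m) := by
    apply le_antisymm
    · intro q hq
      induction q using Submodule.Quotient.induction_on with
      | _ t =>
        have hq' : (t : L.N) ∈ L.M0 ⊔ L.M1 := by
          simpa [ψ, Submodule.Quotient.mk_eq_zero] using hq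
        obtain ⟨a, ha, b, hb, hab⟩ := Submodule.mem_sup.mp hq'
        have hat : a ∈ (L.twist (m : ℤ)).M1 := by
          rw [eq_sub_of_add_eq hab]; exact sub_mem t.2 (h.M1_le_twist m hb)
        refine ⟨⟨a, ha, hat⟩, ?_⟩
        simp only [phi, LinearMap.comp_apply, Submodule.mkQ_apply, Submodule.Quotient.eq,
          Submodule.mem_comap, Submodule.subtype_apply, AddSubgroupClass.coe_sub,
          Submodule.coe_inclusion]
        rw [← hab, sub_add_eq_sub_sub, sub_self, zero_sub]
        exact neg_mem hb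
    · rintro _ ⟨p, rfl⟩
      simpa [ψ, phi, Submodule.Quotient.mk_eq_zero] using Submodule.mem_sup_left p.2.1
  have h2 : Module.finrank K L.H1 + Module.finrank K (LinearMap.range (L.phi m)) =
      Module.finrank K (L.Q1 m) := by
    rw [← hker, ← (LinearMap.quotKerEquivOfSurjective ψ hψ).finrank_eq]
    exact Submodule.finrank_quotient_add_finrank _
  have h3 := LinearMap.finrank_range_add_finrank_ker (L.phi m)
  rw [chi, h1]
  omega

end Field

theorem Good.chi_bc_eq {K : Type u} [Field K] [Algebra k K] [Algebra R K] [IsScalarTower k R K]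
    (h : L.Good) {m : ℕ} (hm : L.M0 ⊔ (L.twist (m : ℤ)).M1 = ⊤) :
    (L.bc (IsScalarTower.toAlgHom k R K)).chi =
      (Module.finrank K (K ⊗[R] ↥(L.P0 m)) : ℤ) - (Module.finrank K (K ⊗[R] L.Q1 m) : ℤ) := by
  obtain ⟨eP, eQ, -⟩ := h.exists_complex_bc K hm
  rw [chi_eq_finrank h.bc_toAlgHom (h.bc_sup_eq_top K hm), eP.finrank_eq, eQ.finrank_eq]

theorem Good.exists_twist_nat (h : L.Good) :
    ∃ m : ℕ, L.M0 ⊔ (L.twist (m : ℤ)).M1 = ⊤ := by
  obtain ⟨m, hm⟩ := h.exists_sup_eq_top
  exact ⟨m, hm m le_rfl⟩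

end Pre

end Fermat.Agent.RelPic
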