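import Fermat.Agent.FF.Structure
import Mathlib.RingTheory.RingHom.StandardSmooth
import Mathlib.RingTheory.RingHom.Etale
import Mathlib.RingTheory.Unramified.LocalRing
import Mathlib.RingTheory.DiscreteValuationRing.TFAE
import Mathlib.RingTheory.Etale.Basic
import Mathlib.RingTheory.QuasiFinite.Basic
import Mathlib.RingTheory.Unramified.LocalStructure
import Mathlib.RingTheory.Flat.TorsionFree

/-!
# Standard smooth algebras of relative dimension one

The fraction field is a function field in one variable and the local rings at nonzero primes are
discrete valuation rings.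
-/

set_option autoImplicit false

noncomputable section

universe u

open scoped TensorProduct

namespace Fermat.Agent.RelPic

variable {k B : Type u} [Field k] [CommRing B] [Algebra k B]

/-- An étale coordinate. -/
theorem exists_etale_polynomial [Algebra.IsStandardSmoothOfRelativeDimension 1 k B] :
    ∃ h : Polynomial k →ₐ[k] B, h.toRingHom.Etale := by
  obtain ⟨g, hg⟩ := Algebra.IsStandardSmoothOfRelativeDimension.exists_etale_mvPolynomial 1 k B
  exact ⟨g.comp (MvPolynomial.uniqueAlgEquiv k (Fin 1)).symm.toAlgHom,
    RingHom.Etale.respectsIso.2 _ (MvPolynomial.uniqueAlgEquiv k (Fin 1)).symm.toRingEquiv hg⟩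

section Coord

variable [IsDomain B] [Algebra (Polynomial k) B] [Algebra.Etale (Polynomial k) B]

omit [Algebra k B] in
theorem coord_injective : Function.Injective (algebraMap (Polynomial k) B) :=
  FaithfulSMul.algebraMap_injective _ _

variable {F : Type u} [Field F] [Algebra B F] [IsFractionRing B F] [Algebra (Polynomial k) F]
  [IsScalarTower (Polynomial k) B F]

include B

omit [Algebra k B] [IsDomain B] in
theorem coord_injective' [IsDomain B] : Function.Injective (algebraMap (Polynomial k) F) := by
  rw [IsScalarTower.algebraMap_eq (Polynomial k) B F]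
  exact (IsFractionRing.injective B F).comp coord_injective

omit [Algebra k B] [IsDomain B] in
/-- The fraction field is finite over that of the coordinate ring. -/
theorem finite_fractionRing_coord [FaithfulSMul (Polynomial k) F] :
    letI := FractionRing.liftAlgebra (Polynomial k) F
    Module.Finite (FractionRing (Polynomial k)) F := by
  let := FractionRing.liftAlgebra (Polynomial k) F
  have : Algebra.QuasiFinite B F := .of_isLocalization (nonZeroDivisors B)
  have : Algebra.QuasiFinite (Polynomial k) F := .trans (Polynomial k) B F
  have : Algebra.QuasiFinite (FractionRing (Polynomial k)) F :=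
    .of_restrictScalars (Polynomial k) _ _
  exact .of_quasiFinite

end Coord


open scoped IntermediateField in
/-- The fraction field is a function field in one variable. -/
theorem isFunctionField_fractionRing (B : Type u) [CommRing B] [IsDomain B] [Algebra k B]
    [Algebra.IsStandardSmoothOfRelativeDimension 1 k B]
    (F : Type u) [Field F] [Algebra B F] [IsFractionRing B F] [Algebra k F] [IsScalarTower k B F] :
    FF.IsFunctionField k F := by
  obtain ⟨h, hh⟩ := exists_etale_polynomial (k := k) (B := B)
  let P := Polynomial k
  let : Algebra P B := h.toRingHom.toAlgebra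
  have : Algebra.Etale P B := hh
  let : Algebra P F := ((algebraMap B F).comp (algebraMap P B)).toAlgebra
  have : IsScalarTower P B F := IsScalarTower.of_algebraMap_eq' rfl
  have hinj : Function.Injective (algebraMap P F) := coord_injective' (B := B)
  have : FaithfulSMul P F := (faithfulSMul_iff_algebraMap_injective P F).mpr hinj
  let : Algebra (FractionRing P) F := FractionRing.liftAlgebra P F
  set x : F := algebraMap P F Polynomial.X with hx
  have haev : ∀ p : P, algebraMap P F p = Polynomial.aeval x p := by
    intro p
    let φ : P →ₐ[k] F := (IsScalarTower.toAlgHom k B F).comp h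
    show φ p = Polynomial.aeval x p
    rw [show x = φ Polynomial.X from rfl, Polynomial.aeval_algHom_apply, Polynomial.aeval_X_left,
      AlgHom.id_apply]
  refine ⟨x, transcendental_iff_injective.mpr fun p q e => hinj (by rwa [haev, haev]), ?_⟩
  obtain ⟨s, hs⟩ := (finite_fractionRing_coord (k := k) (B := B) (F := F)).fg_top
  have hc : ∀ c : FractionRing P, algebraMap (FractionRing P) F c ∈ k⟮x⟯ := fun c => by
    obtain ⟨a, b, -, rfl⟩ := IsFractionRing.div_surjective (A := P) c
    rw [map_div₀, ← IsScalarTower.algebraMap_apply, ← IsScalarTower.algebraMap_apply, haev, haev]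
    exact div_mem (IntermediateField.algebra_adjoin_le_adjoin k _
        (Polynomial.aeval_mem_adjoin_singleton k x))
      (IntermediateField.algebra_adjoin_le_adjoin k _ (Polynomial.aeval_mem_adjoin_singleton k x))
  refine ⟨s, eq_top_iff.mpr fun y _ => ?_⟩
  have hy : y ∈ Submodule.span (FractionRing P) (s : Set F) := hs ▸ Submodule.mem_top
  induction hy using Submodule.span_induction with
  | mem z hz => exact Submodule.subset_span hz
  | zero => exact Submodule.zero_mem _
  | add z w _ _ hz hw => exact Submodule.add_mem _ (hz Submodule.mem_top) (hw Submodule.mem_top)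
  | smul c z _ hz =>
    rw [Algebra.smul_def]
    exact Submodule.smul_mem _ (⟨_, hc c⟩ : k⟮x⟯) (hz Submodule.mem_top)

/-- The local ring at a nonzero prime is a discrete valuation ring. -/
theorem isDiscreteValuationRing_atPrime (k : Type u) [Field k] {B : Type u} [CommRing B]
    [IsDomain B] [Algebra k B] [Algebra.IsStandardSmoothOfRelativeDimension 1 k B]
    (q : Ideal B) [q.IsPrime] (hq : q ≠ ⊥) :
    IsDiscreteValuationRing (Localization.AtPrime q) := by
  obtain ⟨h, hh⟩ := exists_etale_polynomial (k := k) (B := B)
  let P := Polynomial k
  let : Algebra P B := h.toRingHom.toAlgebra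
  have : Algebra.Etale P B := hh
  have : IsNoetherianRing B := Algebra.FiniteType.isNoetherianRing P B
  let p : Ideal P := q.under P
  have : q.LiesOver p := ⟨rfl⟩
  let := Localization.AtPrime.algebraOfLiesOver p q
  have : Algebra.IsUnramifiedAt P q :=
    Algebra.FormallyUnramified.comp P B (Localization.AtPrime q)
  have hmap := ((Algebra.isUnramifiedAt_iff_map_eq P p q).mp this).2
  have hnf : ¬ IsField (Localization.AtPrime q) := fun hf => by
    obtain ⟨b, hb, hb0⟩ := Submodule.exists_mem_ne_zero_of_ne_bot hq
    have h1 : algebraMap B (Localization.AtPrime q) b ∈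
        IsLocalRing.maximalIdeal (Localization.AtPrime q) :=
      (IsLocalization.AtPrime.to_map_mem_maximal_iff _ q b).mpr hb
    rw [IsLocalRing.isField_iff_maximalIdeal_eq.mp hf, Ideal.mem_bot] at h1
    exact hb0 ((map_eq_zero_iff _ (IsLocalization.injective (Localization.AtPrime q)
      q.primeCompl_le_nonZeroDivisors)).mp h1)
  refine ((IsDiscreteValuationRing.TFAE (Localization.AtPrime q) hnf).out 0 4).mpr ?_
  obtain ⟨π, hπ⟩ := IsPrincipalIdealRing.principal p
  rw [← hmap, hπ, Ideal.submodule_span_eq, Ideal.map_span, Set.image_singleton]
  exact ⟨⟨_, rfl⟩⟩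

end Fermat.Agent.RelPic

end
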