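import Fermat.Agent.RelPic.Realization
import Fermat.Agent.RelPic.CurveRings

/-!
# Closed points of a smooth proper integral curve and places of its function field

Over an algebraically closed field the points different from the generic point correspond to the
places, and the sections over an open set are the functions regular at its points.
-/

set_option autoImplicit false
set_option linter.style.haveILetI false

noncomputable section

universe u

open CategoryTheory CategoryTheory.Limits AlgebraicGeometry AlgebraicCurve TopologicalSpace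

namespace Fermat.Agent.RelPic

open Fermat.Agent.FF

variable {k : Type u} [Field k] {C : Scheme.{u}} (c : C ⟶ Spec (CommRingCat.of k)) [IsIntegral C]

/-- The sections over an open set as an algebra over the base. -/
def secHom (V : C.Opens) : CommRingCat.of k ⟶ Γ(C, V) :=
  (Scheme.ΓSpecIso (CommRingCat.of k)).inv ≫ c.appLE ⊤ V le_top

omit [IsIntegral C] in
theorem fromSpec_secHom {V : C.Opens} (hV : IsAffineOpen V) :
    hV.fromSpec ≫ c = Spec.map (secHom c V) := by
  rw [← IsAffineOpen.SpecMap_appLE_fromSpec c (isAffineOpen_top _) hV le_top, secHom,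
    Spec.map_comp, IsAffineOpen.fromSpec_top, Scheme.isoSpec_Spec_inv]

/-- The function field, with the base acting through the structure map. -/
def FnField (_c : C ⟶ Spec (CommRingCat.of k)) : Type u := C.functionField

instance : Field (FnField c) := inferInstanceAs (Field C.functionField)

instance nonempty_topOpen : Nonempty (⊤ : C.Opens) := ⟨⟨genericPoint C, trivial⟩⟩

/-- The constants. -/
def fnConst : CommRingCat.of k ⟶ C.functionField :=
  secHom c ⊤ ≫ C.germToFunctionField ⊤

instance : Algebra k (FnField c) := (fnConst c).hom.toAlgebra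

theorem secHom_germ (V : C.Opens) [Nonempty V] :
    secHom c V ≫ C.germToFunctionField V = fnConst c := by
  rw [fnConst, secHom, secHom, Category.assoc, Category.assoc]
  congr 1
  rw [← c.appLE_map (le_top : (⊤ : C.Opens) ≤ c ⁻¹ᵁ ⊤) (homOfLE (le_top : V ≤ ⊤)).op,
    Category.assoc, TopCat.Presheaf.germ_res]

omit c in
theorem gen_mem (V : C.Opens) [h : Nonempty V] : genericPoint C ∈ V :=
  ((genericPoint_spec C).mem_open_set_iff V.isOpen).mpr (by simpa using h)

omit c [IsIntegral C] in
theorem nonempty_opens_of_mem {V : C.Opens} {x : C} (hx : x ∈ V) : Nonempty V := ⟨⟨x, hx⟩⟩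

/-- A section as a function. -/
def toFn (V : C.Opens) [Nonempty V] : Γ(C, V) →+* FnField c := (C.germToFunctionField V).hom

theorem toFn_injective (V : C.Opens) [Nonempty V] : Function.Injective (toFn c V) :=
  C.germToFunctionField_injective V

theorem toFn_res {V W : C.Opens} [Nonempty V] [Nonempty W] (h : W ≤ V) (a : Γ(C, V)) :
    toFn c W (C.presheaf.map (homOfLE h).op a) = toFn c V a :=
  C.presheaf.germ_res_apply (homOfLE h) _ (gen_mem W) a

/-- The local ring at a point inside the function field. -/
def stalkFn (x : C) : C.presheaf.stalk x →+* FnField c :=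
  algebraMap (C.presheaf.stalk x) C.functionField

theorem stalkFn_injective (x : C) : Function.Injective (stalkFn c x) :=
  IsFractionRing.injective (C.presheaf.stalk x) C.functionField

theorem stalkFn_germ {V : C.Opens} [Nonempty V] {x : C} (hx : x ∈ V) (a : Γ(C, V)) :
    stalkFn c x (C.presheaf.germ V x hx a) = toFn c V a :=
  Scheme.algebraMap_germ_eq_germToFunctionField C hx a

/-- The generic point as a morphism. -/
def genPt : Spec (CommRingCat.of (FnField c)) ⟶ C := C.fromSpecStalk (genericPoint C)

theorem genPt_eq {V : C.Opens} (hV : IsAffineOpen V) [Nonempty V] :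
    genPt c = Spec.map (CommRingCat.ofHom (toFn c V)) ≫ hV.fromSpec :=
  (hV.fromSpecStalk_eq_fromSpecStalk (gen_mem V)).symm

theorem genPt_eq' (x : C) :
    Spec.map (CommRingCat.ofHom (stalkFn c x)) ≫ C.fromSpecStalk x = genPt c :=
  Scheme.SpecMap_stalkSpecializes_fromSpecStalk ((genericPoint_spec C).specializes trivial)

theorem genPt_comp :
    genPt c ≫ c = Spec.map (CommRingCat.ofHom (algebraMap k (FnField c))) := by
  obtain ⟨_, ⟨V, hV', rfl⟩, hxV, -⟩ := C.isBasis_affineOpens.exists_subset_of_mem_open
    (Set.mem_univ (genericPoint C)) isOpen_univ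
  have hV : IsAffineOpen V := hV'
  have : Nonempty V := nonempty_opens_of_mem hxV
  rw [genPt_eq c hV, Category.assoc, fromSpec_secHom, ← Spec.map_comp]
  exact congrArg (fun φ => Spec.map φ) (secHom_germ c V)

variable {c}

/-- Morphisms from the spectrum of a subring of the function field into the curve agree if they
agree at the generic point. -/
theorem ext_spec [IsSeparated c] {A : Type u} [CommRing A] [IsDomain A] (ι : A →+* FnField c)
    (hι : Function.Injective ι) {f g : Spec (CommRingCat.of A) ⟶ C}
    (h : Spec.map (CommRingCat.ofHom ι) ≫ f = Spec.map (CommRingCat.ofHom ι) ≫ g) : f = g := by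
  have : IsDominant (Spec.map (CommRingCat.ofHom ι)) := ⟨by
    refine (PrimeSpectrum.denseRange_comap_iff_ker_le_nilRadical ι).mpr ?_
    rw [(RingHom.injective_iff_ker_eq_bot ι).mp hι]
    exact bot_le⟩
  refine ext_of_isDominant_of_isSeparated c ?_ _ h
  obtain ⟨φ, hφ⟩ : ∃ φ, Spec.map φ = f ≫ c := ⟨_, Spec.map_preimage _⟩
  obtain ⟨ψ, hψ⟩ : ∃ ψ, Spec.map ψ = g ≫ c := ⟨_, Spec.map_preimage _⟩
  have e : φ ≫ CommRingCat.ofHom ι = ψ ≫ CommRingCat.ofHom ι := Spec.map_injective (by
    rw [Spec.map_comp, Spec.map_comp, hφ, hψ, ← Category.assoc, h, Category.assoc])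
  rw [← hφ, ← hψ, show φ = ψ from CommRingCat.hom_ext (RingHom.ext fun r =>
    hι (RingHom.congr_fun (congrArg CommRingCat.Hom.hom e) r))]

/-- If the local ring at `y` contains that at `x`, then `y` specialises to `x`. -/
theorem specializes_of_comp [IsSeparated c] {x y : C}
    (ψ : C.presheaf.stalk x →+* C.presheaf.stalk y) (h : (stalkFn c y).comp ψ = stalkFn c x) :
    y ⤳ x := by
  have e : Spec.map (CommRingCat.ofHom ψ) ≫ C.fromSpecStalk x = C.fromSpecStalk y := by
    refine ext_spec (c := c) (stalkFn c y) (stalkFn_injective c y) ?_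
    rw [← Category.assoc, ← Spec.map_comp, ← CommRingCat.ofHom_comp, h]
    exact (genPt_eq' c x).trans (genPt_eq' c y).symm
  have hy : C.fromSpecStalk y (IsLocalRing.closedPoint _) ∈ Set.range (C.fromSpecStalk x) := by
    rw [← e]
    exact ⟨_, rfl⟩
  rwa [Scheme.fromSpecStalk_closedPoint, Scheme.range_fromSpecStalk] at hy

/-- If the sections over an affine open are regular at a point, the point lies in it. -/
theorem mem_of_comp [IsSeparated c] {V : C.Opens} (hV : IsAffineOpen V) [Nonempty V] {y : C}
    (h : ∀ a, toFn c V a ∈ (stalkFn c y).range) : y ∈ V := by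
  choose ψ hψ using h
  let ψh : Γ(C, V) →+* C.presheaf.stalk y :=
    { toFun := ψ
      map_one' := stalkFn_injective c y (by rw [hψ, map_one, map_one])
      map_mul' := fun a b => stalkFn_injective c y (by rw [map_mul, hψ, hψ, hψ, map_mul])
      map_zero' := stalkFn_injective c y (by rw [hψ, map_zero, map_zero])
      map_add' := fun a b => stalkFn_injective c y (by rw [map_add, hψ, hψ, hψ, map_add]) }
  have e : Spec.map (CommRingCat.ofHom ψh) ≫ hV.fromSpec = C.fromSpecStalk y := by
    refine ext_spec (c := c) (stalkFn c y) (stalkFn_injective c y) ?_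
    rw [← Category.assoc, ← Spec.map_comp, ← CommRingCat.ofHom_comp,
      show (stalkFn c y).comp ψh = toFn c V from RingHom.ext hψ]
    exact (genPt_eq c hV).symm.trans (genPt_eq' c y).symm
  have hy : C.fromSpecStalk y (IsLocalRing.closedPoint _) ∈ Set.range hV.fromSpec := by
    rw [← e]
    exact ⟨_, rfl⟩
  rw [Scheme.fromSpecStalk_closedPoint, hV.range_fromSpec] at hy
  exact hy

variable (c)

omit [IsIntegral C] in
/-- Around a point, a chart inside a given open which is standard smooth over the field. -/
theorem exists_smooth_chart [SmoothOfRelativeDimension 1 c] {x : C} {W : C.Opens} (hx : x ∈ W) :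
    ∃ V : C.Opens, IsAffineOpen V ∧ x ∈ V ∧ V ≤ W ∧
      (secHom c V).hom.IsStandardSmoothOfRelativeDimension 1 := by
  obtain ⟨U, hU, V, hV, hxV, e, h⟩ :=
    SmoothOfRelativeDimension.exists_isStandardSmoothOfRelativeDimension (n := 1) (f := c) x
  obtain rfl : U = ⊤ := top_le_iff.mp fun y _ => by
    rw [Subsingleton.elim y (c x)]
    exact e hxV
  obtain ⟨r, hr, hxr⟩ := hV.exists_basicOpen_le (V := W) ⟨x, hx⟩ hxV
  refine ⟨C.basicOpen r, hV.basicOpen r, hxr, hr, ?_⟩
  have := hV.isLocalization_basicOpen r
  have h1 : (C.presheaf.map (homOfLE (C.basicOpen_le r)).op).hom.IsStandardSmoothOfRelativeDimension 0 :=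
    RingHom.IsStandardSmoothOfRelativeDimension.algebraMap_isLocalizationAway r
  have h0 : (Scheme.ΓSpecIso (CommRingCat.of k)).inv.hom.IsStandardSmoothOfRelativeDimension 0 :=
    RingHom.IsStandardSmoothOfRelativeDimension.equiv
      (Scheme.ΓSpecIso (CommRingCat.of k)).symm.commRingCatIsoToRingEquiv
  have h2 := RingHom.IsStandardSmoothOfRelativeDimension.comp
    (RingHom.IsStandardSmoothOfRelativeDimension.comp h1 h) h0
  rw [secHom, ← c.appLE_map e (homOfLE (C.basicOpen_le r)).op]
  simp only [CommRingCat.hom_comp]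
  simpa using h2

instance isFunctionField_fnField [SmoothOfRelativeDimension 1 c] :
    IsFunctionField k (FnField c) := by
  obtain ⟨V, hV, hxV, -, hVs⟩ := exists_smooth_chart c (x := genericPoint C) (W := ⊤) trivial
  have : Nonempty V := nonempty_opens_of_mem hxV
  let : Algebra k Γ(C, V) := (secHom c V).hom.toAlgebra
  let : Algebra Γ(C, V) (FnField c) := (toFn c V).toAlgebra
  have : IsScalarTower k Γ(C, V) (FnField c) :=
    IsScalarTower.of_algebraMap_eq' (congrArg CommRingCat.Hom.hom (secHom_germ c V)).symm
  have : IsFractionRing Γ(C, V) (FnField c) := functionField_isFractionRing_of_isAffineOpen C V hV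
  have : Algebra.IsStandardSmoothOfRelativeDimension 1 k Γ(C, V) := hVs
  exact isFunctionField_fractionRing Γ(C, V) (FnField c)

/-- The local ring at a point different from the generic point is a discrete valuation ring. -/
theorem isDVR_stalk [SmoothOfRelativeDimension 1 c] {x : C} (hx : x ≠ genericPoint C) :
    IsDiscreteValuationRing (C.presheaf.stalk x) := by
  obtain ⟨V, hV, hxV, -, hVs⟩ := exists_smooth_chart c (x := x) (W := ⊤) trivial
  have : Nonempty V := nonempty_opens_of_mem hxV
  let : Algebra k Γ(C, V) := (secHom c V).hom.toAlgebra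
  have : Algebra.IsStandardSmoothOfRelativeDimension 1 k Γ(C, V) := hVs
  set q := (hV.primeIdealOf ⟨x, hxV⟩).asIdeal with hq
  have hq0 : q ≠ ⊥ := fun h0 => hx (by
    have e : hV.primeIdealOf ⟨x, hxV⟩ = hV.primeIdealOf ⟨genericPoint C, gen_mem V⟩ := by
      rw [hV.primeIdealOf_genericPoint, genericPoint_eq_bot_of_affine]
      exact PrimeSpectrum.ext h0
    have := congrArg hV.fromSpec e
    rwa [hV.fromSpec_primeIdealOf, hV.fromSpec_primeIdealOf] at this)
  have := isDiscreteValuationRing_atPrime k q hq0
  let := TopCat.Presheaf.algebra_section_stalk C.presheaf (⟨x, hxV⟩ : V)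
  have := hV.isLocalization_stalk ⟨x, hxV⟩
  exact IsDiscreteValuationRing.RingEquivClass.isDiscreteValuationRing
    (IsLocalization.algEquiv q.primeCompl (Localization.AtPrime q)
      (C.presheaf.stalk x)).toRingEquiv

variable [SmoothOfRelativeDimension 1 c]

/-- The valuation ring at a point different from the generic point. -/
def valRingAt {x : C} (hx : x ≠ genericPoint C) : ValuationSubring (FnField c) :=
  { (stalkFn c x).range with
    mem_or_inv_mem' := fun a => by
      have := isDVR_stalk c hx
      rcases ValuationRing.isInteger_or_isInteger (C.presheaf.stalk x) (K := C.functionField) a with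
        ⟨b, hb⟩ | ⟨b, hb⟩
      · exact Or.inl ⟨b, hb⟩
      · exact Or.inr ⟨b, hb⟩ }

theorem mem_valRingAt {x : C} (hx : x ≠ genericPoint C) {a : FnField c} :
    a ∈ valRingAt c hx ↔ a ∈ (stalkFn c x).range := Iff.rfl

/-- The place at a point different from the generic point. -/
def placeAt {x : C} (hx : x ≠ genericPoint C) : Place k (FnField c) :=
  placeOfValuationSubring (valRingAt c hx)
    (fun a => ⟨C.presheaf.germ ⊤ x trivial (secHom c ⊤ a), stalkFn_germ c (V := ⊤) trivial _⟩)
    (fun htop => by
      have := isDVR_stalk c hx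
      refine IsDiscreteValuationRing.not_isField (C.presheaf.stalk x) ?_
      refine MulEquiv.isField (Field.toIsField (FnField c))
        (RingEquiv.ofBijective (stalkFn c x) ⟨stalkFn_injective c x, fun a => ?_⟩).toMulEquiv
      exact (mem_valRingAt c hx).mp (htop ▸ ValuationSubring.mem_top a))

theorem mem_placeAt {x : C} (hx : x ≠ genericPoint C) {a : FnField c} :
    a ∈ (placeAt c hx).toValuationSubring ↔ a ∈ (stalkFn c x).range := Iff.rfl

theorem toFn_mem_placeAt {V : C.Opens} [Nonempty V] {x : C} (hxV : x ∈ V)
    (hx : x ≠ genericPoint C) (a : Γ(C, V)) :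
    toFn c V a ∈ (placeAt c hx).toValuationSubring :=
  ⟨_, stalkFn_germ c hxV a⟩

variable {c}

theorem eq_of_placeAt_eq [IsSeparated c] {x y : C} {hx : x ≠ genericPoint C}
    {hy : y ≠ genericPoint C} (h : placeAt c hx = placeAt c hy) : x = y := by
  have key : ∀ {x y : C} {hx : x ≠ genericPoint C} {hy : y ≠ genericPoint C},
      placeAt c hx = placeAt c hy → y ⤳ x := by
    intro x y hx hy h
    have hm : ∀ b, stalkFn c x b ∈ (stalkFn c y).range := fun b => by
      rw [← mem_placeAt c hy, ← h, mem_placeAt]
      exact ⟨b, rfl⟩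
    choose ψ hψ using hm
    exact specializes_of_comp (c := c)
      { toFun := ψ
        map_one' := stalkFn_injective c y (by rw [hψ, map_one, map_one])
        map_mul' := fun a b => stalkFn_injective c y (by rw [map_mul, hψ, hψ, hψ, map_mul])
        map_zero' := stalkFn_injective c y (by rw [hψ, map_zero, map_zero])
        map_add' := fun a b => stalkFn_injective c y (by rw [map_add, hψ, hψ, hψ, map_add]) }
      (RingHom.ext hψ)
  exact ((key h.symm).antisymm (key h)).eq

/-- Every place has a centre. -/
theorem exists_centre [IsProper c] (v : Place k (FnField c)) :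
    ∃ (x : C) (hx : x ≠ genericPoint C), placeAt c hx = v := by
  let S : ValuativeCommSq c :=
    { R := v.toValuationSubring
      K := FnField c
      i₁ := genPt c
      i₂ := Spec.map (CommRingCat.ofHom (algebraMap k v.toValuationSubring))
      commSq := ⟨by
        rw [genPt_comp, ← Spec.map_comp, ← CommRingCat.ofHom_comp,
          ← IsScalarTower.algebraMap_eq k v.toValuationSubring (FnField c)]⟩ }
  have hex : ValuativeCriterion.Existence c :=
    ((UniversallyClosed.eq_valuativeCriterion.le _ _ _) (inferInstance : UniversallyClosed c)).1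
  obtain ⟨l⟩ := (CommSq.HasLift.iff _).mp (hex S)
  set x := l.l (IsLocalRing.closedPoint v.toValuationSubring) with hxdef
  set φ := Scheme.stalkClosedPointTo l.l with hφ
  have e : φ ≫ CommRingCat.ofHom (algebraMap v.toValuationSubring (FnField c)) =
      CommRingCat.ofHom (stalkFn c x) := by
    refine Spec.map_injective ((cancel_mono (C.fromSpecStalk x)).mp ?_)
    rw [Spec.map_comp, Category.assoc, Scheme.Spec_stalkClosedPointTo_fromSpecStalk, genPt_eq']
    exact l.fac_left
  have hmem : ∀ b, stalkFn c x b ∈ v.toValuationSubring := fun b => by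
    have h : ((φ b : v.toValuationSubring) : FnField c) = stalkFn c x b :=
      RingHom.congr_fun (congrArg CommRingCat.Hom.hom e) b
    rw [← h]
    exact (φ b).2
  have hx : x ≠ genericPoint C := fun hx => v.ne_top' (eq_top_iff.mpr fun a _ => by
    obtain ⟨b, rfl⟩ : a ∈ (stalkFn c x).range := by
      rw [hx]
      exact ⟨a, RingHom.congr_fun (congrArg CommRingCat.Hom.hom
        (C.presheaf.stalkSpecializes_refl (genericPoint C))) a⟩
    exact hmem b)
  exact ⟨x, hx, eq_of_le fun a ha => by
    obtain ⟨b, rfl⟩ := (mem_placeAt c hx).mp ha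
    exact hmem b⟩

variable [IsProper c]

/-- The centre of a place. -/
def centre (v : Place k (FnField c)) : C := (exists_centre v).choose

theorem centre_ne (v : Place k (FnField c)) : centre v ≠ genericPoint C :=
  (exists_centre v).choose_spec.choose

theorem placeAt_centre (v : Place k (FnField c)) : placeAt c (centre_ne v) = v :=
  (exists_centre v).choose_spec.choose_spec

theorem centre_placeAt {x : C} (hx : x ≠ genericPoint C) : centre (placeAt c hx) = x :=
  eq_of_placeAt_eq (placeAt_centre _)

theorem isClosed_centre (v : Place k (FnField c)) : IsClosed ({centre v} : Set C) := by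
  have hx := centre_ne v
  generalize centre v = x at hx ⊢
  rw [← closure_subset_iff_isClosed]
  intro y hy
  have hs : x ⤳ y := specializes_iff_mem_closure.mpr hy
  have hyg : y ≠ genericPoint C := fun e => hx
    (((e ▸ hs).antisymm ((genericPoint_spec C).specializes trivial)).eq)
  have h : placeAt c hyg = placeAt c hx := eq_of_le fun a ha => by
    obtain ⟨b, rfl⟩ := (mem_placeAt c hyg).mp ha
    refine ⟨C.presheaf.stalkSpecializes hs b, ?_⟩
    exact RingHom.congr_fun (congrArg CommRingCat.Hom.hom
      (C.presheaf.stalkSpecializes_comp ((genericPoint_spec C).specializes trivial) hs)) b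
  exact eq_of_placeAt_eq h

omit [IsProper c] in
/-- The sections over an open set are the functions regular at its points. -/
theorem mem_range_toFn {U : C.Opens} [Nonempty U] {a : FnField c}
    (h : ∀ x ∈ U, ∀ hx : x ≠ genericPoint C, a ∈ (placeAt c hx).toValuationSubring) :
    ∃ s, toFn c U s = a := by
  have hloc : ∀ x : U, ∃ (W : C.Opens) (_ : W ≤ U) (_ : x.1 ∈ W) (_ : Nonempty W) (s : Γ(C, W)),
      toFn c W s = a := by
    rintro ⟨x, hxU⟩
    obtain ⟨b, hb⟩ : a ∈ (stalkFn c x).range := by
      by_cases hx : x = genericPoint C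
      · subst hx
        exact ⟨a, RingHom.congr_fun (congrArg CommRingCat.Hom.hom
          (C.presheaf.stalkSpecializes_refl (genericPoint C))) a⟩
      · exact (mem_placeAt c hx).mp (h x hxU hx)
    obtain ⟨W, hxW, s, hs⟩ := C.presheaf.exists_germ_eq b
    have : Nonempty W := nonempty_opens_of_mem hxW
    have : Nonempty (W ⊓ U : C.Opens) := ⟨⟨x, hxW, hxU⟩⟩
    refine ⟨W ⊓ U, inf_le_right, ⟨hxW, hxU⟩, this,
      C.presheaf.map (homOfLE (inf_le_left : W ⊓ U ≤ W)).op s, ?_⟩
    rw [toFn_res, ← stalkFn_germ c hxW s, hs, hb]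
  choose W hWU hxW hne s hs using hloc
  have hc : TopCat.Presheaf.IsCompatible C.presheaf W s := fun i j => by
    have := hne i
    have := hne j
    have : Nonempty (W i ⊓ W j : C.Opens) :=
      ⟨⟨genericPoint C, gen_mem (W i), gen_mem (W j)⟩⟩
    refine toFn_injective c (W i ⊓ W j) ?_
    exact ((toFn_res c inf_le_left _).trans (hs i)).trans
      ((toFn_res c inf_le_right _).trans (hs j)).symm
  obtain ⟨t, ht, -⟩ := C.sheaf.existsUnique_gluing' W U (fun i => homOfLE (hWU i))
    (fun x hx => Opens.mem_iSup.mpr ⟨⟨x, hx⟩, hxW ⟨x, hx⟩⟩) s hc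
  obtain ⟨⟨x, hx⟩⟩ := ‹Nonempty U›
  have := hne ⟨x, hx⟩
  exact ⟨t, (toFn_res c (hWU ⟨x, hx⟩) t).symm.trans
    ((congrArg (toFn c (W ⟨x, hx⟩)) (ht ⟨x, hx⟩)).trans (hs ⟨x, hx⟩))⟩

end Fermat.Agent.RelPic

end
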