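import Fermat.Agent.RelPic.CurveModel
import Fermat.Agent.RelPic.CurvePlaces
import Fermat.Agent.FF.Along

/-!
# A smooth proper integral curve has a two-piece model

The complement of the poles of a nonconstant function is affine, with coordinate ring the functions
regular away from the poles.
-/

set_option autoImplicit false
set_option linter.style.haveILetI false

noncomputable section

universe u

open CategoryTheory CategoryTheory.Limits AlgebraicGeometry AlgebraicCurve TopologicalSpace
open NeronModelInfra

namespace Fermat.Agent.RelPic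

open Fermat.Agent.FF

section Separate

variable {k F : Type u} [Field k] [IsAlgClosed k] [Field F] [Algebra k F] [IsFunctionField k F]

theorem degree_single (v : Place k F) (n : ℤ) : Divisor.degree (Finsupp.single v n) = n := by
  rw [degree_eq_sum _ {v} Finsupp.support_single_subset, Finset.sum_singleton,
    Finsupp.single_eq_same, deg_eq_one, Nat.cast_one, mul_one]

/-- A function regular away from the poles of `f` which vanishes at given places but not at
another. -/
theorem exists_separate {f : F} (hf : Transcendental k f) {v : Place k F}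
    (hv : f ∈ v.toValuationSubring) (S : Finset (Place k F))
    (hS : ∀ w ∈ S, f ∈ w.toValuationSubring) (hvS : v ∉ S) :
    ∃ s ∈ reg k ({f} : Set F), (∀ w ∈ S, s ∈ ordGe w 1) ∧ s ∉ ordGe v 1 := by
  classical
  have hp0 : ∀ w : Place k F, f ∈ w.toValuationSubring → poles k f w = 0 := fun w hw => by
    have := ord_nonneg w hw
    rw [poles_apply]; omega
  obtain ⟨v₀, hv₀⟩ := exists_ord_neg_of_transcendental (K := k) hf
  have hd : 1 ≤ Divisor.degree (poles k f) := by
    refine le_trans (le_of_eq (degree_single v₀ 1).symm) (degree_mono (Finsupp.le_def.mpr fun w => ?_))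
    rcases eq_or_ne w v₀ with rfl | hw
    · rw [Finsupp.single_eq_same, poles_apply]; omega
    · rw [Finsupp.single_eq_of_ne hw]
      exact Finsupp.le_def.mp (poles_nonneg f) w
  set E : Divisor k F := ∑ w ∈ S, Finsupp.single w 1 with hE
  have hEw : ∀ w : Place k F, E w = if w ∈ S then 1 else 0 := fun w => by
    rw [hE, Finsupp.finsetSum_apply]
    simp [Finsupp.single_apply]
  obtain ⟨N, hN⟩ := exists_ell_eq (K := k) (F := F)
  set n : ℕ := N.toNat + (Divisor.degree E).toNat + 1 with hn
  set D : Divisor k F := n • poles k f - E with hD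
  have hdegD : N + 1 ≤ Divisor.degree D := by
    rw [hD, map_sub, map_nsmul, nsmul_eq_mul]
    have : (n : ℤ) ≤ n * Divisor.degree (poles k f) := le_mul_of_one_le_right (Int.natCast_nonneg _) hd
    omega
  have hlt : ell k (D - Finsupp.single v 1) < ell k D := by
    rw [hN D (by omega), hN _ (by rw [map_sub, degree_single]; omega), map_sub, degree_single]
    omega
  have hle : riemannRochSpace (D - Finsupp.single v 1) ≤ riemannRochSpace D :=
    riemannRochSpace_mono (sub_le_self _ (Finsupp.single_nonneg.mpr zero_le_one))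
  obtain ⟨s, hs, hs'⟩ := SetLike.exists_of_lt (lt_of_le_of_ne hle fun e => by
    rw [ell, ell, e] at hlt; exact lt_irrefl _ hlt)
  rw [mem_riemannRochSpace'] at hs hs'
  push Not at hs'
  obtain ⟨w, hw⟩ := hs'
  have hDw : ∀ w, D w = (n : ℤ) * poles k f w - (if w ∈ S then 1 else 0) := fun w => by
    rw [hD, Finsupp.sub_apply, Finsupp.smul_apply, nsmul_eq_mul, hEw]
  refine ⟨s, fun w hw => (mem_ordGe_zero w).mp (ordGe_anti w ?_ (hs w)), fun w hwS => ?_, ?_⟩
  · rw [hDw, hp0 w (hw f rfl), mul_zero]
    split_ifs <;> norm_num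
  · refine ordGe_anti w ?_ (hs w)
    rw [hDw, hp0 w (hS w hwS), if_pos hwS]
    norm_num
  · rcases eq_or_ne w v with rfl | hne
    · intro h
      refine hw (ordGe_anti w ?_ h)
      rw [Finsupp.sub_apply, Finsupp.single_eq_same, hDw, hp0 w hv, if_neg hvS]
      norm_num
    · exact absurd (by simpa [hne] using hs w) hw

omit [IsAlgClosed k] in
/-- A function with a single pole. -/
theorem exists_single_pole (v : Place k F) : ∃ f : F, ∀ w : Place k F, w.ord f < 0 ↔ w = v := by
  obtain ⟨z, hz, hz'⟩ := FF.exists_single_pole v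
  exact ⟨z, fun w => ⟨fun hw => by_contra fun h => not_le.2 hw (hz' w h), fun h => h ▸ hz⟩⟩

end Separate

variable {k : Type u} [Field k] [IsAlgClosed k] {C : Scheme.{u}}
  (c : C ⟶ Spec (CommRingCat.of k)) [IsIntegral C] [IsProper c] [SmoothOfRelativeDimension 1 c]

/-- The complement of the poles. -/
def regOpen (f : FnField c) : C.Opens :=
  ⟨{x | ∀ hx : x ≠ genericPoint C, f ∈ (placeAt c hx).toValuationSubring}, by
    rw [← isClosed_compl_iff]
    have e : {x | ∀ hx : x ≠ genericPoint C, f ∈ (placeAt c hx).toValuationSubring}ᶜ =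
        ⋃ v ∈ {v : Place k (FnField c) | v.ord f < 0}, {centre v} := by
      ext x
      simp only [Set.mem_compl_iff, Set.mem_ofPred_eq, Set.mem_iUnion, Set.mem_singleton_iff,
        not_forall, exists_prop]
      constructor
      · rintro ⟨hx, h⟩
        refine ⟨placeAt c hx, ?_, (centre_placeAt hx).symm⟩
        by_contra h'
        exact h ((mem_iff _).mpr (Or.inr (not_lt.mp h')))
      · rintro ⟨v, hv, rfl⟩
        refine ⟨centre_ne v, fun h => ?_⟩
        rw [placeAt_centre] at h
        have := ord_nonneg v h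
        omega
    rw [e]
    exact (finite_poles (K := k) f).isClosed_biUnion fun v _ => isClosed_centre v⟩

instance nonempty_regOpen (f : FnField c) : Nonempty (regOpen c f) :=
  ⟨⟨genericPoint C, fun h => absurd rfl h⟩⟩

omit [IsAlgClosed k] in
theorem centre_mem_regOpen {f : FnField c} {v : Place k (FnField c)} :
    centre v ∈ regOpen c f ↔ f ∈ v.toValuationSubring := by
  refine ⟨fun h => ?_, fun h hx => ?_⟩
  · have := h (centre_ne v)
    rwa [placeAt_centre] at this
  · rwa [placeAt_centre]

omit [IsAlgClosed k] in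
theorem toFn_mem_reg (f : FnField c) (s : Γ(C, regOpen c f)) :
    toFn c (regOpen c f) s ∈ reg k ({f} : Set (FnField c)) := fun v hv => by
  have h := toFn_mem_placeAt c ((centre_mem_regOpen c).mpr (hv f rfl)) (centre_ne v) s
  rwa [placeAt_centre] at h

omit [IsAlgClosed k] in
theorem exists_toFn_eq {f a : FnField c} (ha : a ∈ reg k ({f} : Set (FnField c))) :
    ∃ s, toFn c (regOpen c f) s = a :=
  mem_range_toFn fun _ hxU hx => ha _ fun y hy => by
    rw [Set.mem_singleton_iff] at hy
    subst hy
    exact hxU hx

omit [IsAlgClosed k] [IsProper c] in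
theorem isUnit_germ_iff {V : C.Opens} [Nonempty V] {x : C} (hxV : x ∈ V)
    (hx : x ≠ genericPoint C) (s : Γ(C, V)) :
    IsUnit (C.presheaf.germ V x hxV s) ↔ toFn c V s ∉ ordGe (placeAt c hx) 1 := by
  have hs := toFn_mem_placeAt c hxV hx s
  constructor
  · intro hu h
    obtain ⟨t, ht⟩ := hu.exists_right_inv
    have e := congrArg (stalkFn c x) ht
    rw [map_mul, map_one, stalkFn_germ] at e
    have ht' : stalkFn c x t ∈ ordGe (placeAt c hx) 0 :=
      (mem_ordGe_zero _).mpr ⟨t, rfl⟩
    have h1 := mul_mem_ordGe _ h ht'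
    rw [e] at h1
    have := le_ord_of_mem_ordGe _ one_ne_zero h1
    simp at this
  · intro h
    have hne : toFn c V s ≠ 0 := fun h0 => h (by rw [h0]; exact zero_mem _)
    have h0 : (placeAt c hx).ord (toFn c V s) = 0 := by
      have h1 := ord_nonneg _ hs
      by_contra h2
      exact h (mem_ordGe_of_le _ (by omega))
    obtain ⟨t, ht⟩ : (toFn c V s)⁻¹ ∈ (stalkFn c x).range :=
      (mem_placeAt c hx).mp ((mem_iff _).mpr (Or.inr (by rw [Place.ord_inv, h0, neg_zero])))
    refine IsUnit.of_mul_eq_one t (stalkFn_injective c x ?_)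
    rw [map_mul, map_one, stalkFn_germ, ht, mul_inv_cancel₀ hne]

omit [IsAlgClosed k] [IsIntegral C] [SmoothOfRelativeDimension 1 c] in
theorem finiteType_sections {V : C.Opens} (hV : IsAffineOpen V) : (secHom c V).hom.FiniteType :=
  RingHom.FiniteType.comp (c.finiteType_appLE (isAffineOpen_top _) hV le_top)
    (RingHom.FiniteType.of_surjective _
      (Scheme.ΓSpecIso (CommRingCat.of k)).symm.commRingCatIsoToRingEquiv.surjective)

/-- **The complement of the poles of a nonconstant function is affine.** -/
theorem isAffineOpen_regOpen {f : FnField c} (hf : Transcendental k f) :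
    IsAffineOpen (regOpen c f) := by
  classical
  have key : ∀ v : Place k (FnField c), f ∈ v.toValuationSubring →
      ∃ s : Γ(C, regOpen c f), toFn c (regOpen c f) s ∉ ordGe v 1 ∧
        IsAffineOpen (C.basicOpen s) := by
    intro v hv
    obtain ⟨_, ⟨V, hV', rfl⟩, hxV, hVU⟩ := C.isBasis_affineOpens.exists_subset_of_mem_open
      ((centre_mem_regOpen c).mpr hv) (regOpen c f).isOpen
    have hV : IsAffineOpen V := hV'
    have hVU' : V ≤ regOpen c f := hVU
    have : Nonempty V := nonempty_opens_of_mem hxV
    let : Algebra k Γ(C, V) := (secHom c V).hom.toAlgebra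
    have : Algebra.FiniteType k Γ(C, V) := finiteType_sections c hV
    obtain ⟨G, hG⟩ := Algebra.FiniteType.out (R := k) (A := Γ(C, V))
    let S : Finset (Place k (FnField c)) :=
      (G.biUnion fun a => (finite_poles (K := k) (toFn c V a)).toFinset).filter
        fun w => f ∈ w.toValuationSubring
    have hvS : v ∉ S := fun h => by
      simp only [S, Finset.mem_filter, Finset.mem_biUnion, Set.Finite.mem_toFinset,
        Set.mem_ofPred_eq] at h
      obtain ⟨⟨a, -, ha⟩, -⟩ := h
      have h' := toFn_mem_placeAt c hxV (centre_ne v) a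
      rw [placeAt_centre] at h'
      have := ord_nonneg v h'
      omega
    obtain ⟨s', hs', hsS, hsv⟩ := exists_separate hf hv S
      (fun w hw => (Finset.mem_filter.mp hw).2) hvS
    obtain ⟨s, hs⟩ := exists_toFn_eq c hs'
    refine ⟨s, hs ▸ hsv, ?_⟩
    have hle : C.basicOpen s ≤ V := fun y hy => by
      have hyU : y ∈ regOpen c f := C.basicOpen_le s hy
      by_cases hyg : y = genericPoint C
      · exact hyg ▸ gen_mem V
      have hu : toFn c _ s ∉ ordGe (placeAt c hyg) 1 :=
        (isUnit_germ_iff c hyU hyg s).mp ((C.mem_basicOpen s y hyU).mp hy)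
      rw [hs] at hu
      have hgen : ∀ a ∈ G, toFn c V a ∈ (placeAt c hyg).toValuationSubring := fun a ha => by
        by_contra hna
        refine hu (hsS _ (Finset.mem_filter.mpr ⟨Finset.mem_biUnion.mpr ⟨a, ha, ?_⟩, hyU hyg⟩))
        rw [Set.Finite.mem_toFinset, Set.mem_ofPred_eq]
        by_contra h'
        exact hna ((mem_iff _).mpr (Or.inr (not_lt.mp h')))
      refine mem_of_comp (c := c) hV fun a => (mem_placeAt c hyg).mp ?_
      have ha : a ∈ Algebra.adjoin k (G : Set Γ(C, V)) := hG ▸ Algebra.mem_top
      induction ha using Algebra.adjoin_induction with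
      | mem b hb => exact hgen b hb
      | algebraMap r =>
        rw [show toFn c V (algebraMap k Γ(C, V) r) = algebraMap k (FnField c) r from
          RingHom.congr_fun (congrArg CommRingCat.Hom.hom (secHom_germ c V)) r]
        exact (placeAt c hyg).algebraMap_mem' r
      | add a b _ _ ha hb => rw [map_add]; exact add_mem ha hb
      | mul a b _ _ ha hb => rw [map_mul]; exact mul_mem ha hb
    have e : C.basicOpen s = C.basicOpen (C.presheaf.map (homOfLE hVU').op s) := by
      rw [C.basicOpen_res, inf_eq_right.mpr hle]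
    rw [e]
    exact hV.basicOpen _
  choose s hs haff using key
  refine isAffineOpen_of_isAffineOpen_basicOpen _
    (Set.range fun v : {v : Place k (FnField c) // f ∈ v.toValuationSubring} => s v.1 v.2) ?_ ?_
  · let σ : Γ(C, regOpen c f) →+* reg k ({f} : Set (FnField c)) :=
      (toFn c (regOpen c f)).codRestrict _ (toFn_mem_reg c f)
    have hσ : Function.Bijective σ := ⟨fun a b h => toFn_injective c _ (congrArg Subtype.val h),
      fun a => by obtain ⟨t, ht⟩ := exists_toFn_eq c a.2; exact ⟨t, Subtype.ext ht⟩⟩
    by_contra hne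
    set J := Ideal.map σ (Ideal.span (Set.range fun v : {v : Place k (FnField c) //
      f ∈ v.toValuationSubring} => s v.1 v.2)) with hJ
    have hJtop : J ≠ ⊤ := fun h => hne (by
      have h' := congrArg (Ideal.comap σ) h
      rwa [hJ, Ideal.comap_map_of_bijective σ hσ, Ideal.comap_top] at h')
    obtain ⟨q, hqm, hJq⟩ := Ideal.exists_le_maximal J hJtop
    obtain ⟨v₀, hv₀⟩ := exists_ord_neg_of_transcendental (K := k) hf
    have hq0 : q ≠ ⊥ := fun h => by
      obtain ⟨w, hw⟩ : ∃ w : Place k (FnField c), f ∈ w.toValuationSubring := by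
        have hf' : Transcendental k f⁻¹ := fun h => hf (IsAlgebraic.inv_iff.mp h)
        obtain ⟨w, hw⟩ := exists_ord_neg_of_transcendental (K := k) hf'
        exact ⟨w, (mem_iff _).mpr (Or.inr (by rw [Place.ord_inv] at hw; omega))⟩
      have h0 : σ (s w hw) ∈ q := hJq (Ideal.mem_map_of_mem σ (Ideal.subset_span ⟨⟨w, hw⟩, rfl⟩))
      rw [h, Ideal.mem_bot] at h0
      exact hs w hw (by
        rw [show toFn c _ (s w hw) = 0 from congrArg Subtype.val h0]
        exact zero_mem _)
    obtain ⟨w, hw, hw'⟩ := exists_place_of_prime hqm.isPrime hq0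
    exact hs w (hw f rfl)
      (hw' (σ (s w (hw f rfl)))
        (hJq (Ideal.mem_map_of_mem σ (Ideal.subset_span ⟨⟨w, hw f rfl⟩, rfl⟩))))
  · rintro _ ⟨v, rfl⟩
    exact haff v.1 v.2

/-- The sections away from the poles as regular functions. -/
def secReg (f : FnField c) : Γ(C, regOpen c f) ⟶ CommRingCat.of (reg k ({f} : Set (FnField c))) :=
  CommRingCat.ofHom ((toFn c (regOpen c f)).codRestrict _ (toFn_mem_reg c f))

instance isIso_secReg (f : FnField c) : IsIso (secReg c f) :=
  (ConcreteCategory.isIso_iff_bijective _).mpr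
    ⟨fun _ _ h => toFn_injective c _ (congrArg Subtype.val h),
      fun a => by obtain ⟨t, ht⟩ := exists_toFn_eq c a.2; exact ⟨t, Subtype.ext ht⟩⟩

variable {c}

/-- The affine piece. -/
def piece {f : FnField c} (hf : Transcendental k f) :
    Spec (CommRingCat.of (reg k ({f} : Set (FnField c)))) ⟶ C :=
  Spec.map (secReg c f) ≫ (isAffineOpen_regOpen c hf).fromSpec

instance isOpenImmersion_piece {f : FnField c} (hf : Transcendental k f) :
    IsOpenImmersion (piece hf) := by
  unfold piece; infer_instance

theorem opensRange_piece {f : FnField c} (hf : Transcendental k f) :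
    (piece hf).opensRange = regOpen c f := by
  show (Spec.map (secReg c f) ≫ (isAffineOpen_regOpen c hf).fromSpec).opensRange = _
  rw [Scheme.Hom.opensRange_comp_of_isIso, IsAffineOpen.opensRange_fromSpec]

theorem piece_over {f : FnField c} (hf : Transcendental k f) :
    piece hf ≫ c = Spec.map (CommRingCat.ofHom (algebraMap k (reg k ({f} : Set (FnField c))))) := by
  rw [piece, Category.assoc, fromSpec_secHom, ← Spec.map_comp]
  refine congrArg Spec.map (CommRingCat.hom_ext (RingHom.ext fun r => Subtype.ext ?_))
  exact RingHom.congr_fun (congrArg CommRingCat.Hom.hom (secHom_germ c (regOpen c f))) r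

/-- The inclusion of regular functions into the function field. -/
abbrev regVal (s : Set (FnField c)) : reg k s →+* FnField c := (reg k s).val.toRingHom

theorem genPt_piece {f : FnField c} (hf : Transcendental k f) :
    Spec.map (CommRingCat.ofHom (regVal ({f} : Set (FnField c)))) ≫ piece hf = genPt c := by
  rw [piece, ← Category.assoc, ← Spec.map_comp, genPt_eq c (isAffineOpen_regOpen c hf)]
  rfl

theorem piece_evalAt {f : FnField c} (hf : Transcendental k f) (v : Place k (FnField c))
    (hv : ∀ x ∈ ({f} : Set (FnField c)), x ∈ v.toValuationSubring) :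
    piece hf ⟨RingHom.ker (evalAt v hv), RingHom.ker_isPrime _⟩ = centre v := by
  have hm : ∀ a : reg k ({f} : Set (FnField c)), (a : FnField c) ∈ (stalkFn c (centre v)).range :=
    fun a => by
      rw [← mem_placeAt c (centre_ne v), placeAt_centre]
      exact a.2 v hv
  choose ψ hψ using hm
  have hinj := stalkFn_injective c (centre v)
  let ψh : reg k ({f} : Set (FnField c)) →+* C.presheaf.stalk (centre v) :=
    { toFun := ψ
      map_one' := hinj (by rw [hψ, map_one]; rfl)
      map_mul' := fun a b => hinj (by rw [map_mul, hψ, hψ, hψ]; rfl)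
      map_zero' := hinj (by rw [hψ, map_zero]; rfl)
      map_add' := fun a b => hinj (by rw [map_add, hψ, hψ, hψ]; rfl) }
  have e : Spec.map (CommRingCat.ofHom ψh) ≫ piece hf = C.fromSpecStalk (centre v) := by
    refine ext_spec (c := c) (stalkFn c (centre v)) hinj ?_
    rw [← Category.assoc, ← Spec.map_comp, ← CommRingCat.ofHom_comp,
      show (stalkFn c (centre v)).comp ψh = regVal ({f} : Set (FnField c)) from RingHom.ext hψ,
      genPt_piece]
    exact (genPt_eq' c _).symm
  have h1 : piece hf (Spec.map (CommRingCat.ofHom ψh) (IsLocalRing.closedPoint _)) = centre v := by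
    show (Spec.map (CommRingCat.ofHom ψh) ≫ piece hf) _ = _
    rw [e]
    exact Scheme.fromSpecStalk_closedPoint
  refine Eq.trans (congrArg _ (PrimeSpectrum.ext ?_)) h1
  have hmax : (RingHom.ker (evalAt v hv)).IsMaximal :=
    RingHom.ker_isMaximal_of_surjective _ fun r => ⟨algebraMap k _ r, (evalAt v hv).commutes r⟩
  refine hmax.eq_of_le (PrimeSpectrum.isPrime _).ne_top fun a ha => ?_
  show ψh a ∈ IsLocalRing.maximalIdeal _
  rw [IsLocalRing.mem_maximalIdeal, mem_nonunits_iff]
  intro hu
  have ha1 : (a : FnField c) ∈ ordGe v 1 := evalAt_eq_zero_iff.mp ha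
  obtain ⟨t, ht⟩ := hu.exists_right_inv
  have e1 := congrArg (stalkFn c (centre v)) ht
  rw [map_mul, map_one, show stalkFn c (centre v) (ψh a) = (a : FnField c) from hψ a] at e1
  have ht' : stalkFn c (centre v) t ∈ ordGe v 0 := by
    rw [mem_ordGe_zero]
    have : stalkFn c (centre v) t ∈ (placeAt c (centre_ne v)).toValuationSubring := ⟨t, rfl⟩
    rwa [placeAt_centre] at this
  have h2 := mul_mem_ordGe v ha1 ht'
  rw [e1] at h2
  have := le_ord_of_mem_ordGe v one_ne_zero h2
  simp at this

omit [IsAlgClosed k] [IsProper c] [SmoothOfRelativeDimension 1 c] in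
theorem reg_le_left (f : FnField c) :
    reg k ({f} : Set (FnField c)) ≤ reg k ({f, f⁻¹} : Set (FnField c)) := reg_mono (by simp)

omit [IsAlgClosed k] [IsProper c] [SmoothOfRelativeDimension 1 c] in
theorem reg_le_right (f : FnField c) :
    reg k ({f⁻¹} : Set (FnField c)) ≤ reg k ({f, f⁻¹} : Set (FnField c)) := reg_mono (by simp)

omit [IsAlgClosed k] in
theorem inf_eq_basicOpen {f : FnField c} (hf0 : f ≠ 0) {sg : Γ(C, regOpen c f⁻¹)}
    (hsg : toFn c (regOpen c f⁻¹) sg = f⁻¹) :
    regOpen c f ⊓ regOpen c f⁻¹ = C.basicOpen sg := by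
  ext x
  refine ⟨fun hx => (C.mem_basicOpen sg x hx.2).mpr ?_, fun hx => ?_⟩
  · by_cases hg : x = genericPoint C
    · subst hg
      exact isUnit_iff_ne_zero.mpr fun h0 => inv_ne_zero hf0 (hsg.symm.trans h0)
    · refine (isUnit_germ_iff c hx.2 hg sg).mpr fun h => ?_
      rw [hsg] at h
      have h1 := le_ord_of_mem_ordGe _ (inv_ne_zero hf0) h
      rw [Place.ord_inv] at h1
      have := ord_nonneg _ (hx.1 hg)
      omega
  · have hxU : x ∈ regOpen c f⁻¹ := C.basicOpen_le sg hx
    refine ⟨fun hg => ?_, hxU⟩
    have h := (isUnit_germ_iff c hxU hg sg).mp ((C.mem_basicOpen sg x hxU).mp hx)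
    rw [hsg] at h
    refine (mem_iff _).mpr (Or.inr ?_)
    by_contra hlt
    exact h (mem_ordGe_of_le _ (by rw [Place.ord_inv]; omega))

/-- The two pieces meet in the functions regular away from the zeros and the poles. -/
theorem isPullback_piece {f : FnField c} (hf0 : f ≠ 0) (htr : Transcendental k f)
    (htr' : Transcendental k f⁻¹) :
    IsPullback (Spec.map (CommRingCat.ofHom (Subalgebra.inclusion (reg_le_left f)).toRingHom))
      (Spec.map (CommRingCat.ofHom (Subalgebra.inclusion (reg_le_right f)).toRingHom))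
      (piece htr) (piece htr') := by
  let g : reg k ({f⁻¹} : Set (FnField c)) := ⟨f⁻¹, self_mem_reg rfl⟩
  have him0 : IsOpenImmersion (Spec.map (CommRingCat.ofHom
      (Subalgebra.inclusion (reg_le_left f)).toRingHom)) :=
    letI := (Subalgebra.inclusion (reg_le_left f)).toRingHom.toAlgebra
    haveI := isLocalization_reg hf0 _ rfl (reg_le_left f)
    IsOpenImmersion.of_isLocalization (⟨f, self_mem_reg rfl⟩ : reg k ({f} : Set (FnField c)))
  have him1 : IsOpenImmersion (Spec.map (CommRingCat.ofHom
      (Subalgebra.inclusion (reg_le_right f)).toRingHom)) :=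
    letI := (Subalgebra.inclusion (reg_le_right f)).toRingHom.toAlgebra
    haveI := isLocalization_reg (inv_ne_zero hf0) _ (by rw [inv_inv, Set.pair_comm]) (reg_le_right f)
    IsOpenImmersion.of_isLocalization g
  have hcomm : Spec.map (CommRingCat.ofHom (Subalgebra.inclusion (reg_le_left f)).toRingHom) ≫
      piece htr = Spec.map (CommRingCat.ofHom
        (Subalgebra.inclusion (reg_le_right f)).toRingHom) ≫ piece htr' := by
    refine ext_spec (c := c) (regVal _) Subtype.val_injective ?_
    rw [← Category.assoc, ← Category.assoc, ← Spec.map_comp, ← Spec.map_comp,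
      ← CommRingCat.ofHom_comp, ← CommRingCat.ofHom_comp]
    exact (genPt_piece htr).trans (genPt_piece htr').symm
  refine IsOpenImmersion.isPullback _ _ (piece htr) (piece htr') hcomm.symm ?_
  obtain ⟨sg, hsg⟩ := exists_toFn_eq c g.2
  have e1 : piece htr' ⁻¹ᵁ regOpen c f = piece htr' ⁻¹ᵁ (regOpen c f ⊓ regOpen c f⁻¹) := by
    ext y
    exact ⟨fun hy => ⟨hy, (opensRange_piece htr').le ⟨y, rfl⟩⟩, fun hy => hy.1⟩
  rw [opensRange_piece, e1, inf_eq_basicOpen hf0 hsg]
  show (Spec.map (secReg c f⁻¹) ≫ (isAffineOpen_regOpen c htr').fromSpec) ⁻¹ᵁ _ = _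
  rw [Scheme.Hom.comp_preimage, IsAffineOpen.fromSpec_preimage_basicOpen]
  letI := (Subalgebra.inclusion (reg_le_right f)).toRingHom.toAlgebra
  haveI := isLocalization_reg (inv_ne_zero hf0) _ (by rw [inv_inv, Set.pair_comm]) (reg_le_right f)
  refine Opens.ext (Eq.trans ?_ (PrimeSpectrum.localization_away_comap_range
    (reg k ({f, f⁻¹} : Set (FnField c))) g).symm)
  rw [show g = (secReg c f⁻¹) sg from Subtype.ext hsg.symm]
  exact congrArg SetLike.coe (PrimeSpectrum.comap_basicOpen (secReg c f⁻¹).hom sg)

theorem piece_marked {f : FnField c} (htr : Transcendental k f)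
    (ε : SchemeHomOver (𝟙 (Spec (CommRingCat.of k))) c) (v : Place k (FnField c))
    (hv : ∀ x ∈ ({f} : Set (FnField c)), x ∈ v.toValuationSubring)
    (hε : centre v = ε.1 (IsLocalRing.closedPoint k)) :
    Spec.map (CommRingCat.ofHom (evalAt v hv).toRingHom) ≫ piece htr = ε.1 := by
  refine ext_of_apply_closedPoint_eq c ?_ ε.2 ?_
  · rw [Category.assoc, piece_over, ← Spec.map_comp, ← Spec.map_id]
    refine congrArg Spec.map (CommRingCat.hom_ext (RingHom.ext fun r => ?_))
    exact (evalAt v hv).commutes r
  · show piece htr (Spec.map (CommRingCat.ofHom (evalAt v hv).toRingHom)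
      (IsLocalRing.closedPoint k : Spec (CommRingCat.of k))) = _
    refine Eq.trans (congrArg _ (PrimeSpectrum.ext ?_)) ((piece_evalAt htr v hv).trans hε)
    show Ideal.comap (evalAt v hv).toRingHom (IsLocalRing.maximalIdeal k) = _
    rw [IsLocalRing.maximalIdeal_eq_bot]
    rfl

theorem cover_piece {f : FnField c} (htr : Transcendental k f) (htr' : Transcendental k f⁻¹)
    (x : C) : x ∈ Set.range (piece htr) ∨ x ∈ Set.range (piece htr') := by
  have h : x ∈ regOpen c f ∨ x ∈ regOpen c f⁻¹ := by
    by_cases hg : x = genericPoint C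
    · exact Or.inl fun h => absurd hg h
    · rcases (placeAt c hg).toValuationSubring.mem_or_inv_mem f with h | h
      · exact Or.inl fun _ => h
      · exact Or.inr fun _ => h
  rw [← opensRange_piece htr, ← opensRange_piece htr'] at h
  exact h

variable (c) in
/-- **The model of a smooth proper integral curve with a marked point.** -/
theorem exists_realization (ε : SchemeHomOver (𝟙 (Spec (CommRingCat.of k))) c) :
    ∃ X : Model k, Nonempty (Realization X c ε) := by
  set x₀ := ε.1 (IsLocalRing.closedPoint k) with hx₀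
  have hcl : IsClosed ({x₀} : Set C) := by
    have := (pointEquivClosedPoint c ⟨ε.1, ε.2⟩).2
    exact this
  have hx₀g : x₀ ≠ genericPoint C := fun h => by
    obtain ⟨f, hf⟩ := (inferInstance : IsFunctionField k (FnField c)).exists_finite
    obtain ⟨v, -⟩ := exists_ord_neg_of_transcendental (K := k) hf.1
    have hc : closure ({genericPoint C} : Set C) = Set.univ := genericPoint_spec C
    rw [← h, hcl.closure_eq] at hc
    exact centre_ne v ((Set.eq_univ_iff_forall.mp hc (centre v)).trans h)
  set P := placeAt c hx₀g with hP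
  obtain ⟨t, ht0, ht⟩ := exists_uniformizer P
  obtain ⟨vi, hvi⟩ := exists_ord_neg_of_transcendental (K := k)
    (transcendental_of_ord_ne_zero (v := P) (x := t) (by omega))
  obtain ⟨f, hf⟩ := exists_single_pole vi
  let D : CurveDatum k (FnField c) :=
    ⟨f, vi, P, hf, fun e => by rw [← e] at hvi; omega⟩
  exact ⟨D.model, ⟨{
    j0 := piece D.transcendental
    j1 := piece D.transcendental_inv
    isOpenImmersion0 := isOpenImmersion_piece _
    isOpenImmersion1 := isOpenImmersion_piece _
    over0 := piece_over _
    over1 := piece_over _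
    isPullback := isPullback_piece D.f_ne_zero D.transcendental D.transcendental_inv
    cover := cover_piece D.transcendental D.transcendental_inv
    marked := piece_marked D.transcendental ε P D.mem_pt (centre_placeAt hx₀g) }⟩⟩

end Fermat.Agent.RelPic

end
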