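import Fermat.Agent.RelPic.Defs
import Fermat.Agent.RedTorsion.ReducedBasis

/-!
# The two-piece model of a function field

For a function `f` with a single pole the functions regular away from the pole, away from the zeros
and away from both form a two-piece model.
-/

set_option autoImplicit false

noncomputable section

universe u

open AlgebraicCurve Polynomial

namespace Fermat.Agent.RelPic

open Fermat.Agent.FF

variable {k F : Type u} [Field k] [Field F] [Algebra k F]

variable (k) in
/-- The functions regular at all places where the elements of `s` are regular. -/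
def reg (s : Set F) : Subalgebra k F where
  carrier := {a | ∀ v : Place k F, (∀ x ∈ s, x ∈ v.toValuationSubring) → a ∈ v.toValuationSubring}
  mul_mem' ha hb v hv := mul_mem (ha v hv) (hb v hv)
  one_mem' _ _ := one_mem _
  add_mem' ha hb v hv := add_mem (ha v hv) (hb v hv)
  zero_mem' _ _ := zero_mem _
  algebraMap_mem' c v _ := v.algebraMap_mem' c

theorem self_mem_reg {s : Set F} {x : F} (hx : x ∈ s) : x ∈ reg k s := fun _ hv => hv x hx

theorem reg_mono {s t : Set F} (h : s ⊆ t) : reg k s ≤ reg k t :=
  fun _ ha v hv => ha v fun x hx => hv x (h hx)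

theorem ord_nonneg_reg {x a : F} (ha : a ∈ reg k ({x} : Set F)) {v : Place k F}
    (hv : 0 ≤ v.ord x) : a ∈ ordGe v 0 :=
  (mem_ordGe_zero v).mpr (ha v fun y hy => by
    rw [Set.mem_singleton_iff] at hy
    subst hy
    exact (mem_iff v).mpr (Or.inr hv))

variable [IsFunctionField k F]

theorem transcendental_of_ord_ne_zero {x : F} {v : Place k F} (h : v.ord x ≠ 0) :
    Transcendental k x := fun halg => h (ord_eq_zero_of_isAlgebraic halg v)

/-- The coordinate map. -/
def coord (x : F) : k[X] →ₐ[k] reg k ({x} : Set F) :=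
  Polynomial.aeval ⟨x, self_mem_reg rfl⟩

omit [IsFunctionField k F] in
theorem coe_coord (x : F) (p : k[X]) : (coord x p : F) = aeval x p :=
  (aeval_algHom_apply (reg k ({x} : Set F)).val _ p).symm

omit [IsFunctionField k F] in
theorem coord_injective_of {x : F} (hx : Transcendental k x) :
    Function.Injective (coord (k := k) x) := fun p q h => transcendental_iff_injective.mp hx (by
  rw [← coe_coord, ← coe_coord, h])

theorem coord_finite {x : F} (hx : Transcendental k x) :
    (coord (k := k) x).toRingHom.Finite := by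
  obtain ⟨b, e, hb⟩ := RedTorsion.exists_reduced (K := k) hx
  have hbr : ∀ i, b i ∈ reg k ({x} : Set F) := fun i v hv => by
    have h0 : 0 ≤ v.ord x := ord_nonneg v (hv x rfl)
    rw [← mem_ordGe_zero]
    exact ordGe_anti v (by simp [poles_apply, h0]) (RedTorsion.mem_polesSpace.mp (hb.mem i) v)
  classical
  let := (coord (k := k) x).toRingHom.toAlgebra
  refine ⟨Finset.univ.image fun i => (⟨b i, hbr i⟩ : reg k ({x} : Set F)),
    eq_top_iff.mpr fun a _ => ?_⟩
  obtain ⟨N, hN⟩ := RedTorsion.exists_mem_polesSpace (x := x) fun v hv => ord_nonneg_reg a.2 hv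
  obtain ⟨P, hP, -⟩ := hb.repr N a hN
  have e1 : a = ∑ i, P i • (⟨b i, hbr i⟩ : reg k ({x} : Set F)) := Subtype.ext (by
    rw [hP, AddSubmonoidClass.coe_finsetSum]
    refine Finset.sum_congr rfl fun i _ => ?_
    rw [Algebra.smul_def, Subalgebra.coe_mul]
    exact congrArg (· * b i) (coe_coord x (P i)).symm)
  rw [e1]
  exact Submodule.sum_mem _ fun i _ => Submodule.smul_mem _ _ (Submodule.subset_span (by simp))

theorem isFractionRing_reg {x : F} (hx : Transcendental k x) :
    IsFractionRing (reg k ({x} : Set F)) F := by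
  refine IsFractionRing.of_field _ _ fun z => ?_
  obtain ⟨p, hp, h⟩ := RedTorsion.exists_clear (K := k) hx z
  refine ⟨⟨aeval x p * z, fun v hv => (mem_ordGe_zero v).mp (h v (ord_nonneg v (hv x rfl)))⟩,
    coord x p, ?_⟩
  rw [Subalgebra.algebraMap_eq]
  show z = aeval x p * z / (coord x p : F)
  rw [coe_coord, mul_div_cancel_left₀ _ (aeval_ne_zero hx hp)]

theorem finiteType_reg {x : F} (hx : Transcendental k x) :
    Algebra.FiniteType k (reg k ({x} : Set F)) := by
  let := (coord (k := k) x).toRingHom.toAlgebra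
  have : IsScalarTower k k[X] (reg k ({x} : Set F)) :=
    IsScalarTower.of_algebraMap_eq fun c => ((coord x).commutes c).symm
  have : Module.Finite k[X] (reg k ({x} : Set F)) := coord_finite hx
  exact Algebra.FiniteType.trans (S := k[X]) inferInstance inferInstance

theorem isDedekindDomain_reg {x : F} (hx : Transcendental k x) :
    IsDedekindDomain (reg k ({x} : Set F)) := by
  let := (coord (k := k) x).toRingHom.toAlgebra
  have hfin : Module.Finite k[X] (reg k ({x} : Set F)) := coord_finite hx
  have := finiteType_reg (k := k) hx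
  have := isFractionRing_reg (k := k) hx
  have hno : IsNoetherianRing (reg k ({x} : Set F)) := Algebra.FiniteType.isNoetherianRing k _
  have hdim : Ring.DimensionLEOne (reg k ({x} : Set F)) := ⟨fun {q} hq hqp => by
    obtain ⟨a, ha, ha0⟩ := Submodule.exists_mem_ne_zero_of_ne_bot hq
    have h1 : q.comap (algebraMap k[X] (reg k ({x} : Set F))) ≠ ⊥ :=
      Ideal.comap_ne_bot_of_integral_mem ha0 ha (IsIntegral.of_finite k[X] a)
    have : (q.comap (algebraMap k[X] (reg k ({x} : Set F)))).IsPrime := Ideal.IsPrime.comap _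
    exact Ideal.isMaximal_of_isIntegral_of_isMaximal_comap (R := k[X]) q
      (Ideal.IsPrime.isMaximal this h1)⟩
  have hic : IsIntegrallyClosed (reg k ({x} : Set F)) := by
    refine (isIntegrallyClosed_iff F).mpr fun {a} ha => ⟨⟨a, fun v hv => ?_⟩, rfl⟩
    obtain ⟨p, hp, hpa⟩ := ha
    refine (mem_ordGe_zero v).mp (RedTorsion.mem_ordGe_zero_of_monic_rel v (d := p.natDegree)
      (a := fun i => ((p.coeff i : reg k ({x} : Set F)) : F))
      (fun i => (mem_ordGe_zero v).mpr ((p.coeff i).2 v hv)) ?_)
    rw [eval₂_eq_sum_range, Finset.sum_range_succ, hp.coeff_natDegree, map_one, one_mul] at hpa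
    rw [add_comm]
    exact hpa
  exact { toIsDomain := inferInstance }

/-- A maximal ideal containing a nonzero function is centred at a place. -/
theorem exists_place_of_prime {s : Set F} {q : Ideal (reg k s)} (hq : q.IsPrime) (hq0 : q ≠ ⊥) :
    ∃ v : Place k F, (∀ x ∈ s, x ∈ v.toValuationSubring) ∧ ∀ r ∈ q, (r : F) ∈ ordGe v 1 := by
  obtain ⟨v, hv, hv'⟩ := exists_place_of_ideal (reg k s) q hq.ne_top hq0
  exact ⟨v, fun x hx => hv x (self_mem_reg hx), hv'⟩

/-- The functions regular where `f` and `f⁻¹` are regular. -/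
theorem exists_pow_mul_mem {f : F} (hf : f ≠ 0) {a : F} (ha : a ∈ reg k ({f, f⁻¹} : Set F)) :
    ∃ n : ℕ, f ^ n * a ∈ reg k ({f} : Set F) := by
  rcases eq_or_ne a 0 with rfl | ha0
  · exact ⟨0, by simp⟩
  classical
  refine ⟨∑ v ∈ (finite_support (K := k) a).toFinset, (v.ord a).natAbs, fun v hv => ?_⟩
  have h0 : 0 ≤ v.ord f := ord_nonneg v (hv f rfl)
  rw [mem_iff_ord v (mul_ne_zero (pow_ne_zero _ hf) ha0), v.ord_mul (pow_ne_zero _ hf) ha0, ord_pow]
  set n := ∑ v ∈ (finite_support (K := k) a).toFinset, (v.ord a).natAbs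
  rcases eq_or_lt_of_le h0 with h | h
  · have : 0 ≤ v.ord a := ord_nonneg v (ha v fun y hy => by
      rcases hy with rfl | rfl
      · exact hv _ rfl
      · exact (mem_iff v).mpr (Or.inr (by rw [v.ord_inv]; omega)))
    rw [← h]; omega
  · by_cases hva : v.ord a = 0
    · rw [hva, add_zero]; exact mul_nonneg (Int.natCast_nonneg _) h0
    · have : (v.ord a).natAbs ≤ n := Finset.single_le_sum (f := fun v => (v.ord a).natAbs)
        (fun _ _ => Nat.zero_le _) ((finite_support (K := k) a).mem_toFinset.mpr hva)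
      have : (n : ℤ) ≤ n * v.ord f := le_mul_of_one_le_right (Int.natCast_nonneg _) h
      omega

theorem isLocalization_reg {f : F} (hf : f ≠ 0) (t : Set F) (ht : t = {f, f⁻¹})
    (h : reg k ({f} : Set F) ≤ reg k t) :
    @IsLocalization.Away (reg k ({f} : Set F)) _ ⟨f, self_mem_reg rfl⟩ (reg k t) _
      (Subalgebra.inclusion h).toRingHom.toAlgebra := by
  subst ht
  let := (Subalgebra.inclusion h).toRingHom.toAlgebra
  refine IsLocalization.Away.mk _ ?_ (fun a => ?_) fun a b hab => ?_
  · refine IsUnit.of_mul_eq_one ⟨f⁻¹, self_mem_reg (by simp)⟩ (Subtype.ext ?_)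
    exact mul_inv_cancel₀ hf
  · obtain ⟨n, hn⟩ := exists_pow_mul_mem hf a.2
    refine ⟨n, ⟨_, hn⟩, Subtype.ext ?_⟩
    show (a : F) * _ = f ^ n * (a : F)
    rw [mul_comm]
    rfl
  · exact ⟨0, by simpa using Subalgebra.inclusion_injective h hab⟩

variable [IsAlgClosed k]

theorem algebraMap_residueField_bijective (v : Place k F) :
    Function.Bijective (algebraMap k v.ResidueField) := by
  have := finite_residueField v
  exact IsAlgClosed.algebraMap_bijective_of_isIntegral

/-- The value at a place. -/
def evalAt {s : Set F} (v : Place k F) (hs : ∀ x ∈ s, x ∈ v.toValuationSubring) :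
    reg k s →ₐ[k] k :=
  ((AlgEquiv.ofBijective (Algebra.ofId k v.ResidueField)
    (algebraMap_residueField_bijective v)).symm.toAlgHom).comp
    ((IsScalarTower.toAlgHom k v.toValuationSubring v.ResidueField).comp
      { toFun := fun a => ⟨a, a.2 v hs⟩
        map_one' := rfl
        map_mul' := fun _ _ => rfl
        map_zero' := rfl
        map_add' := fun _ _ => rfl
        commutes' := fun _ => rfl })

theorem evalAt_eq_zero_iff {s : Set F} {v : Place k F} {hs : ∀ x ∈ s, x ∈ v.toValuationSubring}
    {a : reg k s} : evalAt v hs a = 0 ↔ (a : F) ∈ ordGe v 1 := by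
  rw [evalAt, AlgHom.comp_apply, AlgHom.comp_apply, AlgEquiv.coe_toAlgHom, map_eq_zero_iff _
    (AlgEquiv.injective _)]
  exact residue_eq_zero_iff v

theorem reg_inf {f : F} : reg k ({f} : Set F) ⊓ reg k ({f⁻¹} : Set F) = ⊥ := by
  refine le_antisymm (fun a ha => ?_) bot_le
  obtain ⟨c, hc⟩ := eq_algebraMap_of_ord_nonneg (K := k) (f := a) fun v => ord_nonneg v (by
    rcases v.toValuationSubring.mem_or_inv_mem f with h | h
    · exact ha.1 v fun y hy => by rw [Set.mem_singleton_iff] at hy; subst hy; exact h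
    · exact ha.2 v fun y hy => by rw [Set.mem_singleton_iff] at hy; subst hy; exact h)
  exact hc ▸ Subalgebra.algebraMap_mem _ c

/-- The data of a model: a function with a single pole and a marked place. -/
structure CurveDatum (k F : Type u) [Field k] [Field F] [Algebra k F] where
  f : F
  inf : Place k F
  pt : Place k F
  ord_neg_iff : ∀ v : Place k F, v.ord f < 0 ↔ v = inf
  ne : pt ≠ inf

namespace CurveDatum

variable (D : CurveDatum k F)

omit [IsFunctionField k F] [IsAlgClosed k] in
theorem f_ne_zero : D.f ≠ 0 := fun h => by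
  have := (D.ord_neg_iff D.inf).mpr rfl
  simp [h] at this

omit [IsAlgClosed k] in
theorem transcendental : Transcendental k D.f :=
  transcendental_of_ord_ne_zero ((D.ord_neg_iff D.inf).mpr rfl).ne

omit [IsAlgClosed k] in
theorem transcendental_inv : Transcendental k D.f⁻¹ :=
  fun h => D.transcendental (IsAlgebraic.inv_iff.mp h)

omit [IsFunctionField k F] [IsAlgClosed k] in
theorem mem_pt : ∀ x ∈ ({D.f} : Set F), x ∈ D.pt.toValuationSubring := fun x hx => by
  rw [Set.mem_singleton_iff] at hx
  subst hx
  refine (mem_iff _).mpr (Or.inr ?_)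
  by_contra h
  exact D.ne ((D.ord_neg_iff _).mp (not_le.mp h))

omit [IsFunctionField k F] [IsAlgClosed k] in
theorem mem_inf : ∀ x ∈ ({D.f⁻¹} : Set F), x ∈ D.inf.toValuationSubring := fun x hx => by
  rw [Set.mem_singleton_iff] at hx
  subst hx
  refine (mem_iff _).mpr (Or.inr ?_)
  have := (D.ord_neg_iff D.inf).mpr rfl
  rw [D.inf.ord_inv]
  omega

/-- The model of a function field. -/
def model : Model k where
  A0 := reg k ({D.f} : Set F)
  A1 := reg k ({D.f⁻¹} : Set F)
  A01 := reg k ({D.f, D.f⁻¹} : Set F)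
  dedekind0 := isDedekindDomain_reg D.transcendental
  dedekind1 := isDedekindDomain_reg D.transcendental_inv
  finiteType0 := finiteType_reg D.transcendental
  finiteType1 := finiteType_reg D.transcendental_inv
  ι0 := Subalgebra.inclusion (reg_mono (by simp))
  ι1 := Subalgebra.inclusion (reg_mono (by simp))
  f := ⟨D.f, self_mem_reg rfl⟩
  g := ⟨D.f⁻¹, self_mem_reg rfl⟩
  mul_eq_one := Subtype.ext (mul_inv_cancel₀ D.f_ne_zero)
  loc0 := isLocalization_reg D.f_ne_zero _ rfl _
  loc1 := isLocalization_reg (inv_ne_zero D.f_ne_zero) _ (by rw [inv_inv, Set.pair_comm]) _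
  finite0 := coord_finite D.transcendental
  finite1 := coord_finite D.transcendental_inv
  injective0 := coord_injective_of D.transcendental
  injective1 := coord_injective_of D.transcendental_inv
  range_inf := by
    refine le_antisymm (fun a ha => ?_) bot_le
    obtain ⟨⟨b, rfl⟩, ⟨c, hc⟩⟩ := ha
    obtain ⟨r, hr⟩ := (reg_inf (k := k) (f := D.f)).le
      (show (b : F) ∈ _ from ⟨b.2, by
        rw [show (b : F) = (c : F) from (congrArg Subtype.val hc).symm]; exact c.2⟩)
    exact ⟨r, Subtype.ext hr⟩
  e := evalAt D.pt D.mem_pt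
  einf := evalAt D.inf D.mem_inf
  radical_g := by
    refine le_antisymm ?_ fun a ha => ?_
    · rw [Ideal.IsPrime.radical_le_iff (RingHom.ker_isPrime _), Ideal.span_le,
        Set.singleton_subset_iff, SetLike.mem_coe, RingHom.mem_ker]
      refine evalAt_eq_zero_iff.mpr (mem_ordGe_of_le _ ?_)
      show 1 ≤ D.inf.ord D.f⁻¹
      have := (D.ord_neg_iff D.inf).mpr rfl
      rw [D.inf.ord_inv]
      omega
    · rw [Ideal.radical_eq_sInf]
      refine Submodule.mem_sInf.mpr fun q ⟨hgq, hq⟩ => ?_
      have hg : (⟨D.f⁻¹, self_mem_reg rfl⟩ : reg k ({D.f⁻¹} : Set F)) ∈ q :=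
        hgq (Ideal.mem_span_singleton_self _)
      have hq0 : q ≠ ⊥ := fun h => by
        subst h
        exact inv_ne_zero D.f_ne_zero (congrArg Subtype.val (Ideal.mem_bot.mp hg))
      obtain ⟨v, -, hv⟩ := exists_place_of_prime hq hq0
      have h1 : 1 ≤ v.ord D.f⁻¹ :=
        le_ord_of_mem_ordGe v (inv_ne_zero D.f_ne_zero) (hv _ hg)
      rw [v.ord_inv] at h1
      obtain rfl : v = D.inf := (D.ord_neg_iff v).mp (by omega)
      have := isDedekindDomain_reg (k := k) D.transcendental_inv
      have hle : q ≤ RingHom.ker (evalAt D.inf D.mem_inf) := fun b hb =>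
        RingHom.mem_ker.mpr (evalAt_eq_zero_iff.mpr (hv b hb))
      rw [(Ideal.IsPrime.isMaximal hq hq0).eq_of_le (RingHom.ker_ne_top _) hle]
      exact ha

end CurveDatum

end Fermat.Agent.RelPic

end
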