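import Mathlib

/-!
# Line bundles on a constant curve over an affine base, as lattice pairs

The algebraic model behind the representability of the relative `Pic^0` of a smooth proper curve
(statement S25).

A curve over `k` is modelled by two affine pieces `A0`, `A1` glued along the common
localisation `A01 = A0[1/f] = A1[1/g]`, `f * g = 1`.  A line bundle on the base change of the
curve to a `k`-algebra `R` is an invertible `R ⊗ A01`-module `N` with two `R`-lattices
`M0`, `M1` (the sections over the two pieces).  Then `H⁰ = M0 ⊓ M1`, `H¹ = N / (M0 ⊔ M1)`.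
-/

set_option autoImplicit false

universe u

open TensorProduct

noncomputable section

namespace Fermat.Agent.RelPic

/-- A two-piece affine model of a curve over `k`: `A0` is the complement of the point `einf`,
`A1` the complement of the zeros of `f`, `e` is the marked point. -/
structure Model (k : Type u) [Field k] : Type (u + 1) where
  A0 : Type u
  A1 : Type u
  A01 : Type u
  [commRing0 : CommRing A0]
  [commRing1 : CommRing A1]
  [commRing01 : CommRing A01]
  [algebra0 : Algebra k A0]
  [algebra1 : Algebra k A1]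
  [algebra01 : Algebra k A01]
  [dedekind0 : IsDedekindDomain A0]
  [dedekind1 : IsDedekindDomain A1]
  [finiteType0 : Algebra.FiniteType k A0]
  [finiteType1 : Algebra.FiniteType k A1]
  [isDomain01 : IsDomain A01]
  ι0 : A0 →ₐ[k] A01
  ι1 : A1 →ₐ[k] A01
  f : A0
  g : A1
  mul_eq_one : ι0 f * ι1 g = 1
  loc0 : @IsLocalization.Away A0 _ f A01 _ ι0.toRingHom.toAlgebra
  loc1 : @IsLocalization.Away A1 _ g A01 _ ι1.toRingHom.toAlgebra
  finite0 : (Polynomial.aeval f : Polynomial k →ₐ[k] A0).toRingHom.Finite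
  finite1 : (Polynomial.aeval g : Polynomial k →ₐ[k] A1).toRingHom.Finite
  injective0 : Function.Injective (Polynomial.aeval f : Polynomial k →ₐ[k] A0)
  injective1 : Function.Injective (Polynomial.aeval g : Polynomial k →ₐ[k] A1)
  range_inf : ι0.range ⊓ ι1.range = ⊥
  e : A0 →ₐ[k] k
  einf : A1 →ₐ[k] k
  radical_g : (Ideal.span {g}).radical = RingHom.ker einf

attribute [instance] Model.commRing0 Model.commRing1 Model.commRing01 Model.algebra0
  Model.algebra1 Model.algebra01 Model.dedekind0 Model.dedekind1 Model.finiteType0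
  Model.finiteType1 Model.isDomain01

variable {k : Type u} [Field k] (X : Model k)

section Rings

variable (R : Type u) [CommRing R] [Algebra k R]

/-- Functions on the overlap of the two pieces over `R`. -/
abbrev B01 : Type u := R ⊗[k] X.A01

def res0 : R ⊗[k] X.A0 →ₐ[R] B01 X R := Algebra.TensorProduct.map (AlgHom.id R R) X.ι0

def res1 : R ⊗[k] X.A1 →ₐ[R] B01 X R := Algebra.TensorProduct.map (AlgHom.id R R) X.ι1

/-- The unit `f` on the overlap. -/
def fUnit : (B01 X R)ˣ where
  val := (1 : R) ⊗ₜ X.ι0 X.f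
  inv := (1 : R) ⊗ₜ X.ι1 X.g
  val_inv := by rw [Algebra.TensorProduct.tmul_mul_tmul, one_mul, X.mul_eq_one]; rfl
  inv_val := by
    rw [Algebra.TensorProduct.tmul_mul_tmul, one_mul, mul_comm, X.mul_eq_one]; rfl

/-- The `R`-point over the marked point. -/
def evR : R ⊗[k] X.A0 →ₐ[R] R :=
  Algebra.TensorProduct.lift (AlgHom.id R R) ((Algebra.ofId k R).comp X.e) fun _ _ => .all _ _

variable {R' : Type u} [CommRing R'] [Algebra k R']

def bMap (φ : R →ₐ[k] R') : B01 X R →ₐ[k] B01 X R' :=
  Algebra.TensorProduct.map φ (AlgHom.id k X.A01)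

end Rings

/-- A pair of lattices in a module over the overlap. -/
structure Pre (R : Type u) [CommRing R] [Algebra k R] : Type (u + 1) where
  N : Type u
  [addCommGroupN : AddCommGroup N]
  [moduleN : Module (B01 X R) N]
  [moduleRN : Module R N]
  [towerN : IsScalarTower R (B01 X R) N]
  M0 : Submodule R N
  M1 : Submodule R N

attribute [instance] Pre.addCommGroupN Pre.moduleN Pre.moduleRN Pre.towerN

namespace Pre

variable {X} {R : Type u} [CommRing R] [Algebra k R]

/-- Lattice given by a finite dual basis with values in the subring `res`. -/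
def IsLattice {B : Type u} [CommRing B] [Algebra R B] (res : B →ₐ[R] B01 X R) {N : Type u}
    [AddCommGroup N] [Module (B01 X R) N] [Module R N] (M : Submodule R N) : Prop :=
  ∃ (n : ℕ) (s : Fin n → N) (l : Fin n → N →ₗ[B01 X R] B01 X R),
    (∀ i, s i ∈ M) ∧ (∀ x, x = ∑ i, l i x • s i) ∧
      ∀ x, x ∈ M ↔ ∀ i, l i x ∈ res.range

/-- `L` is a line bundle on the curve over `R`. -/
structure Good (L : Pre X R) : Prop where
  invertible : Module.Invertible (B01 X R) L.N
  lattice0 : IsLattice (res0 X R) L.M0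
  lattice1 : IsLattice (res1 X R) L.M1

/-- `L` is trivial along the marked point. -/
def Rigid (L : Pre X R) : Prop :=
  ∃ ρ : L.M0 →ₗ[R] R, Function.Surjective ρ ∧
    ∀ (b : R ⊗[k] X.A0) (m m' : L.M0), (m' : L.N) = res0 X R b • (m : L.N) →
      ρ m' = evR X R b * ρ m

variable (X R) in
/-- The trivial bundle. -/
abbrev unit : Pre X R where
  N := B01 X R
  M0 := (res0 X R).toLinearMap.range
  M1 := (res1 X R).toLinearMap.range

/-- Twist by `m` times the point at infinity cycle `(g = 0)`. -/
abbrev twist (L : Pre X R) (m : ℤ) : Pre X R where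
  N := L.N
  M0 := L.M0
  M1 := L.M1.map ((LinearMap.lsmul (B01 X R) L.N ((fUnit X R ^ m : (B01 X R)ˣ) : B01 X R)).restrictScalars R)

/-- Tensor product. -/
abbrev tensor (L L' : Pre X R) : Pre X R where
  N := L.N ⊗[B01 X R] L'.N
  M0 := Submodule.span R {x | ∃ a ∈ L.M0, ∃ b ∈ L'.M0, x = a ⊗ₜ b}
  M1 := Submodule.span R {x | ∃ a ∈ L.M1, ∃ b ∈ L'.M1, x = a ⊗ₜ b}

/-- Dual bundle. -/
abbrev dual (L : Pre X R) : Pre X R where
  N := L.N →ₗ[B01 X R] B01 X R
  M0 :=
    { carrier := {l | ∀ m ∈ L.M0, l m ∈ (res0 X R).toLinearMap.range}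
      zero_mem' := fun _ _ => Submodule.zero_mem _
      add_mem' := fun ha hb m hm => Submodule.add_mem _ (ha m hm) (hb m hm)
      smul_mem' := fun r _ hl m hm => Submodule.smul_mem _ r (hl m hm) }
  M1 :=
    { carrier := {l | ∀ m ∈ L.M1, l m ∈ (res1 X R).toLinearMap.range}
      zero_mem' := fun _ _ => Submodule.zero_mem _
      add_mem' := fun ha hb m hm => Submodule.add_mem _ (ha m hm) (hb m hm)
      smul_mem' := fun r _ hl m hm => Submodule.smul_mem _ r (hl m hm) }

/-- Global sections. -/
def H0 (L : Pre X R) : Submodule R L.N := L.M0 ⊓ L.M1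

/-- First cohomology. -/
abbrev H1 (L : Pre X R) : Type u := L.N ⧸ (L.M0 ⊔ L.M1)

/-- No cohomology at all. -/
def Acyclic (L : Pre X R) : Prop := IsCompl L.M0 L.M1

variable {R' : Type u} [CommRing R'] [Algebra k R']

/-- Base change along a map of `k`-algebras. -/
abbrev bc (φ : R →ₐ[k] R') (L : Pre X R) : Pre X R' :=
  letI : Algebra (B01 X R) (B01 X R') := (bMap X R φ).toRingHom.toAlgebra
  { N := B01 X R' ⊗[B01 X R] L.N
    M0 := Submodule.span R' {x | ∃ a : R' ⊗[k] X.A0, ∃ m ∈ L.M0, x = res0 X R' a ⊗ₜ m}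
    M1 := Submodule.span R' {x | ∃ a : R' ⊗[k] X.A1, ∃ m ∈ L.M1, x = res1 X R' a ⊗ₜ m} }

/-- Isomorphisms of bundles. -/
def Iso (L L' : Pre X R) : Prop :=
  ∃ e : L.N ≃ₗ[B01 X R] L'.N,
    L.M0.map (e.toLinearMap.restrictScalars R) = L'.M0 ∧
      L.M1.map (e.toLinearMap.restrictScalars R) = L'.M1

theorem Iso.refl (L : Pre X R) : Iso L L :=
  ⟨LinearEquiv.refl _ _, Submodule.map_id L.M0, Submodule.map_id L.M1⟩

theorem Iso.symm {L L' : Pre X R} (h : Iso L L') : Iso L' L := by
  obtain ⟨e, h0, h1⟩ := h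
  refine ⟨e.symm, ?_, ?_⟩
  · rw [← h0, ← Submodule.map_comp]
    convert Submodule.map_id L.M0
    ext x; simp
  · rw [← h1, ← Submodule.map_comp]
    convert Submodule.map_id L.M1
    ext x; simp

theorem Iso.trans {L L' L'' : Pre X R} (h : Iso L L') (h' : Iso L' L'') : Iso L L'' := by
  obtain ⟨e, h0, h1⟩ := h
  obtain ⟨e', h0', h1'⟩ := h'
  refine ⟨e.trans e', ?_, ?_⟩
  · rw [← h0', ← h0, ← Submodule.map_comp]; rfl
  · rw [← h1', ← h1, ← Submodule.map_comp]; rfl

section Field

variable {K : Type u} [Field K] [Algebra k K]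

/-- Euler characteristic over a field. -/
def chi (L : Pre X K) : ℤ :=
  (Module.finrank K L.H0 : ℤ) - (Module.finrank K L.H1 : ℤ)

end Field

/-- The Euler characteristic at every field valued point is that of the trivial bundle. -/
def DegZero (L : Pre X R) : Prop :=
  ∀ (K : Type u) [Field K] [Algebra k K] (φ : R →ₐ[k] K), (L.bc φ).chi = (unit X K).chi

end Pre

variable (R : Type u) [CommRing R] [Algebra k R]

/-- Rigidified line bundles over `R`. -/
def RigBundle : Type (u + 1) := {L : Pre X R // L.Good ∧ L.Rigid}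

instance RigBundle.setoid : Setoid (RigBundle X R) where
  r L L' := L.1.Iso L'.1
  iseqv := ⟨fun _ => Pre.Iso.refl _, Pre.Iso.symm, Pre.Iso.trans⟩

/-- Isomorphism classes of rigidified line bundles over `R`. -/
def Cls : Type (u + 1) := Quotient (RigBundle.setoid X R)

/-- The class predicate cutting out degree zero; invariant under isomorphism once `bc` is
functorial, see the cohomology module. -/
def Cls.IsDegZero (x : Cls X R) : Prop :=
  ∃ L : RigBundle X R, ⟦L⟧ = x ∧ L.1.DegZero

end Fermat.Agent.RelPic
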