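import Fermat.Agent.RelPic.FibreLattice

/-!
# Riemann's formula over a field: additivity of the Euler characteristic

A nonzero section `s` of `M` embeds `L` into `L ⊗ M`, with cokernels of dimensions the colengths
of the three ideals of `s`.
-/

set_option autoImplicit false
set_option linter.unusedSectionVars false
set_option linter.style.haveILetI false

universe u

open TensorProduct

noncomputable section

namespace Fermat.Agent.RelPic

namespace LatticeQuot

variable {K : Type u} [Field K]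

/-- A nonzero ideal of a domain finite over a polynomial ring has finite colength. -/
theorem finite_quotient_of_polynomial {B : Type u} [CommRing B] [IsDomain B] [Algebra K B]
    (φ : Polynomial K →ₐ[K] B) (hφ : φ.toRingHom.Finite) {I : Ideal B} (hI : I ≠ ⊥) :
    FiniteDimensional K (B ⧸ I) := by
  letI : Algebra (Polynomial K) B := φ.toRingHom.toAlgebra
  haveI : IsScalarTower K (Polynomial K) B :=
    IsScalarTower.of_algebraMap_eq' φ.comp_algebraMap.symm
  haveI : Module.Finite (Polynomial K) B := hφ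
  obtain ⟨x, hx, hx0⟩ := Submodule.exists_mem_ne_zero_of_ne_bot hI
  obtain ⟨p, hp, hp0⟩ := Submodule.exists_mem_ne_zero_of_ne_bot
    (Ideal.comap_ne_bot_of_integral_mem hx0 hx
      (Algebra.IsIntegral.isIntegral (R := Polynomial K) x))
  haveI : Module.Finite K (Polynomial K ⧸ Ideal.span {p}) := (AdjoinRoot.powerBasis hp0).finite
  haveI : IsScalarTower K (Polynomial K ⧸ Ideal.span {p})
      (B ⧸ (Ideal.span {p}).map (algebraMap (Polynomial K) B)) := .to₁₃₄ K (Polynomial K) _ _
  haveI := Module.Finite.trans (R := K) (Polynomial K ⧸ Ideal.span {p})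
    (B ⧸ (Ideal.span {p}).map (algebraMap (Polynomial K) B))
  have hle : (Ideal.span {p}).map (algebraMap (Polynomial K) B) ≤ I :=
    Ideal.map_le_iff_le_comap.mpr ((Ideal.span_singleton_le_iff_mem _).mpr hp)
  exact Module.Finite.of_surjective (Ideal.Quotient.factorₐ K hle).toLinearMap
    (Ideal.Quotient.factor_surjective hle)

/-- Colengths pass to a localisation at one element. -/
theorem finrank_quotient_away {B A : Type u} [CommRing B] [Algebra K B] [CommRing A] [Algebra K A]
    (res : B →ₐ[K] A) (f : B) (hf : IsUnit (res f))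
    (hpow : ∀ a, ∃ m : ℕ, ∃ b, res b = res f ^ m * a) {I : Ideal B} [FiniteDimensional K (B ⧸ I)]
    {J : Ideal A} (hIJ : I ≤ J.comap res) :
    FiniteDimensional K (A ⧸ J) ∧ Module.finrank K (A ⧸ J) ≤ Module.finrank K (B ⧸ I) := by
  let φ : (B ⧸ I) →ₗ[K] A ⧸ J := (Ideal.quotientMapₐ J res hIJ).toLinearMap
  have hφ : ∀ b, φ (Ideal.Quotient.mk I b) = Ideal.Quotient.mk J (res b) := fun b => rfl
  suffices h : Function.Surjective φ from
    ⟨Module.Finite.of_surjective φ h, φ.finrank_le_finrank_of_surjective h⟩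
  have hu : IsUnit (Ideal.Quotient.mk J (res f)) := hf.map _
  let μ : LinearMap.range φ →ₗ[K] LinearMap.range φ :=
    LinearMap.codRestrict _ ((LinearMap.mulLeft K (Ideal.Quotient.mk J (res f))).comp
      (LinearMap.range φ).subtype) (by
      rintro ⟨_, q, rfl⟩
      obtain ⟨b, rfl⟩ := Ideal.Quotient.mk_surjective q
      refine ⟨Ideal.Quotient.mk I (f * b), ?_⟩
      show φ (Ideal.Quotient.mk I (f * b)) =
        Ideal.Quotient.mk J (res f) * φ (Ideal.Quotient.mk I b)
      rw [hφ, hφ, map_mul, map_mul])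
  have hμ : Function.Surjective μ := by
    refine LinearMap.injective_iff_surjective.mp fun x y hxy => Subtype.ext ?_
    exact hu.mul_left_cancel (congrArg Subtype.val hxy)
  intro q
  obtain ⟨a, rfl⟩ := Ideal.Quotient.mk_surjective q
  obtain ⟨m, b, hb⟩ := hpow a
  suffices H : ∀ (n : ℕ) (z : A ⧸ J), Ideal.Quotient.mk J (res f) ^ n * z ∈ LinearMap.range φ →
      z ∈ LinearMap.range φ from
    H m _ ⟨Ideal.Quotient.mk I b, by rw [hφ, hb, map_mul, map_pow]⟩
  intro n
  induction n with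
  | zero => intro z hz; simpa using hz
  | succ n ih =>
    intro z hz
    obtain ⟨⟨w, hw⟩, hwe⟩ := hμ ⟨_, hz⟩
    refine ih z ?_
    have : Ideal.Quotient.mk J (res f) * w = Ideal.Quotient.mk J (res f) ^ (n + 1) * z :=
      congrArg Subtype.val hwe
    rw [pow_succ', mul_assoc] at this
    rwa [← hu.mul_left_cancel this]

variable {B : Type u} [CommRing B] [Algebra K B] {A : Type u} [CommRing A] [Algebra K A]
  {res : B →ₐ[K] A} {N : Type u} [AddCommGroup N] [Module A N] [Module K N] [IsScalarTower K A N]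
  {N' : Type u} [AddCommGroup N'] [Module A N'] [Module K N'] [IsScalarTower K A N']
  {P : Submodule K N} {M : Submodule K N'}

/-- Multiplication by a section. -/
def tmulRight (s : N') : N →ₗ[A] N ⊗[A] N' := (TensorProduct.mk A N N').flip s

theorem tmulRight_injective [IsDomain A] [Module.Invertible A N] [Module.Invertible A N'] {s : N'}
    (hs : s ≠ 0) : Function.Injective (tmulRight (N := N) (A := A) s) := by
  haveI : Module.Projective A N := inferInstance
  haveI : Module.Projective A N' := inferInstance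
  have h1 : Function.Injective (LinearMap.toSpanSingleton A N' s) := by
    haveI : Module.IsTorsionFree A N' := inferInstance
    exact smul_left_injective A hs
  have h2 := Module.Flat.lTensor_preserves_injective_linearMap (M := N) _ h1
  intro x y hxy
  have hx : ∀ z : N, tmulRight (A := A) s z =
      (LinearMap.toSpanSingleton A N' s).lTensor N (z ⊗ₜ 1) := fun z => by
    rw [LinearMap.lTensor_tmul, LinearMap.toSpanSingleton_apply, one_smul]; rfl
  rw [hx, hx] at hxy
  simpa using congrArg (TensorProduct.rid A N) (h2 hxy)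

/-- The image of a lattice under multiplication by a section. -/
theorem map_tmulRight_eq [Module.Invertible A N'] {n : ℕ} {e : Fin n → N'}
    {l : Fin n → N' →ₗ[A] A} (he : ∀ i, e i ∈ M) (hsum : ∀ x, x = ∑ i, l i x • e i)
    (hmem : ∀ x, x ∈ M ↔ ∀ i, l i x ∈ res.range) (hP : ∀ (b : B), ∀ x ∈ P, res b • x ∈ P)
    {s : N'} (hs : s ∈ M) :
    P.map ((tmulRight (A := A) s).restrictScalars K) =
      idealSMul res (colon res M s)
        (Submodule.span K {z : N ⊗[A] N' | ∃ a ∈ P, ∃ b ∈ M, z = a ⊗ₜ b}) := by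
  refine le_antisymm ?_ (Submodule.span_le.mpr ?_)
  · rintro _ ⟨x, hx, rfl⟩
    show x ⊗ₜ[A] s ∈ _
    have h1 : s ∈ idealSMul res (colon res M s) M := by
      rw [← multiples_eq he hsum hmem hs]
      exact mem_multiples_iff.mpr ⟨1, by rw [map_one, one_smul]⟩
    have : ∀ y ∈ idealSMul res (colon res M s) M, x ⊗ₜ[A] y ∈ idealSMul res (colon res M s)
        (Submodule.span K {z : N ⊗[A] N' | ∃ a ∈ P, ∃ b ∈ M, z = a ⊗ₜ b}) := by
      intro y hy
      induction hy using Submodule.span_induction with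
      | mem y hy =>
        obtain ⟨a, ha, z, hz, rfl⟩ := hy
        rw [tmul_smul]
        exact smul_mem_idealSMul ha (Submodule.subset_span ⟨x, hx, z, hz, rfl⟩)
      | zero => simp
      | add y z _ _ hy hz => rw [tmul_add]; exact add_mem hy hz
      | smul c y _ hy =>
        rw [tmul_smul]
        exact Submodule.smul_mem _ c hy
    exact this s h1
  · rintro _ ⟨a, ha, z, hz, rfl⟩
    induction hz using Submodule.span_induction with
    | mem z hz =>
      obtain ⟨x, hx, y, hy, rfl⟩ := hz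
      obtain ⟨b, hb⟩ := ha y hy
      refine ⟨res b • x, hP b x hx, ?_⟩
      show (res b • x) ⊗ₜ[A] s = res a • x ⊗ₜ[A] y
      rw [← tmul_smul (res a) x y, hb, ← smul_tmul']
      exact (tmul_smul _ _ _).symm
    | zero => rw [smul_zero]; exact zero_mem _
    | add y z _ _ hy hz => rw [smul_add]; exact add_mem hy hz
    | smul c y _ hy => rw [smul_comm]; exact Submodule.smul_mem _ c hy

end LatticeQuot

variable {k : Type u} [Field k] [IsAlgClosed k] {X : Model k} {K : Type u} [Field K] [Algebra k K]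

/-- The base change of a map from a polynomial ring stays finite. -/
theorem finite_aeval_one_tmul {A : Type u} [CommRing A] [Algebra k A] (f : A)
    (h : (Polynomial.aeval f : Polynomial k →ₐ[k] A).toRingHom.Finite) :
    (Polynomial.aeval ((1 : K) ⊗ₜ[k] f) : Polynomial K →ₐ[K] K ⊗[k] A).toRingHom.Finite := by
  classical
  letI : Algebra (Polynomial k) A := (Polynomial.aeval f).toRingHom.toAlgebra
  haveI : Module.Finite (Polynomial k) A := h
  obtain ⟨S, hS⟩ := Module.Finite.fg_top (R := Polynomial k) (M := A)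
  let φ : Polynomial K →ₐ[K] K ⊗[k] A := Polynomial.aeval ((1 : K) ⊗ₜ[k] f)
  letI : Algebra (Polynomial K) (K ⊗[k] A) := φ.toRingHom.toAlgebra
  refine ⟨⟨S.image fun a => (1 : K) ⊗ₜ[k] a, top_le_iff.mp fun z hz => ?_⟩⟩
  clear hz
  induction z using TensorProduct.induction_on with
  | zero => exact zero_mem _
  | add a b ha hb => exact add_mem ha hb
  | tmul r a =>
    have ha : a ∈ Submodule.span (Polynomial k) (S : Set A) := by rw [hS]; trivial
    induction ha using Submodule.span_induction generalizing r with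
    | mem y hy =>
      have e : r ⊗ₜ[k] y = φ (Polynomial.C r) * ((1 : K) ⊗ₜ[k] y) := by
        simp [φ, Algebra.TensorProduct.algebraMap_apply]
      rw [e]
      exact Submodule.smul_mem _ _ (Submodule.subset_span (Finset.mem_coe.mpr
        (Finset.mem_image_of_mem _ hy)))
    | zero => simp
    | add y z _ _ hy hz => rw [tmul_add]; exact add_mem (hy r) (hz r)
    | smul p y _ hy =>
      have e : r ⊗ₜ[k] (p • y) =
          φ (p.map (algebraMap k K)) * (r ⊗ₜ[k] y) := by
        have e1 : φ (p.map (algebraMap k K)) = (1 : K) ⊗ₜ[k] Polynomial.aeval f p := by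
          show Polynomial.aeval _ _ = _
          rw [Polynomial.aeval_map_algebraMap]
          exact Polynomial.aeval_algHom_apply
            (Algebra.TensorProduct.includeRight : A →ₐ[k] K ⊗[k] A) f p
        rw [e1, Algebra.TensorProduct.tmul_mul_tmul, one_mul, Algebra.smul_def]
        rfl
      rw [e]
      exact Submodule.smul_mem _ _ (hy r)

/-- Nonzero ideals of the first piece have finite colength. -/
theorem finite_quotient0 {I : Ideal (K ⊗[k] X.A0)} (hI : I ≠ ⊥) :
    FiniteDimensional K ((K ⊗[k] X.A0) ⧸ I) :=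
  haveI := isDomain_R_A0 (X := X) K
  LatticeQuot.finite_quotient_of_polynomial _ (finite_aeval_one_tmul X.f X.finite0) hI

/-- Nonzero ideals of the second piece have finite colength. -/
theorem finite_quotient1 {I : Ideal (K ⊗[k] X.A1)} (hI : I ≠ ⊥) :
    FiniteDimensional K ((K ⊗[k] X.A1) ⧸ I) :=
  haveI := isDomain_R_A1 (X := X) K
  LatticeQuot.finite_quotient_of_polynomial _ (finite_aeval_one_tmul X.g X.finite1) hI

theorem exists_pow_res0 (x : B01 X K) : ∃ m : ℕ, ∃ b : K ⊗[k] X.A0,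
    res0 X K b = res0 X K (1 ⊗ₜ X.f) ^ m * x := by
  induction x using TensorProduct.induction_on with
  | zero => exact ⟨0, 0, by simp⟩
  | tmul r a =>
    obtain ⟨m, c, hc⟩ := X.exists_pow_mul0 a
    exact ⟨m, r ⊗ₜ c, by rw [res0_tmul, res0_tmul, Algebra.TensorProduct.tmul_pow, one_pow,
      Algebra.TensorProduct.tmul_mul_tmul, one_mul, hc]⟩
  | add x y hx hy =>
    obtain ⟨m, b, hb⟩ := hx
    obtain ⟨m', b', hb'⟩ := hy
    refine ⟨m + m', (1 ⊗ₜ X.f) ^ m' * b + (1 ⊗ₜ X.f) ^ m * b', ?_⟩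
    rw [map_add, map_mul, map_mul, map_pow, map_pow, hb, hb']
    ring

theorem exists_pow_res1 (x : B01 X K) : ∃ m : ℕ, ∃ b : K ⊗[k] X.A1,
    res1 X K b = res1 X K (1 ⊗ₜ X.g) ^ m * x := by
  induction x using TensorProduct.induction_on with
  | zero => exact ⟨0, 0, by simp⟩
  | tmul r a =>
    obtain ⟨m, c, hc⟩ := X.exists_pow_mul1 a
    exact ⟨m, r ⊗ₜ c, by rw [res1_tmul, res1_tmul, Algebra.TensorProduct.tmul_pow, one_pow,
      Algebra.TensorProduct.tmul_mul_tmul, one_mul, hc]⟩
  | add x y hx hy =>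
    obtain ⟨m, b, hb⟩ := hx
    obtain ⟨m', b', hb'⟩ := hy
    refine ⟨m + m', (1 ⊗ₜ X.g) ^ m' * b + (1 ⊗ₜ X.g) ^ m * b', ?_⟩
    rw [map_add, map_mul, map_mul, map_pow, map_pow, hb, hb']
    ring

theorem isUnit_res0_f : IsUnit (res0 X K ((1 : K) ⊗ₜ X.f)) := (fUnit X K).isUnit

theorem isUnit_res1_g : IsUnit (res1 X K ((1 : K) ⊗ₜ X.g)) := ((fUnit X K)⁻¹).isUnit

namespace Pre

variable {L M : Pre X K}

/-- The ideal of a section on the first piece. -/
abbrev colon0 (L : Pre X K) (s : L.N) : Ideal (K ⊗[k] X.A0) :=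
  LatticeQuot.colon (res0 X K) L.M0 s

/-- The ideal of a section on the second piece. -/
abbrev colon1 (L : Pre X K) (s : L.N) : Ideal (K ⊗[k] X.A1) :=
  LatticeQuot.colon (res1 X K) L.M1 s

/-- The ideal of a section on the overlap. -/
abbrev colon01 (L : Pre X K) (s : L.N) : Ideal (B01 X K) :=
  LatticeQuot.colon (AlgHom.id K (B01 X K)) (⊤ : Submodule K L.N) s

/-- Colengths of the ideals of a section. -/
def degSection (L : Pre X K) (s : L.N) : ℤ :=
  (Module.finrank K ((K ⊗[k] X.A0) ⧸ L.colon0 s) : ℤ) +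
    Module.finrank K ((K ⊗[k] X.A1) ⧸ L.colon1 s) - Module.finrank K (B01 X K ⧸ L.colon01 s)

theorem Good.lattice01 (h : L.Good) :
    ∃ (n : ℕ) (e : Fin n → L.N) (l : Fin n → L.N →ₗ[B01 X K] B01 X K),
      (∀ i, e i ∈ (⊤ : Submodule K L.N)) ∧ (∀ x, x = ∑ i, l i x • e i) ∧
        ∀ x, x ∈ (⊤ : Submodule K L.N) ↔ ∀ i, l i x ∈ (AlgHom.id K (B01 X K)).range := by
  obtain ⟨n, e, l, -, hsum, -⟩ := h.lattice0
  exact ⟨n, e, l, fun _ => trivial, hsum,
    fun x => ⟨fun _ i => ⟨l i x, rfl⟩, fun _ => trivial⟩⟩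

theorem Good.finite_colon0 (h : L.Good) {s : L.N} (hs : s ∈ L.M0) (h0 : s ≠ 0) :
    FiniteDimensional K ((K ⊗[k] X.A0) ⧸ L.colon0 s) := by
  haveI := h.invertible
  obtain ⟨n, e, l, -, hsum, hmem⟩ := h.lattice0
  exact finite_quotient0 (LatticeQuot.colon_ne_bot hsum hmem hs h0)

theorem Good.finite_colon1 (h : L.Good) {s : L.N} (hs : s ∈ L.M1) (h0 : s ≠ 0) :
    FiniteDimensional K ((K ⊗[k] X.A1) ⧸ L.colon1 s) := by
  haveI := h.invertible
  obtain ⟨n, e, l, -, hsum, hmem⟩ := h.lattice1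
  exact finite_quotient1 (LatticeQuot.colon_ne_bot hsum hmem hs h0)

theorem Good.colon0_le_comap (h : L.Good) (s : L.N) :
    L.colon0 s ≤ (L.colon01 s).comap (res0 X K) := by
  obtain ⟨n, e, l, he, hsum, -⟩ := h.lattice0
  intro a ha y _
  choose b hb using fun i => ha (e i) (he i)
  refine ⟨∑ i, l i y * res0 X K (b i), ?_⟩
  show res0 X K a • y = (∑ i, l i y * res0 X K (b i)) • s
  conv_lhs => rw [hsum y]
  rw [Finset.smul_sum, Finset.sum_smul]
  exact Finset.sum_congr rfl fun i _ => by rw [smul_comm, hb, smul_smul]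

theorem Good.colon1_le_comap (h : L.Good) (s : L.N) :
    L.colon1 s ≤ (L.colon01 s).comap (res1 X K) := by
  obtain ⟨n, e, l, he, hsum, -⟩ := h.lattice1
  intro a ha y _
  choose b hb using fun i => ha (e i) (he i)
  refine ⟨∑ i, l i y * res1 X K (b i), ?_⟩
  show res1 X K a • y = (∑ i, l i y * res1 X K (b i)) • s
  conv_lhs => rw [hsum y]
  rw [Finset.smul_sum, Finset.sum_smul]
  exact Finset.sum_congr rfl fun i _ => by rw [smul_comm, hb, smul_smul]

theorem Good.finrank_colon01_le (h : L.Good) {s : L.N} (hs : s ∈ L.H0) (h0 : s ≠ 0) :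
    FiniteDimensional K (B01 X K ⧸ L.colon01 s) ∧
      Module.finrank K (B01 X K ⧸ L.colon01 s) ≤
        Module.finrank K ((K ⊗[k] X.A0) ⧸ L.colon0 s) ∧
      Module.finrank K (B01 X K ⧸ L.colon01 s) ≤
        Module.finrank K ((K ⊗[k] X.A1) ⧸ L.colon1 s) := by
  haveI := h.finite_colon0 hs.1 h0
  haveI := h.finite_colon1 hs.2 h0
  obtain ⟨hf, hle⟩ := LatticeQuot.finrank_quotient_away (res0 X K) _ isUnit_res0_f
    exists_pow_res0 (h.colon0_le_comap s)
  obtain ⟨-, hle'⟩ := LatticeQuot.finrank_quotient_away (res1 X K) _ isUnit_res1_g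
    exists_pow_res1 (h.colon1_le_comap s)
  exact ⟨hf, hle, hle'⟩

/-- Multiplication by a nonzero section. -/
theorem Good.chi_tensor_eq_degSection (hL : L.Good) (hM : M.Good) {s : M.N} (hs : s ∈ M.H0)
    (h0 : s ≠ 0) : (L.tensor M).chi = L.chi + M.degSection s := by
  haveI := isDomain_b01 (X := X) K
  haveI := hL.invertible
  haveI := hM.invertible
  have hLM := hL.tensor hM
  haveI := hLM.invertible
  let ι : L.N →ₗ[K] (L.tensor M).N :=
    (LatticeQuot.tmulRight (A := B01 X K) (N := L.N) s).restrictScalars K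
  have hι : Function.Injective ι := LatticeQuot.tmulRight_injective h0
  haveI := hM.finite_colon0 hs.1 h0
  haveI := hM.finite_colon1 hs.2 h0
  haveI := (hM.finrank_colon01_le hs h0).1
  obtain ⟨n0, e0, l0, he0, hsum0, hmem0⟩ := hM.lattice0
  obtain ⟨n1, e1, l1, he1, hsum1, hmem1⟩ := hM.lattice1
  obtain ⟨n2, e2, l2, he2, hsum2, hmem2⟩ := hM.lattice01
  have im0 : L.M0.map ι = LatticeQuot.idealSMul (res0 X K) (M.colon0 s) (L.tensor M).M0 :=
    LatticeQuot.map_tmulRight_eq he0 hsum0 hmem0 (fun b x hx => hL.res0_smul_mem b hx) hs.1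
  have im1 : L.M1.map ι = LatticeQuot.idealSMul (res1 X K) (M.colon1 s) (L.tensor M).M1 :=
    LatticeQuot.map_tmulRight_eq he1 hsum1 hmem1 (fun b x hx => hL.res1_smul_mem b hx) hs.2
  have im2 : LinearMap.range ι =
      LatticeQuot.idealSMul (AlgHom.id K (B01 X K)) (M.colon01 s)
        (⊤ : Submodule K (L.tensor M).N) := by
    rw [← Submodule.map_top, LatticeQuot.map_tmulRight_eq (P := (⊤ : Submodule K L.N)) he2 hsum2
      hmem2 (fun _ _ _ => trivial) trivial]
    congr 1
    refine top_le_iff.mp fun z _ => ?_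
    induction z using TensorProduct.induction_on with
    | zero => exact zero_mem _
    | tmul a b => exact Submodule.subset_span ⟨a, trivial, b, trivial, rfl⟩
    | add a b ha hb => exact add_mem (ha trivial) (hb trivial)
  obtain ⟨m0, f0, g0, hf0, hg0, hh0⟩ := hLM.lattice0
  obtain ⟨m1, f1, g1, hf1, hg1, hh1⟩ := hLM.lattice1
  obtain ⟨m2, f2, g2, hf2, hg2, hh2⟩ := hLM.lattice01
  obtain ⟨q0, d0⟩ := LatticeQuot.finrank_quotient_idealSMul hf0 hg0 hh0 (res0_injective X K)
    (M.colon0 s)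
  obtain ⟨q1, d1⟩ := LatticeQuot.finrank_quotient_idealSMul hf1 hg1 hh1 (res1_injective X K)
    (M.colon1 s)
  obtain ⟨q2, d2⟩ := LatticeQuot.finrank_quotient_idealSMul hf2 hg2 hh2 Function.injective_id
    (M.colon01 s)
  rw [← im0] at q0 d0
  rw [← im1] at q1 d1
  have eq2 : ((⊤ : Submodule K (L.tensor M).N) ⧸
      (LatticeQuot.idealSMul (AlgHom.id K (B01 X K)) (M.colon01 s)
        (⊤ : Submodule K (L.tensor M).N)).comap (⊤ : Submodule K (L.tensor M).N).subtype) ≃ₗ[K]
        (L.tensor M).N ⧸ LinearMap.range ι :=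
    Submodule.Quotient.equiv _ _ Submodule.topEquiv (by
      rw [im2]
      exact Submodule.map_comap_eq_of_surjective Submodule.topEquiv.surjective _)
  haveI := q0
  haveI := q1
  haveI := q2
  haveI : FiniteDimensional K ((L.tensor M).N ⧸ LinearMap.range ι) := Module.Finite.equiv eq2
  have hle0 : L.M0.map ι ≤ (L.tensor M).M0 := by
    rintro _ ⟨x, hx, rfl⟩; exact tmul_mem_tensor_M0 hx hs.1
  have hle1 : L.M1.map ι ≤ (L.tensor M).M1 := by
    rintro _ ⟨x, hx, rfl⟩; exact tmul_mem_tensor_M1 hx hs.2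
  rw [chi_eq_of_injective hL hLM ι hι hle0 hle1, d0, d1, ← eq2.finrank_eq, d2, degSection]
  ring

/-- Riemann: the Euler characteristic through the ideals of a section. -/
theorem Good.chi_eq_degSection (hM : M.Good) {s : M.N} (hs : s ∈ M.H0) (h0 : s ≠ 0) :
    M.chi = (Pre.unit X K).chi + M.degSection s :=
  (chi_congr (tensor_unit hM)).symm.trans ((good_unit X K).chi_tensor_eq_degSection hM hs h0)

theorem Good.chi_tensor_of_H0 (hL : L.Good) (hM : M.Good) (hs : M.H0 ≠ ⊥) :
    (L.tensor M).chi = L.chi + M.chi - (Pre.unit X K).chi := by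
  obtain ⟨s, hs, h0⟩ := Submodule.exists_mem_ne_zero_of_ne_bot hs
  rw [hL.chi_tensor_eq_degSection hM hs h0, hM.chi_eq_degSection hs h0]
  ring

theorem Good.exists_ne_zero0 (h : L.Good) : ∃ x ∈ L.M0, x ≠ 0 := by
  haveI := isDomain_b01 (X := X) K
  haveI := h.invertible
  by_contra hc
  push Not at hc
  have h1 : Submodule.span (B01 X K) (L.M0 : Set L.N) = ⊥ := Submodule.span_eq_bot.mpr hc
  have h2 : ∀ x : L.N, x = 0 := fun x => by
    have : x ∈ Submodule.span (B01 X K) (L.M0 : Set L.N) := by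
      rw [h.lattice0.span_eq_top]; trivial
    rwa [h1, Submodule.mem_bot] at this
  haveI : Subsingleton L.N := ⟨fun x y => (h2 x).trans (h2 y).symm⟩
  exact one_ne_zero ((Module.Invertible.toModuleEnd_bijective (B01 X K) L.N).1
    (LinearMap.ext fun x => Subsingleton.elim _ _) : (1 : B01 X K) = 0)

/-- Some twist has a nonzero section. -/
theorem Good.exists_twist_H0_ne_bot (h : L.Good) : ∃ m : ℕ, (L.twist (m : ℤ)).H0 ≠ ⊥ := by
  obtain ⟨x, hx, hx0⟩ := h.exists_ne_zero0
  obtain ⟨m, hm⟩ := h.exists_mem_twist x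
  exact ⟨m, (Submodule.ne_bot_iff _).mpr ⟨x, ⟨hx, hm⟩, hx0⟩⟩

/-- The effect of twisting on the Euler characteristic. -/
theorem Good.chi_twist (hL : L.Good) (m : ℕ) :
    (L.twist (m : ℤ)).chi =
      L.chi + ((Pre.unit X K).twist (m : ℤ)).chi - (Pre.unit X K).chi := by
  haveI := isDomain_b01 (X := X) K
  have h1 : ((Pre.unit X K).twist (m : ℤ)).H0 ≠ ⊥ := by
    refine (Submodule.ne_bot_iff _).mpr ⟨1, ⟨⟨1, map_one (res0 X K)⟩, ?_⟩, one_ne_zero⟩
    refine twist_M1_mono (good_unit X K) (Int.natCast_nonneg m) ?_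
    rw [twist_zero_M1]
    exact ⟨1, map_one (res1 X K)⟩
  rw [← hL.chi_tensor_of_H0 ((good_unit X K).twist m) h1, chi_congr (twist_iso_tensor hL m)]

/-- Additivity of the degree. -/
theorem Good.chi_tensor (hL : L.Good) (hM : M.Good) :
    (L.tensor M).chi = L.chi + M.chi - (Pre.unit X K).chi := by
  obtain ⟨m, hm⟩ := hM.exists_twist_H0_ne_bot
  have e := hL.chi_tensor_of_H0 (hM.twist m) hm
  rw [chi_congr (tensor_twist L M m), (hL.tensor hM).chi_twist, hM.chi_twist] at e
  linarith

theorem Good.degSection_eq_zero_iff (h : L.Good) {s : L.N} (hs : s ∈ L.H0) (h0 : s ≠ 0) :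
    L.degSection s = 0 ↔ L.colon0 s = ⊤ ∧ L.colon1 s = ⊤ := by
  haveI := h.finite_colon0 hs.1 h0
  haveI := h.finite_colon1 hs.2 h0
  obtain ⟨-, hle, hle'⟩ := h.finrank_colon01_le hs h0
  constructor
  · intro hd
    rw [degSection] at hd
    have e0 : Module.finrank K ((K ⊗[k] X.A0) ⧸ L.colon0 s) = 0 := by omega
    have e1 : Module.finrank K ((K ⊗[k] X.A1) ⧸ L.colon1 s) = 0 := by omega
    exact ⟨Ideal.Quotient.subsingleton_iff.mp (Module.finrank_zero_iff.mp e0),
      Ideal.Quotient.subsingleton_iff.mp (Module.finrank_zero_iff.mp e1)⟩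
  · rintro ⟨e0, e1⟩
    haveI : Subsingleton ((K ⊗[k] X.A0) ⧸ L.colon0 s) := Ideal.Quotient.subsingleton_iff.mpr e0
    haveI : Subsingleton ((K ⊗[k] X.A1) ⧸ L.colon1 s) := Ideal.Quotient.subsingleton_iff.mpr e1
    have z0 : Module.finrank K ((K ⊗[k] X.A0) ⧸ L.colon0 s) = 0 :=
      Module.finrank_zero_of_subsingleton
    have z1 : Module.finrank K ((K ⊗[k] X.A1) ⧸ L.colon1 s) = 0 :=
      Module.finrank_zero_of_subsingleton
    rw [degSection]
    omega

/-- A section without zeros trivialises. -/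
theorem Good.iso_unit_of_colon_eq_top (h : L.Good) {s : L.N} (hs : s ∈ L.H0) (h0 : s ≠ 0)
    (t0 : L.colon0 s = ⊤) (t1 : L.colon1 s = ⊤) : Iso L (Pre.unit X K) := by
  haveI := isDomain_b01 (X := X) K
  haveI := h.invertible
  let φ : B01 X K →ₗ[B01 X K] L.N := LinearMap.toSpanSingleton (B01 X K) L.N s
  have hsurj : Function.Surjective φ := by
    intro y
    obtain ⟨n, e, l, he, hsum, -⟩ := h.lattice0
    choose b hb using fun i => LatticeQuot.eq_smul_of_colon_eq_top t0 (he i)
    refine ⟨∑ i, l i y * res0 X K (b i), ?_⟩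
    show (∑ i, l i y * res0 X K (b i)) • s = y
    conv_rhs => rw [hsum y]
    rw [Finset.sum_smul]
    exact Finset.sum_congr rfl fun i _ => by rw [mul_smul, hb]
  have hinj : Function.Injective φ := smul_left_injective (B01 X K) h0
  refine (Iso.of_le (L := Pre.unit X K) (LinearEquiv.ofBijective φ ⟨hinj, hsurj⟩) ?_ ?_ ?_ ?_).symm
  · rintro _ ⟨b, rfl⟩
    exact h.res0_smul_mem b hs.1
  · intro y hy
    obtain ⟨b, hb⟩ := LatticeQuot.eq_smul_of_colon_eq_top t0 hy
    refine ⟨b, ?_⟩
    rw [LinearEquiv.eq_symm_apply]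
    exact hb
  · rintro _ ⟨b, rfl⟩
    exact h.res1_smul_mem b hs.2
  · intro y hy
    obtain ⟨b, hb⟩ := LatticeQuot.eq_smul_of_colon_eq_top t1 hy
    refine ⟨b, ?_⟩
    rw [LinearEquiv.eq_symm_apply]
    exact hb

/-- A bundle of degree zero with a section is trivial. -/
theorem Good.iso_unit_of_chi_eq (h : L.Good) (hchi : L.chi = (Pre.unit X K).chi)
    (hs : L.H0 ≠ ⊥) : Iso L (Pre.unit X K) := by
  obtain ⟨s, hs, h0⟩ := Submodule.exists_mem_ne_zero_of_ne_bot hs
  have hd : L.degSection s = 0 := by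
    have := h.chi_eq_degSection hs h0
    omega
  obtain ⟨t0, t1⟩ := (h.degSection_eq_zero_iff hs h0).mp hd
  exact h.iso_unit_of_colon_eq_top hs h0 t0 t1

end Pre

end Fermat.Agent.RelPic

end
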