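import Fermat.Agent.RelPic.Lattice

/-!
# The pole filtration on the overlap
-/

set_option autoImplicit false
set_option linter.style.haveILetI false

universe u

open TensorProduct

noncomputable section

namespace Fermat.Agent.RelPic

variable {k : Type u} [Field k] (X : Model k)

namespace Model

/-- Sections over the first piece, inside `A01`. -/
def V0 : Submodule k X.A01 := X.ι0.toLinearMap.range

/-- Sections over the second piece with poles of order at most `c` along `g = 0`. -/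
def V1 (c : ℤ) : Submodule k X.A01 :=
  X.ι1.toLinearMap.range.map (LinearMap.mulLeft k ((X.fu ^ c : X.A01ˣ) : X.A01))

variable {X}

theorem mem_V1_iff {c : ℤ} {a : X.A01} :
    a ∈ X.V1 c ↔ ∃ b : X.A1, ((X.fu ^ (-c) : X.A01ˣ) : X.A01) * a = X.ι1 b := by
  constructor
  · rintro ⟨_, ⟨b, rfl⟩, rfl⟩
    refine ⟨b, ?_⟩
    simp only [LinearMap.mulLeft_apply, ← mul_assoc, ← Units.val_mul, ← zpow_add, neg_add_cancel,
      zpow_zero, Units.val_one, one_mul]
    rfl
  · rintro ⟨b, hb⟩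
    refine ⟨X.ι1 b, ⟨b, rfl⟩, ?_⟩
    simp only [LinearMap.mulLeft_apply, ← hb, ← mul_assoc, ← Units.val_mul, ← zpow_add,
      add_neg_cancel, zpow_zero, Units.val_one, one_mul]

theorem zpow_mul_mem_V1 (c : ℤ) (b : X.A1) :
    ((X.fu ^ c : X.A01ˣ) : X.A01) * X.ι1 b ∈ X.V1 c :=
  ⟨X.ι1 b, ⟨b, rfl⟩, rfl⟩

theorem fu_zpow_neg (i : ℕ) :
    ((X.fu ^ (-(i : ℤ)) : X.A01ˣ) : X.A01) = X.ι1 (X.g ^ i) := by
  rw [map_pow, zpow_neg, ← inv_zpow, zpow_natCast, Units.val_pow_eq_pow_val]
  rfl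

theorem V1_mono {c c' : ℤ} (h : c ≤ c') : X.V1 c ≤ X.V1 c' := by
  obtain ⟨d, rfl⟩ := Int.le.dest h
  intro a ha
  obtain ⟨b, hb⟩ := mem_V1_iff.mp ha
  refine mem_V1_iff.mpr ⟨X.g ^ d * b, ?_⟩
  rw [neg_add, zpow_add, Units.val_mul, mul_comm ((X.fu ^ (-c) : X.A01ˣ) : X.A01), mul_assoc, hb,
    fu_zpow_neg, map_mul]

theorem fu_zpow_neg_mul_mem_V1 {c : ℤ} (i : ℕ) {a : X.A01} (ha : a ∈ X.V1 c) :
    ((X.fu ^ (-(i : ℤ)) : X.A01ˣ) : X.A01) * a ∈ X.V1 c := by
  obtain ⟨b, hb⟩ := mem_V1_iff.mp ha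
  refine mem_V1_iff.mpr ⟨X.g ^ i * b, ?_⟩
  rw [mul_left_comm, hb, fu_zpow_neg, map_mul]

theorem exists_mem_V1 (a : X.A01) : ∃ c : ℕ, a ∈ X.V1 c := by
  obtain ⟨n, b, hb⟩ := X.exists_pow_mul1 a
  refine ⟨n, mem_V1_iff.mpr ⟨b, ?_⟩⟩
  rw [fu_zpow_neg, map_pow]
  exact hb

variable (X) in
/-- `H¹` of the twist by a large multiple of the point at infinity vanishes. -/
theorem exists_V0_sup_V1_eq_top : ∃ D : ℕ, X.V0 ⊔ X.V1 D = ⊤ := by
  classical
  letI : Algebra (Polynomial k) X.A0 :=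
    (Polynomial.aeval X.f : Polynomial k →ₐ[k] X.A0).toRingHom.toAlgebra
  haveI : Module.Finite (Polynomial k) X.A0 := X.finite0
  obtain ⟨S, hS⟩ := Module.Finite.fg_top (R := Polynomial k) (M := X.A0)
  choose cf hcf using fun a : X.A0 => exists_mem_V1 (X.ι0 a)
  refine ⟨S.sup cf, top_le_iff.mp fun x _ => ?_⟩
  have main : ∀ (n : ℕ) (a : X.A0), ((X.fu ^ (-(n : ℤ)) : X.A01ˣ) : X.A01) * X.ι0 a ∈
      X.V0 ⊔ X.V1 ((S.sup cf : ℕ) : ℤ) := by
    intro n a
    have ha : a ∈ Submodule.span (Polynomial k) (S : Set X.A0) := by rw [hS]; trivial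
    induction ha using Submodule.span_induction generalizing n with
    | mem y hy =>
        refine Submodule.mem_sup_right (fu_zpow_neg_mul_mem_V1 n ?_)
        exact V1_mono (Int.ofNat_le.mpr (Finset.le_sup (f := cf) hy)) (hcf y)
    | zero => simp
    | add y z _ _ hy hz => rw [map_add, mul_add]; exact add_mem (hy n) (hz n)
    | smul P y _ hy =>
        rw [Algebra.smul_def, RingHom.algebraMap_toAlgebra]
        induction P using Polynomial.induction_on' with
        | add p q hp hq =>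
            rw [map_add, add_mul, map_add, mul_add]
            exact add_mem hp hq
        | monomial i c =>
            have e : ((X.fu ^ (-(n : ℤ)) : X.A01ˣ) : X.A01) *
                X.ι0 ((Polynomial.aeval X.f : Polynomial k →ₐ[k] X.A0).toRingHom
                  (Polynomial.monomial i c) * y) =
                c • (((X.fu ^ ((i : ℤ) - (n : ℤ)) : X.A01ˣ) : X.A01) * X.ι0 y) := by
              simp only [AlgHom.toRingHom_eq_coe, RingHom.coe_coe, Polynomial.aeval_monomial,
                map_mul, AlgHom.commutes, map_pow]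
              rw [sub_eq_neg_add, zpow_add, Units.val_mul, zpow_natCast, Units.val_pow_eq_pow_val,
                Algebra.smul_def]
              show _ * (_ * X.ι0 X.f ^ i * _) = _ * (_ * X.ι0 X.f ^ i * _)
              ring
            rw [e]
            refine Submodule.smul_mem _ _ ?_
            rcases le_or_gt n i with hni | hni
            · refine Submodule.mem_sup_left ⟨X.f ^ (i - n) * y, ?_⟩
              show X.ι0 (X.f ^ (i - n) * y) = _
              rw [map_mul, map_pow, ← Nat.cast_sub hni, zpow_natCast, Units.val_pow_eq_pow_val]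
              rfl
            · have e2 : (i : ℤ) - (n : ℤ) = -((n - i : ℕ) : ℤ) := by
                push_cast [hni.le]; ring
              rw [e2]
              exact hy (n - i)
  obtain ⟨n, b, hb⟩ := X.exists_pow_mul0 x
  have hx : x = ((X.fu ^ (-(n : ℤ)) : X.A01ˣ) : X.A01) * X.ι0 b := by
    rw [← hb, show X.ι0 X.f ^ n = ((X.fu ^ ((n : ℕ) : ℤ) : X.A01ˣ) : X.A01) by
      rw [zpow_natCast, Units.val_pow_eq_pow_val]; rfl, ← mul_assoc, ← Units.val_mul, ← zpow_add,
      neg_add_cancel, zpow_zero, Units.val_one, one_mul]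
  rw [hx]
  exact main n b

theorem V0_inf_V1_neg_one : X.V0 ⊓ X.V1 (-1) = ⊥ := by
  rw [eq_bot_iff]
  rintro x ⟨⟨a, rfl⟩, h1⟩
  obtain ⟨b, hb⟩ := mem_V1_iff.mp h1
  have hgb : X.ι0 a = X.ι1 (X.g * b) := by
    rw [map_mul, ← hb, ← mul_assoc]
    rw [neg_neg, zpow_one]
    show X.ι0 a = X.ι1 X.g * X.ι0 X.f * X.ι0 a
    rw [mul_comm (X.ι1 X.g), X.mul_eq_one, one_mul]
  have hmem : X.ι0 a ∈ (X.ι0.range ⊓ X.ι1.range : Subalgebra k X.A01) :=
    ⟨⟨a, rfl⟩, ⟨_, hgb.symm⟩⟩
  rw [X.range_inf, Algebra.mem_bot] at hmem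
  obtain ⟨c, hc⟩ := hmem
  have hc' : algebraMap k X.A1 c = X.g * b := by
    apply X.ι1_injective
    rw [AlgHom.commutes, hc, hgb]
  have : c = 0 := by
    have := congrArg X.einf hc'
    rwa [AlgHom.commutes, Algebra.algebraMap_self_apply, map_mul, X.einf_g, zero_mul] at this
  show X.ι0 a ∈ (⊥ : Submodule k X.A01)
  rw [Submodule.mem_bot, ← hc, this, map_zero]

variable (X) in
theorem exists_fg_sup (c : ℤ) (d : ℕ) :
    ∃ W : Submodule k X.A01, Module.Finite k W ∧ W ≤ X.V1 c ∧ X.V1 c ≤ W ⊔ X.V1 (c - d) := by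
  classical
  letI : Algebra (Polynomial k) X.A1 :=
    (Polynomial.aeval X.g : Polynomial k →ₐ[k] X.A1).toRingHom.toAlgebra
  haveI : Module.Finite (Polynomial k) X.A1 := X.finite1
  obtain ⟨S, hS⟩ := Module.Finite.fg_top (R := Polynomial k) (M := X.A1)
  let W : Submodule k X.A01 := Submodule.span k
    ↑((Finset.range d ×ˢ S).image fun p =>
      ((X.fu ^ c : X.A01ˣ) : X.A01) * X.ι1 (X.g ^ p.1 * p.2))
  refine ⟨W, Module.Finite.span_of_finite k (Finset.finite_toSet _), ?_, ?_⟩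
  · rw [Submodule.span_le]
    intro y hy
    simp only [Finset.coe_image, Set.mem_image] at hy
    obtain ⟨p, -, rfl⟩ := hy
    exact zpow_mul_mem_V1 _ _
  rintro _ ⟨_, ⟨b, rfl⟩, rfl⟩
  show ((X.fu ^ c : X.A01ˣ) : X.A01) * X.ι1 b ∈ W ⊔ X.V1 (c - d)
  have hb : b ∈ Submodule.span (Polynomial k) (S : Set X.A1) := by rw [hS]; trivial
  suffices H : ∀ (j : ℕ), ((X.fu ^ c : X.A01ˣ) : X.A01) * X.ι1 (X.g ^ j * b) ∈
      W ⊔ X.V1 (c - d) by
    simpa using H 0
  intro j
  induction hb using Submodule.span_induction generalizing j with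
  | mem y hy =>
      rcases lt_or_ge j d with hj | hj
      · refine Submodule.mem_sup_left (Submodule.subset_span ?_)
        simp only [Finset.coe_image, Set.mem_image, SetLike.mem_coe, Finset.mem_product,
          Finset.mem_range]
        exact ⟨(j, y), ⟨hj, hy⟩, rfl⟩
      · refine Submodule.mem_sup_right (mem_V1_iff.mpr ⟨X.g ^ (j - d) * y, ?_⟩)
        have e : X.g ^ j * y = X.g ^ d * (X.g ^ (j - d) * y) := by
          rw [← mul_assoc, ← pow_add, Nat.add_sub_cancel' hj]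
        rw [e, map_mul X.ι1 (X.g ^ d), ← fu_zpow_neg, ← mul_assoc, ← mul_assoc, ← Units.val_mul,
          ← Units.val_mul, ← zpow_add, ← zpow_add, show -(c - d) + c + -(d : ℤ) = 0 by ring,
          zpow_zero, Units.val_one, one_mul]
  | zero => simp
  | add y z _ _ hy hz => rw [mul_add, map_add, mul_add]; exact add_mem (hy j) (hz j)
  | smul P y _ hy =>
      rw [Algebra.smul_def, RingHom.algebraMap_toAlgebra]
      induction P using Polynomial.induction_on' with
      | add p q hp hq =>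
          rw [map_add, add_mul, mul_add, map_add, mul_add]
          exact add_mem hp hq
      | monomial i a =>
          have e : ((X.fu ^ c : X.A01ˣ) : X.A01) * X.ι1 (X.g ^ j *
              ((Polynomial.aeval X.g : Polynomial k →ₐ[k] X.A1).toRingHom
                (Polynomial.monomial i a) * y)) =
              a • (((X.fu ^ c : X.A01ˣ) : X.A01) * X.ι1 (X.g ^ (j + i) * y)) := by
            simp only [AlgHom.toRingHom_eq_coe, RingHom.coe_coe, Polynomial.aeval_monomial,
              map_mul, AlgHom.commutes, map_pow, Algebra.smul_def, pow_add]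
            ring
          rw [e]
          exact Submodule.smul_mem _ _ (hy (j + i))

variable (X) in
theorem finite_V0_inf_V1 (c : ℤ) : Module.Finite k ↥(X.V0 ⊓ X.V1 c) := by
  wlog hc : -1 ≤ c generalizing c with H
  · haveI := H (-1) le_rfl
    exact Submodule.finiteDimensional_of_le
      (inf_le_inf_left _ (V1_mono (le_of_lt (not_le.mp hc))))
  obtain ⟨d, hd⟩ := Int.le.dest hc
  obtain ⟨W, hW, -, hWV⟩ := exists_fg_sup X c d
  rw [show c - (d : ℤ) = -1 by omega] at hWV
  haveI := hW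
  let ψ : ↥(X.V0 ⊓ X.V1 c) →ₗ[k] X.A01 ⧸ X.V1 (-1) :=
    (X.V1 (-1)).mkQ.comp (Submodule.subtype _)
  have hψ : ∀ x, ψ x ∈ W.map (X.V1 (-1)).mkQ := by
    intro x
    obtain ⟨w, hw, v, hv, he⟩ := Submodule.mem_sup.mp (hWV x.2.2)
    refine ⟨w, hw, ?_⟩
    show (X.V1 (-1)).mkQ w = (X.V1 (-1)).mkQ (x : X.A01)
    rw [← he, map_add]
    simp [(Submodule.Quotient.mk_eq_zero _).mpr hv]
  refine Module.Finite.of_injective (LinearMap.codRestrict _ ψ hψ) fun x y hxy => ?_
  have h2 : ψ x = ψ y := congrArg Subtype.val hxy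
  apply Subtype.ext
  have h1 : (x : X.A01) - (y : X.A01) ∈ X.V0 ⊓ X.V1 (-1) :=
    ⟨sub_mem x.2.1 y.2.1, (Submodule.Quotient.eq _).mp h2⟩
  rw [V0_inf_V1_neg_one, Submodule.mem_bot, sub_eq_zero] at h1
  exact h1

end Model

variable {X} {R : Type u} [CommRing R] [Algebra k R]

theorem unit_M0_eq : (Pre.unit X R).M0 = ext01 X R X.V0 := range_res0

theorem unit_twist_M1_eq (c : ℤ) : ((Pre.unit X R).twist c).M1 = ext01 X R (X.V1 c) := by
  refine le_antisymm ?_ (ext01_le fun a ha => ?_)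
  · intro x hx
    obtain ⟨y, hy, rfl⟩ := hx
    have hy' : y ∈ ext01 X R X.ι1.toLinearMap.range := range_res1 (X := X) (R := R) ▸ hy
    obtain ⟨z, rfl⟩ := hy'
    clear hy
    induction z using TensorProduct.induction_on with
    | zero => simp
    | tmul r a =>
        rw [LinearMap.baseChange_tmul, LinearMap.coe_restrictScalars, LinearMap.lsmul_apply,
          smul_eq_mul, coe_fUnit_zpow, Submodule.subtype_apply,
          Algebra.TensorProduct.tmul_mul_tmul, one_mul]
        exact tmul_mem_ext01 r ⟨a, a.2, rfl⟩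
    | add a b ha hb => rw [map_add, map_add]; exact add_mem ha hb
  · obtain ⟨b, ⟨c', rfl⟩, rfl⟩ := ha
    refine ⟨(1 : R) ⊗ₜ X.ι1 c', ⟨(1 : R) ⊗ₜ c', rfl⟩, ?_⟩
    rw [LinearMap.coe_restrictScalars, LinearMap.lsmul_apply, smul_eq_mul, coe_fUnit_zpow,
      Algebra.TensorProduct.tmul_mul_tmul, one_mul]
    rfl

theorem ext01_fg {V : Submodule k X.A01} (h : V.FG) : (ext01 X R V).FG := by
  have := Module.Finite.iff_fg.mpr h
  rw [ext01, LinearMap.range_eq_map]
  exact Module.Finite.fg_top.map _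

/-- A retraction onto `R ⊗ V`. -/
theorem exists_retraction_ext01 (V : Submodule k X.A01) :
    ∃ π : B01 X R →ₗ[R] B01 X R, (∀ x, π x ∈ ext01 X R V) ∧ ∀ x ∈ ext01 X R V, π x = x := by
  obtain ⟨W, hW⟩ := V.exists_isCompl
  refine ⟨(V.subtype ∘ₗ Submodule.projectionOnto V W hW).baseChange R, fun x => ?_, ?_⟩
  · rw [LinearMap.baseChange_comp]
    exact ⟨_, rfl⟩
  · rintro _ ⟨z, rfl⟩
    induction z using TensorProduct.induction_on with
    | zero => simp
    | tmul r a => simp [LinearMap.baseChange_tmul]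
    | add a b ha hb => simp only [map_add, ha, hb]

end Fermat.Agent.RelPic
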