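import Fermat.Agent.RelPic.GlueHom
import Fermat.Prelude.Def_AlgebraicGeometry_RelativePicardFunctor

/-!
# Frames of invertible modules and restriction along open immersions
-/

set_option autoImplicit false
set_option linter.unusedVariables false

noncomputable section

universe u v

open CategoryTheory TopologicalSpace AlgebraicGeometry Opposite

namespace AlgebraicGeometry.RelPicGlue

variable {X Y : Scheme.{u}} {L L' : X.Modules}

/-- `e` is a basis of `L` below `V`. -/
def IsFrame {V : X.Opens} (e : Γ(L, V)) : Prop :=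
  ∀ (V' : X.Opens) (h : V' ≤ V), Function.Bijective fun r : Γ(X, V') => r • sres L h e

theorem IsFrame.sres {V V' : X.Opens} {e : Γ(L, V)} (he : IsFrame e) (h : V' ≤ V) :
    IsFrame (RelPicGlue.sres L h e) := fun V'' h' => by
  simpa only [sres_sres] using he V'' (h'.trans h)

theorem IsFrame.exists_smul {V V' : X.Opens} {e : Γ(L, V)} (he : IsFrame e) (h : V' ≤ V)
    (s : Γ(L, V')) : ∃ r : Γ(X, V'), r • RelPicGlue.sres L h e = s := (he V' h).2 s

theorem IsFrame.map {W V : X.Opens} {f : LocalHom W L L'} (hf : f.Bij) (hV : V ≤ W)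
    {e : Γ(L, V)} (he : IsFrame e) : IsFrame (f.app V hV e) := fun V' h => by
  have : (fun r : Γ(X, V') => r • RelPicGlue.sres L' h (f.app V hV e)) =
      f.app V' (h.trans hV) ∘ fun r : Γ(X, V') => r • RelPicGlue.sres L h e := by
    funext r
    simp only [Function.comp_apply, f.map_smul, f.naturality _ _ hV h]
  rw [this]
  exact (hf V' _).comp (he V' h)

/-- `L` has a frame around every point of `W`. -/
def HasFrames (W : X.Opens) (L : X.Modules) : Prop :=
  ∀ x ∈ W, ∃ V : X.Opens, x ∈ V ∧ V ≤ W ∧ ∃ e : Γ(L, V), IsFrame e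

theorem HasFrames.mono {W W' : X.Opens} (h : HasFrames W L) (hW : W' ≤ W) : HasFrames W' L := by
  intro x hx
  obtain ⟨V, hxV, hV, e, he⟩ := h x (hW hx)
  exact ⟨V ⊓ W', ⟨hxV, hx⟩, inf_le_right, _, he.sres inf_le_left⟩

theorem HasFrames.map {W : X.Opens} (h : HasFrames W L) (f : LocalHom W L L') (hf : f.Bij) :
    HasFrames W L' := fun x hx => by
  obtain ⟨V, hxV, hV, e, he⟩ := h x hx
  exact ⟨V, hxV, hV, _, he.map hf hV⟩

/-- The type of frames below `W`. -/
structure FrameIn (W : X.Opens) (L : X.Modules) : Type u where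
  V : X.Opens
  le : V ≤ W
  e : Γ(L, V)
  isFrame : IsFrame e

theorem HasFrames.cover {W : X.Opens} (h : HasFrames W L) : W ≤ ⨆ p : FrameIn W L, p.V :=
  fun x hx => by
    obtain ⟨V, hxV, hV, e, he⟩ := h x hx
    exact Opens.mem_iSup.mpr ⟨⟨V, hV, e, he⟩, hxV⟩

section Restrict

variable (f : Y ⟶ X) [IsOpenImmersion f]

theorem image_preimage_eq_of_le {V : X.Opens} (hV : V ≤ f.opensRange) : f ''ᵁ f ⁻¹ᵁ V = V := by
  rw [Scheme.Hom.image_preimage_eq_opensRange_inf, inf_eq_right.mpr hV]

/-- A morphism between restrictions, evaluated on sections over `X`. -/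
def restrictApp (φ : L.restrict f ⟶ L'.restrict f) (W : Y.Opens) :
    Γ(L, f ''ᵁ W) →+ Γ(L', f ''ᵁ W) :=
  (φ.app W).hom

theorem restrictApp_smul (φ : L.restrict f ⟶ L'.restrict f) (W : Y.Opens)
    (a : Γ(X, f ''ᵁ W)) (x : Γ(L, f ''ᵁ W)) :
    restrictApp f φ W (a • x) = a • restrictApp f φ W x := by
  have h4 : (f.appIso W).inv ((f.appIso W).hom a) = a := by
    rw [← ConcreteCategory.comp_apply, Iso.hom_inv_id]; rfl
  rw [← h4]
  exact φ.app_smul ((f.appIso W).hom a) x

theorem sres_restrictApp (φ : L.restrict f ⟶ L'.restrict f) {W W' : Y.Opens} (h : W' ≤ W)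
    (x : Γ(L, f ''ᵁ W)) :
    sres L' (Scheme.Hom.image_mono f h) (restrictApp f φ W x) =
      restrictApp f φ W' (sres L (Scheme.Hom.image_mono f h) x) :=
  app_sres φ h x

/-- A morphism between restrictions gives a morphism below the range. -/
def LocalHom.ofRestrict (φ : L.restrict f ⟶ L'.restrict f) : LocalHom f.opensRange L L' where
  app V hV := (sres L' (image_preimage_eq_of_le f hV).ge).comp
    ((restrictApp f φ (f ⁻¹ᵁ V)).comp (sres L (image_preimage_eq_of_le f hV).le))
  map_smul V hV r s := by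
    simp only [AddMonoidHom.coe_comp, Function.comp_apply, sres_smul, restrictApp_smul, rres_rres,
      rres_self]
  naturality V V' hV h s := by
    have := sres_restrictApp f φ (Scheme.Hom.preimage_mono f h)
      (sres L (image_preimage_eq_of_le f hV).le s)
    rw [sres_sres] at this
    simp only [AddMonoidHom.coe_comp, Function.comp_apply, sres_sres]
    rw [← this, sres_sres]

theorem LocalHom.ofRestrict_bij (φ : L.restrict f ≅ L'.restrict f) :
    (LocalHom.ofRestrict f φ.hom).Bij := fun V hV => by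
  have h1 : ∀ (M : X.Modules) {A B : X.Opens} (e : A = B), Function.Bijective (sres M e.le) := by
    intro M A B e
    subst e
    have : (sres M (le_refl A) : Γ(M, A) → Γ(M, A)) = id := funext fun s => sres_self _ s
    rw [this]
    exact Function.bijective_id
  exact (h1 L' (image_preimage_eq_of_le f hV).symm).comp
    ((ConcreteCategory.bijective_of_isIso (φ.hom.app (f ⁻¹ᵁ V))).comp
      (h1 L (image_preimage_eq_of_le f hV)))

variable {f}

/-- A local morphism defined on the range gives a morphism between restrictions. -/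
def LocalHom.toRestrict {W : X.Opens} (φ : LocalHom W L L') (hW : f.opensRange ≤ W) :
    L.restrict f ⟶ L'.restrict f :=
  ⟨PresheafOfModules.homMk
    { app := fun V => AddCommGrpCat.ofHom
        (φ.app (f ''ᵁ V.unop) ((Scheme.Hom.image_le_opensRange _ _).trans hW))
      naturality := fun V V' i => by
        ext s
        exact (φ.naturality (f ''ᵁ V.unop) (f ''ᵁ V'.unop) _
          (Scheme.Hom.image_mono _ (leOfHom i.unop)) s).symm }
    (fun V r s => φ.map_smul (f ''ᵁ V.unop) _ ((f.appIso V.unop).inv r) s)⟩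

theorem LocalHom.isIso_toRestrict {W : X.Opens} (φ : LocalHom W L L') (hφ : φ.Bij)
    (hW : f.opensRange ≤ W) : IsIso (φ.toRestrict hW) := by
  rw [Scheme.Modules.Hom.isIso_iff_isIso_app]
  exact fun V => (ConcreteCategory.isIso_iff_bijective _).mpr (hφ (f ''ᵁ V) _)

/-- A local isomorphism on the range gives an isomorphism of pullbacks. -/
theorem nonempty_pullback_iso {W : X.Opens} (φ : LocalHom W L L') (hφ : φ.Bij)
    (hW : f.opensRange ≤ W) :
    Nonempty ((Scheme.Modules.pullback f).obj L ≅ (Scheme.Modules.pullback f).obj L') := by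
  have := φ.isIso_toRestrict hφ hW
  exact ⟨((Scheme.Modules.restrictFunctorIsoPullback f).app L).symm ≪≫ asIso (φ.toRestrict hW) ≪≫
    (Scheme.Modules.restrictFunctorIsoPullback f).app L'⟩

theorem exists_localHom_of_pullback_iso
    (e : (Scheme.Modules.pullback f).obj L ≅ (Scheme.Modules.pullback f).obj L') :
    ∃ φ : LocalHom f.opensRange L L', φ.Bij :=
  ⟨_, LocalHom.ofRestrict_bij f ((Scheme.Modules.restrictFunctorIsoPullback f).app L ≪≫ e ≪≫
    ((Scheme.Modules.restrictFunctorIsoPullback f).app L').symm)⟩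

theorem exists_frame_of_trivial
    (e : (Scheme.Modules.pullback f).obj L ≅ SheafOfModules.unit Y.ringCatSheaf) :
    ∃ x : Γ(L, f.opensRange), IsFrame x := by
  let ψ : (SheafOfModules.unit Y.ringCatSheaf : Y.Modules) ≅ L.restrict f :=
    e.symm ≪≫ ((Scheme.Modules.restrictFunctorIsoPullback f).app L).symm
  let x₀ : Γ(L, f ''ᵁ ⊤) := Scheme.Modules.Hom.app ψ.hom ⊤ (1 : Γ(Y, ⊤))
  refine ⟨sres L (Scheme.Hom.image_top_eq_opensRange f).ge x₀, fun V' h => ?_⟩
  obtain ⟨W, rfl⟩ : ∃ W : Y.Opens, f ''ᵁ W = V' := ⟨_, image_preimage_eq_of_le f h⟩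
  have hb : Function.Bijective fun b : Γ(Y, W) => (Scheme.Modules.Hom.app ψ.hom W b : Γ(L, f ''ᵁ W)) :=
    haveI : IsIso (Scheme.Modules.Hom.app ψ.hom W) :=
      Scheme.Modules.Hom.isIso_iff_isIso_app.mp (Iso.isIso_hom ψ) W
    ConcreteCategory.bijective_of_isIso (Scheme.Modules.Hom.app ψ.hom W)
  have key : (fun r : Γ(X, f ''ᵁ W) => r •
      sres L h (sres L (Scheme.Hom.image_top_eq_opensRange f).ge x₀)) =
      (fun b : Γ(Y, W) => (Scheme.Modules.Hom.app ψ.hom W b : Γ(L, f ''ᵁ W))) ∘ (f.appIso W).hom := by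
    funext r
    have h1 : sres L (Scheme.Hom.image_mono f le_top) x₀ =
        (Scheme.Modules.Hom.app ψ.hom W (1 : Γ(Y, W)) : Γ(L, f ''ᵁ W)) :=
      (app_sres ψ.hom (le_top : W ≤ ⊤) (1 : Γ(Y, ⊤))).trans
        (congrArg _ (map_one (rres (le_top : W ≤ ⊤))))
    simp only [sres_sres, Function.comp_apply]
    rw [h1]
    have h2 := Scheme.Modules.Hom.app_smul ψ.hom (U := W) ((f.appIso W).hom r) (1 : Γ(Y, W))
    have h3 : ((f.appIso W).hom r) • (1 : Γ(Y, W)) = (f.appIso W).hom r := mul_one _
    have h4 : (f.appIso W).inv ((f.appIso W).hom r) = r := by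
      rw [← ConcreteCategory.comp_apply, Iso.hom_inv_id]; rfl
    conv_lhs => rw [← h4]
    exact h2.symm.trans (congrArg _ h3)
  rw [key]
  exact hb.comp (ConcreteCategory.bijective_of_isIso (f.appIso W).hom)

end Restrict

theorem hasFrames_of_isInvertible {L : X.Modules} (hL : Scheme.Modules.IsInvertible L)
    (W : X.Opens) : HasFrames W L := by
  refine HasFrames.mono (fun x _ => ?_) (le_top : W ≤ ⊤)
  obtain ⟨U, hxU, ⟨e⟩⟩ := hL.exists_trivialization x
  obtain ⟨y, hy⟩ := exists_frame_of_trivial e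
  exact ⟨_, by rw [Scheme.Opens.opensRange_ι]; exact hxU, le_top, y, hy⟩

/-- The morphism `𝒪 → L` below `V` given by a section. -/
def LocalHom.ofSection {V : X.Opens} (e : Γ(L, V)) :
    LocalHom V (SheafOfModules.unit X.ringCatSheaf) L where
  app V' h :=
    { toFun := fun r => (show Γ(X, V') from r) • sres L h e
      map_zero' := zero_smul _ _
      map_add' := fun a b => add_smul _ _ _ }
  map_smul V' h r s := mul_smul r _ _
  naturality V' V'' hV h s := by
    show sres L h ((show Γ(X, V') from s) • sres L hV e) = _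
    rw [sres_smul, sres_sres]
    rfl

theorem isInvertible_of_hasFrames (hL : HasFrames ⊤ L) : Scheme.Modules.IsInvertible L := by
  refine ⟨fun x => ?_⟩
  obtain ⟨V, hxV, -, e, he⟩ := hL x trivial
  obtain ⟨i⟩ := nonempty_pullback_iso (f := V.ι) (LocalHom.ofSection e)
    (fun V' h => he V' h) (by rw [Scheme.Opens.opensRange_ι])
  exact ⟨V, hxV, ⟨i.symm ≪≫ Scheme.Modules.pullbackUnitIso V.ι⟩⟩

end AlgebraicGeometry.RelPicGlue
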