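import Mathlib

/-!
# Morphisms of sheaves of modules defined below an open set

`LocalHom W L L'` is a compatible family of linear maps `Γ(L, V) → Γ(L', V)` for all
opens `V ≤ W`. Such families glue.
-/

set_option autoImplicit false
set_option linter.unusedVariables false

noncomputable section

universe u v

open CategoryTheory TopologicalSpace AlgebraicGeometry Opposite

namespace AlgebraicGeometry.RelPicGlue

variable {X : Scheme.{u}}

/-- Restriction of sections of a module. -/
def sres (L : X.Modules) {V V' : X.Opens} (h : V' ≤ V) : Γ(L, V) →+ Γ(L, V') :=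
  (L.presheaf.map (homOfLE h).op).hom

/-- Restriction of functions. -/
abbrev rres {V V' : X.Opens} (h : V' ≤ V) : Γ(X, V) →+* Γ(X, V') :=
  (X.presheaf.map (homOfLE h).op).hom

variable {L L' L'' : X.Modules}

@[simp] theorem sres_sres {V V' V'' : X.Opens} (h : V' ≤ V) (h' : V'' ≤ V') (s : Γ(L, V)) :
    sres L h' (sres L h s) = sres L (h'.trans h) s := by
  unfold sres
  rw [← ConcreteCategory.comp_apply, ← Functor.map_comp, ← op_comp, homOfLE_comp]

@[simp] theorem sres_self {V : X.Opens} (h : V ≤ V) (s : Γ(L, V)) : sres L h s = s := by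
  have : (homOfLE h).op = 𝟙 (op V) := rfl
  unfold sres
  rw [this, CategoryTheory.Functor.map_id]
  rfl

@[simp] theorem rres_rres {V V' V'' : X.Opens} (h : V' ≤ V) (h' : V'' ≤ V') (r : Γ(X, V)) :
    rres h' (rres h r) = rres (h'.trans h) r := by
  show (X.presheaf.map (homOfLE h).op ≫ X.presheaf.map (homOfLE h').op).hom r = _
  rw [← Functor.map_comp, ← op_comp, homOfLE_comp]

@[simp] theorem rres_self {V : X.Opens} (h : V ≤ V) (r : Γ(X, V)) : rres h r = r := by
  have : (homOfLE h).op = 𝟙 (op V) := rfl
  show (X.presheaf.map (homOfLE h).op).hom r = _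
  rw [this, CategoryTheory.Functor.map_id]
  rfl

theorem sres_smul {V V' : X.Opens} (h : V' ≤ V) (r : Γ(X, V)) (s : Γ(L, V)) :
    sres L h (r • s) = rres h r • sres L h s :=
  Scheme.Modules.map_smul L (homOfLE h) r s

theorem app_sres (φ : L ⟶ L') {V V' : X.Opens} (h : V' ≤ V) (s : Γ(L, V)) :
    sres L' h (φ.app V s) = φ.app V' (sres L h s) :=
  (congr($(φ.mapPresheaf.naturality (homOfLE h).op) s)).symm

theorem eq_of_sres {ι : Type v} {V : X.Opens} (U : ι → X.Opens) (hU : ∀ i, U i ≤ V)
    (hc : V ≤ ⨆ i, U i) {s t : Γ(L, V)} (h : ∀ i, sres L (hU i) s = sres L (hU i) t) : s = t :=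
  TopCat.Sheaf.eq_of_locally_eq' (⟨L.presheaf, L.isSheaf⟩ : TopCat.Sheaf Ab X) U V
    (fun i => homOfLE (hU i)) hc s t h

theorem exists_sres_eq {ι : Type v} {V : X.Opens} (U : ι → X.Opens) (hU : ∀ i, U i ≤ V)
    (hc : V ≤ ⨆ i, U i) (s : ∀ i, Γ(L, U i))
    (h : ∀ i j, sres L inf_le_left (s i) = sres L (inf_le_right : U i ⊓ U j ≤ U j) (s j)) :
    ∃ t : Γ(L, V), ∀ i, sres L (hU i) t = s i :=
  (TopCat.Sheaf.existsUnique_gluing' (⟨L.presheaf, L.isSheaf⟩ : TopCat.Sheaf Ab X) U V
    (fun i => homOfLE (hU i)) hc s h).exists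

/-- A morphism of modules defined on the opens below `W`. -/
@[ext]
structure LocalHom (W : X.Opens) (L L' : X.Modules) where
  app : ∀ V : X.Opens, V ≤ W → Γ(L, V) →+ Γ(L', V)
  map_smul : ∀ (V : X.Opens) (hV : V ≤ W) (r : Γ(X, V)) (s : Γ(L, V)),
    app V hV (r • s) = r • app V hV s
  naturality : ∀ (V V' : X.Opens) (hV : V ≤ W) (h : V' ≤ V) (s : Γ(L, V)),
    sres L' h (app V hV s) = app V' (h.trans hV) (sres L h s)

namespace LocalHom

variable {W W' : X.Opens}

def comp (f : LocalHom W L L') (g : LocalHom W L' L'') : LocalHom W L L'' where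
  app V hV := (g.app V hV).comp (f.app V hV)
  map_smul V hV r s := by simp [f.map_smul, g.map_smul]
  naturality V V' hV h s := by simp [f.naturality _ _ hV, g.naturality _ _ hV]

@[simp] theorem comp_app (f : LocalHom W L L') (g : LocalHom W L' L'') (V : X.Opens)
    (hV : V ≤ W) (s : Γ(L, V)) : (f.comp g).app V hV s = g.app V hV (f.app V hV s) := rfl

def res (f : LocalHom W L L') (h : W' ≤ W) : LocalHom W' L L' where
  app V hV := f.app V (hV.trans h)
  map_smul V hV := f.map_smul V _
  naturality V V' hV := f.naturality V V' (hV.trans h)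

@[simp] theorem res_app (f : LocalHom W L L') (h : W' ≤ W) (V : X.Opens) (hV : V ≤ W')
    (s : Γ(L, V)) : (f.res h).app V hV s = f.app V (hV.trans h) s := rfl

def ofHom (W : X.Opens) (φ : L ⟶ L') : LocalHom W L L' where
  app V _ := (φ.app V).hom
  map_smul V _ r s := φ.app_smul r s
  naturality V V' _ h s := app_sres φ h s

def Bij (f : LocalHom W L L') : Prop := ∀ V hV, Function.Bijective (f.app V hV)

theorem Bij.comp {f : LocalHom W L L'} {g : LocalHom W L' L''} (hf : f.Bij) (hg : g.Bij) :
    (f.comp g).Bij := fun V hV => (hg V hV).comp (hf V hV)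

theorem Bij.res {f : LocalHom W L L'} (hf : f.Bij) (h : W' ≤ W) : (f.res h).Bij :=
  fun V hV => hf V (hV.trans h)

theorem bij_ofHom (φ : L ⟶ L') [IsIso φ] : (ofHom W φ).Bij := fun _ _ =>
  ConcreteCategory.bijective_of_isIso (φ.app _)

private theorem ofBijective_apply_symm {A B : Type*} [AddZeroClass A] [AddZeroClass B] (g : A →+ B)
    (hg : Function.Bijective g) (b : B) : g ((AddEquiv.ofBijective g hg).symm b) = b :=
  (AddEquiv.ofBijective g hg).apply_symm_apply b

def symm (f : LocalHom W L L') (hf : f.Bij) : LocalHom W L' L where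
  app V hV := (AddEquiv.ofBijective (f.app V hV) (hf V hV)).symm.toAddMonoidHom
  map_smul V hV r s := by
    apply (hf V hV).1
    rw [f.map_smul]
    simp only [AddEquiv.coe_toAddMonoidHom]
    rw [ofBijective_apply_symm, ofBijective_apply_symm]
  naturality V V' hV h s := by
    apply (hf V' (h.trans hV)).1
    simp only [AddEquiv.coe_toAddMonoidHom]
    rw [ofBijective_apply_symm, ← f.naturality V V' hV h, ofBijective_apply_symm]

@[simp] theorem app_symm_app (f : LocalHom W L L') (hf : f.Bij) (V : X.Opens) (hV : V ≤ W)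
    (s : Γ(L', V)) : f.app V hV ((f.symm hf).app V hV s) = s :=
  (AddEquiv.ofBijective (f.app V hV) (hf V hV)).apply_symm_apply s

@[simp] theorem symm_app_app (f : LocalHom W L L') (hf : f.Bij) (V : X.Opens) (hV : V ≤ W)
    (s : Γ(L, V)) : (f.symm hf).app V hV (f.app V hV s) = s :=
  (AddEquiv.ofBijective (f.app V hV) (hf V hV)).symm_apply_apply s

theorem Bij.symm {f : LocalHom W L L'} (hf : f.Bij) : (f.symm hf).Bij := fun V hV =>
  (AddEquiv.ofBijective (f.app V hV) (hf V hV)).symm.bijective

/-- Scalar multiplication of a local morphism by a function on `W`. -/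
def smulFun (f : LocalHom W L L') (a : Γ(X, W)) : LocalHom W L L' where
  app V hV :=
    { toFun := fun s => rres hV a • f.app V hV s
      map_zero' := by simp
      map_add' := fun s t => by simp }
  map_smul V hV r s := by
    show rres hV a • f.app V hV (r • s) = r • rres hV a • f.app V hV s
    rw [f.map_smul, smul_comm]
  naturality V V' hV h s := by
    show sres L' h (rres hV a • f.app V hV s) = _
    rw [sres_smul, f.naturality _ _ hV, rres_rres]
    rfl

@[simp] theorem smulFun_app (f : LocalHom W L L') (a : Γ(X, W)) (V : X.Opens) (hV : V ≤ W)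
    (s : Γ(L, V)) : (f.smulFun a).app V hV s = rres hV a • f.app V hV s := rfl

section Glue

variable {ι : Type v} (U : ι → X.Opens) (hc : W ≤ ⨆ i, U i) (f : ∀ i, LocalHom (U i) L L')
  (hf : ∀ i j V (hi : V ≤ U i) (hj : V ≤ U j) s, (f i).app V hi s = (f j).app V hj s)

include hc in
private theorem le_cover {V : X.Opens} (hV : V ≤ W) : V ≤ ⨆ i, V ⊓ U i := by
  rw [← inf_iSup_eq]; exact le_inf le_rfl (hV.trans hc)

include hc hf in
theorem exists_glue_app (V : X.Opens) (hV : V ≤ W) (s : Γ(L, V)) :
    ∃! t : Γ(L', V), ∀ i, sres L' (inf_le_left : V ⊓ U i ≤ V) t =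
      (f i).app _ inf_le_right (sres L inf_le_left s) := by
  obtain ⟨t, ht⟩ := exists_sres_eq (L := L') (fun i => V ⊓ U i) (fun _ => inf_le_left)
    (le_cover U hc hV) (fun i => (f i).app _ inf_le_right (sres L inf_le_left s)) (fun i j => by
      rw [(f i).naturality, (f j).naturality, sres_sres, sres_sres]
      exact hf i j _ _ _ _)
  exact ⟨t, ht, fun t' ht' => eq_of_sres _ (fun _ => inf_le_left) (le_cover U hc hV)
    fun i => (ht' i).trans (ht i).symm⟩

/-- Gluing local morphisms which agree on the overlaps. -/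
def glue : LocalHom W L L' where
  app V hV :=
    { toFun := fun s => (exists_glue_app U hc f hf V hV s).choose
      map_zero' := ((exists_glue_app U hc f hf V hV 0).choose_spec.2 0 fun i => by simp).symm
      map_add' := fun s t => ((exists_glue_app U hc f hf V hV (s + t)).choose_spec.2 _ fun i => by
        rw [map_add, map_add, map_add, (exists_glue_app U hc f hf V hV s).choose_spec.1 i,
          (exists_glue_app U hc f hf V hV t).choose_spec.1 i]).symm }
  map_smul V hV r s := ((exists_glue_app U hc f hf V hV (r • s)).choose_spec.2 _ fun i => by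
    rw [sres_smul, sres_smul, (f i).map_smul]
    exact congrArg _ ((exists_glue_app U hc f hf V hV s).choose_spec.1 i)).symm
  naturality V V' hV h s :=
    (exists_glue_app U hc f hf V' (h.trans hV) (sres L h s)).choose_spec.2 _ fun i => by
      have := congrArg (sres L' (inf_le_inf_right (U i) h))
        ((exists_glue_app U hc f hf V hV s).choose_spec.1 i)
      rw [sres_sres, (f i).naturality, sres_sres] at this
      simpa using this

theorem glue_app (i : ι) (V : X.Opens) (hV : V ≤ W) (hi : V ≤ U i) (s : Γ(L, V)) :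
    (glue U hc f hf).app V hV s = (f i).app V hi s := by
  refine ((exists_glue_app U hc f hf V hV s).choose_spec.2 _ fun j => ?_).symm
  rw [(f i).naturality _ _ hi]
  exact hf i j _ _ _ _

end Glue

theorem bij_of_cover {ι : Type v} (U : ι → X.Opens) (hc : W ≤ ⨆ i, U i) (f : LocalHom W L L')
    (hb : ∀ i V (hV : V ≤ W), V ≤ U i → Function.Bijective (f.app V hV)) : f.Bij := by
  intro V hV
  refine ⟨fun s t hst => ?_, fun t => ?_⟩
  · refine eq_of_sres (fun i => V ⊓ U i) (fun _ => inf_le_left) (le_cover U hc hV) fun i => ?_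
    apply (hb i _ (inf_le_left.trans hV) inf_le_right).1
    rw [← f.naturality _ _ hV, ← f.naturality _ _ hV, hst]
  · choose s hs using fun i => (hb i _ (inf_le_left.trans hV) inf_le_right).2
      (sres L' (inf_le_left : V ⊓ U i ≤ V) t)
    obtain ⟨s₀, hs₀⟩ := exists_sres_eq (L := L) (fun i => V ⊓ U i) (fun _ => inf_le_left)
      (le_cover U hc hV) s fun i j => by
        apply (hb i _ (inf_le_left.trans (inf_le_left.trans hV))
          (inf_le_left.trans inf_le_right)).1
        rw [← f.naturality _ _ (inf_le_left.trans hV), ← f.naturality _ _ (inf_le_left.trans hV),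
          hs i, hs j, sres_sres, sres_sres]
    refine ⟨s₀, eq_of_sres (fun i => V ⊓ U i) (fun _ => inf_le_left) (le_cover U hc hV)
      fun i => ?_⟩
    rw [f.naturality, hs₀, hs]

/-- A morphism defined below `⊤` is a morphism. -/
def toHom (f : LocalHom (⊤ : X.Opens) L L') : L ⟶ L' :=
  ⟨PresheafOfModules.homMk
    { app := fun V => AddCommGrpCat.ofHom (f.app V.unop le_top)
      naturality := fun V V' i => by
        ext s
        exact (f.naturality V.unop V'.unop le_top (leOfHom i.unop) s).symm }
    (fun V r s => f.map_smul V.unop le_top r s)⟩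

theorem isIso_toHom (f : LocalHom (⊤ : X.Opens) L L') (hf : f.Bij) : IsIso (toHom f) := by
  rw [Scheme.Modules.Hom.isIso_iff_isIso_app]
  exact fun V => (ConcreteCategory.isIso_iff_bijective _).mpr (hf V le_top)

end LocalHom

end AlgebraicGeometry.RelPicGlue
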