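import Fermat.Agent.RelPic.GlueHom

/-!
# Gluing sheaves of modules along an open cover
-/

set_option autoImplicit false
set_option linter.unusedVariables false

noncomputable section

universe u v

open CategoryTheory TopologicalSpace AlgebraicGeometry Opposite

namespace AlgebraicGeometry.RelPicGlue

variable {X : Scheme.{u}}

/-- Descent data for modules on an open cover: `N i` only matters below `U i`. -/
structure GlueData (X : Scheme.{u}) (ι : Type u) where
  U : ι → X.Opens
  cover : ⨆ i, U i = ⊤
  N : ι → X.Modules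
  g : ∀ i j, LocalHom (U i ⊓ U j) (N i) (N j)
  g_self : ∀ i V (hV : V ≤ U i ⊓ U i) s, (g i i).app V hV s = s
  cocycle : ∀ i j k V (hij : V ≤ U i ⊓ U j) (hjk : V ≤ U j ⊓ U k) (hik : V ≤ U i ⊓ U k) s,
    (g j k).app V hjk ((g i j).app V hij s) = (g i k).app V hik s

namespace GlueData

variable {ι : Type u} (D : GlueData X ι)

/-- Compatibility of a family of local sections. -/
def Compat (V : X.Opens) (s : ∀ i, Γ(D.N i, V ⊓ D.U i)) : Prop :=
  ∀ i j, (D.g i j).app (V ⊓ (D.U i ⊓ D.U j)) inf_le_right
      (sres (D.N i) (inf_le_inf_left V inf_le_left) (s i)) =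
    sres (D.N j) (inf_le_inf_left V inf_le_right) (s j)

def sections (V : X.Opens) : AddSubgroup (∀ i, Γ(D.N i, V ⊓ D.U i)) where
  carrier := {s | D.Compat V s}
  zero_mem' := fun i j => by simp
  add_mem' := fun {a b} ha hb i j => by
    simp only [Pi.add_apply, map_add, ha i j, hb i j]
  neg_mem' := fun {a} ha i j => by
    simp only [Pi.neg_apply, map_neg, ha i j]

instance instSMul (V : X.Opens) : SMul Γ(X, V) (D.sections V) where
  smul r s := ⟨fun i => rres inf_le_left r • s.1 i, fun i j => by
    rw [sres_smul, sres_smul, LocalHom.map_smul, s.2 i j, rres_rres, rres_rres]⟩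

theorem smul_apply {V : X.Opens} (r : Γ(X, V)) (s : D.sections V) (i : ι) :
    (r • s).1 i = rres (inf_le_left : V ⊓ D.U i ≤ V) r • s.1 i := rfl

instance instModule (V : X.Opens) : Module Γ(X, V) (D.sections V) where
  one_smul s := Subtype.ext (funext fun i => by rw [smul_apply, map_one, one_smul])
  mul_smul a b s := Subtype.ext (funext fun i => by
    rw [smul_apply, smul_apply, smul_apply, map_mul, mul_smul])
  smul_zero a := Subtype.ext (funext fun i => by
    rw [smul_apply]; exact smul_zero _)
  smul_add a s t := Subtype.ext (funext fun i => by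
    rw [smul_apply]; exact smul_add _ _ _)
  add_smul a b s := Subtype.ext (funext fun i => by
    rw [smul_apply, map_add, add_smul]; rfl)
  zero_smul s := Subtype.ext (funext fun i => by
    rw [smul_apply, map_zero, zero_smul]; rfl)

def restr {V V' : X.Opens} (h : V' ≤ V) : D.sections V →+ D.sections V' where
  toFun s := ⟨fun i => sres (D.N i) (inf_le_inf_right _ h) (s.1 i), fun i j => by
    have := congrArg (sres (D.N j) (inf_le_inf_right (D.U i ⊓ D.U j) h)) (s.2 i j)
    rw [LocalHom.naturality, sres_sres, sres_sres] at this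
    simpa using this⟩
  map_zero' := Subtype.ext (funext fun i => map_zero _)
  map_add' s t := Subtype.ext (funext fun i => map_add _ _ _)

@[simp] theorem restr_apply {V V' : X.Opens} (h : V' ≤ V) (s : D.sections V) (i : ι) :
    (D.restr h s).1 i = sres (D.N i) (inf_le_inf_right _ h) (s.1 i) := rfl

theorem restr_smul {V V' : X.Opens} (h : V' ≤ V) (r : Γ(X, V)) (s : D.sections V) :
    D.restr h (r • s) = rres h r • D.restr h s :=
  Subtype.ext (funext fun i => by
    simp only [restr_apply, smul_apply, sres_smul, rres_rres])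

def presheafAb : X.Opensᵒᵖ ⥤ Ab.{u} where
  obj V := AddCommGrpCat.of (D.sections V.unop)
  map i := AddCommGrpCat.ofHom (D.restr (leOfHom i.unop))
  map_id V := by
    ext s i
    exact sres_self _ ((s : D.sections V.unop).1 i)
  map_comp f g := by
    ext s i
    exact (sres_sres _ _ _).symm

instance instModulePresheafAb (V : X.Opensᵒᵖ) :
    Module (X.ringCatSheaf.obj.obj V) (D.presheafAb.obj V) :=
  D.instModule V.unop

def presheafOfModules : X.PresheafOfModules :=
  PresheafOfModules.ofPresheaf D.presheafAb fun V W f r m => D.restr_smul (leOfHom f.unop) r m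

theorem isSheaf_presheafAb : TopCat.Presheaf.IsSheaf D.presheafAb := by
  rw [TopCat.Presheaf.isSheaf_iff_isSheafUniqueGluing]
  intro κ W sf hsf
  have hc : ∀ i, (⨆ a, W a) ⊓ D.U i ≤ ⨆ a, W a ⊓ D.U i := fun i => by rw [← iSup_inf_eq]
  have hle : ∀ a i, W a ⊓ D.U i ≤ (⨆ a, W a) ⊓ D.U i := fun a i =>
    inf_le_inf_right _ (le_iSup W a)
  have hsf' : ∀ a b i,
      sres (D.N i) (inf_le_inf_right (D.U i) (inf_le_left : W a ⊓ W b ≤ W a))
        ((sf a : D.sections (W a)).1 i) =
      sres (D.N i) (inf_le_inf_right (D.U i) (inf_le_right : W a ⊓ W b ≤ W b))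
        ((sf b : D.sections (W b)).1 i) :=
    fun a b i => congr_fun (congrArg Subtype.val (hsf a b)) i
  choose t ht using fun i => exists_sres_eq (L := D.N i) (fun a => W a ⊓ D.U i) (fun a => hle a i)
    (hc i) (fun a => (sf a : D.sections (W a)).1 i) fun a b => by
      have hle' : (W a ⊓ D.U i) ⊓ (W b ⊓ D.U i) ≤ (W a ⊓ W b) ⊓ D.U i :=
        le_inf (inf_le_inf inf_le_left inf_le_left) (inf_le_left.trans inf_le_right)
      simpa using congrArg (sres (D.N i) hle') (hsf' a b i)
  have htc : D.Compat (iSup W) t := fun i j => by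
    refine eq_of_sres (fun a => W a ⊓ (D.U i ⊓ D.U j))
      (fun a => inf_le_inf_right _ (le_iSup W a)) (by rw [← iSup_inf_eq]) fun a => ?_
    rw [LocalHom.naturality, sres_sres, sres_sres]
    have h1 := congrArg (sres (D.N i) (inf_le_inf_left (W a) (inf_le_left : D.U i ⊓ D.U j ≤ _)))
      (ht i a)
    have h2 := congrArg (sres (D.N j) (inf_le_inf_left (W a) (inf_le_right : D.U i ⊓ D.U j ≤ _)))
      (ht j a)
    rw [sres_sres] at h1 h2
    rw [h1, h2]
    exact (sf a : D.sections (W a)).2 i j
  refine ⟨(⟨t, htc⟩ : D.sections (iSup W)), fun a => Subtype.ext (funext fun i => ht i a),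
    fun t' ht' => Subtype.ext (funext fun i => eq_of_sres _ (fun a => hle a i) (hc i) fun a => ?_)⟩
  exact (congr_fun (congrArg Subtype.val (ht' a)) i).trans (ht i a).symm

/-- The glued module. -/
def glued : X.Modules := ⟨D.presheafOfModules, D.isSheaf_presheafAb⟩

/-- The projection of the glued module to the `i`-th piece. -/
def proj (i : ι) : LocalHom (D.U i) D.glued (D.N i) where
  app V hV :=
    { toFun := fun s => sres (D.N i) (le_inf le_rfl hV) ((s : D.sections V).1 i)
      map_zero' := map_zero _
      map_add' := fun s t => map_add _ _ _ }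
  map_smul V hV r s := by
    show sres (D.N i) _ (rres _ r • (s : D.sections V).1 i) = r • _
    rw [sres_smul, rres_rres, rres_self]
    rfl
  naturality V V' hV h s := by
    show sres (D.N i) h (sres (D.N i) _ ((s : D.sections V).1 i)) =
      sres (D.N i) _ (sres (D.N i) _ ((s : D.sections V).1 i))
    rw [sres_sres, sres_sres]

theorem g_proj (i j : ι) (V : X.Opens) (hV : V ≤ D.U i ⊓ D.U j) (s : Γ(D.glued, V)) :
    (D.g i j).app V hV ((D.proj i).app V (hV.trans inf_le_left) s) =
      (D.proj j).app V (hV.trans inf_le_right) s := by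
  have := congrArg (sres (D.N j) (le_inf le_rfl hV)) ((s : D.sections V).2 i j)
  rw [LocalHom.naturality, sres_sres, sres_sres] at this
  exact this

theorem proj_bij (i : ι) : (D.proj i).Bij := by
  intro V hV
  constructor
  · intro s t hst
    refine Subtype.ext (funext fun j => ?_)
    have h : ∀ r : D.sections V, sres (D.N i) (le_inf le_rfl hV) (r.1 i) =
        (D.proj i).app V hV r := fun r => rfl
    have key : ∀ r : D.sections V, r.1 j = (D.g i j).app (V ⊓ D.U j)
        (le_inf (inf_le_left.trans hV) inf_le_right)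
        (sres (D.N i) inf_le_left ((D.proj i).app V hV r)) := fun r => by
      rw [← h, sres_sres]
      have := congrArg (sres (D.N j) (show V ⊓ D.U j ≤ V ⊓ (D.U i ⊓ D.U j) from
        le_inf inf_le_left (le_inf (inf_le_left.trans hV) inf_le_right))) (r.2 i j)
      rw [LocalHom.naturality, sres_sres, sres_sres, sres_self] at this
      exact this.symm
    rw [key s, key t, hst]
  · intro x
    let s : ∀ j, Γ(D.N j, V ⊓ D.U j) := fun j =>
      (D.g i j).app _ (le_inf (inf_le_left.trans hV) inf_le_right) (sres (D.N i) inf_le_left x)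
    have hs : D.Compat V s := fun j k => by
      simp only [s]
      rw [(D.g i j).naturality, (D.g i k).naturality, sres_sres, sres_sres, D.cocycle]
    refine ⟨(⟨s, hs⟩ : D.sections V), ?_⟩
    show sres (D.N i) (le_inf le_rfl hV) (s i) = x
    simp only [s, D.g_self, sres_sres, sres_self]

end GlueData

end AlgebraicGeometry.RelPicGlue
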