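import Fermat.Agent.RelPic.GlueRigid

/-!
# Rigidifications `σ^* L ≅ 𝒪` as morphisms `L → σ_* 𝒪` attaining units
-/

set_option autoImplicit false
set_option linter.unusedVariables false

noncomputable section

universe u v

open CategoryTheory TopologicalSpace AlgebraicGeometry Opposite

namespace AlgebraicGeometry.RelPicGlue

variable {X Y T T' : Scheme.{u}}

/-- The structure sheaf as an object of `T.Modules`. -/
abbrev oUnit (T : Scheme.{u}) : T.Modules := SheafOfModules.unit T.ringCatSheaf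

theorem app_fromSpecResidueField_eq_zero (t : T) {U : T.Opens} (a : Γ(T, U))
    (h : t ∉ T.basicOpen a) : (T.fromSpecResidueField t).app U a = 0 := by
  rw [← AlgebraicGeometry.basicOpen_eq_bot_iff, ← Scheme.preimage_basicOpen]
  refine Opens.ext (Set.eq_empty_iff_forall_notMem.mpr fun x hx => h ?_)
  have hx' : T.fromSpecResidueField t x ∈ T.basicOpen a := hx
  rwa [Scheme.fromSpecResidueField_apply] at hx'

theorem attains_of_iso (σ : T ⟶ X) {L : X.Modules}
    (r : (Scheme.Modules.pullback σ).obj L ≅ oUnit T) :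
    Attains (LocalHom.ofHom ⊤
      ((Scheme.Modules.pullbackPushforwardAdjunction σ).homEquiv L _ r.hom) :
      LocalHom ⊤ L (pushUnit σ)) := by
  intro t _
  by_contra hc
  push Not at hc
  let adj := Scheme.Modules.pullbackPushforwardAdjunction σ
  let i := T.fromSpecResidueField t
  let q : oUnit T ⟶ (Scheme.Modules.pushforward i).obj (oUnit (Spec (T.residueField t))) :=
    SheafOfModules.unitToPushforwardObjUnit i.toRingCatSheafHom
  have hρ : adj.homEquiv L _ r.hom ≫ (Scheme.Modules.pushforward σ).map q = 0 := by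
    refine Scheme.Modules.hom_ext _ _ fun V => ?_
    ext s
    exact app_fromSpecResidueField_eq_zero t _ (hc V le_top s)
  rw [← Adjunction.homEquiv_naturality_right] at hρ
  have h0 : r.hom ≫ q = 0 := by
    apply (adj.homEquiv _ _).injective
    rw [hρ, Adjunction.homEquiv_unit, Functor.map_zero, Limits.comp_zero]
  have hq : q = 0 := by rw [← cancel_epi r.hom, h0, Limits.comp_zero]
  have h1 : i.app ⊤ (1 : Γ(T, ⊤)) = 0 := congr($(hq).app ⊤ (1 : Γ(T, ⊤)))
  rw [map_one] at h1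
  have h2 := congrArg (Spec (T.residueField t)).basicOpen h1
  rw [Scheme.basicOpen_of_isUnit _ isUnit_one, Scheme.basicOpen_zero] at h2
  have h3 : (IsLocalRing.closedPoint (T.residueField t) : Spec (T.residueField t)) ∈
      (⊥ : (Spec (T.residueField t)).Opens) := h2 ▸ trivial
  exact h3

/-- The function underlying a value of a morphism to the unit. -/
def valU {P : T.Modules} (φ : P ⟶ oUnit T) {V : T.Opens} (s : Γ(P, V)) : Γ(T, V) := φ.app V s

theorem valU_smul {P : T.Modules} (φ : P ⟶ oUnit T) {V : T.Opens} (r : Γ(T, V)) (s : Γ(P, V)) :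
    valU φ (r • s) = r * valU φ s := φ.app_smul r s

theorem valU_sres {P : T.Modules} (φ : P ⟶ oUnit T) {V V' : T.Opens} (h : V' ≤ V)
    (s : Γ(P, V)) : valU φ (sres P h s) = rres h (valU φ s) := (app_sres φ h s).symm

/-- A morphism to the unit which attains units is an isomorphism. -/
theorem isIso_of_attains {P : T.Modules} (hP : HasFrames ⊤ P) (φ : P ⟶ oUnit T)
    (h : ∀ t : T, ∃ (V : T.Opens) (s : Γ(P, V)), t ∈ T.basicOpen (valU φ s)) : IsIso φ := by
  rw [Scheme.Modules.Hom.isIso_iff_isIso_app]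
  refine fun V => (ConcreteCategory.isIso_iff_bijective _).mpr ?_
  suffices hb : (LocalHom.ofHom ⊤ φ).Bij from hb V le_top
  refine LocalHom.bij_of_cover (fun p : FrameIn ⊤ P => p.V) hP.cover _ fun p V hV hVp => ?_
  obtain ⟨e', he'⟩ : ∃ e' : Γ(P, V), IsFrame e' := ⟨_, p.isFrame.sres hVp⟩
  have hu : IsUnit (valU φ e') := by
    refine isUnit_of_forall_mem_basicOpen _ fun t ht => ?_
    obtain ⟨V', s, hs⟩ := h t
    have ht' : t ∈ V' := T.basicOpen_le _ hs
    obtain ⟨r, hr⟩ := he'.exists_smul (inf_le_left : V ⊓ V' ≤ V) (sres P inf_le_right s)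
    have h1 := congrArg (valU φ) hr
    rw [valU_smul, valU_sres, valU_sres] at h1
    have h2 : t ∈ T.basicOpen (rres (inf_le_right : V ⊓ V' ≤ V') (valU φ s)) := by
      rw [Scheme.basicOpen_res]; exact ⟨⟨ht, ht'⟩, hs⟩
    rw [← h1, Scheme.basicOpen_mul, Scheme.basicOpen_res] at h2
    exact h2.2.2
  have hbij : Function.Bijective fun r : Γ(T, V) => r • e' := by
    simpa using he' V le_rfl
  refine (Function.Bijective.of_comp_iff (f := fun s : Γ(P, V) => valU φ s) hbij).mp ?_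
  have key : ((fun s : Γ(P, V) => valU φ s) ∘ fun r : Γ(T, V) => r • e') =
      fun r => r * valU φ e' := funext fun r => valU_smul φ r e'
  rw [key]
  exact ⟨hu.mul_left_injective, fun y => ⟨y * ↑hu.unit⁻¹, by
    simp only [mul_assoc, IsUnit.val_inv_mul, mul_one]⟩⟩

theorem nonempty_rigidified_iff (σ : T ⟶ X) {L : X.Modules} (hL : HasFrames ⊤ L) :
    Nonempty ((Scheme.Modules.pullback σ).obj L ≅ oUnit T) ↔
      ∃ ρ : LocalHom ⊤ L (pushUnit σ), Attains ρ := by
  refine ⟨fun ⟨r⟩ => ⟨_, attains_of_iso σ r⟩, fun ⟨ρ, hρ⟩ => ?_⟩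
  let adj := Scheme.Modules.pullbackPushforwardAdjunction σ
  let φ : (Scheme.Modules.pullback σ).obj L ⟶ oUnit T :=
    (adj.homEquiv L _).symm (LocalHom.toHom ρ)
  have hP : HasFrames ⊤ ((Scheme.Modules.pullback σ).obj L) :=
    hasFrames_of_isInvertible ((isInvertible_of_hasFrames hL).pullback σ) _
  have : IsIso φ := isIso_of_attains hP φ fun t => by
    obtain ⟨V, hV, s, hs⟩ := hρ t trivial
    refine ⟨σ ⁻¹ᵁ V, (adj.unit.app L).app V s, ?_⟩
    have h1 : adj.unit.app L ≫ (Scheme.Modules.pushforward σ).map φ = LocalHom.toHom ρ :=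
      (adj.homEquiv_unit L _ φ).symm.trans (Equiv.apply_symm_apply _ _)
    have h2 : valU φ ((adj.unit.app L).app V s) = rho ρ V hV s := congr($(h1).app V s)
    rw [h2]
    exact hs
  exact ⟨asIso φ⟩

theorem hasFrames_opensRange (f : Y ⟶ X) [IsOpenImmersion f] {L : X.Modules}
    (h : Scheme.Modules.IsInvertible ((Scheme.Modules.pullback f).obj L)) :
    HasFrames f.opensRange L := by
  intro x hx
  obtain ⟨y, rfl⟩ := hx
  obtain ⟨U, hyU, ⟨e⟩⟩ := h.exists_trivialization y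
  obtain ⟨z, hz⟩ := exists_frame_of_trivial (f := U.ι ≫ f)
    (((Scheme.Modules.pullbackComp U.ι f).app L).symm ≪≫ e)
  refine ⟨(U.ι ≫ f).opensRange, Scheme.Hom.mem_opensRange.mpr ⟨⟨y, hyU⟩, rfl⟩, ?_, z, hz⟩
  rw [Scheme.Hom.opensRange_comp]
  exact Scheme.Hom.image_le_opensRange f _

section Transport

variable {σ : T ⟶ X} {σ' : T' ⟶ Y} {f : Y ⟶ X} [IsOpenImmersion f] {j : T' ⟶ T}
  [IsOpenImmersion j] (hsq : σ' ≫ f = j ≫ σ) (hcart : σ ⁻¹ᵁ f.opensRange ≤ j.opensRange)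
  {N : X.Modules} {M : Y.Modules}

include hsq hcart in
theorem image_preimage_square {V : X.Opens} (hV : V ≤ f.opensRange) :
    j ''ᵁ σ' ⁻¹ᵁ f ⁻¹ᵁ V = σ ⁻¹ᵁ V := by
  rw [← Scheme.Hom.comp_preimage, hsq, Scheme.Hom.comp_preimage,
    image_preimage_eq_of_le j ((Scheme.Hom.preimage_mono σ hV).trans hcart)]

include hsq in
theorem app_appIso_square (W : Y.Opens) (V : X.Opens) (hW : f ''ᵁ W ≤ V)
    (hW' : j ''ᵁ σ' ⁻¹ᵁ W ≤ σ ⁻¹ᵁ V) (r : Γ(X, V)) :
    (j.appIso (σ' ⁻¹ᵁ W)).inv (σ'.app W ((f.appIso W).hom (rres hW r))) =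
      rres hW' (σ.app V r) := by
  apply (ConcreteCategory.bijective_of_isIso (j.appIso (σ' ⁻¹ᵁ W)).hom).1
  rw [← ConcreteCategory.comp_apply, Iso.inv_hom_id, ConcreteCategory.id_apply]
  show ((X.presheaf.map (homOfLE hW).op ≫ (f.appIso W).hom) ≫ σ'.app W) r =
    (σ.app V ≫ T.presheaf.map (homOfLE hW').op ≫ (j.appIso (σ' ⁻¹ᵁ W)).hom) r
  simp only [Scheme.Hom.appIso_hom', Scheme.Hom.map_appLE, Scheme.Hom.app_eq_appLE,
    Scheme.Hom.appLE_comp_appLE]
  congr 2
  simp only [hsq]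

/-- A morphism from a restriction, on sections over `X`. -/
def restrictTo (e : N.restrict f ⟶ M) (W : Y.Opens) : Γ(N, f ''ᵁ W) →+ Γ(M, W) :=
  (e.app W).hom

theorem restrictTo_smul (e : N.restrict f ⟶ M) (W : Y.Opens) (a : Γ(X, f ''ᵁ W))
    (x : Γ(N, f ''ᵁ W)) : restrictTo e W (a • x) = (f.appIso W).hom a • restrictTo e W x := by
  have h4 : (f.appIso W).inv ((f.appIso W).hom a) = a := by
    rw [← ConcreteCategory.comp_apply, Iso.hom_inv_id]; rfl
  conv_lhs => rw [← h4]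
  exact e.app_smul ((f.appIso W).hom a) x

theorem restrictTo_sres (e : N.restrict f ⟶ M) {W W' : Y.Opens} (h : W' ≤ W)
    (x : Γ(N, f ''ᵁ W)) :
    restrictTo e W' (sres N (Scheme.Hom.image_mono f h) x) = sres M h (restrictTo e W x) :=
  (app_sres e h x).symm

/-- Transport of a rigidification along an open immersion. -/
def transportRho (e : N.restrict f ⟶ M) (ρ₀ : LocalHom ⊤ M (pushUnit σ')) :
    LocalHom f.opensRange N (pushUnit σ) where
  app V hV := (show Γ(T, j ''ᵁ σ' ⁻¹ᵁ f ⁻¹ᵁ V) →+ Γ(pushUnit σ, V) from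
      (rres (image_preimage_square hsq hcart hV).ge).toAddMonoidHom).comp
    ((show Γ(pushUnit σ', f ⁻¹ᵁ V) →+ Γ(T, j ''ᵁ σ' ⁻¹ᵁ f ⁻¹ᵁ V) from
      (j.appIso (σ' ⁻¹ᵁ f ⁻¹ᵁ V)).inv.hom.toAddMonoidHom).comp
      ((ρ₀.app (f ⁻¹ᵁ V) le_top).comp
        ((restrictTo e (f ⁻¹ᵁ V)).comp
          (sres N (image_preimage_eq_of_le f hV).le))))
  map_smul V hV r s := by
    show rres _ ((j.appIso _).inv (rho ρ₀ _ _ (restrictTo e _ (sres N _ (r • s))))) =
      σ.app V r * rres _ ((j.appIso _).inv (rho ρ₀ _ _ (restrictTo e _ (sres N _ s))))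
    rw [sres_smul, restrictTo_smul]
    rw [rho_smul, map_mul, map_mul,
      app_appIso_square hsq _ V _ (image_preimage_square hsq hcart hV).le, rres_rres, rres_self]
    rfl
  naturality V V' hV h s := by
    show rres (Scheme.Hom.preimage_mono σ h) (rres _ ((j.appIso _).inv (rho ρ₀ _ _ _))) =
      (rres _ ((j.appIso _).inv (rho ρ₀ _ _ _)) : Γ(T, σ ⁻¹ᵁ V'))
    have hp : f ⁻¹ᵁ V' ≤ f ⁻¹ᵁ V := Scheme.Hom.preimage_mono f h
    have h1 : restrictTo e (f ⁻¹ᵁ V')
          (sres N (image_preimage_eq_of_le f (h.trans hV)).le (sres N h s)) =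
        sres M hp (restrictTo e (f ⁻¹ᵁ V) (sres N (image_preimage_eq_of_le f hV).le s)) := by
      rw [← restrictTo_sres e hp, sres_sres, sres_sres]
    simp only [AddMonoidHom.coe_comp, Function.comp_apply]
    rw [h1, rho_sres ρ₀ le_top hp]
    have h2 : ∀ (A B : T'.Opens) (hAB : B ≤ A) (a : Γ(T', A)),
        (j.appIso B).inv (rres hAB a) =
          rres (Scheme.Hom.image_mono j hAB) ((j.appIso A).inv a) := fun A B hAB a =>
      congr($(Scheme.Hom.appIso_inv_naturality j (homOfLE hAB).op) a)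
    rw [h2, rres_rres, rres_rres]

theorem attains_transportRho (e : N.restrict f ⟶ M) [IsIso e] {ρ₀ : LocalHom ⊤ M (pushUnit σ')}
    (hρ₀ : Attains ρ₀) : Attains (transportRho hsq hcart e ρ₀) := by
  intro t ht
  obtain ⟨t', rfl⟩ := hcart ht
  obtain ⟨W, hW0, s, hs⟩ := hρ₀ t' trivial
  obtain ⟨x, hx⟩ := (ConcreteCategory.bijective_of_isIso (e.app W)).2 s
  have hW : f ⁻¹ᵁ f ''ᵁ W = W := f.preimage_image_eq W
  refine ⟨f ''ᵁ W, Scheme.Hom.image_le_opensRange _ _, x, ?_⟩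
  show j t' ∈ T.basicOpen (rres _ ((j.appIso _).inv (rho ρ₀ _ _ (restrictTo e (f ⁻¹ᵁ f ''ᵁ W)
    (sres N _ x)))))
  have h1 : restrictTo e (f ⁻¹ᵁ f ''ᵁ W) (sres N (image_preimage_eq_of_le f
      (Scheme.Hom.image_le_opensRange f W)).le x) = sres M hW.le s := by
    rw [← hx]
    exact restrictTo_sres e hW.le x
  rw [h1, rho_sres ρ₀ le_top hW.le, Scheme.basicOpen_res, ← Scheme.image_basicOpen,
    Scheme.basicOpen_res]
  have h5 : t' ∈ σ' ⁻¹ᵁ W := T'.basicOpen_le _ hs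
  exact ⟨⟨σ' t', h5, congr($hsq t')⟩, ⟨t', ⟨Scheme.Hom.preimage_mono σ' hW.ge h5, hs⟩, rfl⟩⟩

end Transport

end AlgebraicGeometry.RelPicGlue
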