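import Fermat.Agent.RelPic.GlueFrame
import Fermat.Agent.RelPic.GlueObj

/-!
# Rigidified modules along a section and their gluing

`σ : T ⟶ X` is fixed; a rigidification of `L` below `W` is a local morphism
`L → σ_* 𝒪_T` whose image contains units near every point of `σ⁻¹ W`.
If `σ.app W` is bijective, rigidified isomorphisms below `W` are unique.
-/

set_option autoImplicit false
set_option linter.unusedVariables false

noncomputable section

universe u v

open CategoryTheory TopologicalSpace AlgebraicGeometry Opposite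

namespace AlgebraicGeometry.RelPicGlue

variable {X T : Scheme.{u}} (σ : T ⟶ X)

/-- The module `σ_* 𝒪_T`. -/
abbrev pushUnit : X.Modules :=
  (Scheme.Modules.pushforward σ).obj (SheafOfModules.unit T.ringCatSheaf)

variable {σ} {L L' : X.Modules} {W : X.Opens}

/-- The function on `T` underlying a section of `σ_* 𝒪_T`. -/
def toFun' {V : X.Opens} (x : Γ(pushUnit σ, V)) : Γ(T, σ ⁻¹ᵁ V) := x

/-- The value of a rigidification on a section. -/
def rho (ρ : LocalHom W L (pushUnit σ)) (V : X.Opens) (hV : V ≤ W) (s : Γ(L, V)) :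
    Γ(T, σ ⁻¹ᵁ V) := toFun' (ρ.app V hV s)

theorem rho_smul (ρ : LocalHom W L (pushUnit σ)) {V : X.Opens} (hV : V ≤ W) (r : Γ(X, V))
    (s : Γ(L, V)) : rho ρ V hV (r • s) = σ.app V r * rho ρ V hV s :=
  congrArg toFun' (ρ.map_smul V hV r s)

theorem rho_sres (ρ : LocalHom W L (pushUnit σ)) {V V' : X.Opens} (hV : V ≤ W) (h : V' ≤ V)
    (s : Γ(L, V)) :
    rho ρ V' (h.trans hV) (sres L h s) = rres (Scheme.Hom.preimage_mono σ h) (rho ρ V hV s) :=
  (congrArg toFun' (ρ.naturality V V' hV h s)).symm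

theorem rho_add (ρ : LocalHom W L (pushUnit σ)) {V : X.Opens} (hV : V ≤ W) (s t : Γ(L, V)) :
    rho ρ V hV (s + t) = rho ρ V hV s + rho ρ V hV t :=
  congrArg toFun' (map_add (ρ.app V hV) s t)

theorem app_rres {V V' : X.Opens} (h : V' ≤ V) (r : Γ(X, V)) :
    σ.app V' (rres h r) = rres (Scheme.Hom.preimage_mono σ h) (σ.app V r) :=
  congr($(σ.naturality (homOfLE h).op) r)

theorem exists_rres_eq {Y : Scheme.{u}} {κ : Type v} {V : Y.Opens} (O : κ → Y.Opens)
    (hO : ∀ i, O i ≤ V) (hc : V ≤ ⨆ i, O i) (s : ∀ i, Γ(Y, O i))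
    (h : ∀ i j, rres inf_le_left (s i) = rres (inf_le_right : O i ⊓ O j ≤ O j) (s j)) :
    ∃ t : Γ(Y, V), ∀ i, rres (hO i) t = s i :=
  exists_sres_eq (L := SheafOfModules.unit Y.ringCatSheaf) O hO hc s h

theorem eq_of_rres {Y : Scheme.{u}} {κ : Type v} {V : Y.Opens} (O : κ → Y.Opens)
    (hO : ∀ i, O i ≤ V) (hc : V ≤ ⨆ i, O i) {s t : Γ(Y, V)}
    (h : ∀ i, rres (hO i) s = rres (hO i) t) : s = t :=
  eq_of_sres (L := SheafOfModules.unit Y.ringCatSheaf) O hO hc h

/-- A rigidification attains a unit near every point. -/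
def Attains (ρ : LocalHom W L (pushUnit σ)) : Prop :=
  ∀ t : T, σ t ∈ W → ∃ (V : X.Opens) (hV : V ≤ W) (s : Γ(L, V)),
    t ∈ T.basicOpen (rho ρ V hV s)

theorem isUnit_of_forall_mem_basicOpen {U : T.Opens} (r : Γ(T, U))
    (h : ∀ t ∈ U, t ∈ T.basicOpen r) : IsUnit r :=
  T.toRingedSpace.isUnit_of_isUnit_germ U r fun t ht => (T.mem_basicOpen r t ht).mp (h t ht)

theorem Attains.isUnit {ρ : LocalHom W L (pushUnit σ)} (hρ : Attains ρ) {V : X.Opens} (hV : V ≤ W)
    {e : Γ(L, V)} (he : IsFrame e) : IsUnit (rho ρ V hV e) := by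
  refine isUnit_of_forall_mem_basicOpen _ fun t ht => ?_
  obtain ⟨V', hV', s, hs⟩ := hρ t (hV ht)
  have ht' : σ t ∈ V' := (T.basicOpen_le _ hs : t ∈ σ ⁻¹ᵁ V')
  obtain ⟨r, hr⟩ := he.exists_smul (inf_le_left : V ⊓ V' ≤ V) (sres L inf_le_right s)
  have h1 := congrArg (rho ρ (V ⊓ V') (inf_le_left.trans hV)) hr
  rw [rho_smul, rho_sres ρ hV, rho_sres ρ hV'] at h1
  have h2 : t ∈ T.basicOpen (rres (Scheme.Hom.preimage_mono σ (inf_le_right : V ⊓ V' ≤ V'))
      (rho ρ V' hV' s)) := by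
    rw [Scheme.basicOpen_res]; exact ⟨⟨ht, ht'⟩, hs⟩
  rw [← h1, Scheme.basicOpen_mul, Scheme.basicOpen_res] at h2
  exact h2.2.2

/-- Two local morphisms out of `L`, one bijective, differ by a unique function. -/
theorem exists_smul_eq (φ : LocalHom W L L') (hφ : φ.Bij) (ψ : LocalHom W L L')
    (hL : HasFrames W L) : ∃ d : Γ(X, W), ψ = φ.smulFun d := by
  choose a ha using fun p : FrameIn W L =>
    (p.isFrame.map hφ p.le).exists_smul le_rfl (ψ.app p.V p.le p.e)
  have key : ∀ (p : FrameIn W L) (V : X.Opens) (h : V ≤ p.V) (s : Γ(L, V)),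
      ψ.app V (h.trans p.le) s = rres h (a p) • φ.app V (h.trans p.le) s := fun p V h s => by
    obtain ⟨r, rfl⟩ := p.isFrame.exists_smul h s
    have h1 := ha p
    rw [sres_self] at h1
    rw [ψ.map_smul, φ.map_smul, ← ψ.naturality _ _ p.le h, ← φ.naturality _ _ p.le h, ← h1,
      sres_smul, smul_comm]
  obtain ⟨d, hd⟩ := exists_rres_eq (V := W)
    (fun p : FrameIn W L => p.V) (fun p => p.le) hL.cover a (fun p q => by
      refine ((p.isFrame.map hφ p.le).sres (inf_le_left : p.V ⊓ q.V ≤ p.V) _ le_rfl).1 ?_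
      simp only [sres_self]
      rw [φ.naturality _ _ p.le]
      exact (key p _ inf_le_left _).symm.trans (key q _ inf_le_right _))
  refine ⟨d, LocalHom.ext (funext fun V => funext fun hV => AddMonoidHom.ext fun s => ?_)⟩
  refine eq_of_sres (fun p : FrameIn W L => V ⊓ p.V) (fun p => inf_le_left)
    (by rw [← inf_iSup_eq]; exact le_inf le_rfl (hV.trans hL.cover)) fun p => ?_
  rw [LocalHom.smulFun_app, sres_smul, ψ.naturality _ _ hV, φ.naturality _ _ hV, rres_rres,
    key p _ inf_le_right]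
  congr 1
  rw [← hd p, rres_rres]

theorem Attains.eq_one {ρ : LocalHom W L (pushUnit σ)} (hρ : Attains ρ) (hL : HasFrames W L)
    (d : Γ(T, σ ⁻¹ᵁ W))
    (h : ∀ p : FrameIn W L, rres (Scheme.Hom.preimage_mono σ p.le) d * rho ρ p.V p.le p.e =
      rho ρ p.V p.le p.e) : d = 1 := by
  refine eq_of_rres (V := σ ⁻¹ᵁ W)
    (fun p : FrameIn W L => σ ⁻¹ᵁ p.V) (fun p => Scheme.Hom.preimage_mono σ p.le) ?_ fun p => ?_
  · intro t ht
    obtain ⟨p, hp⟩ := Opens.mem_iSup.mp (hL.cover (ht : σ t ∈ W))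
    exact Opens.mem_iSup.mpr ⟨p, hp⟩
  · rw [map_one]
    exact (hρ.isUnit p.le p.isFrame).mul_left_injective ((h p).trans (one_mul _).symm)

/-- Rigidified isomorphisms are unique. -/
theorem eq_of_rho_eq (hW : Function.Bijective (σ.app W)) {φ ψ : LocalHom W L L'} (hφ : φ.Bij)
    (hL : HasFrames W L) {ρ : LocalHom W L (pushUnit σ)} (hρ : Attains ρ)
    (ρ' : LocalHom W L' (pushUnit σ))
    (h : ∀ V hV s, rho ρ' V hV (φ.app V hV s) = rho ρ V hV s)
    (h' : ∀ V hV s, rho ρ' V hV (ψ.app V hV s) = rho ρ V hV s) : φ = ψ := by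
  obtain ⟨d, hd⟩ := exists_smul_eq φ hφ ψ hL
  have hd1 : σ.app W d = 1 := hρ.eq_one hL _ fun p => by
    have := h' p.V p.le p.e
    rw [hd, LocalHom.smulFun_app, rho_smul, h, app_rres] at this
    exact this
  obtain rfl : d = 1 := hW.1 (hd1.trans (map_one _).symm)
  rw [hd]
  refine LocalHom.ext (funext fun V => funext fun hV => AddMonoidHom.ext fun s => ?_)
  rw [LocalHom.smulFun_app, map_one, one_smul]

/-- Any local isomorphism can be normalised to respect rigidifications. -/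
theorem exists_normalised (hW : Function.Bijective (σ.app W)) {φ : LocalHom W L L'} (hφ : φ.Bij)
    (hL : HasFrames W L) {ρ : LocalHom W L (pushUnit σ)} (hρ : Attains ρ)
    {ρ' : LocalHom W L' (pushUnit σ)} (hρ' : Attains ρ') :
    ∃ ψ : LocalHom W L L', ψ.Bij ∧ ∀ V hV s, rho ρ' V hV (ψ.app V hV s) = rho ρ V hV s := by
  let q : ∀ p : FrameIn W L, Γ(T, σ ⁻¹ᵁ p.V) := fun p =>
    rho ρ p.V p.le p.e *
      ↑((hρ'.isUnit p.le (p.isFrame.map hφ p.le)).unit⁻¹ : (Γ(T, σ ⁻¹ᵁ p.V))ˣ)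
  have hq : ∀ p : FrameIn W L, q p * rho ρ' p.V p.le (φ.app p.V p.le p.e) =
      rho ρ p.V p.le p.e := fun p => by
    simp only [q, mul_assoc, IsUnit.val_inv_mul, mul_one]
  have key : ∀ (p : FrameIn W L) (V : X.Opens) (h : V ≤ p.V) (s : Γ(L, V)),
      rres (Scheme.Hom.preimage_mono σ h) (q p) * rho ρ' V (h.trans p.le) (φ.app V (h.trans p.le) s)
        = rho ρ V (h.trans p.le) s := fun p V h s => by
    obtain ⟨r, rfl⟩ := p.isFrame.exists_smul h s
    rw [φ.map_smul, rho_smul, rho_smul, ← φ.naturality _ _ p.le h, rho_sres _ p.le,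
      rho_sres _ p.le, ← mul_assoc, mul_comm _ (σ.app V r), mul_assoc, ← map_mul, hq]
  have hcov : σ ⁻¹ᵁ W ≤ ⨆ p : FrameIn W L, σ ⁻¹ᵁ p.V := fun t ht => by
    obtain ⟨p, hp⟩ := Opens.mem_iSup.mp (hL.cover (ht : σ t ∈ W))
    exact Opens.mem_iSup.mpr ⟨p, hp⟩
  obtain ⟨c, hc⟩ := exists_rres_eq (V := σ ⁻¹ᵁ W)
    (fun p : FrameIn W L => σ ⁻¹ᵁ p.V) (fun p => Scheme.Hom.preimage_mono σ p.le) hcov q
    (fun p r => by
      refine (hρ'.isUnit ((inf_le_left : p.V ⊓ r.V ≤ p.V).trans p.le)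
        ((p.isFrame.sres (inf_le_left : p.V ⊓ r.V ≤ p.V)).map hφ
          ((inf_le_left : p.V ⊓ r.V ≤ p.V).trans p.le))).mul_left_injective ?_
      exact (key p _ inf_le_left _).trans (key r _ inf_le_right _).symm)
  have hcu : IsUnit c := isUnit_of_forall_mem_basicOpen _ fun t ht => by
    obtain ⟨p, hp⟩ := Opens.mem_iSup.mp (hL.cover (ht : σ t ∈ W))
    have hu : IsUnit (q p) := (hρ.isUnit p.le p.isFrame).mul (Units.isUnit _)
    have hcp : rres (Scheme.Hom.preimage_mono σ p.le) c = q p := hc p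
    have h3 : t ∈ T.basicOpen (rres (Scheme.Hom.preimage_mono σ p.le) c) := by
      rw [hcp, Scheme.basicOpen_of_isUnit _ hu]; exact hp
    rw [Scheme.basicOpen_res] at h3
    exact h3.2
  let e := RingEquiv.ofBijective (σ.app W).hom hW
  have ha : σ.app W (e.symm c) = c := e.apply_symm_apply c
  refine ⟨φ.smulFun (e.symm c), fun V hV => ?_, fun V hV s => ?_⟩
  · obtain ⟨u, hu⟩ := (hcu.map e.symm).map (rres hV)
    have : ⇑((φ.smulFun (e.symm c)).app V hV) = (fun x => u • x) ∘ φ.app V hV :=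
      funext fun x => by
        rw [LocalHom.smulFun_app, Function.comp_apply, Units.smul_def, hu]
    rw [this]
    exact (MulAction.bijective u).comp (hφ V hV)
  · rw [LocalHom.smulFun_app, rho_smul, app_rres, ha]
    refine eq_of_rres (V := σ ⁻¹ᵁ V)
      (fun p : FrameIn W L => σ ⁻¹ᵁ (V ⊓ p.V)) (fun p => Scheme.Hom.preimage_mono σ inf_le_left)
      (fun t ht => ?_) fun p => ?_
    · obtain ⟨p, hp⟩ := Opens.mem_iSup.mp (hL.cover (hV (ht : σ t ∈ V)))
      exact Opens.mem_iSup.mpr ⟨p, ht, hp⟩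
    · rw [map_mul, ← rho_sres ρ' hV (inf_le_left : V ⊓ p.V ≤ V), ← rho_sres ρ hV (inf_le_left : V ⊓ p.V ≤ V), φ.naturality _ _ hV, rres_rres,
        ← key p (V ⊓ p.V) inf_le_right]
      congr 1
      rw [← hc p]
      rw [rres_rres]

variable {ι : Type u} (U : ι → X.Opens)

/-- Rigidified modules which are locally isomorphic are isomorphic. -/
theorem nonempty_iso_of_local (hU : ⨆ i, U i = ⊤)
    (hb : ∀ i j, Function.Bijective (σ.app (U i ⊓ U j)))
    {M M' : X.Modules} (hM : HasFrames ⊤ M)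
    (ρ : LocalHom ⊤ M (pushUnit σ)) (hρ : Attains ρ)
    (ρ' : LocalHom ⊤ M' (pushUnit σ)) (hρ' : Attains ρ')
    (h : ∀ i, ∃ φ : LocalHom (U i) M M', φ.Bij) : Nonempty (M ≅ M') := by
  have att : ∀ {N : X.Modules} (r : LocalHom ⊤ N (pushUnit σ)), Attains r → ∀ V : X.Opens,
      Attains (r.res (le_top : V ≤ ⊤)) := fun r hr V t ht => by
    obtain ⟨V', hV', s, hs⟩ := hr t trivial
    refine ⟨V' ⊓ V, inf_le_right, sres _ inf_le_left s, ?_⟩
    have := rho_sres r hV' (inf_le_left : V' ⊓ V ≤ V') s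
    change t ∈ T.basicOpen (rho r (V' ⊓ V) _ (sres _ inf_le_left s))
    rw [this, Scheme.basicOpen_res]
    exact ⟨⟨T.basicOpen_le _ hs, ht⟩, hs⟩
  choose φ hφ using h
  choose ψ hψb hψ using fun i => exists_normalised (W := U i) (inf_idem (U i) ▸ hb i i) (hφ i)
    (hM.mono le_top) (att ρ hρ _) (att ρ' hρ' _)
  have agree : ∀ i j V (hi : V ≤ U i) (hj : V ≤ U j) s,
      (ψ i).app V hi s = (ψ j).app V hj s := fun i j V hi hj s => by
    have := eq_of_rho_eq (W := U i ⊓ U j) (hb i j) (φ := (ψ i).res inf_le_left)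
      (ψ := (ψ j).res inf_le_right) ((hψb i).res _) (hM.mono le_top) (att ρ hρ _)
      (ρ'.res le_top) (fun V hV s => hψ i V _ s) (fun V hV s => hψ j V _ s)
    have h2 := congrArg (fun f : LocalHom (U i ⊓ U j) M M' => f.app V (le_inf hi hj) s) this
    exact h2
  let g : LocalHom ⊤ M M' := LocalHom.glue (W := ⊤) U hU.ge ψ agree
  have hg : g.Bij := LocalHom.bij_of_cover U hU.ge _ fun i V hV hi => by
    have : g.app V hV = (ψ i).app V hi :=
      AddMonoidHom.ext fun s => LocalHom.glue_app U hU.ge ψ agree i V hV hi s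
    rw [this]
    exact hψb i V hi
  have := LocalHom.isIso_toHom g hg
  exact ⟨asIso (LocalHom.toHom g)⟩

/-- Rigidified modules given on an open cover, isomorphic on the overlaps, glue. -/
theorem exists_glued (hU : ⨆ i, U i = ⊤)
    (hb : ∀ i j, Function.Bijective (σ.app (U i ⊓ U j)))
    (hb3 : ∀ i j k, Function.Bijective (σ.app (U i ⊓ U j ⊓ U k)))
    (N : ι → X.Modules) (hN : ∀ i, HasFrames (U i) (N i))
    (ρ : ∀ i, LocalHom (U i) (N i) (pushUnit σ)) (hρ : ∀ i, Attains (ρ i))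
    (h : ∀ i j, ∃ φ : LocalHom (U i ⊓ U j) (N i) (N j), φ.Bij) :
    ∃ (M : X.Modules) (r : LocalHom ⊤ M (pushUnit σ)), HasFrames ⊤ M ∧ Attains r ∧
      ∀ i, ∃ π : LocalHom (U i) M (N i), π.Bij := by
  have att : ∀ (i : ι) {V : X.Opens} (hV : V ≤ U i), Attains ((ρ i).res hV) :=
    fun i V hV t ht => by
      obtain ⟨V', hV', s, hs⟩ := hρ i t (hV ht)
      refine ⟨V' ⊓ V, inf_le_right, sres _ inf_le_left s, ?_⟩
      change t ∈ T.basicOpen (rho (ρ i) (V' ⊓ V) _ (sres _ inf_le_left s))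
      rw [rho_sres (ρ i) hV' inf_le_left, Scheme.basicOpen_res]
      exact ⟨⟨T.basicOpen_le _ hs, ht⟩, hs⟩
  choose φ hφ using h
  choose g hgb hg using fun i j => exists_normalised (W := U i ⊓ U j) (hb i j) (hφ i j)
    ((hN i).mono inf_le_left) (att i inf_le_left) (att j inf_le_right)
  let D : GlueData X ι :=
    { U := U
      cover := hU
      N := N
      g := g
      g_self := fun i V hV s => by
        have := eq_of_rho_eq (W := U i ⊓ U i) (hb i i) (φ := g i i)
          (ψ := LocalHom.ofHom _ (𝟙 (N i))) (hgb i i) ((hN i).mono inf_le_left)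
          (att i inf_le_left) ((ρ i).res inf_le_right) (hg i i) (fun V hV s => rfl)
        have h2 := congrArg (fun f : LocalHom (U i ⊓ U i) (N i) (N i) => f.app V hV s) this
        exact h2
      cocycle := fun i j k V hij hjk hik s => by
        let W := U i ⊓ U j ⊓ U k
        have h1 : W ≤ U i ⊓ U j := inf_le_left
        have h2 : W ≤ U j ⊓ U k := le_inf (inf_le_left.trans inf_le_right) inf_le_right
        have h3 : W ≤ U i ⊓ U k := le_inf (inf_le_left.trans inf_le_left) inf_le_right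
        have := eq_of_rho_eq (W := W) (hb3 i j k)
          (φ := ((g i j).res h1).comp ((g j k).res h2)) (ψ := (g i k).res h3)
          (((hgb i j).res h1).comp ((hgb j k).res h2)) ((hN i).mono (h1.trans inf_le_left))
          (att i (h1.trans inf_le_left)) ((ρ k).res (h2.trans inf_le_right))
          (fun V hV s => (hg j k V _ _).trans (hg i j V _ s)) (fun V hV s => hg i k V _ s)
        have h4 := congrArg (fun f : LocalHom W (N i) (N k) =>
          f.app V (le_inf hij (hjk.trans inf_le_right)) s) this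
        exact h4 }
  have agree : ∀ i j V (hi : V ≤ U i) (hj : V ≤ U j) s,
      ((D.proj i).comp (ρ i)).app V hi s = ((D.proj j).comp (ρ j)).app V hj s :=
    fun i j V hi hj s => by
      have := hg i j V (le_inf hi hj) ((D.proj i).app V hi s)
      rw [show (g i j).app V (le_inf hi hj) ((D.proj i).app V hi s) = (D.proj j).app V hj s from
        D.g_proj i j V (le_inf hi hj) s] at this
      exact this.symm
  refine ⟨D.glued, LocalHom.glue (W := ⊤) U hU.ge (fun i => (D.proj i).comp (ρ i)) agree,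
    fun x _ => ?_, fun t _ => ?_, fun i => ⟨D.proj i, D.proj_bij i⟩⟩
  · obtain ⟨i, hi⟩ := Opens.mem_iSup.mp (hU.ge (trivial : x ∈ (⊤ : X.Opens)))
    obtain ⟨V, hxV, hV, e, he⟩ := ((hN i).map _ (D.proj_bij i).symm) x hi
    exact ⟨V, hxV, le_top, e, he⟩
  · obtain ⟨i, hi⟩ := Opens.mem_iSup.mp (hU.ge (trivial : σ t ∈ (⊤ : X.Opens)))
    obtain ⟨V, hV, s, hs⟩ := hρ i t hi
    refine ⟨V, le_top, ((D.proj i).symm (D.proj_bij i)).app V hV s, ?_⟩
    have : rho (LocalHom.glue (W := ⊤) U hU.ge (fun i => (D.proj i).comp (ρ i)) agree) V le_top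
        (((D.proj i).symm (D.proj_bij i)).app V hV s) = rho (ρ i) V hV s := by
      refine congrArg toFun' ((LocalHom.glue_app _ _ _ _ i V le_top hV _).trans ?_)
      rw [LocalHom.comp_app, LocalHom.app_symm_app]
    rw [this]
    exact hs

end AlgebraicGeometry.RelPicGlue
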