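import Fermat.Agent.RelPic.Rings

/-!
# Stability of line bundles under the operations
-/

set_option autoImplicit false
set_option linter.unusedSectionVars false
set_option linter.style.haveILetI false

universe u

open TensorProduct

noncomputable section

namespace Fermat.Agent.RelPic

variable {k : Type u} [Field k] {X : Model k} {R : Type u} [CommRing R] [Algebra k R]

namespace Pre

section Lattice

variable {B : Type u} [CommRing B] [Algebra R B] {res : B →ₐ[R] B01 X R}
  {N : Type u} [AddCommGroup N] [Module (B01 X R) N] [Module R N] [IsScalarTower R (B01 X R) N]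
  {M : Submodule R N}

theorem IsLattice.of_fintype {ι : Type*} [Fintype ι] (s : ι → N)
    (l : ι → N →ₗ[B01 X R] B01 X R) (hs : ∀ i, s i ∈ M) (hsum : ∀ x, x = ∑ i, l i x • s i)
    (hmem : ∀ x, x ∈ M ↔ ∀ i, l i x ∈ res.range) : IsLattice res M := by
  let e := (Fintype.equivFin ι).symm
  refine ⟨Fintype.card ι, s ∘ e, l ∘ e, fun i => hs _, fun x => ?_, fun x => ?_⟩
  · conv_lhs => rw [hsum x]
    exact (Equiv.sum_comp e fun i => l i x • s i).symm
  · rw [hmem]
    exact ⟨fun h i => h _, fun h i => by simpa using h (e.symm i)⟩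

/-- A sufficient form of the lattice condition: stability plus integrality. -/
theorem IsLattice.of_stable {ι : Type*} [Fintype ι] (s : ι → N)
    (l : ι → N →ₗ[B01 X R] B01 X R) (hs : ∀ i, s i ∈ M) (hsum : ∀ x, x = ∑ i, l i x • s i)
    (hstab : ∀ (b : B), ∀ x ∈ M, res b • x ∈ M) (hint : ∀ x ∈ M, ∀ i, l i x ∈ res.range) :
    IsLattice res M := by
  refine IsLattice.of_fintype s l hs hsum fun x => ⟨hint x, fun h => ?_⟩
  rw [hsum x]
  refine sum_mem fun i _ => ?_
  obtain ⟨b, hb⟩ := h i
  rw [← hb]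
  exact hstab b _ (hs i)

theorem IsLattice.smul_mem (h : IsLattice res M) (b : B) {x : N} (hx : x ∈ M) :
    res b • x ∈ M := by
  obtain ⟨n, s, l, -, -, hmem⟩ := h
  rw [hmem] at hx ⊢
  intro i
  rw [map_smul, smul_eq_mul]
  exact mul_mem (AlgHom.mem_range_self _ b) (hx i)

theorem IsLattice.span_eq_top (h : IsLattice res M) :
    Submodule.span (B01 X R) (M : Set N) = ⊤ := by
  obtain ⟨n, s, l, hs, hsum, -⟩ := h
  refine top_le_iff.mp fun x _ => ?_
  rw [hsum x]
  exact sum_mem fun i _ => Submodule.smul_mem _ _ (Submodule.subset_span (hs i))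

end Lattice

theorem Good.res0_smul_mem {L : Pre X R} (h : L.Good) (b : R ⊗[k] X.A0) {x : L.N}
    (hx : x ∈ L.M0) : res0 X R b • x ∈ L.M0 :=
  h.lattice0.smul_mem b hx

theorem Good.res1_smul_mem {L : Pre X R} (h : L.Good) (b : R ⊗[k] X.A1) {x : L.N}
    (hx : x ∈ L.M1) : res1 X R b • x ∈ L.M1 :=
  h.lattice1.smul_mem b hx

/-- An equivalence mapping each lattice into the other one gives an isomorphism. -/
theorem Iso.of_le {L L' : Pre X R} (e : L.N ≃ₗ[B01 X R] L'.N)
    (h0 : ∀ x ∈ L.M0, e x ∈ L'.M0) (h0' : ∀ x ∈ L'.M0, e.symm x ∈ L.M0)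
    (h1 : ∀ x ∈ L.M1, e x ∈ L'.M1) (h1' : ∀ x ∈ L'.M1, e.symm x ∈ L.M1) : Iso L L' := by
  refine ⟨e, le_antisymm ?_ ?_, le_antisymm ?_ ?_⟩
  · rintro _ ⟨x, hx, rfl⟩; exact h0 x hx
  · intro y hy; exact ⟨e.symm y, h0' y hy, e.apply_symm_apply y⟩
  · rintro _ ⟨x, hx, rfl⟩; exact h1 x hx
  · intro y hy; exact ⟨e.symm y, h1' y hy, e.apply_symm_apply y⟩

/-! ### The trivial bundle -/

variable (X R) in
theorem isLattice_range {B : Type u} [CommRing B] [Algebra R B] (res : B →ₐ[R] B01 X R) :
    IsLattice res (res.toLinearMap.range : Submodule R (B01 X R)) :=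
  IsLattice.of_fintype (ι := Fin 1) (fun _ => 1) (fun _ => LinearMap.id)
    (fun _ => ⟨1, map_one res⟩) (fun x => by simp)
    (fun x => ⟨fun h _ => h, fun h => h 0⟩)

variable (X R) in
theorem good_unit : (unit X R).Good where
  invertible := inferInstanceAs (Module.Invertible (B01 X R) (B01 X R))
  lattice0 := isLattice_range X R (res0 X R)
  lattice1 := isLattice_range X R (res1 X R)

/-! ### Twists -/

theorem mem_twist_M1 {L : Pre X R} {m : ℤ} {x : L.N} :
    x ∈ (L.twist m).M1 ↔ ((fUnit X R ^ (-m) : (B01 X R)ˣ) : B01 X R) • x ∈ L.M1 := by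
  constructor
  · rintro ⟨y, hy, rfl⟩
    simp only [LinearMap.coe_restrictScalars, LinearMap.lsmul_apply, smul_smul, ← Units.val_mul,
      ← zpow_add, neg_add_cancel, zpow_zero, Units.val_one, one_smul]
    exact hy
  · intro hx
    refine ⟨_, hx, ?_⟩
    simp only [LinearMap.coe_restrictScalars, LinearMap.lsmul_apply, smul_smul, ← Units.val_mul,
      ← zpow_add, add_neg_cancel, zpow_zero, Units.val_one, one_smul]

theorem Good.twist {L : Pre X R} (h : L.Good) (m : ℤ) : (L.twist m).Good where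
  invertible := h.invertible
  lattice0 := h.lattice0
  lattice1 := by
    obtain ⟨n, s, l, hs, hsum, hmem⟩ := h.lattice1
    refine ⟨n, fun i => ((fUnit X R ^ m : (B01 X R)ˣ) : B01 X R) • s i,
      fun i => ((fUnit X R ^ (-m) : (B01 X R)ˣ) : B01 X R) • l i, fun i => ⟨_, hs i, rfl⟩,
      fun x => ?_, fun x => ?_⟩
    · conv_lhs => rw [hsum x]
      refine Finset.sum_congr rfl fun i _ => ?_
      rw [LinearMap.smul_apply, smul_eq_mul, smul_smul, mul_comm _ (l i x), mul_assoc,
        ← Units.val_mul, ← zpow_add, neg_add_cancel, zpow_zero, Units.val_one, mul_one]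
    · rw [mem_twist_M1, hmem]
      refine forall_congr' fun i => ?_
      rw [map_smul, LinearMap.smul_apply]

theorem twist_M1_mono {L : Pre X R} (h : L.Good) {m m' : ℤ} (hmm : m ≤ m') :
    (L.twist m).M1 ≤ (L.twist m').M1 := by
  obtain ⟨d, rfl⟩ := Int.le.dest hmm
  intro x hx
  rw [mem_twist_M1] at hx ⊢
  have e : ((fUnit X R ^ (-(m + (d : ℤ))) : (B01 X R)ˣ) : B01 X R) =
      res1 X R ((1 : R) ⊗ₜ (X.g ^ d)) * ((fUnit X R ^ (-m) : (B01 X R)ˣ) : B01 X R) := by
    have e1 : ((fUnit X R ^ (-(d : ℤ)) : (B01 X R)ˣ) : B01 X R) =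
        res1 X R ((1 : R) ⊗ₜ (X.g ^ d)) := by
      rw [coe_fUnit_zpow, res1_tmul, map_pow, zpow_neg, ← inv_zpow, zpow_natCast,
        Units.val_pow_eq_pow_val]
      rfl
    rw [← e1, ← Units.val_mul, ← zpow_add]
    congr 2
    ring
  rw [e, mul_smul]
  exact h.res1_smul_mem _ hx

theorem twist_zero_M1 (L : Pre X R) : (L.twist 0).M1 = L.M1 := by
  ext x
  rw [mem_twist_M1]
  simp

theorem Good.exists_mem_twist {L : Pre X R} (h : L.Good) (x : L.N) :
    ∃ m : ℕ, x ∈ (L.twist (m : ℤ)).M1 := by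
  obtain ⟨n, s, l, hs, hsum, hmem⟩ := h.lattice1
  have key : ∀ b : B01 X R, ∃ m : ℕ,
      ((fUnit X R ^ (-(m : ℤ)) : (B01 X R)ˣ) : B01 X R) * b ∈ (res1 X R).range := by
    intro b
    induction b using TensorProduct.induction_on with
    | zero => exact ⟨0, by simp⟩
    | tmul r a =>
        obtain ⟨m, c, hc⟩ := X.exists_pow_mul1 a
        refine ⟨m, r ⊗ₜ c, ?_⟩
        show res1 X R (r ⊗ₜ c) = _
        rw [coe_fUnit_zpow, Algebra.TensorProduct.tmul_mul_tmul, one_mul, res1_tmul, ← hc,
          zpow_neg, ← inv_zpow, zpow_natCast, Units.val_pow_eq_pow_val]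
        rfl
    | add a b ha hb =>
        obtain ⟨m, hm⟩ := ha
        obtain ⟨m', hm'⟩ := hb
        refine ⟨m + m', ?_⟩
        have e1 : ∀ j : ℕ,
            ((fUnit X R ^ (-(j : ℤ)) : (B01 X R)ˣ) : B01 X R) ∈ (res1 X R).range := by
          intro j
          refine ⟨(1 : R) ⊗ₜ (X.g ^ j), ?_⟩
          rw [coe_fUnit_zpow, zpow_neg, ← inv_zpow, zpow_natCast, Units.val_pow_eq_pow_val]
          show (1 : R) ⊗ₜ[k] X.ι1 (X.g ^ j) = _
          rw [map_pow]
          rfl
        rw [mul_add]
        push_cast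
        rw [neg_add, zpow_add, Units.val_mul]
        refine add_mem ?_ ?_
        · rw [mul_comm ((fUnit X R ^ (-(m : ℤ)) : (B01 X R)ˣ) : B01 X R), mul_assoc]
          exact mul_mem (e1 m') hm
        · rw [mul_assoc]
          exact mul_mem (e1 m) hm'
  choose g hg using fun i => key (l i x)
  refine ⟨Finset.univ.sup g, ?_⟩
  have hx : x = ∑ i, l i x • s i := hsum x
  rw [hx]
  refine sum_mem fun i _ => twist_M1_mono h
    (Int.ofNat_le.mpr (Finset.le_sup (f := g) (Finset.mem_univ i))) ?_
  rw [mem_twist_M1, smul_smul]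
  obtain ⟨c, hc⟩ := hg i
  rw [← hc]
  exact h.res1_smul_mem c (hs i)

/-! ### Tensor products -/

theorem tmul_mem_tensor_M0 {L L' : Pre X R} {a : L.N} {b : L'.N} (ha : a ∈ L.M0)
    (hb : b ∈ L'.M0) : (a ⊗ₜ b : (L.tensor L').N) ∈ (L.tensor L').M0 :=
  Submodule.subset_span ⟨a, ha, b, hb, rfl⟩

theorem tmul_mem_tensor_M1 {L L' : Pre X R} {a : L.N} {b : L'.N} (ha : a ∈ L.M1)
    (hb : b ∈ L'.M1) : (a ⊗ₜ b : (L.tensor L').N) ∈ (L.tensor L').M1 :=
  Submodule.subset_span ⟨a, ha, b, hb, rfl⟩

theorem isLattice_tensor {B : Type u} [CommRing B] [Algebra R B] {res : B →ₐ[R] B01 X R}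
    {N N' : Type u} [AddCommGroup N] [Module (B01 X R) N] [Module R N]
    [IsScalarTower R (B01 X R) N] [AddCommGroup N'] [Module (B01 X R) N'] [Module R N']
    [IsScalarTower R (B01 X R) N'] {M : Submodule R N} {M' : Submodule R N'}
    (h : IsLattice res M) (h' : IsLattice res M') :
    IsLattice res (Submodule.span R
      {x : N ⊗[B01 X R] N' | ∃ a ∈ M, ∃ b ∈ M', x = a ⊗ₜ b}) := by
  obtain ⟨n, s, l, hs, hsum, hmem⟩ := h
  obtain ⟨n', s', l', hs', hsum', hmem'⟩ := h'
  refine IsLattice.of_stable (ι := Fin n × Fin n') (fun p => s p.1 ⊗ₜ s' p.2)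
    (fun p => (TensorProduct.lid (B01 X R) (B01 X R)).toLinearMap ∘ₗ
      TensorProduct.map (l p.1) (l' p.2))
    (fun p => Submodule.subset_span ⟨_, hs _, _, hs' _, rfl⟩) (fun x => ?_) (fun c x hx => ?_)
    (fun x hx p => ?_)
  · induction x using TensorProduct.induction_on with
    | zero => simp
    | tmul a b =>
        conv_lhs => rw [hsum a, hsum' b]
        simp only [LinearMap.coe_comp, LinearEquiv.coe_coe, Function.comp_apply,
          TensorProduct.map_tmul, TensorProduct.lid_tmul, smul_eq_mul, TensorProduct.sum_tmul,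
          TensorProduct.tmul_sum, Fintype.sum_prod_type, TensorProduct.smul_tmul_smul]
        rw [Finset.sum_comm]
    | add a b ha hb =>
        conv_lhs => rw [ha, hb]
        simp only [map_add, add_smul, Finset.sum_add_distrib]
  · induction hx using Submodule.span_induction with
    | mem y hy =>
        obtain ⟨a, ha, b, hb, rfl⟩ := hy
        rw [TensorProduct.smul_tmul']
        refine Submodule.subset_span ⟨_, ?_, b, hb, rfl⟩
        rw [hmem]
        intro i
        rw [map_smul, smul_eq_mul]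
        exact mul_mem (AlgHom.mem_range_self _ c) ((hmem a).mp ha i)
    | zero => simp
    | add a b _ _ ha hb => rw [smul_add]; exact add_mem ha hb
    | smul r a _ ha => rw [smul_comm]; exact Submodule.smul_mem _ r ha
  · induction hx using Submodule.span_induction with
    | mem y hy =>
        obtain ⟨a, ha, b, hb, rfl⟩ := hy
        simp only [LinearMap.coe_comp, LinearEquiv.coe_coe, Function.comp_apply,
          TensorProduct.map_tmul, TensorProduct.lid_tmul, smul_eq_mul]
        exact mul_mem ((hmem a).mp ha p.1) ((hmem' b).mp hb p.2)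
    | zero => rw [map_zero]; exact zero_mem _
    | add a b _ _ ha hb => rw [map_add]; exact add_mem ha hb
    | smul r a _ ha =>
        rw [LinearMap.map_smul_of_tower]
        exact Subalgebra.smul_mem _ ha r

theorem Good.tensor {L L' : Pre X R} (h : L.Good) (h' : L'.Good) : (L.tensor L').Good where
  invertible :=
    haveI := h.invertible
    haveI := h'.invertible
    inferInstanceAs (Module.Invertible (B01 X R) (L.N ⊗[B01 X R] L'.N))
  lattice0 := isLattice_tensor h.lattice0 h'.lattice0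
  lattice1 := isLattice_tensor h.lattice1 h'.lattice1

/-! ### Duals -/

theorem isLattice_dual {B : Type u} [CommRing B] [Algebra R B] {res : B →ₐ[R] B01 X R}
    {N : Type u} [AddCommGroup N] [Module (B01 X R) N] [Module R N]
    [IsScalarTower R (B01 X R) N] {M : Submodule R N}
    (h : IsLattice res M) (D : Submodule R (N →ₗ[B01 X R] B01 X R))
    (hD : ∀ φ, φ ∈ D ↔ ∀ m ∈ M, φ m ∈ res.toLinearMap.range) : IsLattice res D := by
  obtain ⟨n, s, l, hs, hsum, hmem⟩ := h
  refine ⟨n, l, fun i => LinearMap.applyₗ (s i), fun i => ?_, fun φ => ?_, fun φ => ?_⟩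
  · rw [hD]
    exact fun m hm => (hmem m).mp hm i
  · refine LinearMap.ext fun y => ?_
    conv_lhs => rw [hsum y]
    simp [mul_comm]
  · rw [hD]
    refine ⟨fun hφ i => hφ _ (hs i), fun hφ m hm => ?_⟩
    rw [hsum m, map_sum]
    refine sum_mem fun i _ => ?_
    rw [map_smul, smul_eq_mul]
    exact mul_mem (s := res.range) ((hmem m).mp hm i) (hφ i)

theorem Good.dual {L : Pre X R} (h : L.Good) : L.dual.Good where
  invertible :=
    haveI := h.invertible
    inferInstanceAs (Module.Invertible (B01 X R) (Module.Dual (B01 X R) L.N))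
  lattice0 := isLattice_dual h.lattice0 _ fun _ => Iff.rfl
  lattice1 := isLattice_dual h.lattice1 _ fun _ => Iff.rfl

/-! ### Sections and automorphisms -/

/-- An automorphism of a line bundle is multiplication by a scalar. -/
theorem Good.exists_eq_smul {L : Pre X R} (h : L.Good) (e : L.N →ₗ[B01 X R] L.N)
    (h0 : ∀ x ∈ L.M0, e x ∈ L.M0) (h1 : ∀ x ∈ L.M1, e x ∈ L.M1) :
    ∃ r : R, ∀ x, e x = r • x := by
  haveI := h.invertible
  obtain ⟨b, rfl⟩ := (Module.Invertible.toModuleEnd_bijective (B01 X R) L.N).2 e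
  have key : ∀ {B : Type u} [CommRing B] [Algebra R B] {res : B →ₐ[R] B01 X R}
      {M : Submodule R L.N}, IsLattice res M → (∀ x ∈ M, b • x ∈ M) →
      b ∈ res.toLinearMap.range := by
    intro B _ _ res M hM hb
    obtain ⟨n, s, l, hs, hsum, hmem⟩ := hM
    have tr : (1 : B01 X R) = ∑ i, l i (s i) := by
      apply (Module.Invertible.toModuleEnd_bijective (B01 X R) L.N).1
      refine LinearMap.ext fun x => ?_
      show (1 : B01 X R) • x = (∑ i, l i (s i)) • x
      rw [one_smul, Finset.sum_smul]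
      conv_lhs => rw [hsum x]
      refine Finset.sum_congr rfl fun i _ => ?_
      exact rank_one (l i) x (s i)
    have : b = ∑ i, l i (b • s i) := by
      conv_lhs => rw [← mul_one b, tr, Finset.mul_sum]
      simp
    rw [this]
    exact sum_mem fun i _ => (hmem _).mp (hb _ (hs i)) i
  have hb : b ∈ LinearMap.range (Algebra.linearMap R (B01 X R)) := by
    rw [← range_res0_inf_range_res1]
    exact ⟨key h.lattice0 h0, key h.lattice1 h1⟩
  obtain ⟨r, rfl⟩ := hb
  exact ⟨r, fun x => algebraMap_smul (B01 X R) r x⟩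
where
  rank_one {B : Type u} [CommRing B] {N : Type u} [AddCommGroup N] [Module B N]
      [Module.Invertible B N] (l : N →ₗ[B] B) (x y : N) : l x • y = l y • x := by
    have e := congrArg (TensorProduct.lid B N ∘ l.rTensor N)
      (Module.Invertible.tmul_comm (R := B) (m₁ := x) (m₂ := y))
    simpa using e

end Pre

end Fermat.Agent.RelPic
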