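import Mathlib
import Fermat.Agent.RelPic.FibreRings
import Fermat.Prelude.Def_AlgebraicGeometry_RelPicardAlgEquivZeroCut

/-!
# Powers of a scheme over an algebraically closed field

An integral scheme over an algebraically closed field is geometrically integral, and so are the
fibre powers of a proper flat one.
-/

set_option autoImplicit false
set_option linter.unusedVariables false
set_option linter.style.haveILetI false

noncomputable section

universe u

open CategoryTheory CategoryTheory.Limits AlgebraicGeometry NeronModelInfra TensorProduct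

namespace Fermat.Agent.RelPic

variable {k : Type u} [Field k]

/-- Over an algebraically closed field the tensor product of two domains is a domain. -/
theorem isDomain_tensor_of_isAlgClosed [IsAlgClosed k] (A B : Type u) [CommRing A] [IsDomain A]
    [CommRing B] [IsDomain B] [Algebra k A] [Algebra k B] : IsDomain (A ⊗[k] B) :=
  isDomain_tensor A B

/-- An integral scheme over an algebraically closed field is geometrically integral. -/
theorem geometricallyIntegral_of_isAlgClosed [IsAlgClosed k] {Y : Scheme.{u}}
    (f : Y ⟶ Spec (CommRingCat.of k)) [IsIntegral Y] : GeometricallyIntegral f := by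
  refine ⟨fun K _ y Z fst snd hZ => ?_⟩
  haveI : Surjective y := ⟨fun p => ⟨IsLocalRing.closedPoint K, Subsingleton.elim _ _⟩⟩
  haveI hsurj : Surjective fst := MorphismProperty.of_isPullback hZ.flip inferInstance
  let 𝒰 := Y.affineCover.pullback₁ fst
  have hint : ∀ i : Y.affineCover.I₀, Nonempty (Y.affineCover.X i) → IsIntegral (𝒰.X i) := by
    intro i hne
    let g := Y.affineCover.f i
    haveI : IsIntegral (Y.affineCover.X i) := isIntegral_of_isOpenImmersion g
    let A := Γ(Y.affineCover.X i, ⊤)
    let : Algebra k A := (Spec.preimage ((Y.affineCover.X i).isoSpec.inv ≫ g ≫ f)).hom.toAlgebra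
    let : Algebra k K := (Spec.preimage y).hom.toAlgebra
    haveI := isDomain_tensor_of_isAlgClosed (k := k) A K
    let e : 𝒰.X i ≅ Spec (CommRingCat.of (A ⊗[k] K)) :=
      pullbackSymmetry _ _ ≪≫ pullback.congrHom rfl hZ.isoPullback_hom_fst.symm ≪≫
      asIso (pullback.map g (hZ.isoPullback.hom ≫ pullback.fst f y) g (pullback.fst f y) (𝟙 _)
        hZ.isoPullback.hom (𝟙 _) (by simp) (by simp)) ≪≫
      pullbackRightPullbackFstIso f y g ≪≫
      asIso (pullback.map (g ≫ f) y (Spec.map (CommRingCat.ofHom (algebraMap k A)))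
        (Spec.map (CommRingCat.ofHom (algebraMap k K))) (Y.affineCover.X i).isoSpec.hom (𝟙 _) (𝟙 _)
        (by rw [Category.comp_id, show Spec.map (CommRingCat.ofHom (algebraMap k A)) = _ from
              Spec.map_preimage _, Iso.hom_inv_id_assoc])
        (by rw [Category.comp_id, Category.id_comp]; exact (Spec.map_preimage y).symm)) ≪≫
      pullbackSpecIso k A K
    exact IsIntegral.of_isIso e.inv
  haveI : ∀ i, IsReduced (𝒰.X i) := fun (i : Y.affineCover.I₀) => by
    by_cases hne : Nonempty (Y.affineCover.X i)
    · haveI := hint i hne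
      infer_instance
    · haveI : IsEmpty (Y.affineCover.X i) := not_nonempty_iff.mp hne
      haveI : IsEmpty (𝒰.X i) := Function.isEmpty (pullback.snd fst (Y.affineCover.f i))
      haveI : ∀ x : 𝒰.X i, _root_.IsReduced ((𝒰.X i).presheaf.stalk x) := fun x => isEmptyElim x
      exact isReduced_of_isReduced_stalk _
  haveI : IsReduced Z := IsReduced.of_openCover Z 𝒰
  haveI : IrreducibleSpace Z := by
    haveI : Nonempty Z := ⟨(fst.surjective (genericPoint Y)).choose⟩
    haveI : PreirreducibleSpace Z := by
      refine ⟨fun U V hU hV ⟨z, _, hz⟩ ⟨w, _, hw⟩ => ?_⟩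
      have meet : ∀ (i : Y.affineCover.I₀) (U V : Set Z), IsOpen U → IsOpen V →
          (U ∩ Set.range (𝒰.f i)).Nonempty → (V ∩ Set.range (𝒰.f i)).Nonempty →
          (U ∩ V ∩ Set.range (𝒰.f i)).Nonempty := by
        rintro i U V hU hV ⟨_, hzU, a, rfl⟩ ⟨_, hwV, b, rfl⟩
        haveI := hint i ⟨pullback.snd fst (Y.affineCover.f i) a⟩
        obtain ⟨p, -, hpU, hpV⟩ := (IrreducibleSpace.isIrreducible_univ (𝒰.X i)).2 _ _
          (hU.preimage (𝒰.f i).continuous) (hV.preimage (𝒰.f i).continuous)
          ⟨a, trivial, hzU⟩ ⟨b, trivial, hwV⟩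
        exact ⟨_, ⟨hpU, hpV⟩, p, rfl⟩
      obtain ⟨i, hi⟩ : ∃ i : Y.affineCover.I₀, z ∈ Set.range (𝒰.f i) :=
        ⟨_, Scheme.Cover.covers 𝒰 z⟩
      obtain ⟨j, hj⟩ : ∃ j : Y.affineCover.I₀, w ∈ Set.range (𝒰.f j) :=
        ⟨_, Scheme.Cover.covers 𝒰 w⟩
      have hrange : ∀ i : Y.affineCover.I₀, Set.range (𝒰.f i) = fst ⁻¹' Set.range (Y.affineCover.f i) := fun i =>
        Scheme.Pullback.range_fst fst (Y.affineCover.f i)
      have hij : (Set.range (𝒰.f j) ∩ Set.range (𝒰.f i)).Nonempty := by
        obtain ⟨zi, hzi⟩ : fst z ∈ Set.range (Y.affineCover.f i) := by rwa [hrange] at hi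
        obtain ⟨wj, hwj⟩ : fst w ∈ Set.range (Y.affineCover.f j) := by rwa [hrange] at hj
        obtain ⟨y', -, hy1, hy2⟩ := (IrreducibleSpace.isIrreducible_univ Y).2
          (Set.range (Y.affineCover.f j)) (Set.range (Y.affineCover.f i))
          (Y.affineCover.f j).isOpenEmbedding.isOpen_range
          (Y.affineCover.f i).isOpenEmbedding.isOpen_range
          ⟨fst w, trivial, wj, hwj⟩ ⟨fst z, trivial, zi, hzi⟩
        obtain ⟨q, rfl⟩ := fst.surjective y'
        exact ⟨q, by rwa [hrange], by rwa [hrange]⟩
      haveI : IsOpenImmersion (𝒰.f j) :=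
        inferInstanceAs (IsOpenImmersion (pullback.fst fst (Y.affineCover.f j)))
      obtain ⟨q, ⟨hqU, hqj⟩, -⟩ := meet i U (Set.range (𝒰.f j)) hU
        (𝒰.f j).isOpenEmbedding.isOpen_range ⟨z, hz, hi⟩ hij
      obtain ⟨p, hp, -⟩ := meet j U V hU hV ⟨q, hqU, hqj⟩ ⟨w, hw, hj⟩
      exact ⟨p, trivial, hp⟩
    exact ⟨inferInstance⟩
  exact isIntegral_of_irreducibleSpace_of_isReduced Z

/-- Geometric integrality is stable under composition with a flat universally open morphism. -/
theorem geometricallyIntegral_comp {Y Z : Scheme.{u}} (f : Y ⟶ Z)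
    (g : Z ⟶ Spec (CommRingCat.of k)) [GeometricallyIntegral f] [Flat f] [UniversallyOpen f]
    [GeometricallyIntegral g] [LocallyOfFiniteType g] : GeometricallyIntegral (f ≫ g) := by
  rw [GeometricallyIntegral.eq_geometrically]
  intro K _ y W fst snd hW
  haveI : IsIntegral (pullback g y) :=
    GeometricallyIntegral.isIntegral_of_subsingleton (pullback.snd g y)
  haveI : IsLocallyNoetherian (pullback g y) :=
    LocallyOfFiniteType.isLocallyNoetherian (pullback.snd g y)
  exact IsIntegral.of_isIso (hW.isoPullback ≪≫ (pullbackRightPullbackFstIso g y f).symm).inv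

variable {C : Scheme.{u}} (c : C ⟶ Spec (CommRingCat.of k))

/-- The fibre powers of a scheme over `k`. -/
def powPair : ℕ → Σ P : Scheme.{u}, (P ⟶ Spec (CommRingCat.of k))
  | 0 => ⟨_, 𝟙 _⟩
  | n + 1 => ⟨pullback c (powPair n).2, pullback.snd c (powPair n).2 ≫ (powPair n).2⟩

/-- The `n`-th fibre power. -/
abbrev pow (n : ℕ) : Scheme.{u} := (powPair c n).1

/-- The structure map of the `n`-th fibre power. -/
abbrev powHom (n : ℕ) : pow c n ⟶ Spec (CommRingCat.of k) := (powPair c n).2

/-- The first factor of a fibre power. -/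
def powHead (n : ℕ) : SchemeHomOver (powHom c (n + 1)) c :=
  ⟨pullback.fst c (powHom c n), pullback.condition⟩

/-- The other factors of a fibre power. -/
def powTail (n : ℕ) : SchemeHomOver (powHom c (n + 1)) (powHom c n) :=
  ⟨pullback.snd c (powHom c n), rfl⟩

/-- The projections of a fibre power. -/
def powProj : ∀ {n : ℕ}, Fin n → SchemeHomOver (powHom c n) c
  | 0, i => i.elim0
  | n + 1, i => Fin.cases (powHead c n) (fun i => RelPicard.postComp (powProj i) (powTail c n)) i

/-- A tuple of points gives a point of the fibre power. -/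
def powLift {T : Scheme.{u}} {t : T ⟶ Spec (CommRingCat.of k)} :
    ∀ {n : ℕ}, (Fin n → SchemeHomOver t c) → SchemeHomOver t (powHom c n)
  | 0, _ => ⟨t, Category.comp_id t⟩
  | n + 1, f => ⟨pullback.lift (f 0).1 (powLift (fun i => f i.succ)).1
      ((f 0).2.trans (powLift (fun i => f i.succ)).2.symm), by
        show _ ≫ pullback.snd c (powHom c n) ≫ powHom c n = t
        rw [pullback.lift_snd_assoc]
        exact (powLift (fun i => f i.succ)).2⟩

theorem powLift_proj {T : Scheme.{u}} {t : T ⟶ Spec (CommRingCat.of k)} :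
    ∀ {n : ℕ} (f : Fin n → SchemeHomOver t c) (i : Fin n),
      RelPicard.postComp (powProj c i) (powLift c f) = f i := by
  intro n
  induction n with
  | zero => exact fun f i => i.elim0
  | succ n ih =>
    intro f i
    cases i using Fin.cases with
    | zero => exact Subtype.ext (pullback.lift_fst _ _ _)
    | succ i =>
      refine Subtype.ext ?_
      refine Eq.trans ?_ (congrArg Subtype.val (ih (fun i => f i.succ) i))
      exact (Category.assoc _ _ _).symm.trans (congrArg (· ≫ _) (pullback.lift_snd _ _ _))

instance isProper_powHom [IsProper c] : ∀ n, IsProper (powHom c n)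
  | 0 => inferInstanceAs (IsProper (𝟙 (Spec (CommRingCat.of k))))
  | n + 1 => by
    haveI := isProper_powHom n
    show IsProper (pullback.snd c (powHom c n) ≫ powHom c n)
    infer_instance

instance locallyOfFiniteType_powHom [LocallyOfFiniteType c] : ∀ n,
    LocallyOfFiniteType (powHom c n)
  | 0 => inferInstanceAs (LocallyOfFiniteType (𝟙 (Spec (CommRingCat.of k))))
  | n + 1 => by
    haveI := locallyOfFiniteType_powHom n
    show LocallyOfFiniteType (pullback.snd c (powHom c n) ≫ powHom c n)
    infer_instance

theorem geometricallyIntegral_powHom [GeometricallyIntegral c] [Flat c] [UniversallyOpen c]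
    [LocallyOfFiniteType c] : ∀ n, GeometricallyIntegral (powHom c n)
  | 0 => RelPicard.geometricallyIntegral_id_Spec k
  | n + 1 => by
    haveI := geometricallyIntegral_powHom n
    exact geometricallyIntegral_comp (pullback.snd c (powHom c n)) (powHom c n)

/-- Over an algebraically closed field the powers of a smooth integral scheme are geometrically
integral. -/
theorem geometricallyIntegral_powHom_of_smooth [IsAlgClosed k] [Smooth c] [IsIntegral C] (n : ℕ) :
    GeometricallyIntegral (powHom c n) :=
  haveI := geometricallyIntegral_of_isAlgClosed c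
  geometricallyIntegral_powHom c n

end Fermat.Agent.RelPic
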