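import Fermat.Agent.RelPic.MainGroup
import Fermat.Agent.RelPic.Power

/-!
# The sum of the Abel-Jacobi maps
-/

set_option autoImplicit false

universe u

open CategoryTheory CategoryTheory.Limits AlgebraicGeometry NeronModelInfra
  AlgebraicGeometry.RelPicard

noncomputable section

namespace Fermat.Agent.RelPic

variable {k : Type u} [Field k] {X : Model k} {C : Scheme.{u}}
  {c : C ⟶ Spec (CommRingCat.of k)} {ε : SchemeHomOver (𝟙 (Spec (CommRingCat.of k))) c}

namespace Realization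

variable (Rz : Realization X c ε)

/-- The first piece as a point of the curve. -/
def pt0 : SPt X.A0 c := ⟨Rz.j0, Rz.over0⟩

/-- The second piece as a point of the curve. -/
def pt1 : SPt X.A1 c := ⟨Rz.j1, Rz.over1⟩

/-- The cover of the curve by the two pieces. -/
def pieces : Scheme.OpenCover.{u} C :=
  C.openCoverOfIsOpenCover
    (fun b : ULift.{u} Bool =>
      haveI := Rz.isOpenImmersion0
      haveI := Rz.isOpenImmersion1
      cond b.down Rz.j0.opensRange Rz.j1.opensRange)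
    (top_le_iff.mp fun x _ => by
      have := Rz.isOpenImmersion0
      have := Rz.isOpenImmersion1
      rcases Rz.cover x with h | h
      · exact TopologicalSpace.Opens.mem_iSup.mpr ⟨⟨true⟩, h⟩
      · exact TopologicalSpace.Opens.mem_iSup.mpr ⟨⟨false⟩, h⟩)

include Rz in
/-- Compatible morphisms on the two pieces glue. -/
theorem exists_glue_hom {Y : Scheme.{u}} {y : Y ⟶ Spec (CommRingCat.of k)} (g0 : SPt X.A0 y)
    (g1 : SPt X.A1 y)
    (h : postComp g0 (specHom X.ι0) = postComp g1 (specHom X.ι1)) :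
    ∃ g : SchemeHomOver c y, postComp g Rz.pt0 = g0 ∧ postComp g Rz.pt1 = g1 := by
  have := Rz.isOpenImmersion0
  have := Rz.isOpenImmersion1
  have h01 : pullback.fst Rz.j0 Rz.j1 ≫ g0.1 = pullback.snd Rz.j0 Rz.j1 ≫ g1.1 := by
    rw [← Rz.isPullback.isoPullback_inv_fst, ← Rz.isPullback.isoPullback_inv_snd,
      Category.assoc, Category.assoc]
    exact congrArg (Rz.isPullback.isoPullback.inv ≫ ·) (congrArg Subtype.val h)
  let f : ∀ b : ULift.{u} Bool, Rz.pieces.X b ⟶ Y := fun b =>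
    match b with
    | ⟨true⟩ => Rz.j0.isoOpensRange.inv ≫ g0.1
    | ⟨false⟩ => Rz.j1.isoOpensRange.inv ≫ g1.1
  have key : ∀ (W : Scheme.{u}) (a : W ⟶ Spec (CommRingCat.of X.A0))
      (b : W ⟶ Spec (CommRingCat.of X.A1)), a ≫ Rz.j0 = b ≫ Rz.j1 → a ≫ g0.1 = b ≫ g1.1 :=
    fun W a b hab => by
      rw [← pullback.lift_fst a b hab, Category.assoc, h01, ← Category.assoc, pullback.lift_snd]
  have agree : ∀ b b', pullback.fst (Rz.pieces.f b) (Rz.pieces.f b') ≫ f b =
      pullback.snd (Rz.pieces.f b) (Rz.pieces.f b') ≫ f b' := by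
    rintro ⟨_ | _⟩ ⟨_ | _⟩
    · show pullback.fst Rz.j1.opensRange.ι Rz.j1.opensRange.ι ≫ _ =
        pullback.snd Rz.j1.opensRange.ι Rz.j1.opensRange.ι ≫ _
      rw [fst_eq_snd_of_mono_eq]
    · show pullback.fst _ _ ≫ Rz.j1.isoOpensRange.inv ≫ g1.1 =
        pullback.snd _ _ ≫ Rz.j0.isoOpensRange.inv ≫ g0.1
      rw [← Category.assoc, ← Category.assoc]
      refine (key _ _ _ ?_).symm
      rw [Category.assoc, Category.assoc, Scheme.Hom.isoOpensRange_inv_comp,
        Scheme.Hom.isoOpensRange_inv_comp]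
      exact pullback.condition.symm
    · show pullback.fst _ _ ≫ Rz.j0.isoOpensRange.inv ≫ g0.1 =
        pullback.snd _ _ ≫ Rz.j1.isoOpensRange.inv ≫ g1.1
      rw [← Category.assoc, ← Category.assoc]
      refine key _ _ _ ?_
      rw [Category.assoc, Category.assoc, Scheme.Hom.isoOpensRange_inv_comp,
        Scheme.Hom.isoOpensRange_inv_comp]
      exact pullback.condition
    · show pullback.fst Rz.j0.opensRange.ι Rz.j0.opensRange.ι ≫ _ =
        pullback.snd Rz.j0.opensRange.ι Rz.j0.opensRange.ι ≫ _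
      rw [fst_eq_snd_of_mono_eq]
  let g : C ⟶ Y := Rz.pieces.glueMorphisms f agree
  have hg0 : Rz.j0 ≫ g = g0.1 := by
    have := Rz.pieces.ι_glueMorphisms f agree ⟨true⟩
    rw [← Rz.j0.isoOpensRange_hom_ι, Category.assoc]
    exact (congrArg (Rz.j0.isoOpensRange.hom ≫ ·) this).trans (Iso.hom_inv_id_assoc _ _)
  have hg1 : Rz.j1 ≫ g = g1.1 := by
    have := Rz.pieces.ι_glueMorphisms f agree ⟨false⟩
    rw [← Rz.j1.isoOpensRange_hom_ι, Category.assoc]
    exact (congrArg (Rz.j1.isoOpensRange.hom ≫ ·) this).trans (Iso.hom_inv_id_assoc _ _)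
  have hgy : g ≫ y = c := by
    refine Rz.pieces.hom_ext _ _ fun b => ?_
    rcases b with ⟨_ | _⟩
    · refine (cancel_epi Rz.j1.isoOpensRange.hom).mp ?_
      show Rz.j1.isoOpensRange.hom ≫ Rz.j1.opensRange.ι ≫ g ≫ y =
        Rz.j1.isoOpensRange.hom ≫ Rz.j1.opensRange.ι ≫ c
      rw [Scheme.Hom.isoOpensRange_hom_ι_assoc, Scheme.Hom.isoOpensRange_hom_ι_assoc,
        reassoc_of% hg1, g1.2, Rz.over1]
    · refine (cancel_epi Rz.j0.isoOpensRange.hom).mp ?_
      show Rz.j0.isoOpensRange.hom ≫ Rz.j0.opensRange.ι ≫ g ≫ y =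
        Rz.j0.isoOpensRange.hom ≫ Rz.j0.opensRange.ι ≫ c
      rw [Scheme.Hom.isoOpensRange_hom_ι_assoc, Scheme.Hom.isoOpensRange_hom_ι_assoc,
        reassoc_of% hg0, g0.2, Rz.over0]
  exact ⟨⟨g, hgy⟩, Subtype.ext hg0, Subtype.ext hg1⟩

end Realization

namespace Charts

variable (B : Bridge X c ε) (Ch : Charts X) (Rz : Realization X c ε) (P : Points X)

include Rz in
/-- The Abel-Jacobi map. -/
theorem exists_abelJacobi : ∃ aj : SchemeHomOver c (toBase B Ch),
    (∀ {R : Type u} [CommRing R] [Algebra k R] (q : X.A0 →ₐ[k] R),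
      toCls B Ch (postComp aj (postComp Rz.pt0 (specHom q))) = P.pt0 q) ∧
    ∀ {R : Type u} [CommRing R] [Algebra k R] (q : X.A1 →ₐ[k] R),
      toCls B Ch (postComp aj (postComp Rz.pt1 (specHom q))) = P.pt1 q := by
  obtain ⟨g0, hg0⟩ := exists_toCls B Ch (P.degZero0 (AlgHom.id k X.A0))
  obtain ⟨g1, hg1⟩ := exists_toCls B Ch (P.degZero1 (AlgHom.id k X.A1))
  have key0 : ∀ {R : Type u} [CommRing R] [Algebra k R] (q : X.A0 →ₐ[k] R),
      toCls B Ch (postComp g0 (specHom q)) = P.pt0 q := fun q => by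
    rw [toCls, ← cls_map, ← toCls, hg0, P.natural0, AlgHom.comp_id]
  have key1 : ∀ {R : Type u} [CommRing R] [Algebra k R] (q : X.A1 →ₐ[k] R),
      toCls B Ch (postComp g1 (specHom q)) = P.pt1 q := fun q => by
    rw [toCls, ← cls_map, ← toCls, hg1, P.natural1, AlgHom.comp_id]
  have h : postComp g0 (specHom X.ι0) = postComp g1 (specHom X.ι1) := by
    refine toCls_injective B Ch ?_
    rw [key0, key1]
    exact P.agree (AlgHom.id k X.A01)
  obtain ⟨aj, h0, h1⟩ := Rz.exists_glue_hom g0 g1 h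
  refine ⟨aj, fun q => ?_, fun q => ?_⟩
  · rw [← postComp_assoc, h0, key0]
  · rw [← postComp_assoc, h1, key1]

include Rz in
/-- The sum map from the `g`-th power of the curve, through which geometric points lift. -/
theorem exists_sumMap (H : Cls.ChiAdditive X) :
    ∃ π : SchemeHomOver (powHom c P.g) (toBase B Ch),
      ∀ (K : Type u) [Field K] [IsAlgClosed K] (s : Spec (CommRingCat.of K) ⟶ jacobian B Ch),
        ∃ s₀ : Spec (CommRingCat.of K) ⟶ pow c P.g, s₀ ≫ π.1 = s := by
  obtain ⟨aj, h0, h1⟩ := exists_abelJacobi B Ch Rz P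
  obtain ⟨π, hπ⟩ := exists_hom_of_classes B Ch (powHom c P.g)
    (fun R _ _ q => ∏ i, toCls B Ch (postComp (postComp aj (powProj c i)) q))
    (fun R _ _ q => Cls.IsDegZero.prod H _ fun i _ => cls_degZero B _ _)
    (fun R S _ _ _ _ φ q => by
      rw [Cls.map_prod]
      refine Finset.prod_congr rfl fun i _ => ?_
      rw [toCls, toCls, cls_map, postComp_assoc (postComp aj (powProj c i))])
  refine ⟨π, fun K _ _ s => ?_⟩
  obtain ⟨_, r, rfl⟩ := exists_over_eq (toBase B Ch) K s
  obtain ⟨p, hp⟩ := P.effective (toCls B Ch r) (cls_degZero B _ r)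
  let f : Fin P.g → SPt K c := fun i =>
    Sum.elim (fun q => postComp Rz.pt0 (specHom q)) (fun q => postComp Rz.pt1 (specHom q)) (p i)
  refine ⟨(powLift c f).1, ?_⟩
  have h : postComp π (powLift c f) = r := by
    refine toCls_injective B Ch ?_
    rw [hπ, hp]
    refine Finset.prod_congr rfl fun i _ => ?_
    rw [postComp_assoc, powLift_proj]
    show toCls B Ch (postComp aj (Sum.elim _ _ (p i))) = _
    rcases p i with q | q
    · exact h0 q
    · exact h1 q
  exact congrArg Subtype.val h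

end Charts

end Fermat.Agent.RelPic
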