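import Fermat.Agent.RelPic.MainInput

/-!
# Morphisms over a field from their effect on affine points
-/

set_option autoImplicit false

universe u

open CategoryTheory CategoryTheory.Limits AlgebraicGeometry NeronModelInfra
  AlgebraicGeometry.RelPicard

noncomputable section

namespace Fermat.Agent.RelPic

variable {k : Type u} [Field k]

/-- Points of a `k`-scheme with values in a `k`-algebra. -/
abbrev SPt (R : Type u) [CommRing R] [Algebra k R] {S : Scheme.{u}}
    (s : S ⟶ Spec (CommRingCat.of k)) : Type u :=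
  SchemeHomOver (specMap k R) s

variable {R S : Type u} [CommRing R] [Algebra k R] [CommRing S] [Algebra k S]

theorem specHom_id : (specHom (AlgHom.id k R)).1 = 𝟙 (Spec (CommRingCat.of R)) :=
  Spec.map_id _

theorem specHom_comp {T : Type u} [CommRing T] [Algebra k T] (φ : R →ₐ[k] S) (ψ : S →ₐ[k] T) :
    specHom (ψ.comp φ) = postComp (specHom φ) (specHom ψ) :=
  Subtype.ext (Spec.map_comp (CommRingCat.ofHom φ.toRingHom) (CommRingCat.ofHom ψ.toRingHom))

theorem specHom_surjective : Function.Surjective (specHom (k := k) (R := R) (S := S)) := by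
  rintro ⟨g, hg⟩
  obtain ⟨φ, rfl⟩ := Spec.map_surjective g
  rw [specMap, specMap, ← Spec.map_comp, Spec.map_injective.eq_iff] at hg
  exact ⟨{ φ.hom with commutes' := fun r => DFunLike.congr_fun (congrArg CommRingCat.Hom.hom hg) r },
    rfl⟩

/-- An affine `k`-scheme is the spectrum of a `k`-algebra. -/
theorem exists_affineChart {T : Scheme.{u}} [IsAffine T] (t : T ⟶ Spec (CommRingCat.of k)) :
    ∃ (R : Type u) (_ : CommRing R) (_ : Algebra k R) (e : SPt R t), IsIso e.1 := by
  let f : k →+* Γ(T, ⊤) := ((Scheme.ΓSpecIso (CommRingCat.of k)).inv ≫ t.appTop).hom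
  let : Algebra k Γ(T, ⊤) := f.toAlgebra
  have he : T.isoSpec.hom ≫ specMap k Γ(T, ⊤) = t := by
    show T.isoSpec.hom ≫ Spec.map ((Scheme.ΓSpecIso (CommRingCat.of k)).inv ≫ t.appTop) = t
    rw [Spec.map_comp, Scheme.isoSpec_hom_naturality_assoc, Scheme.isoSpec_Spec_hom,
      ← Spec.map_comp, Iso.inv_hom_id, Spec.map_id, Category.comp_id]
  exact ⟨Γ(T, ⊤), inferInstance, inferInstance, ⟨T.isoSpec.inv, by rw [Iso.inv_comp_eq, he]⟩,
    (inferInstance : IsIso T.isoSpec.inv)⟩

/-- Morphisms agreeing on all affine points are equal. -/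
theorem hom_ext_affine {T Y : Scheme.{u}} (t : T ⟶ Spec (CommRingCat.of k)) {f g : T ⟶ Y}
    (h : ∀ (R : Type u) [CommRing R] [Algebra k R] (q : SPt R t), q.1 ≫ f = q.1 ≫ g) : f = g := by
  refine T.affineCover.hom_ext _ _ fun i => ?_
  obtain ⟨R, _, _, e, he⟩ := exists_affineChart (T.affineCover.f i ≫ t)
  rw [← cancel_epi e.1, ← Category.assoc, ← Category.assoc]
  exact h R ⟨e.1 ≫ T.affineCover.f i, by rw [Category.assoc]; exact e.2⟩

theorem over_ext_affine {T Y : Scheme.{u}} {t : T ⟶ Spec (CommRingCat.of k)}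
    {y : Y ⟶ Spec (CommRingCat.of k)} {f g : SchemeHomOver t y}
    (h : ∀ (R : Type u) [CommRing R] [Algebra k R] (q : SPt R t), postComp f q = postComp g q) :
    f = g :=
  Subtype.ext (hom_ext_affine t fun R _ _ q => congrArg Subtype.val (h R q))

theorem postComp_assoc {A B D E : Scheme.{u}} {a : A ⟶ Spec (CommRingCat.of k)}
    {b : B ⟶ Spec (CommRingCat.of k)} {d : D ⟶ Spec (CommRingCat.of k)}
    {e : E ⟶ Spec (CommRingCat.of k)} (f : SchemeHomOver d e) (g : SchemeHomOver b d)
    (h : SchemeHomOver a b) : postComp (postComp f g) h = postComp f (postComp g h) :=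
  Subtype.ext (Category.assoc _ _ _).symm

/-- A natural map on affine points comes from a unique morphism. -/
theorem existsUnique_hom_of_natural {T Y : Scheme.{u}} (t : T ⟶ Spec (CommRingCat.of k))
    (y : Y ⟶ Spec (CommRingCat.of k))
    (a : ∀ (R : Type u) [CommRing R] [Algebra k R], SPt R t → SPt R y)
    (nat : ∀ (R S : Type u) [CommRing R] [Algebra k R] [CommRing S] [Algebra k S]
      (φ : R →ₐ[k] S) (q : SPt R t), a S (postComp q (specHom φ)) = postComp (a R q) (specHom φ)) :
    ∃! g : SchemeHomOver t y,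
      ∀ (R : Type u) [CommRing R] [Algebra k R] (q : SPt R t), postComp g q = a R q := by
  let 𝒰 := T.affineCover
  choose A instA algA e he using fun i => exists_affineChart (𝒰.f i ≫ t)
  let q : ∀ i, SPt (A i) t := fun i => ⟨(e i).1 ≫ 𝒰.f i, by rw [Category.assoc]; exact (e i).2⟩
  let g : ∀ i, 𝒰.X i ⟶ Y := fun i => haveI := he i; inv (e i).1 ≫ (a (A i) (q i)).1
  have key : ∀ (i) (S : Type u) [CommRing S] [Algebra k S] (r : SPt S t)
      (r' : Spec (CommRingCat.of S) ⟶ 𝒰.X i), r' ≫ 𝒰.f i = r.1 → r' ≫ g i = (a S r).1 := by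
    intro i S _ _ r r' hr
    have := he i
    obtain ⟨φ, hφ⟩ := specHom_surjective (R := A i) (S := S) ⟨r' ≫ inv (e i).1, by
      have h := (IsIso.eq_inv_comp (e i).1).mpr (e i).2
      rw [Category.assoc, ← h, ← Category.assoc, hr, r.2]⟩
    have hφ' : (specHom φ).1 = r' ≫ inv (e i).1 := congrArg Subtype.val hφ
    have : r = postComp (q i) (specHom φ) := Subtype.ext (by
      show r.1 = (specHom φ).1 ≫ (e i).1 ≫ 𝒰.f i
      rw [hφ', Category.assoc, IsIso.inv_hom_id_assoc, hr])
    rw [this, nat]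
    show r' ≫ inv (e i).1 ≫ (a (A i) (q i)).1 = (specHom φ).1 ≫ (a (A i) (q i)).1
    rw [hφ', Category.assoc]
  have agree : ∀ i j, pullback.fst (𝒰.f i) (𝒰.f j) ≫ g i =
      pullback.snd (𝒰.f i) (𝒰.f j) ≫ g j := by
    intro i j
    refine hom_ext_affine (pullback.fst (𝒰.f i) (𝒰.f j) ≫ 𝒰.f i ≫ t) fun S _ _ r => ?_
    let r0 : SPt S t := ⟨r.1 ≫ pullback.fst (𝒰.f i) (𝒰.f j) ≫ 𝒰.f i, by
      simpa only [Category.assoc] using r.2⟩
    exact ((Category.assoc _ _ _).symm.trans (key i S r0 _ (Category.assoc _ _ _))).trans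
      ((Category.assoc _ _ _).symm.trans (key j S r0 _ (by
        rw [Category.assoc, ← pullback.condition]))).symm
  let G : T ⟶ Y := 𝒰.glueMorphisms g agree
  have hG : ∀ i, 𝒰.f i ≫ G = g i := fun i => 𝒰.ι_glueMorphisms g agree i
  have hGy : G ≫ y = t := 𝒰.hom_ext _ _ fun i => by
    have := he i
    rw [← Category.assoc, hG, Category.assoc, (a (A i) (q i)).2, IsIso.inv_comp_eq]
    exact (e i).2.symm
  have spec : ∀ (R : Type u) [CommRing R] [Algebra k R] (r : SPt R t),
      postComp ⟨G, hGy⟩ r = a R r := by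
    intro R _ _ r
    have main : ∀ (W : Scheme.{u}) (w : W ⟶ Spec (CommRingCat.of R)) (i : 𝒰.I₀)
        (w' : W ⟶ 𝒰.X i), w ≫ r.1 = w' ≫ 𝒰.f i → w ≫ r.1 ≫ G = w ≫ (a R r).1 := by
      intro W w i w' hw
      refine hom_ext_affine (w ≫ specMap k R) fun S _ _ s => ?_
      obtain ⟨φ, hφ⟩ := specHom_surjective (R := R) (S := S)
        ⟨s.1 ≫ w, by rw [Category.assoc]; exact s.2⟩
      have hφ' : (specHom φ).1 = s.1 ≫ w := congrArg Subtype.val hφ
      have hk := key i S (postComp r (specHom φ)) (s.1 ≫ w') (by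
        show _ = (specHom φ).1 ≫ r.1
        rw [hφ', Category.assoc, Category.assoc, hw])
      rw [nat] at hk
      have hk' : s.1 ≫ w' ≫ g i = (s.1 ≫ w) ≫ (a R r).1 := by
        rw [← hφ', ← Category.assoc]; exact hk
      rw [Category.assoc] at hk'
      rw [← hk', reassoc_of% hw, hG i]
    exact Subtype.ext (Scheme.Cover.hom_ext (𝒰.pullback₁ r.1) _ _ fun i =>
      main _ ((𝒰.pullback₁ r.1).f i) i (pullback.snd r.1 (𝒰.f i)) pullback.condition)
  refine ⟨⟨G, hGy⟩, spec, fun g' hg' => ?_⟩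
  exact over_ext_affine fun R _ _ r => (hg' R r).trans (spec R r).symm

section Classes

variable {C : Scheme.{u}} {c : C ⟶ Spec (CommRingCat.of k)}
  {ε : SchemeHomOver (𝟙 (Spec (CommRingCat.of k))) c}

theorem classesMap_id {T : Scheme.{u}} {t : T ⟶ Spec (CommRingCat.of k)} (h : 𝟙 T ≫ t = t)
    (x : RigidifiedLineBundle.Classes c ε t) :
    RigidifiedLineBundle.classesMap (⟨𝟙 T, h⟩ : SchemeHomOver t t) x = x := by
  induction x using Quotient.ind with
  | _ M =>
    exact Quotient.sound ⟨(Scheme.Modules.pullbackCongr (baseChangeSnd_id c t)).app M.L ≪≫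
      (Scheme.Modules.pullbackId (pullback c t)).app M.L⟩

theorem classesMap_classesMap {T T' T'' : Scheme.{u}} {t : T ⟶ Spec (CommRingCat.of k)}
    {t' : T' ⟶ Spec (CommRingCat.of k)} {t'' : T'' ⟶ Spec (CommRingCat.of k)}
    (φ : SchemeHomOver t' t) (ψ : SchemeHomOver t'' t')
    (x : RigidifiedLineBundle.Classes c ε t) :
    RigidifiedLineBundle.classesMap ψ (RigidifiedLineBundle.classesMap φ x) =
      RigidifiedLineBundle.classesMap (postComp φ ψ) x := by
  induction x using Quotient.ind with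
  | _ M => exact Quotient.sound (RelPicGlue.pullbackAlong_pullbackAlong M φ ψ)


end Classes

end Fermat.Agent.RelPic
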