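import Fermat.Agent.RelPic.MainPic
import Fermat.Agent.RelPic.FibreChi

/-!
# The representing scheme from charts and points
-/

set_option autoImplicit false

universe u

open CategoryTheory CategoryTheory.Limits AlgebraicGeometry NeronModelInfra
  AlgebraicGeometry.RelPicard GoodReductionJacobian

noncomputable section

namespace Fermat.Agent.RelPic

theorem Cls.chiAdditive {k : Type u} [Field k] [IsAlgClosed k] (X : Model k) :
    Cls.ChiAdditive X := fun K _ _ L M hL hM => by
  rw [hL.chi_tensor hM]
  ring

/-- The relative `Pic⁰` of a curve with a model, charts and point classes. -/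
theorem exists_representsRelSubPic_of_model {k : Type u} [Field k] [IsAlgClosed k]
    {X : Model k} {C : Scheme.{u}} {c : C ⟶ Spec (CommRingCat.of k)} [IsProper c]
    [SmoothOfRelativeDimension 1 c] [IsIntegral C]
    {ε : SchemeHomOver (𝟙 (Spec (CommRingCat.of k))) c}
    (Rz : Realization X c ε) (Ch : Charts X) (P : Points X) :
    ∃ D : RelativePic0Designation k c,
      Nonempty (RepresentsRelSubPic c ε (algEquivZeroCut c ε) D) ∧
        Smooth D.toBase ∧ IsProper D.toBase ∧ GeometricallyConnected D.toBase :=
  exists_representsRelSubPic_of_inputs Rz Ch P (Cls.chiAdditive X)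

end Fermat.Agent.RelPic
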