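import Fermat.Agent.RelPic.MainAffine

/-!
# Classes of degree zero on arbitrary bases: locality, gluing, smallness
-/

set_option autoImplicit false

universe u

open CategoryTheory CategoryTheory.Limits AlgebraicGeometry NeronModelInfra
  AlgebraicGeometry.RelPicard AlgebraicGeometry.RelPicard.RigidifiedLineBundle

noncomputable section

namespace Fermat.Agent.RelPic

variable {k : Type u} [Field k] {X : Model k} {C : Scheme.{u}}
  {c : C ⟶ Spec (CommRingCat.of k)} {ε : SchemeHomOver (𝟙 (Spec (CommRingCat.of k))) c}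

namespace Bridge

variable (B : Bridge X c ε)

theorem symm_classesMap {R S : Type u} [CommRing R] [Algebra k R] [CommRing S] [Algebra k S]
    (φ : R →ₐ[k] S) (y : Classes c ε (specMap k R)) :
    (B.equiv S).symm (classesMap (specHom φ) y) = Cls.map φ ((B.equiv R).symm y) := by
  rw [Equiv.symm_apply_eq, B.natural, Equiv.apply_symm_apply]

/-- The classes on an arbitrary base all whose affine points have degree zero. -/
def DZ {T : Scheme.{u}} (t : T ⟶ Spec (CommRingCat.of k)) (x : Classes c ε t) : Prop :=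
  ∀ (R : Type u) [CommRing R] [Algebra k R] (q : SPt R t),
    Cls.IsDegZero X R ((B.equiv R).symm (classesMap q x))

variable {B}

theorem DZ.pullback {T T' : Scheme.{u}} {t : T ⟶ Spec (CommRingCat.of k)}
    {t' : T' ⟶ Spec (CommRingCat.of k)} {x : Classes c ε t} (h : B.DZ t x)
    (ψ : SchemeHomOver t' t) : B.DZ t' (classesMap ψ x) := fun R _ _ q => by
  rw [classesMap_classesMap]
  exact h R _

variable (B)

theorem dz_iff_field {T : Scheme.{u}} (t : T ⟶ Spec (CommRingCat.of k)) (x : Classes c ε t) :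
    B.DZ t x ↔ ∀ (K : Type u) [Field K] [Algebra k K] (q : SPt K t),
      Cls.IsDegZero X K ((B.equiv K).symm (classesMap q x)) := by
  refine ⟨fun h K _ _ q => h K q, fun h R _ _ q => Cls.isDegZero_iff_forall_field.mpr ?_⟩
  intro K _ _ φ
  rw [← B.symm_classesMap, classesMap_classesMap]
  exact h K _

theorem dz_equiv_iff {R : Type u} [CommRing R] [Algebra k R] (y : Cls X R) :
    B.DZ (specMap k R) (B.equiv R y) ↔ Cls.IsDegZero X R y := by
  refine ⟨fun h => ?_, fun h S _ _ q => ?_⟩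
  · have h1 := h R (specHom (AlgHom.id k R))
    rwa [B.symm_classesMap, Equiv.symm_apply_apply, Cls.map_id] at h1
  · obtain ⟨φ, rfl⟩ := specHom_surjective q
    rw [B.symm_classesMap, Equiv.symm_apply_apply]
    exact h.map φ

theorem dz_unit {T : Scheme.{u}} (t : T ⟶ Spec (CommRingCat.of k)) :
    B.DZ t (Quotient.mk _ (RigidifiedLineBundle.unit t)) := by
  intro R _ _ q
  have : classesMap q (Quotient.mk _ (RigidifiedLineBundle.unit t) : Classes c ε t) =
      Quotient.mk _ (RigidifiedLineBundle.unit (specMap k R)) :=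
    Quotient.sound ⟨Scheme.Modules.pullbackUnitIso _⟩
  rw [this, ← B.equiv_one, Equiv.symm_apply_apply]
  exact Cls.isDegZero_one

include B in
/-- The classes agree as soon as they agree on an open cover. -/
theorem classes_ext {T : Scheme.{u}} {t : T ⟶ Spec (CommRingCat.of k)} (𝒰 : Scheme.OpenCover.{u} T)
    {x y : Classes c ε t}
    (h : ∀ i, classesMap (⟨𝒰.f i, rfl⟩ : SchemeHomOver (𝒰.f i ≫ t) t) x =
      classesMap (⟨𝒰.f i, rfl⟩ : SchemeHomOver (𝒰.f i ≫ t) t) y) : x = y := by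
  induction x using Quotient.ind with
  | _ M =>
  induction y using Quotient.ind with
  | _ M' =>
    refine Quotient.sound (RelPicGlue.nonempty_iso_of_locally (B.sectionBij t)
      (fun j : 𝒰.I₀ => (𝒰.f j).opensRange) ?_ M M' fun j => ?_)
    · exact top_le_iff.mp (fun x _ => TopologicalSpace.Opens.mem_iSup.mpr
        ⟨𝒰.idx x, 𝒰.covers x⟩)
    · let e : SchemeHomOver ((𝒰.f j).opensRange.ι ≫ t) (𝒰.f j ≫ t) :=
        ⟨(𝒰.f j).isoOpensRange.inv, by
          rw [← Category.assoc, Scheme.Hom.isoOpensRange_inv_comp]⟩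
      have h1 : postComp ⟨𝒰.f j, rfl⟩ e = RelPicGlue.baseIncl t (𝒰.f j).opensRange :=
        Subtype.ext (Scheme.Hom.isoOpensRange_inv_comp _)
      have h2 := congrArg (classesMap e) (h j)
      have h3 : classesMap (postComp ⟨𝒰.f j, rfl⟩ e) (Quotient.mk _ M : Classes c ε t) =
          classesMap (postComp ⟨𝒰.f j, rfl⟩ e) (Quotient.mk _ M' : Classes c ε t) :=
        (classesMap_classesMap _ _ _).symm.trans (h2.trans (classesMap_classesMap _ _ _))
      rw [h1] at h3
      exact Quotient.exact h3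

include B in
/-- Compatible classes on an open cover glue. -/
theorem classes_glue {T : Scheme.{u}} {t : T ⟶ Spec (CommRingCat.of k)} (𝒰 : Scheme.OpenCover.{u} T)
    (x : ∀ i, Classes c ε (𝒰.f i ≫ t))
    (compat : ∀ i j {W : Scheme.{u}} (w : W ⟶ Spec (CommRingCat.of k))
      (a : SchemeHomOver w (𝒰.f i ≫ t)) (b : SchemeHomOver w (𝒰.f j ≫ t)),
      a.1 ≫ 𝒰.f i = b.1 ≫ 𝒰.f j → classesMap a (x i) = classesMap b (x j)) :
    ∃ y : Classes c ε t,
      ∀ i, classesMap (⟨𝒰.f i, rfl⟩ : SchemeHomOver (𝒰.f i ≫ t) t) y = x i := by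
  let U : 𝒰.I₀ → T.Opens := fun j => (𝒰.f j).opensRange
  have hU : ⨆ j, U j = ⊤ := top_le_iff.mp (fun p _ => TopologicalSpace.Opens.mem_iSup.mpr
    ⟨𝒰.idx p, 𝒰.covers p⟩)
  let e : ∀ j : 𝒰.I₀, SchemeHomOver ((U j).ι ≫ t) (𝒰.f j ≫ t) := fun j =>
    ⟨(𝒰.f j).isoOpensRange.inv, by rw [← Category.assoc, Scheme.Hom.isoOpensRange_inv_comp]⟩
  let M : ∀ j, RigidifiedLineBundle c ε ((U j).ι ≫ t) := fun j =>
    (x j).out.pullbackAlong (e j)
  have hM : ∀ j, (Quotient.mk _ (M j) : Classes c ε ((U j).ι ≫ t)) = classesMap (e j) (x j) :=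
    fun j => congrArg (classesMap (e j)) (Quotient.out_eq (x j))
  obtain ⟨N, hN⟩ := RelPicGlue.exists_glue (B.sectionBij t) U hU M fun i j => by
    refine Quotient.exact (s := setoid ((U i ⊓ U j).ι ≫ t)) ?_
    show classesMap _ (Quotient.mk _ (M i) : Classes c ε ((U i).ι ≫ t)) =
      classesMap _ (Quotient.mk _ (M j) : Classes c ε ((U j).ι ≫ t))
    refine (congrArg _ (hM i)).trans (Eq.trans ?_ (congrArg _ (hM j)).symm)
    refine (classesMap_classesMap _ _ _).trans (Eq.trans ?_ (classesMap_classesMap _ _ _).symm)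
    refine compat _ _ _ _ _ ?_
    show (T.homOfLE inf_le_left ≫ (𝒰.f i).isoOpensRange.inv) ≫ 𝒰.f i =
      (T.homOfLE inf_le_right ≫ (𝒰.f j).isoOpensRange.inv) ≫ 𝒰.f j
    rw [Category.assoc, Category.assoc, Scheme.Hom.isoOpensRange_inv_comp,
      Scheme.Hom.isoOpensRange_inv_comp, Scheme.homOfLE_ι, Scheme.homOfLE_ι]
  refine ⟨Quotient.mk _ N, fun i => ?_⟩
  let e' : SchemeHomOver (𝒰.f i ≫ t) ((U i).ι ≫ t) :=
    ⟨(𝒰.f i).isoOpensRange.hom, by rw [← Category.assoc, Scheme.Hom.isoOpensRange_hom_ι]⟩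
  have h1 : classesMap (RelPicGlue.baseIncl t (U i))
      (Quotient.mk _ N : Classes c ε t) = classesMap (e i) (x i) :=
    (Quotient.sound (hN i)).trans (hM i)
  have h2 := congrArg (classesMap e') h1
  replace h2 := (classesMap_classesMap _ _ _).symm.trans (h2.trans (classesMap_classesMap _ _ _))
  have h3 : postComp (e i) e' = (⟨𝟙 _, Category.id_comp _⟩ :
      SchemeHomOver (𝒰.f i ≫ t) (𝒰.f i ≫ t)) := Subtype.ext (Iso.hom_inv_id _)
  have h4 : postComp (RelPicGlue.baseIncl t (U i)) e' =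
      (⟨𝒰.f i, rfl⟩ : SchemeHomOver (𝒰.f i ≫ t) t) :=
    Subtype.ext (Scheme.Hom.isoOpensRange_hom_ι _)
  rw [h3, h4, classesMap_id] at h2
  exact h2

/-- Degree zero is local on the base. -/
theorem dz_of_cover {T : Scheme.{u}} {t : T ⟶ Spec (CommRingCat.of k)} (𝒰 : Scheme.OpenCover.{u} T)
    {x : Classes c ε t}
    (h : ∀ i, B.DZ (𝒰.f i ≫ t) (classesMap (⟨𝒰.f i, rfl⟩ : SchemeHomOver (𝒰.f i ≫ t) t) x)) :
    B.DZ t x := by
  rw [dz_iff_field]
  intro K _ _ q
  obtain ⟨i, z, hz⟩ := 𝒰.exists_eq (q.1 (IsLocalRing.closedPoint K))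
  have hrange : Set.range q.1 ⊆ Set.range (𝒰.f i) := by
    rintro _ ⟨y, rfl⟩
    exact ⟨z, hz.trans (congrArg q.1 (Subsingleton.elim _ _))⟩
  let q' : SPt K (𝒰.f i ≫ t) := ⟨IsOpenImmersion.lift (𝒰.f i) q.1 hrange, by
    rw [IsOpenImmersion.lift_fac_assoc, q.2]⟩
  have hq : postComp (⟨𝒰.f i, rfl⟩ : SchemeHomOver (𝒰.f i ≫ t) t) q' = q :=
    Subtype.ext (IsOpenImmersion.lift_fac _ _ _)
  have := h i K q'
  rwa [classesMap_classesMap, hq] at this

include B in
/-- The classes of degree zero on a base form a small type. -/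
theorem small_classes {T : Scheme.{u}} (t : T ⟶ Spec (CommRingCat.of k)) :
    Small.{u} (Classes c ε t) := by
  choose A instA algA e he using fun i => exists_affineChart (T.affineCover.f i ≫ t)
  refine small_of_injective
    (f := fun x : Classes c ε t => fun i : T.affineCover.I₀ =>
      equivShrink.{u} (Cls X (A i)) ((B.equiv (A i)).symm
        (classesMap (e i) (classesMap (⟨T.affineCover.f i, rfl⟩ :
          SchemeHomOver (T.affineCover.f i ≫ t) t) x)))) fun x y hxy => ?_
  refine B.classes_ext T.affineCover fun i => ?_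
  have h1 := (B.equiv (A i)).symm.injective ((equivShrink _).injective (congrFun hxy i))
  have := he i
  let e' : SchemeHomOver (T.affineCover.f i ≫ t) (specMap k (A i)) :=
    ⟨inv (e i).1, by rw [IsIso.inv_comp_eq]; exact (e i).2.symm⟩
  have he' : postComp (e i) e' = ⟨𝟙 _, Category.id_comp _⟩ :=
    Subtype.ext (IsIso.inv_hom_id (e i).1)
  have h2 := congrArg (classesMap e') h1
  rwa [classesMap_classesMap (e i) e', classesMap_classesMap (e i) e', he', classesMap_id,
    classesMap_id] at h2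

end Bridge

end Fermat.Agent.RelPic
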