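import Fermat.Agent.RelPic.Rigid

/-!
# The group of rigidified classes

Tensor product and dual make `Cls X R` a commutative group, base change is a homomorphism and, as
the Euler characteristic is additive (`Cls.ChiAdditive`), degree zero classes form a subgroup.
-/

set_option autoImplicit false

universe u

noncomputable section

namespace Fermat.Agent.RelPic

variable {k : Type u} [Field k] {X : Model k} {R : Type u} [CommRing R] [Algebra k R]

namespace RigBundle

variable (X R) in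
/-- The trivial rigidified bundle. -/
def one : RigBundle X R := ⟨Pre.unit X R, Pre.good_unit X R, Pre.rigid_unit X R⟩

/-- The product of rigidified bundles. -/
def mul (L M : RigBundle X R) : RigBundle X R :=
  ⟨L.1.tensor M.1, L.2.1.tensor M.2.1, L.2.2.tensor L.2.1 M.2.1 M.2.2⟩

/-- The inverse of a rigidified bundle. -/
def inv (L : RigBundle X R) : RigBundle X R :=
  ⟨L.1.dual, L.2.1.dual, L.2.2.dual L.2.1⟩

end RigBundle

namespace Cls

theorem iso_dual {L L' : Pre X R} (hL : L.Good) (hL' : L'.Good) (e : L.Iso L') :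
    L.dual.Iso L'.dual := by
  -- `L^∨ ≅ L^∨ ⊗ (L' ⊗ L'^∨) ≅ (L^∨ ⊗ L) ⊗ L'^∨ ≅ L'^∨`
  have h1 : ((Pre.unit X R).tensor L'.dual).Iso L'.dual := Pre.tensor_unit hL'.dual
  have h2 : ((Pre.unit X R).tensor L.dual).Iso L.dual := Pre.tensor_unit hL.dual
  have h3 : (L.dual.tensor L).Iso (Pre.unit X R) := Pre.dual_tensor_self hL
  have h4 : (L'.dual.tensor L').Iso (Pre.unit X R) := Pre.dual_tensor_self hL'
  refine h2.symm.trans ((Pre.tensor_comm _ _).trans ?_)
  refine (Pre.tensor_congr (Pre.Iso.refl _) h4.symm).trans ?_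
  refine (Pre.tensor_congr (Pre.Iso.refl _) (Pre.tensor_comm _ _)).trans ?_
  refine (Pre.tensor_assoc _ _ _).symm.trans ?_
  refine (Pre.tensor_congr ((Pre.tensor_congr (Pre.Iso.refl _) e.symm).trans h3)
    (Pre.Iso.refl _)).trans h1

instance : One (Cls X R) := ⟨mk (RigBundle.one X R)⟩

instance : Mul (Cls X R) :=
  ⟨Quotient.lift₂ (fun L M => mk (L.mul M)) fun _ _ _ _ hL hM =>
    mk_eq_mk.mpr (Pre.tensor_congr hL hM)⟩

instance : Inv (Cls X R) :=
  ⟨Quotient.lift (fun L => mk L.inv) fun L M h => mk_eq_mk.mpr (iso_dual L.2.1 M.2.1 h)⟩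

theorem mk_mul_mk (L M : RigBundle X R) : mk L * mk M = mk (L.mul M) := rfl

instance instCommGroupCls : CommGroup (Cls X R) where
  mul_assoc x y z := by
    obtain ⟨L, rfl⟩ := mk_surjective x
    obtain ⟨M, rfl⟩ := mk_surjective y
    obtain ⟨P, rfl⟩ := mk_surjective z
    exact mk_eq_mk.mpr (Pre.tensor_assoc _ _ _)
  one_mul x := by
    obtain ⟨L, rfl⟩ := mk_surjective x
    exact mk_eq_mk.mpr (Pre.tensor_unit L.2.1)
  mul_one x := by
    obtain ⟨L, rfl⟩ := mk_surjective x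
    exact mk_eq_mk.mpr ((Pre.tensor_comm _ _).trans (Pre.tensor_unit L.2.1))
  inv_mul_cancel x := by
    obtain ⟨L, rfl⟩ := mk_surjective x
    exact mk_eq_mk.mpr (Pre.dual_tensor_self L.2.1)
  mul_comm x y := by
    obtain ⟨L, rfl⟩ := mk_surjective x
    obtain ⟨M, rfl⟩ := mk_surjective y
    exact mk_eq_mk.mpr (Pre.tensor_comm _ _)

variable {S : Type u} [CommRing S] [Algebra k S]

theorem map_mul (φ : R →ₐ[k] S) (x y : Cls X R) : map φ (x * y) = map φ x * map φ y := by
  obtain ⟨L, rfl⟩ := mk_surjective x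
  obtain ⟨M, rfl⟩ := mk_surjective y
  exact mk_eq_mk.mpr (Pre.bc_tensor L.1 M.1 φ)

/-- Base change as a homomorphism of groups. -/
def mapHom (φ : R →ₐ[k] S) : Cls X R →* Cls X S :=
  MonoidHom.mk' (map φ) (map_mul φ)

theorem map_inv (φ : R →ₐ[k] S) (x : Cls X R) : map φ x⁻¹ = (map φ x)⁻¹ := (mapHom φ).map_inv x

theorem map_prod (φ : R →ₐ[k] S) {ι : Type*} (s : Finset ι) (x : ι → Cls X R) :
    map φ (∏ i ∈ s, x i) = ∏ i ∈ s, map φ (x i) :=
  _root_.map_prod (mapHom φ) x s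

theorem isDegZero_one : Cls.IsDegZero X R 1 := by
  refine isDegZero_mk_iff.mpr fun K _ _ φ => ?_
  exact Pre.chi_congr (Pre.bc_unit φ)

variable (X) in
/-- Additivity of the Euler characteristic for tensor products over fields. -/
def ChiAdditive : Prop :=
  ∀ (K : Type u) [Field K] [Algebra k K] (L M : Pre X K), L.Good → M.Good →
    (L.tensor M).chi + (Pre.unit X K).chi = L.chi + M.chi

theorem IsDegZero.mul (H : ChiAdditive X) {x y : Cls X R} (hx : Cls.IsDegZero X R x)
    (hy : Cls.IsDegZero X R y) : Cls.IsDegZero X R (x * y) := by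
  obtain ⟨L, rfl⟩ := mk_surjective x
  obtain ⟨M, rfl⟩ := mk_surjective y
  refine isDegZero_mk_iff.mpr fun K _ _ φ => ?_
  have hL := isDegZero_mk_iff.mp hx K φ
  have hM := isDegZero_mk_iff.mp hy K φ
  have := H K _ _ (L.2.1.bc φ) (M.2.1.bc φ)
  rw [hL, hM, ← Pre.chi_congr (Pre.bc_tensor L.1 M.1 φ)] at this
  show ((L.1.tensor M.1).bc φ).chi = _
  omega

theorem IsDegZero.inv (H : ChiAdditive X) {x : Cls X R} (hx : Cls.IsDegZero X R x) :
    Cls.IsDegZero X R x⁻¹ := by
  obtain ⟨L, rfl⟩ := mk_surjective x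
  refine isDegZero_mk_iff.mpr fun K _ _ φ => ?_
  have hL := isDegZero_mk_iff.mp hx K φ
  have := H K _ _ (L.2.1.dual.bc φ) (L.2.1.bc φ)
  rw [hL, Pre.chi_congr ((Pre.bc_tensor L.1.dual L.1 φ).symm.trans
    ((Pre.bc_congr (Pre.dual_tensor_self L.2.1) φ).trans (Pre.bc_unit φ)))] at this
  show (L.1.dual.bc φ).chi = _
  omega

theorem IsDegZero.prod (H : ChiAdditive X) {ι : Type*} (s : Finset ι) {x : ι → Cls X R}
    (hx : ∀ i ∈ s, Cls.IsDegZero X R (x i)) : Cls.IsDegZero X R (∏ i ∈ s, x i) :=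
  Finset.prod_induction _ _ (fun _ _ => IsDegZero.mul H) isDegZero_one hx

/-- Degree zero is detected on field valued points. -/
theorem isDegZero_iff_forall_field {x : Cls X R} :
    Cls.IsDegZero X R x ↔
      ∀ (K : Type u) [Field K] [Algebra k K] (φ : R →ₐ[k] K), Cls.IsDegZero X K (map φ x) := by
  refine ⟨fun h K _ _ φ => h.map φ, fun h => ?_⟩
  obtain ⟨L, rfl⟩ := mk_surjective x
  refine isDegZero_mk_iff.mpr fun K _ _ φ => ?_
  have := isDegZero_mk_iff.mp (h K φ) K (AlgHom.id k K)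
  exact (Pre.chi_congr (Pre.bc_id (L.2.1.bc φ))).symm.trans this

end Cls

end Fermat.Agent.RelPic
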