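import Fermat.Agent.RelPic.MainClasses

/-!
# The sheaf of degree zero classes on all schemes
-/

set_option autoImplicit false

universe u

open CategoryTheory CategoryTheory.Limits Opposite AlgebraicGeometry NeronModelInfra
  AlgebraicGeometry.RelPicard AlgebraicGeometry.RelPicard.RigidifiedLineBundle

noncomputable section

namespace Fermat.Agent.RelPic.Bridge

variable {k : Type u} [Field k] {X : Model k} {C : Scheme.{u}}
  {c : C ⟶ Spec (CommRingCat.of k)} {ε : SchemeHomOver (𝟙 (Spec (CommRingCat.of k))) c}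
  (B : Bridge X c ε)

/-- Degree zero classes on a base. -/
def DZClass {T : Scheme.{u}} (t : T ⟶ Spec (CommRingCat.of k)) : Type (u + 1) :=
  {x : Classes c ε t // B.DZ t x}

theorem small_dzClass {T : Scheme.{u}} (t : T ⟶ Spec (CommRingCat.of k)) :
    Small.{u} (B.DZClass t) :=
  haveI := B.small_classes t
  small_of_injective (f := fun x : B.DZClass t => (x.1 : Classes c ε t)) Subtype.val_injective

/-- A map to `Spec k` with a degree zero class. -/
def FPt (T : Scheme.{u}) : Type u :=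
  Σ t : T ⟶ Spec (CommRingCat.of k), @Shrink.{u} (B.DZClass t) (B.small_dzClass t)

namespace FPt

variable {B} {T T' T'' : Scheme.{u}}

/-- The structure map. -/
abbrev base (p : B.FPt T) : T ⟶ Spec (CommRingCat.of k) := p.1

/-- The class. -/
def val (p : B.FPt T) : Classes c ε p.base :=
  (((@equivShrink (B.DZClass p.1) (B.small_dzClass p.1)).symm p.2) : B.DZClass p.1).1

theorem dz (p : B.FPt T) : B.DZ p.base p.val :=
  (((@equivShrink (B.DZClass p.1) (B.small_dzClass p.1)).symm p.2) : B.DZClass p.1).2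

variable (B) in
/-- The element given by a class. -/
def mk' (t : T ⟶ Spec (CommRingCat.of k)) (x : Classes c ε t) (hx : B.DZ t x) : B.FPt T :=
  ⟨t, @equivShrink (B.DZClass t) (B.small_dzClass t) ⟨x, hx⟩⟩

theorem val_mk' (t : T ⟶ Spec (CommRingCat.of k)) (x : Classes c ε t) (hx : B.DZ t x) :
    (mk' B t x hx).val = x :=
  congrArg Subtype.val
    ((@equivShrink (B.DZClass t) (B.small_dzClass t)).symm_apply_apply ⟨x, hx⟩)

theorem ext' {p q : B.FPt T} (h : p.base = q.base)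
    (hv : classesMap (⟨𝟙 T, by rw [Category.id_comp, h]⟩ : SchemeHomOver p.base q.base) q.val =
      p.val) : p = q := by
  obtain ⟨t, x⟩ := p
  obtain ⟨t', x'⟩ := q
  change t = t' at h
  subst h
  rw [classesMap_id] at hv
  refine Sigma.ext rfl (heq_of_eq ?_)
  exact (@equivShrink (B.DZClass t) (B.small_dzClass t)).symm.injective (Subtype.ext hv.symm)

/-- The pullback of an element. -/
def pull (f : T' ⟶ T) (p : B.FPt T) : B.FPt T' :=
  mk' B (f ≫ p.base) (classesMap (⟨f, rfl⟩ : SchemeHomOver (f ≫ p.base) p.base) p.val)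
    (p.dz.pullback _)

theorem pull_val (f : T' ⟶ T) (p : B.FPt T) :
    (p.pull f).val = classesMap (⟨f, rfl⟩ : SchemeHomOver (f ≫ p.base) p.base) p.val :=
  val_mk' _ _ _

theorem pull_id (p : B.FPt T) : p.pull (𝟙 T) = p := by
  refine ext' (Category.id_comp _) ?_
  rw [pull_val]
  congr 1

theorem pull_comp (f : T' ⟶ T) (g : T'' ⟶ T') (p : B.FPt T) :
    (p.pull f).pull g = p.pull (g ≫ f) := by
  refine ext' (Category.assoc _ _ _).symm ?_
  rw [pull_val, pull_val, pull_val]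
  refine (classesMap_classesMap _ _ _).trans ((Eq.trans ?_ (classesMap_classesMap _ _ _).symm))
  congr 1

theorem pull_mk' (f : T' ⟶ T) (t : T ⟶ Spec (CommRingCat.of k)) (x : Classes c ε t)
    (hx : B.DZ t x) (t' : T' ⟶ Spec (CommRingCat.of k)) (h : f ≫ t = t') :
    (mk' B t x hx).pull f = mk' B t' (classesMap ⟨f, h⟩ x) (hx.pullback _) := by
  subst h
  refine ext' rfl ?_
  refine (classesMap_id (Category.id_comp _) _).trans ((val_mk' _ _ _).trans ?_)
  refine Eq.trans ?_ (pull_val f (mk' B t x hx)).symm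
  exact (congrArg (classesMap (⟨f, rfl⟩ : SchemeHomOver (f ≫ t) t)) (val_mk' t x hx)).symm

theorem mk'_eq_mk'_iff {t : T ⟶ Spec (CommRingCat.of k)} {x y : Classes c ε t}
    (hx : B.DZ t x) (hy : B.DZ t y) : mk' B t x hx = mk' B t y hy ↔ x = y := by
  refine ⟨fun h => ?_, fun h => by subst h; rfl⟩
  have h1 : (⟨x, hx⟩ : B.DZClass t) = ⟨y, hy⟩ := by
    have := eq_of_heq (Sigma.mk.inj_iff.mp h).2
    exact (@equivShrink (B.DZClass t) (B.small_dzClass t)).injective this
  exact congrArg Subtype.val h1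

theorem eq_mk' (p : B.FPt T) : p = mk' B p.base p.val p.dz := by
  refine ext' rfl ?_
  exact (classesMap_id (Category.id_comp _) _).trans (val_mk' _ _ _)

theorem exists_eq_mk' (p : B.FPt T) {t : T ⟶ Spec (CommRingCat.of k)} (h : p.base = t) :
    ∃ (x : Classes c ε t) (hx : B.DZ t x), p = mk' B t x hx := by
  subst h
  exact ⟨_, _, p.eq_mk'⟩

end FPt

/-- The presheaf of degree zero classes. -/
def presheaf : Scheme.{u}ᵒᵖ ⥤ Type u where
  obj T := B.FPt T.unop
  map f := TypeCat.ofHom fun p => p.pull f.unop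
  map_id _ := TypeCat.homEquiv.injective (funext fun p => p.pull_id)
  map_comp f g := TypeCat.homEquiv.injective (funext fun p => (p.pull_comp f.unop g.unop).symm)

theorem isSheaf_presheaf : Presheaf.IsSheaf Scheme.zariskiTopology B.presheaf := by
  rw [isSheaf_iff_isSheaf_of_type, Precoverage.isSheaf_toGrothendieck_iff_of_isStableUnderBaseChange]
  intro T S hS
  obtain ⟨(𝒰 : Scheme.OpenCover.{u + 1} T), rfl⟩ := Scheme.exists_cover_of_mem_pretopology hS
  rw [Presieve.isSheafFor_arrows_iff]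
  intro p hp
  let p' : ∀ i, B.FPt (𝒰.X i) := p
  have hp' : ∀ i j (W : Scheme.{u}) (a : W ⟶ 𝒰.X i) (b : W ⟶ 𝒰.X j),
      a ≫ 𝒰.f i = b ≫ 𝒰.f j → (p' i).pull a = (p' j).pull b := fun i j W a b h => hp i j W a b h
  have agree : ∀ i j, pullback.fst (𝒰.f i) (𝒰.f j) ≫ (p' i).base =
      pullback.snd (𝒰.f i) (𝒰.f j) ≫ (p' j).base := fun i j =>
    congrArg FPt.base (hp' i j _ _ _ pullback.condition)
  let t : T ⟶ Spec (CommRingCat.of k) := 𝒰.glueMorphisms (fun i => (p' i).base) agree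
  have ht : ∀ i, 𝒰.f i ≫ t = (p' i).base := fun i => 𝒰.ι_glueMorphisms _ agree i
  choose x hx hpx using fun i => (p' i).exists_eq_mk' (ht i).symm
  have compat : ∀ i j {W : Scheme.{u}} (w : W ⟶ Spec (CommRingCat.of k))
      (a : SchemeHomOver w (𝒰.f i ≫ t)) (b : SchemeHomOver w (𝒰.f j ≫ t)),
      a.1 ≫ 𝒰.f i = b.1 ≫ 𝒰.f j → classesMap a (x i) = classesMap b (x j) := by
    intro i j W w a b hab
    have h1 := hp' i j W a.1 b.1 hab
    rw [hpx i, hpx j, FPt.pull_mk' a.1 _ _ _ w a.2, FPt.pull_mk' b.1 _ _ _ w b.2,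
      FPt.mk'_eq_mk'_iff] at h1
    exact h1
  let 𝒱 : Scheme.OpenCover.{u} T := 𝒰.ulift
  obtain ⟨y, hy⟩ := B.classes_glue 𝒱 (fun i => x (𝒰.idx i)) (fun i j => compat _ _)
  have hy' : ∀ i, classesMap (⟨𝒰.f i, rfl⟩ : SchemeHomOver (𝒰.f i ≫ t) t) y = x i := by
    intro i
    refine B.classes_ext (𝒱.pullback₁ (𝒰.f i)) fun j => ?_
    rw [classesMap_classesMap]
    let w := (𝒱.pullback₁ (𝒰.f i)).f j ≫ 𝒰.f i ≫ t
    let b : SchemeHomOver w (𝒱.f j ≫ t) := ⟨pullback.snd (𝒰.f i) (𝒱.f j), by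
      show pullback.snd (𝒰.f i) (𝒱.f j) ≫ 𝒱.f j ≫ t = pullback.fst (𝒰.f i) (𝒱.f j) ≫ 𝒰.f i ≫ t
      rw [← Category.assoc, ← pullback.condition, Category.assoc]⟩
    have hb : postComp (⟨𝒰.f i, rfl⟩ : SchemeHomOver (𝒰.f i ≫ t) t)
        (⟨(𝒱.pullback₁ (𝒰.f i)).f j, rfl⟩ : SchemeHomOver w (𝒰.f i ≫ t)) =
        postComp (⟨𝒱.f j, rfl⟩ : SchemeHomOver (𝒱.f j ≫ t) t) b :=
      Subtype.ext pullback.condition
    rw [hb]
    refine (classesMap_classesMap _ _ _).symm.trans ((congrArg (classesMap b) (hy _)).trans ?_)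
    exact (compat i _ w ⟨(𝒱.pullback₁ (𝒰.f i)).f j, rfl⟩ b pullback.condition).symm
  have hydz : B.DZ t y := B.dz_of_cover 𝒱 fun i => by rw [hy]; exact hx _
  refine ⟨FPt.mk' B t y hydz, fun i => ?_, fun q hq => ?_⟩
  · show (FPt.mk' B t y hydz).pull (𝒰.f i) = p' i
    rw [FPt.pull_mk' _ _ _ _ _ rfl, hpx i, FPt.mk'_eq_mk'_iff]
    exact hy' i
  · have hbase : (q : B.FPt T).base = t := 𝒰.hom_ext _ _ fun i => by
      rw [ht i]; exact congrArg FPt.base (hq i)
    obtain ⟨z, hz, hqz⟩ := FPt.exists_eq_mk' (q : B.FPt T) hbase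
    change (q : B.FPt T) = _
    refine hqz.trans ((FPt.mk'_eq_mk'_iff _ _).mpr (B.classes_ext 𝒱 fun i => ?_))
    rw [hy]
    have h1 : (q : B.FPt T).pull (𝒰.f (𝒰.idx i)) = p' (𝒰.idx i) := hq (𝒰.idx i)
    rw [hqz, FPt.pull_mk' _ _ _ _ _ rfl, hpx, FPt.mk'_eq_mk'_iff] at h1
    exact h1

/-- The sheaf of degree zero classes. -/
abbrev sheaf : Sheaf Scheme.zariskiTopology.{u} (Type u) := ⟨B.presheaf, B.isSheaf_presheaf⟩

end Fermat.Agent.RelPic.Bridge
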