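import Fermat.Agent.RelPic.MainRepresent

/-!
# Affine points of the representing scheme and separatedness
-/

set_option autoImplicit false

universe u

open CategoryTheory CategoryTheory.Limits Opposite AlgebraicGeometry NeronModelInfra
  AlgebraicGeometry.RelPicard AlgebraicGeometry.RelPicard.RigidifiedLineBundle

noncomputable section

namespace Fermat.Agent.RelPic.Charts

variable {k : Type u} [Field k] {X : Model k} {C : Scheme.{u}}
  {c : C ⟶ Spec (CommRingCat.of k)} {ε : SchemeHomOver (𝟙 (Spec (CommRingCat.of k))) c}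
  (B : Bridge X c ε) (Ch : Charts X)

/-- The class of an affine point of the representing scheme. -/
abbrev toCls {R : Type u} [CommRing R] [Algebra k R] (q : SPt R (toBase B Ch)) : Cls X R :=
  cls B (univElem B Ch) q

theorem toCls_injective {R : Type u} [CommRing R] [Algebra k R] :
    Function.Injective (toCls B Ch (R := R)) := by
  intro q q' h
  have h1 := (B.equiv R).symm.injective h
  obtain ⟨g, -, hg⟩ := existsUnique_pull B Ch
    (Bridge.FPt.mk' B (specMap k R) _ ((univElem B Ch).dz.pullback q))
  refine Subtype.ext ((hg q.1 ?_).trans (hg q'.1 ?_).symm)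
  · exact (pull_univ_eq_iff B Ch q _ _).mpr rfl
  · exact (pull_univ_eq_iff B Ch q' _ _).mpr h1.symm

theorem exists_toCls {R : Type u} [CommRing R] [Algebra k R] {x : Cls X R}
    (hx : Cls.IsDegZero X R x) : ∃ q : SPt R (toBase B Ch), toCls B Ch q = x := by
  obtain ⟨g, hg, -⟩ := existsUnique_pull B Ch
    (Bridge.FPt.mk' B (specMap k R) (B.equiv R x) ((B.dz_equiv_iff x).mpr hx))
  refine ⟨⟨g, congrArg Bridge.FPt.base hg⟩, ?_⟩
  show (B.equiv R).symm _ = x
  rw [Equiv.symm_apply_eq]
  exact (pull_univ_eq_iff B Ch _ _ _).mp hg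

/-- A natural family of degree zero classes gives a morphism to the representing scheme. -/
theorem exists_hom_of_classes {T : Scheme.{u}} (t : T ⟶ Spec (CommRingCat.of k))
    (a : ∀ (R : Type u) [CommRing R] [Algebra k R], SPt R t → Cls X R)
    (ha : ∀ (R : Type u) [CommRing R] [Algebra k R] (q : SPt R t), Cls.IsDegZero X R (a R q))
    (nat : ∀ (R S : Type u) [CommRing R] [Algebra k R] [CommRing S] [Algebra k S]
      (φ : R →ₐ[k] S) (q : SPt R t), a S (postComp q (specHom φ)) = Cls.map φ (a R q)) :
    ∃ g : SchemeHomOver t (toBase B Ch),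
      ∀ (R : Type u) [CommRing R] [Algebra k R] (q : SPt R t),
        toCls B Ch (postComp g q) = a R q := by
  choose p hp using fun (R : Type u) [CommRing R] [Algebra k R] (q : SPt R t) =>
    exists_toCls B Ch (ha R q)
  obtain ⟨g, hg, -⟩ := existsUnique_hom_of_natural t (toBase B Ch) p
    fun R S _ _ _ _ φ q => toCls_injective B Ch (by
      rw [hp, nat, ← hp R q]
      exact cls_map B (univElem B Ch) φ (p R q))
  exact ⟨g, fun R _ _ q => by rw [hg, hp]⟩

/-- The zero section as a morphism over `k`. -/
def zeroHom : SchemeHomOver (𝟙 (Spec (CommRingCat.of k))) (toBase B Ch) :=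
  ⟨(design B Ch).zeroSection, (design B Ch).zeroSection_toBase⟩

theorem classesMap_unit {T T' : Scheme.{u}} {t : T ⟶ Spec (CommRingCat.of k)}
    {t' : T' ⟶ Spec (CommRingCat.of k)} (q : SchemeHomOver t' t) :
    classesMap q (Quotient.mk _ (RigidifiedLineBundle.unit t) : Classes c ε t) =
      Quotient.mk _ (RigidifiedLineBundle.unit t') :=
  Quotient.sound ⟨Scheme.Modules.pullbackUnitIso _⟩

theorem toCls_zero {R : Type u} [CommRing R] [Algebra k R]
    (q : SPt R (𝟙 (Spec (CommRingCat.of k)))) : toCls B Ch (postComp (zeroHom B Ch) q) = 1 := by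
  have h := (pull_univ_eq_iff B Ch (zeroHom B Ch) _ (B.dz_unit _)).mp
    (existsUnique_pull B Ch (zeroElem B)).choose_spec.1
  show (B.equiv R).symm _ = 1
  rw [Equiv.symm_apply_eq, B.equiv_one, ← classesMap_classesMap]
  exact (congrArg (classesMap q) h).trans (classesMap_unit q)

theorem isSeparated_toBase (H : Cls.ChiAdditive X) : IsSeparated (toBase B Ch) := by
  let s : pullback (toBase B Ch) (toBase B Ch) ⟶ Spec (CommRingCat.of k) :=
    pullback.fst (toBase B Ch) (toBase B Ch) ≫ toBase B Ch
  let p1 : SchemeHomOver s (toBase B Ch) := ⟨pullback.fst _ _, rfl⟩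
  let p2 : SchemeHomOver s (toBase B Ch) := ⟨pullback.snd _ _, pullback.condition.symm⟩
  obtain ⟨d, hd⟩ := exists_hom_of_classes B Ch s
    (fun R _ _ q => toCls B Ch (postComp p1 q) * (toCls B Ch (postComp p2 q))⁻¹)
    (fun R _ _ q => (cls_degZero B _ _).mul H ((cls_degZero B _ _).inv H))
    (fun R S _ _ _ _ φ q => by
      rw [Cls.map_mul, Cls.map_inv, toCls, toCls, toCls, toCls, cls_map, cls_map,
        postComp_assoc, postComp_assoc])
  have hz : IsClosedImmersion (zeroHom B Ch).1 :=
    isClosedImmersion_of_comp_eq_id (Y := Spec (CommRingCat.of k)) (toBase B Ch) _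
      (zeroHom B Ch).2
  have hdiag : ∀ {T : Scheme.{u}} (t : T ⟶ Spec (CommRingCat.of k))
      (a : SchemeHomOver t s),
      a.1 ≫ d.1 = t ≫ (zeroHom B Ch).1 ↔ postComp p1 a = postComp p2 a := by
    intro T t a
    let t' : SchemeHomOver t (𝟙 (Spec (CommRingCat.of k))) := ⟨t, Category.comp_id t⟩
    constructor
    · intro h
      have h' : postComp d a = postComp (zeroHom B Ch) t' := Subtype.ext h
      refine over_ext_affine fun R _ _ q => toCls_injective B Ch ?_
      have h1 := congrArg (fun f => toCls B Ch (postComp f q)) h'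
      simp only [postComp_assoc, hd, toCls_zero] at h1
      rw [postComp_assoc, postComp_assoc]
      exact mul_inv_eq_one.mp h1
    · intro h
      have h' : postComp d a = postComp (zeroHom B Ch) t' := by
        refine over_ext_affine fun R _ _ q => toCls_injective B Ch ?_
        rw [postComp_assoc, postComp_assoc, hd, toCls_zero, mul_inv_eq_one,
          ← postComp_assoc, ← postComp_assoc, h]
      exact congrArg Subtype.val h'
  have hpb : IsPullback (pullback.diagonal (toBase B Ch)) (toBase B Ch) d.1 (zeroHom B Ch).1 := by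
    have hw : pullback.diagonal (toBase B Ch) ≫ d.1 = toBase B Ch ≫ (zeroHom B Ch).1 :=
      (hdiag (toBase B Ch) ⟨pullback.diagonal (toBase B Ch),
        pullback.diagonal_fst_assoc _ _⟩).mpr (Subtype.ext ((pullback.diagonal_fst _).trans
          (pullback.diagonal_snd _).symm))
    refine ⟨⟨hw⟩, ⟨PullbackCone.IsLimit.mk hw
      (fun cone => cone.fst ≫ pullback.fst _ _) (fun cone => ?_) (fun cone => ?_)
      fun cone m h1 _ => ?_⟩⟩
    · have hsnd : cone.fst ≫ s = cone.snd := by
        have := cone.condition =≫ toBase B Ch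
        rwa [Category.assoc, Category.assoc, d.2, (zeroHom B Ch).2, Category.comp_id] at this
      have := congrArg Subtype.val ((hdiag cone.snd ⟨cone.fst, hsnd⟩).mp cone.condition)
      apply pullback.hom_ext
      · simp
      · simpa [p1, p2, postComp] using this
    · have := cone.condition =≫ toBase B Ch
      rw [Category.assoc, Category.assoc, d.2, (zeroHom B Ch).2, Category.comp_id] at this
      rw [Category.assoc]
      exact this
    · rw [← h1, Category.assoc, pullback.diagonal_fst, Category.comp_id]
  exact ⟨MorphismProperty.of_isPullback hpb.flip hz⟩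

end Fermat.Agent.RelPic.Charts
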