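import Fermat.Agent.RelPic.MainFunctor

/-!
# The open locus of a chart
-/

set_option autoImplicit false

universe u

open CategoryTheory CategoryTheory.Limits AlgebraicGeometry NeronModelInfra
  AlgebraicGeometry.RelPicard AlgebraicGeometry.RelPicard.RigidifiedLineBundle TopologicalSpace

noncomputable section

namespace Fermat.Agent.RelPic

variable {k : Type u} [Field k] {X : Model k} {C : Scheme.{u}}
  {c : C ⟶ Spec (CommRingCat.of k)} {ε : SchemeHomOver (𝟙 (Spec (CommRingCat.of k))) c}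
  (B : Bridge X c ε) (Ch : Charts X)

/-- Classes are determined by their restrictions to affine points. -/
theorem Bridge.classes_ext_affine {T : Scheme.{u}} {t : T ⟶ Spec (CommRingCat.of k)}
    (B : Bridge X c ε) {x y : Classes c ε t}
    (h : ∀ (R : Type u) [CommRing R] [Algebra k R] (q : SPt R t),
      classesMap q x = classesMap q y) : x = y := by
  refine B.classes_ext T.affineCover fun i => ?_
  obtain ⟨R, _, _, e, he⟩ := exists_affineChart (T.affineCover.f i ≫ t)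
  let e' : SchemeHomOver (T.affineCover.f i ≫ t) (specMap k R) :=
    ⟨inv e.1, by rw [IsIso.inv_comp_eq]; exact e.2.symm⟩
  have he' : postComp e e' = ⟨𝟙 _, Category.id_comp _⟩ := Subtype.ext (IsIso.inv_hom_id e.1)
  have h1 := congrArg (classesMap e')
    ((classesMap_classesMap _ _ _).trans ((h R (postComp ⟨T.affineCover.f i, rfl⟩ e)).trans
      (classesMap_classesMap _ _ _).symm))
  rwa [classesMap_classesMap e e', classesMap_classesMap e e', he', classesMap_id,
    classesMap_id] at h1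

namespace Charts

variable {Ch}

/-- The class over `R` of an affine point. -/
def cls {T : Scheme.{u}} (p : B.FPt T) {R : Type u} [CommRing R] [Algebra k R]
    (r : SPt R p.base) : Cls X R :=
  (B.equiv R).symm (classesMap r p.val)

variable {T : Scheme.{u}} (p : B.FPt T)

theorem cls_degZero {R : Type u} [CommRing R] [Algebra k R] (r : SPt R p.base) :
    Cls.IsDegZero X R (cls B p r) := p.dz R r

theorem cls_map {R S : Type u} [CommRing R] [Algebra k R] [CommRing S] [Algebra k S]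
    (φ : R →ₐ[k] S) (r : SPt R p.base) :
    Cls.map φ (cls B p r) = cls B p (postComp r (specHom φ)) := by
  rw [cls, cls, ← classesMap_classesMap, B.symm_classesMap]

variable (Ch) (i : Ch.J)

/-- The class lies in the chart. -/
def InChart {R : Type u} [CommRing R] [Algebra k R] (x : Cls X R) : Prop :=
  ∃ ψ : Ch.H i →ₐ[k] R, Cls.map ψ (Ch.univ i) = x

/-- The locus of an affine point. -/
def affLocus {R : Type u} [CommRing R] [Algebra k R] (r : SPt R p.base) :
    Opens (PrimeSpectrum R) :=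
  (Ch.isOpen i (cls B p r) (cls_degZero B p r)).choose

theorem affLocus_spec {R : Type u} [CommRing R] [Algebra k R] (r : SPt R p.base)
    {S : Type u} [CommRing S] [Algebra k S] (φ : R →ₐ[k] S) :
    InChart Ch i (cls B p (postComp r (specHom φ))) ↔
      Set.range (PrimeSpectrum.comap φ.toRingHom) ⊆ affLocus B Ch p i r := by
  rw [← cls_map]
  exact (Ch.isOpen i (cls B p r) (cls_degZero B p r)).choose_spec φ

theorem mem_affLocus_iff {R : Type u} [CommRing R] [Algebra k R] (r : SPt R p.base)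
    (P : PrimeSpectrum R) :
    P ∈ affLocus B Ch p i r ↔ InChart Ch i (cls B p (postComp r
      (specHom (pointHom k P)))) := by
  rw [affLocus_spec]
  have h : ∀ Q, PrimeSpectrum.comap (pointHom k P).toRingHom Q = P := fun Q => by
    refine PrimeSpectrum.ext ?_
    show Ideal.comap (algebraMap R P.asIdeal.ResidueField) Q.asIdeal = P.asIdeal
    rw [Ideal.eq_bot_of_prime Q.asIdeal, ← RingHom.ker_eq_comap_bot,
      P.asIdeal.ker_algebraMap_residueField]
  constructor
  · rintro hP _ ⟨Q, rfl⟩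
    rw [h Q]
    exact hP
  · intro hsub
    have := hsub ⟨⟨⊥, Ideal.isPrime_bot⟩, rfl⟩
    rwa [h] at this

theorem mem_affLocus_postComp {R S : Type u} [CommRing R] [Algebra k R] [CommRing S]
    [Algebra k S] (r : SPt R p.base) (φ : R →ₐ[k] S) (P : PrimeSpectrum S) :
    P ∈ affLocus B Ch p i (postComp r (specHom φ)) ↔
      PrimeSpectrum.comap φ.toRingHom P ∈ affLocus B Ch p i r := by
  rw [mem_affLocus_iff, postComp_assoc, ← specHom_comp, affLocus_spec]
  have h : ∀ Q, PrimeSpectrum.comap ((pointHom k P).comp φ).toRingHom Q =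
      PrimeSpectrum.comap φ.toRingHom P := fun Q => by
    refine PrimeSpectrum.ext ?_
    show Ideal.comap ((algebraMap S P.asIdeal.ResidueField).comp φ.toRingHom) Q.asIdeal = _
    rw [← Ideal.comap_comap, Ideal.eq_bot_of_prime Q.asIdeal, ← RingHom.ker_eq_comap_bot,
      P.asIdeal.ker_algebraMap_residueField]
    rfl
  constructor
  · intro hsub
    have := hsub ⟨⟨⊥, Ideal.isPrime_bot⟩, rfl⟩
    rwa [h] at this
  · rintro hP _ ⟨Q, rfl⟩
    rw [h Q]
    exact hP

/-- The locus of the chart on the base. -/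
def locusSet : Set T :=
  {pt | ∃ (R : Type u) (_ : CommRing R) (_ : Algebra k R) (r : SPt R p.base)
    (P : Spec (CommRingCat.of R)), IsOpenImmersion r.1 ∧ r.1 P = pt ∧
      P ∈ affLocus B Ch p i r}

theorem isOpen_locusSet : IsOpen (locusSet B Ch p i) := by
  refine isOpen_iff_forall_mem_open.mpr ?_
  rintro _ ⟨R, _, _, r, P, hr, rfl, hP⟩
  refine ⟨r.1 '' (affLocus B Ch p i r : Set (PrimeSpectrum R)), ?_,
    r.1.isOpenEmbedding.isOpenMap _ (affLocus B Ch p i r).2, ⟨P, hP, rfl⟩⟩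
  rintro _ ⟨Q, hQ, rfl⟩
  exact ⟨R, _, _, r, Q, hr, rfl, hQ⟩

/-- The open locus of the chart on the base. -/
def locus : T.Opens := ⟨locusSet B Ch p i, isOpen_locusSet B Ch p i⟩

/-- Two affine points meet in a third one. -/
theorem exists_common {R R₀ : Type u} [CommRing R] [Algebra k R] [CommRing R₀] [Algebra k R₀]
    {T : Scheme.{u}} {t : T ⟶ Spec (CommRingCat.of k)} (r : SPt R t) (r₀ : SPt R₀ t)
    [IsOpenImmersion r₀.1] (P : Spec (CommRingCat.of R)) (P₀ : Spec (CommRingCat.of R₀))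
    (h : r₀.1 P₀ = r.1 P) :
    ∃ (S : Type u) (_ : CommRing S) (_ : Algebra k S) (φ : R →ₐ[k] S) (φ₀ : R₀ →ₐ[k] S)
      (Q : PrimeSpectrum S), postComp r (specHom φ) = postComp r₀ (specHom φ₀) ∧
        PrimeSpectrum.comap φ.toRingHom Q = P ∧ PrimeSpectrum.comap φ₀.toRingHom Q = P₀ := by
  let V : (Spec (CommRingCat.of R)).Opens := r.1 ⁻¹ᵁ r₀.1.opensRange
  obtain ⟨W', hW, hPW, hWV⟩ := Opens.isBasis_iff_nbhd.mp
    (Spec (CommRingCat.of R)).isBasis_affineOpens (show P ∈ V from ⟨P₀, h⟩)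
  let W : (Spec (CommRingCat.of R)).Opens := W'
  have : IsAffine (W : Scheme.{u}) := hW
  obtain ⟨S, _, _, e, he⟩ := exists_affineChart (W.ι ≫ specMap k R)
  have := he
  have hrange : Set.range (e.1 ≫ W.ι ≫ r.1) ⊆ Set.range r₀.1 := by
    rintro _ ⟨x, rfl⟩
    exact hWV (e.1 x).2
  obtain ⟨φ, hφ⟩ := specHom_surjective (R := R) (S := S)
    ⟨e.1 ≫ W.ι, by rw [Category.assoc]; exact e.2⟩
  obtain ⟨φ₀, hφ₀⟩ := specHom_surjective (R := R₀) (S := S)
    ⟨IsOpenImmersion.lift r₀.1 (e.1 ≫ W.ι ≫ r.1) hrange, by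
      have := IsOpenImmersion.lift_fac r₀.1 (e.1 ≫ W.ι ≫ r.1) hrange
      refine (congrArg (IsOpenImmersion.lift r₀.1 (e.1 ≫ W.ι ≫ r.1) hrange ≫ ·) r₀.2.symm).trans ?_
      rw [← Category.assoc, this, Category.assoc, Category.assoc, r.2, e.2]⟩
  have hφ' : (specHom φ).1 = e.1 ≫ W.ι := congrArg Subtype.val hφ
  have hφ₀' : (specHom φ₀).1 = IsOpenImmersion.lift r₀.1 (e.1 ≫ W.ι ≫ r.1) hrange :=
    congrArg Subtype.val hφ₀
  have heq : postComp r (specHom φ) = postComp r₀ (specHom φ₀) := Subtype.ext (by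
    show (specHom φ).1 ≫ r.1 = (specHom φ₀).1 ≫ r₀.1
    rw [hφ', hφ₀', IsOpenImmersion.lift_fac, Category.assoc])
  obtain ⟨Q, hQ⟩ := e.1.surjective ⟨P, hPW⟩
  have hQ1 : (specHom φ).1 Q = P := by
    rw [hφ']
    exact congrArg W.ι hQ
  refine ⟨S, _, _, φ, φ₀, Q, heq, hQ1, r₀.1.isOpenEmbedding.injective ?_⟩
  rw [h, ← hQ1]
  exact (congrArg (fun f : SPt S t => f.1 Q) heq).symm

theorem preimage_locus {R : Type u} [CommRing R] [Algebra k R] (r : SPt R p.base)
    (P : Spec (CommRingCat.of R)) :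
    r.1 P ∈ locus B Ch p i ↔ P ∈ affLocus B Ch p i r := by
  constructor
  · rintro ⟨R₀, _, _, r₀, P₀, hr₀, h0, hP₀⟩
    obtain ⟨S, _, _, φ, φ₀, Q, heq, hQ, hQ₀⟩ := exists_common r r₀ P P₀ h0
    have h1 : Q ∈ affLocus B Ch p i (postComp r₀ (specHom φ₀)) :=
      (mem_affLocus_postComp B Ch p i r₀ φ₀ Q).mpr ((congrArg (· ∈ affLocus B Ch p i r₀) hQ₀).mpr hP₀)
    have h2 := (mem_affLocus_postComp B Ch p i r φ Q).mp (heq.symm ▸ h1)
    exact (congrArg (· ∈ affLocus B Ch p i r) hQ).mp h2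
  · intro hP
    obtain ⟨i₀, z, hz⟩ := T.affineCover.exists_eq (r.1 P)
    obtain ⟨R₀, _, _, e, he⟩ := exists_affineChart (T.affineCover.f i₀ ≫ p.base)
    have := he
    obtain ⟨P₀, rfl⟩ := e.1.surjective z
    let r₀ : SPt R₀ p.base :=
      ⟨e.1 ≫ T.affineCover.f i₀, by rw [Category.assoc]; exact e.2⟩
    have : IsOpenImmersion r₀.1 :=
      (inferInstance : IsOpenImmersion (e.1 ≫ T.affineCover.f i₀))
    obtain ⟨S, _, _, φ, φ₀, Q, heq, hQ, hQ₀⟩ := exists_common r r₀ P P₀ hz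
    refine ⟨R₀, _, _, r₀, P₀, inferInstance, hz, ?_⟩
    have h1 : Q ∈ affLocus B Ch p i (postComp r (specHom φ)) :=
      (mem_affLocus_postComp B Ch p i r φ Q).mpr ((congrArg (· ∈ affLocus B Ch p i r) hQ).mpr hP)
    have h2 := (mem_affLocus_postComp B Ch p i r₀ φ₀ Q).mp (heq ▸ h1)
    exact (congrArg (· ∈ affLocus B Ch p i r₀) hQ₀).mp h2

theorem inChart_iff {R : Type u} [CommRing R] [Algebra k R] (r : SPt R p.base) :
    InChart Ch i (cls B p r) ↔ Set.range r.1 ⊆ locus B Ch p i := by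
  have h : postComp r (specHom (AlgHom.id k R)) = r := Subtype.ext (by
    show (specHom (AlgHom.id k R)).1 ≫ r.1 = r.1
    rw [specHom_id, Category.id_comp])
  rw [← h, affLocus_spec, h]
  constructor
  · rintro hsub _ ⟨P, rfl⟩
    exact (preimage_locus B Ch p i r P).mpr (hsub ⟨P, rfl⟩)
  · rintro hsub _ ⟨P, rfl⟩
    exact (preimage_locus B Ch p i r P).mp (hsub ⟨P, rfl⟩)

/-- The element given by a chart. -/
def elem : B.FPt (Spec (CommRingCat.of (Ch.H i))) :=
  Bridge.FPt.mk' B (specMap k (Ch.H i)) (B.equiv _ (Ch.univ i))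
    ((B.dz_equiv_iff _).mpr (Ch.degZero i))

theorem pull_elem_affine {R : Type u} [CommRing R] [Algebra k R] (φ : Ch.H i →ₐ[k] R) :
    (elem B Ch i).pull (specHom φ).1 = Bridge.FPt.mk' B (specMap k R)
      (B.equiv R (Cls.map φ (Ch.univ i))) ((B.dz_equiv_iff _).mpr ((Ch.degZero i).map φ)) := by
  rw [elem, Bridge.FPt.pull_mk' _ _ _ _ _ (specHom φ).2, Bridge.FPt.mk'_eq_mk'_iff]
  exact (B.natural φ _).symm

theorem elem_injective {W : Scheme.{u}} {b b' : W ⟶ Spec (CommRingCat.of (Ch.H i))}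
    (h : (elem B Ch i).pull b = (elem B Ch i).pull b') : b = b' := by
  have hb : b ≫ specMap k (Ch.H i) = b' ≫ specMap k (Ch.H i) := congrArg Bridge.FPt.base h
  refine hom_ext_affine (b ≫ specMap k (Ch.H i)) fun R _ _ q => ?_
  obtain ⟨φ, hφ⟩ := specHom_surjective (R := Ch.H i) (S := R)
    ⟨q.1 ≫ b, by rw [Category.assoc]; exact q.2⟩
  obtain ⟨ψ, hψ⟩ := specHom_surjective (R := Ch.H i) (S := R)
    ⟨q.1 ≫ b', by rw [Category.assoc, ← hb]; exact q.2⟩
  have hφ' : (specHom φ).1 = q.1 ≫ b := congrArg Subtype.val hφ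
  have hψ' : (specHom ψ).1 = q.1 ≫ b' := congrArg Subtype.val hψ
  have h1 := congrArg (Bridge.FPt.pull q.1) h
  rw [Bridge.FPt.pull_comp, Bridge.FPt.pull_comp, ← hφ', ← hψ', pull_elem_affine,
    pull_elem_affine, Bridge.FPt.mk'_eq_mk'_iff] at h1
  rw [← hφ', ← hψ', Ch.inj i φ ψ ((B.equiv R).injective h1)]

theorem range_subset_locus {W : Scheme.{u}} (a : W ⟶ T)
    (b : W ⟶ Spec (CommRingCat.of (Ch.H i))) (h : (elem B Ch i).pull b = p.pull a) :
    Set.range a ⊆ locus B Ch p i := by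
  rintro _ ⟨w, rfl⟩
  have hb : b ≫ specMap k (Ch.H i) = a ≫ p.base := congrArg Bridge.FPt.base h
  obtain ⟨i₀, z, rfl⟩ := W.affineCover.exists_eq w
  obtain ⟨R, _, _, e, he⟩ := exists_affineChart (W.affineCover.f i₀ ≫ a ≫ p.base)
  have := he
  obtain ⟨P, rfl⟩ := e.1.surjective z
  obtain ⟨φ, hφ⟩ := specHom_surjective (R := Ch.H i) (S := R)
    ⟨(e.1 ≫ W.affineCover.f i₀) ≫ b, by
      rw [Category.assoc, Category.assoc, hb]; exact e.2⟩
  have hφ' : (specHom φ).1 = (e.1 ≫ W.affineCover.f i₀) ≫ b := congrArg Subtype.val hφ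
  let r : SPt R p.base := ⟨(e.1 ≫ W.affineCover.f i₀) ≫ a, by
    rw [Category.assoc, Category.assoc]; exact e.2⟩
  have h1 := congrArg (Bridge.FPt.pull (e.1 ≫ W.affineCover.f i₀)) h
  rw [Bridge.FPt.pull_comp, Bridge.FPt.pull_comp, ← hφ', pull_elem_affine] at h1
  replace h1 := h1.trans ((congrArg (Bridge.FPt.pull ((e.1 ≫ W.affineCover.f i₀) ≫ a)) p.eq_mk').trans
    (Bridge.FPt.pull_mk' _ _ _ _ _ r.2))
  rw [Bridge.FPt.mk'_eq_mk'_iff] at h1
  have hin : InChart Ch i (cls B p r) := ⟨φ, by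
    rw [cls, Equiv.eq_symm_apply]; exact h1⟩
  exact (inChart_iff B Ch p i r).mp hin ⟨P, rfl⟩

/-- The chart map on the locus. -/
theorem exists_chartMap :
    ∃ g : (locus B Ch p i : Scheme.{u}) ⟶ Spec (CommRingCat.of (Ch.H i)),
      (elem B Ch i).pull g = p.pull (locus B Ch p i).ι := by
  let U := locus B Ch p i
  have hin : ∀ (R : Type u) [CommRing R] [Algebra k R] (q : SPt R (U.ι ≫ p.base)),
      InChart Ch i (cls B p (postComp (⟨U.ι, rfl⟩ : SchemeHomOver (U.ι ≫ p.base) p.base) q)) := by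
    intro R _ _ q
    refine (inChart_iff B Ch p i _).mpr ?_
    rintro _ ⟨P, rfl⟩
    exact (q.1 P).2
  choose ψ hψ using hin
  obtain ⟨⟨g, hg⟩, hgq, -⟩ := existsUnique_hom_of_natural (U.ι ≫ p.base) (specMap k (Ch.H i))
    (fun R _ _ q => specHom (ψ R q)) fun R S _ _ _ _ φ q => by
      rw [← specHom_comp]
      refine congrArg specHom (Ch.inj i _ _ ?_)
      rw [hψ, ← Cls.map_map, hψ, cls_map, postComp_assoc]
  refine ⟨g, Bridge.FPt.ext' hg ?_⟩
  rw [Bridge.FPt.pull_val, Bridge.FPt.pull_val]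
  refine B.classes_ext_affine fun R _ _ q => ?_
  let q' : SPt R (U.ι ≫ p.base) := ⟨q.1, (congrArg (q.1 ≫ ·) hg.symm).trans q.2⟩
  have h1 : (specHom (ψ R q')).1 = q.1 ≫ g := (congrArg Subtype.val (hgq R q')).symm
  have h2 := hψ R q'
  rw [cls, Equiv.eq_symm_apply, B.natural] at h2
  refine (classesMap_classesMap _ _ _).trans ((classesMap_classesMap _ _ _).trans ?_)
  refine Eq.trans ?_ (classesMap_classesMap _ _ _).symm
  have hval : (elem B Ch i).val = B.equiv _ (Ch.univ i) := Bridge.FPt.val_mk' _ _ _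
  rw [hval]
  refine Eq.trans ?_ (h2.symm.trans ?_)
  · refine congrArg (fun f => classesMap f p.val) (Subtype.ext ?_)
    show (q.1 ≫ 𝟙 _) ≫ U.ι = q.1 ≫ U.ι
    rw [Category.comp_id]
  · exact congrArg (fun f => classesMap f (B.equiv _ (Ch.univ i))) (Subtype.ext h1)

end Charts

end Fermat.Agent.RelPic
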