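import Fermat.Agent.RelPic.MainAJ
import Fermat.Agent.RelPic.BridgeInput

/-!
# The representing scheme is smooth, proper, connected and represents algebraic equivalence to zero
-/

set_option autoImplicit false

universe u

open CategoryTheory CategoryTheory.Limits AlgebraicGeometry NeronModelInfra
  AlgebraicGeometry.RelPicard AlgebraicGeometry.RelPicard.RigidifiedLineBundle
  GoodReductionJacobian

noncomputable section

namespace Fermat.Agent.RelPic

variable {k : Type u} [Field k] [IsAlgClosed k] {X : Model k} {C : Scheme.{u}}
  {c : C ⟶ Spec (CommRingCat.of k)} [IsProper c] [SmoothOfRelativeDimension 1 c] [IsIntegral C]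
  {ε : SchemeHomOver (𝟙 (Spec (CommRingCat.of k))) c}
  (Rz : Realization X c ε) (Ch : Charts X) (P : Points X) (H : Cls.ChiAdditive X)

omit [IsAlgClosed k] [IsProper c] [SmoothOfRelativeDimension 1 c] [IsIntegral C] in
include Rz in
theorem dz_of_fibrewiseAlgEquivZero {T : Scheme.{u}} (t : T ⟶ Spec (CommRingCat.of k))
    (M : RigidifiedLineBundle c ε t) (hM : FibrewiseAlgEquivZero M) :
    Rz.bridge.DZ t (Quotient.mk _ M) := fun _ _ _ q =>
  Rz.isDegZero_bridge_symm (M.pullbackAlong q) (hM.pullback q)

include Rz Ch P H in
/-- The relative `Pic⁰` exists. -/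
theorem exists_representsRelSubPic_of_inputs :
    ∃ D : RelativePic0Designation k c,
      Nonempty (RepresentsRelSubPic c ε (algEquivZeroCut c ε) D) ∧
        Smooth D.toBase ∧ IsProper D.toBase ∧ GeometricallyConnected D.toBase := by
  let B := Rz.bridge
  let Dz := Charts.represents B Ch
  let j := Charts.toBase B Ch
  have hsm : Smooth j := Charts.smooth_toBase B Ch
  have hsep : IsSeparated j := Charts.isSeparated_toBase B Ch H
  have : Smooth c := SmoothOfRelativeDimension.smooth (n := 1) c
  have hgi : GeometricallyIntegral (powHom c P.g) := geometricallyIntegral_powHom_of_smooth c P.g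
  obtain ⟨π, hπ⟩ := Charts.exists_sumMap B Ch Rz P H
  have hsurj : Surjective π.1 := surjective_of_exists_lift π.1 hπ
  have hpow : π.1 ≫ j = powHom c P.g := π.2
  have hmem : FibrewiseAlgEquivZero Dz.poincare :=
    fibrewiseAlgEquivZero_of_cover Dz.poincare π (Charts.zeroHom B Ch) Dz.zero hπ
  refine ⟨Charts.design B Ch, ⟨
    { poincare := Dz.poincare
      poincare_mem := hmem
      univ := fun t M hM => Dz.univ t M (dz_of_fibrewiseAlgEquivZero Rz t M hM)
      zero := Dz.zero }⟩, hsm, ?_, ?_⟩
  · have : IsProper (π.1 ≫ j) := by rw [hpow]; infer_instance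
    have : UniversallyClosed j := UniversallyClosed.of_comp_surjective π.1 j
    show IsProper j
    exact { toLocallyOfFiniteType := inferInstance }
  · refine ⟨geometrically_iff_of_isClosedUnderIsomorphisms.mpr fun K _ y => ?_⟩
    show ConnectedSpace ↥(pullback j y)
    have : GeometricallyIntegral (π.1 ≫ j) := by rw [hpow]; infer_instance
    have : IsIntegral (pullback (π.1 ≫ j) y) :=
      GeometricallyIntegral.isIntegral_of_subsingleton (pullback.snd (π.1 ≫ j) y)
    let m : pullback (π.1 ≫ j) y ⟶ pullback j y :=
      (pullbackRightPullbackFstIso j y π.1).inv ≫ pullback.snd π.1 (pullback.fst j y)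
    have hm : Surjective m := by
      have : Surjective (pullback.snd π.1 (pullback.fst j y)) :=
        inferInstance
      infer_instance
    exact m.surjective.connectedSpace m.continuous

end Fermat.Agent.RelPic
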