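import Fermat.Agent.RelPic.MainOpen

/-!
# The scheme representing classes of degree zero
-/

set_option autoImplicit false

universe u

open CategoryTheory CategoryTheory.Limits Opposite AlgebraicGeometry NeronModelInfra
  AlgebraicGeometry.RelPicard AlgebraicGeometry.RelPicard.RigidifiedLineBundle
  GoodReductionJacobian

noncomputable section

namespace Fermat.Agent.RelPic

variable {k : Type u} [Field k] {X : Model k} {C : Scheme.{u}}
  {c : C ⟶ Spec (CommRingCat.of k)} {ε : SchemeHomOver (𝟙 (Spec (CommRingCat.of k))) c}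
  (B : Bridge X c ε) (Ch : Charts X)

/-- Degree zero as a condition on rigidified bundles. -/
def Bridge.dzCut : SubPicCondition c ε where
  P := fun t M => B.DZ t (Quotient.mk _ M)
  unit_mem := fun t => B.dz_unit t
  congr := fun t M M' h hM => by
    have : (Quotient.mk _ M : Classes c ε t) = Quotient.mk _ M' := Quotient.sound h
    rwa [← this]
  pullback_mem := fun t t' ψ M hM => hM.pullback ψ

namespace Charts

/-- The chart as a map of presheaves. -/
def chartMap (i : Ch.J) : yoneda.obj (Spec (CommRingCat.of (Ch.H i))) ⟶ B.presheaf :=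
  yonedaEquiv.symm (elem B Ch i)

theorem chartMap_app (i : Ch.J) {W : Scheme.{u}} (b : W ⟶ Spec (CommRingCat.of (Ch.H i))) :
    (chartMap B Ch i).app (op W) b = (elem B Ch i).pull b := rfl

theorem isOpenImmersion_chartMap (i : Ch.J) :
    (@IsOpenImmersion : MorphismProperty Scheme.{u}).presheaf (chartMap B Ch i) := by
  refine MorphismProperty.relative.of_exists fun T γ => ?_
  let p : B.FPt T := yonedaEquiv γ
  obtain ⟨g, hg⟩ := exists_chartMap B Ch p i
  refine ⟨(locus B Ch p i : Scheme.{u}), yoneda.map g, (locus B Ch p i).ι, ?_, inferInstance⟩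
  have hγ : ∀ {W : Scheme.{u}} (a : W ⟶ T), γ.app (op W) a = p.pull a := fun {W} a => by
    conv_lhs => rw [← yonedaEquiv.symm_apply_apply γ]
    rfl
  refine IsPullback.of_forall_isPullback_app fun W => ?_
  obtain ⟨W⟩ := W
  rw [Types.isPullback_iff]
  refine ⟨?_, ?_, ?_⟩
  · ext v
    show (chartMap B Ch i).app (op W) (v ≫ g) = γ.app (op W) (v ≫ (locus B Ch p i).ι)
    rw [hγ, chartMap_app, ← Bridge.FPt.pull_comp, hg, Bridge.FPt.pull_comp]
  · rintro v v' ⟨-, h⟩
    exact (cancel_mono (locus B Ch p i).ι).mp h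
  · intro (b : W ⟶ Spec (CommRingCat.of (Ch.H i))) (a : W ⟶ T) h
    rw [hγ] at h
    change (elem B Ch i).pull b = p.pull a at h
    have hrange : Set.range a ⊆ Set.range (locus B Ch p i).ι := by
      rw [Scheme.Opens.range_ι]
      exact range_subset_locus B Ch p i a b h
    refine ⟨IsOpenImmersion.lift (locus B Ch p i).ι a hrange, elem_injective B Ch i ?_,
      IsOpenImmersion.lift_fac _ _ _⟩
    show (elem B Ch i).pull (_ ≫ g) = (elem B Ch i).pull b
    rw [h, ← Bridge.FPt.pull_comp, hg, Bridge.FPt.pull_comp, IsOpenImmersion.lift_fac]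

theorem exists_over_eq {T : Scheme.{u}} (t : T ⟶ Spec (CommRingCat.of k)) (K : Type u) [Field K]
    (q : Spec (CommRingCat.of K) ⟶ T) :
    ∃ (_ : Algebra k K) (r : SPt K t), r.1 = q := by
  obtain ⟨f, hf⟩ := Spec.map_surjective (q ≫ t)
  exact ⟨RingHom.toAlgebra f.hom, ⟨q, hf.symm⟩, rfl⟩

theorem exists_geomPoint {T : Scheme.{u}} (t : T ⟶ Spec (CommRingCat.of k)) (x : T) :
    ∃ (K : Type u) (_ : Field K) (_ : IsAlgClosed K) (_ : Algebra k K) (r : SPt K t),
      x ∈ Set.range r.1 := by
  let ι : T.residueField x ⟶ CommRingCat.of (AlgebraicClosure (T.residueField x)) :=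
    CommRingCat.ofHom (algebraMap (T.residueField x) (AlgebraicClosure (T.residueField x)))
  obtain ⟨alg, r, hr⟩ := exists_over_eq t (AlgebraicClosure (T.residueField x))
    (Spec.map ι ≫ T.fromSpecResidueField x)
  refine ⟨AlgebraicClosure (T.residueField x), inferInstance, inferInstance, alg, r, ?_⟩
  rw [hr]
  obtain ⟨P⟩ : Nonempty (Spec (CommRingCat.of (AlgebraicClosure (T.residueField x)))) :=
    inferInstanceAs (Nonempty (PrimeSpectrum (AlgebraicClosure (T.residueField x))))
  exact ⟨P, (Scheme.Hom.comp_apply _ _ _).trans (Scheme.fromSpecResidueField_apply _ _)⟩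

theorem exists_mem_locus {T : Scheme.{u}} (p : B.FPt T) (x : T) :
    ∃ i, x ∈ locus B Ch p i := by
  obtain ⟨K, _, _, _, r, hx⟩ := exists_geomPoint p.base x
  obtain ⟨i, ψ, hψ⟩ := Ch.cover (cls B p r) (cls_degZero B p r)
  exact ⟨i, (inChart_iff B Ch p i r).mp ⟨ψ, hψ⟩ hx⟩

instance isLocallySurjective_chartMap :
    Presheaf.IsLocallySurjective Scheme.zariskiTopology (Sigma.desc (chartMap B Ch)) where
  imageSieve_mem {T} p := by
    let p' : B.FPt T := p
    have hU : TopologicalSpace.IsOpenCover fun i => locus B Ch p' i :=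
      top_le_iff.mp fun x _ => TopologicalSpace.Opens.mem_iSup.mpr (exists_mem_locus B Ch p' x)
    refine Scheme.zariskiTopology.superset_covering ?_
      (T.openCoverOfIsOpenCover _ hU).mem_grothendieckTopology
    rintro W a ⟨Z, h, _, ⟨i⟩, rfl⟩
    obtain ⟨g, hg⟩ := exists_chartMap B Ch p' i
    refine ⟨(Sigma.ι (fun j => yoneda.obj (Spec (CommRingCat.of (Ch.H j)))) i).app (op W) (h ≫ g),
      ?_⟩
    refine Eq.trans (congrArg (fun η : yoneda.obj _ ⟶ B.presheaf => η.app (op W) (h ≫ g))
      (Sigma.ι_desc (chartMap B Ch) i)) ?_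
    show (elem B Ch i).pull (h ≫ g) = p'.pull (h ≫ (locus B Ch p' i).ι)
    exact (Bridge.FPt.pull_comp _ _ _).symm.trans
      ((congrArg (Bridge.FPt.pull h) hg).trans (Bridge.FPt.pull_comp _ _ _))

/-- The glued scheme. -/
def jacobian : Scheme.{u} :=
  (Scheme.LocalRepresentability.glueData (F := B.sheaf) (isOpenImmersion_chartMap B Ch)).glued

/-- The representation. -/
def repr : B.presheaf.RepresentableBy (jacobian B Ch) :=
  Scheme.LocalRepresentability.representableBy (F := B.sheaf) (isOpenImmersion_chartMap B Ch)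

/-- The universal element. -/
def univElem : B.FPt (jacobian B Ch) := (repr B Ch).homEquiv (𝟙 _)

theorem homEquiv_eq_pull {T : Scheme.{u}} (g : T ⟶ jacobian B Ch) :
    (repr B Ch).homEquiv g = (univElem B Ch).pull g :=
  (repr B Ch).homEquiv_eq g

theorem existsUnique_pull {T : Scheme.{u}} (p : B.FPt T) :
    ∃! g : T ⟶ jacobian B Ch, (univElem B Ch).pull g = p :=
  ⟨(repr B Ch).homEquiv.symm p, by
    exact (homEquiv_eq_pull B Ch _).symm.trans ((repr B Ch).homEquiv.apply_symm_apply p),
    fun g hg => ((repr B Ch).homEquiv.symm_apply_apply g).symm.trans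
      (congrArg (repr B Ch).homEquiv.symm ((homEquiv_eq_pull B Ch g).trans hg))⟩

/-- The structure map. -/
abbrev toBase : jacobian B Ch ⟶ Spec (CommRingCat.of k) := (univElem B Ch).base

theorem smooth_toGlued_toBase (i : Ch.J) :
    Smooth (Scheme.LocalRepresentability.toGlued (F := B.sheaf)
      (isOpenImmersion_chartMap B Ch) i ≫ toBase B Ch) := by
  have h : (repr B Ch).homEquiv
      (Scheme.LocalRepresentability.toGlued (F := B.sheaf) (isOpenImmersion_chartMap B Ch) i) =
      elem B Ch i :=
    (Scheme.LocalRepresentability.yonedaGluedToSheaf_app_toGlued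
      (F := B.sheaf) (isOpenImmersion_chartMap B Ch)).trans (yonedaEquiv.apply_symm_apply _)
  replace h := (homEquiv_eq_pull B Ch _).symm.trans h
  have h1 : Scheme.LocalRepresentability.toGlued (F := B.sheaf) (isOpenImmersion_chartMap B Ch) i ≫
      toBase B Ch = specMap k (Ch.H i) := congrArg Bridge.FPt.base h
  have h2 : Smooth (specMap k (Ch.H i)) :=
    (HasRingHomProperty.Spec_iff (P := @Smooth.{u})).mpr
      (RingHom.smooth_algebraMap.mpr (Ch.smooth i))
  exact h1.symm ▸ h2

theorem smooth_toBase : Smooth (toBase B Ch) := by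
  have : IsZariskiLocalAtSource (@Smooth.{u} : MorphismProperty Scheme.{u}) :=
    HasRingHomProperty.instIsZariskiLocalAtSource (P := @Smooth.{u})
  exact IsZariskiLocalAtSource.of_openCover (P := (@Smooth.{u} : MorphismProperty Scheme.{u}))
    (Scheme.LocalRepresentability.glueData (F := B.sheaf)
      (isOpenImmersion_chartMap B Ch)).openCover fun i => smooth_toGlued_toBase B Ch i

/-- The element of the trivial bundle over `k`. -/
def zeroElem : B.FPt (Spec (CommRingCat.of k)) :=
  Bridge.FPt.mk' B (𝟙 _) (Quotient.mk _ (RigidifiedLineBundle.unit (𝟙 _))) (B.dz_unit _)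

/-- The designation. -/
def design : RelativePic0Designation k c where
  P := jacobian B Ch
  toBase := toBase B Ch
  zeroSection := (existsUnique_pull B Ch (zeroElem B)).choose
  zeroSection_toBase :=
    congrArg Bridge.FPt.base (existsUnique_pull B Ch (zeroElem B)).choose_spec.1

theorem pull_univ_eq_iff {T : Scheme.{u}} {t : T ⟶ Spec (CommRingCat.of k)}
    (g : SchemeHomOver t (toBase B Ch)) (x : Classes c ε t) (hx : B.DZ t x) :
    (univElem B Ch).pull g.1 = Bridge.FPt.mk' B t x hx ↔
      classesMap g (univElem B Ch).val = x := by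
  rw [congrArg (Bridge.FPt.pull g.1) (univElem B Ch).eq_mk',
    Bridge.FPt.pull_mk' _ _ _ _ _ g.2, Bridge.FPt.mk'_eq_mk'_iff]

/-- The representation of degree zero classes. -/
def represents : RepresentsRelSubPic c ε B.dzCut (design B Ch) where
  poincare := (univElem B Ch).val.out
  poincare_mem := by
    show B.DZ _ (Quotient.mk _ (univElem B Ch).val.out)
    exact (Quotient.out_eq (univElem B Ch).val).symm ▸ (univElem B Ch).dz
  univ := fun {T} t M hM => by
    obtain ⟨g, hg, huniq⟩ := existsUnique_pull B Ch (Bridge.FPt.mk' B t (Quotient.mk _ M) hM)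
    have hgt : g ≫ toBase B Ch = t := congrArg Bridge.FPt.base hg
    have key : ∀ g' : SchemeHomOver t (toBase B Ch),
        Nonempty ((((univElem B Ch).val.out).pullbackAlong g').L ≅ M.L) ↔
          (univElem B Ch).pull g'.1 = Bridge.FPt.mk' B t (Quotient.mk _ M) hM := by
      intro g'
      refine Iff.trans ?_ (pull_univ_eq_iff B Ch g' _ hM).symm
      have h := congrArg (classesMap g') (Quotient.out_eq (univElem B Ch).val)
      exact ⟨fun e => h.symm.trans (Quotient.sound e), fun e => Quotient.exact (h.trans e)⟩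
    exact ⟨⟨g, hgt⟩, (key _).mpr hg, fun g' hg' => Subtype.ext (huniq _ ((key g').mp hg'))⟩
  zero := by
    have h := (pull_univ_eq_iff B Ch
      (⟨_, (design B Ch).zeroSection_toBase⟩ : SchemeHomOver (𝟙 _) (toBase B Ch)) _
        (B.dz_unit _)).mp (existsUnique_pull B Ch (zeroElem B)).choose_spec.1
    exact Quotient.exact ((congrArg (classesMap _) (Quotient.out_eq (univElem B Ch).val)).trans h)

end Charts

end Fermat.Agent.RelPic
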