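import Fermat.Agent.RelPic.Rigid

/-!
# Twisting a bundle to a rigidified one
-/

set_option autoImplicit false
set_option linter.style.haveILetI false
set_option linter.unusedSectionVars false

universe u

open TensorProduct

noncomputable section

namespace Fermat.Agent.RelPic

variable {k : Type u} [Field k] {X : Model k} {R : Type u} [CommRing R] [Algebra k R]

namespace Pre

/-- A bundle with a section generating it on both pieces is trivial. -/
theorem iso_unit_of_section {L : Pre X R} (h : L.Good) (u : L.N) (hu0 : u ∈ L.M0)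
    (hu1 : u ∈ L.M1) (f : L.N →ₗ[B01 X R] B01 X R) (hf : f u = 1)
    (hf0 : ∀ x ∈ L.M0, f x ∈ (res0 X R).toLinearMap.range)
    (hf1 : ∀ x ∈ L.M1, f x ∈ (res1 X R).toLinearMap.range) : Iso L (Pre.unit X R) := by
  haveI := h.invertible
  have hb : Function.Bijective f :=
    Module.Invertible.bijective_of_surjective fun b => ⟨b • u, by rw [map_smul, hf, smul_eq_mul, mul_one]⟩
  let e := LinearEquiv.ofBijective f hb
  have he : ∀ b : B01 X R, e.symm b = b • u := fun b => by
    rw [LinearEquiv.symm_apply_eq]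
    show b = f (b • u)
    rw [map_smul, hf, smul_eq_mul, mul_one]
  refine Iso.of_le e hf0 ?_ hf1 ?_
  · rintro _ ⟨a, rfl⟩
    rw [he]
    exact h.res0_smul_mem a hu0
  · rintro _ ⟨a, rfl⟩
    rw [he]
    exact h.res1_smul_mem a hu1

variable (X)

/-- The bundle pulled back from an `R`-module. -/
abbrev ofModule (P : Type u) [AddCommGroup P] [Module R P] : Pre X R where
  N := B01 X R ⊗[R] P
  M0 := LinearMap.range ((res0 X R).toLinearMap.rTensor P)
  M1 := LinearMap.range ((res1 X R).toLinearMap.rTensor P)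

variable {X} {P : Type u} [AddCommGroup P] [Module R P]

/-- A functional on `P`, extended. -/
def extFun (μ : P →ₗ[R] R) : B01 X R ⊗[R] P →ₗ[B01 X R] B01 X R :=
  (AlgebraTensorModule.rid R (B01 X R) (B01 X R)).toLinearMap ∘ₗ μ.baseChange (B01 X R)

theorem extFun_tmul (μ : P →ₗ[R] R) (b : B01 X R) (p : P) : extFun μ (b ⊗ₜ p) = μ p • b := by
  simp [extFun]

theorem extFun_mem {B : Type u} [CommRing B] [Algebra R B] (res : B →ₐ[R] B01 X R)
    (μ : P →ₗ[R] R) {x : B01 X R ⊗[R] P} (hx : x ∈ LinearMap.range (res.toLinearMap.rTensor P)) :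
    extFun μ x ∈ res.toLinearMap.range := by
  obtain ⟨z, rfl⟩ := hx
  induction z with
  | zero => simp
  | tmul b p =>
      rw [LinearMap.rTensor_tmul, extFun_tmul]
      exact Submodule.smul_mem _ _ ⟨b, rfl⟩
  | add a b ha hb => simp only [map_add]; exact add_mem ha hb

theorem isLattice_ofModule {B : Type u} [CommRing B] [Algebra R B] (res : B →ₐ[R] B01 X R)
    [Module.Finite R P] [Module.Projective R P] :
    IsLattice res (LinearMap.range (res.toLinearMap.rTensor P)) := by
  obtain ⟨n, f, g, hf, -, hfg⟩ := Module.Finite.exists_comp_eq_id_of_projective R P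
  have hP : ∀ p, p = ∑ i, g p i • f (Pi.single i 1) := by
    intro p
    conv_lhs => rw [← LinearMap.id_apply (R := R) p, ← hfg, LinearMap.comp_apply,
      pi_eq_sum_univ (g p), map_sum]
    refine Finset.sum_congr rfl fun i _ => ?_
    rw [map_smul]
    congr 2
    ext j
    simp [Pi.single_apply, eq_comm]
  refine IsLattice.of_stable (fun i => (1 : B01 X R) ⊗ₜ[R] f (Pi.single i 1))
    (fun i => extFun ((LinearMap.proj i).comp g))
    (fun i => ⟨(1 : B) ⊗ₜ[R] f (Pi.single i 1), by simp⟩) (fun x => ?_) (fun b x hx => ?_)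
    (fun x hx i => extFun_mem res _ hx)
  · induction x using TensorProduct.induction_on with
    | zero => simp
    | tmul b p =>
        conv_lhs => rw [hP p, tmul_sum]
        refine Finset.sum_congr rfl fun i _ => ?_
        rw [extFun_tmul, smul_tmul', smul_eq_mul, mul_one, smul_tmul]
        rfl
    | add a b ha hb =>
        conv_lhs => rw [ha, hb]
        simp only [map_add, add_smul, Finset.sum_add_distrib]
  · obtain ⟨z, rfl⟩ := hx
    induction z with
    | zero => simp
    | tmul a p =>
        refine ⟨(b * a) ⊗ₜ p, ?_⟩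
        rw [LinearMap.rTensor_tmul, LinearMap.rTensor_tmul, smul_tmul', smul_eq_mul]
        congr 1
        exact map_mul res b a
    | add c d hc hd => simp only [map_add, smul_add]; exact add_mem hc hd

theorem good_ofModule [Module.Invertible R P] : (ofModule X (R := R) P).Good where
  invertible := inferInstanceAs (Module.Invertible (B01 X R) (B01 X R ⊗[R] P))
  lattice0 := isLattice_ofModule _
  lattice1 := isLattice_ofModule _

theorem exists_trace [Module.Invertible R P] :
    ∃ (n : ℕ) (p : Fin n → P) (μ : Fin n → P →ₗ[R] R), ∑ i, μ i (p i) = 1 := by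
  obtain ⟨n, f, g, hf, -, hfg⟩ := Module.Finite.exists_comp_eq_id_of_projective R P
  refine ⟨n, fun i => f (Pi.single i 1), fun i => (LinearMap.proj i).comp g, ?_⟩
  apply (Module.Invertible.toModuleEnd_bijective R P).1
  refine LinearMap.ext fun x => ?_
  show (∑ i, g (f (Pi.single i 1)) i) • x = (1 : R) • x
  rw [one_smul, Finset.sum_smul]
  conv_rhs => rw [← LinearMap.id_apply (R := R) x, ← hfg, LinearMap.comp_apply,
    pi_eq_sum_univ (g x), map_sum]
  refine Finset.sum_congr rfl fun i _ => ?_
  rw [map_smul]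
  refine Eq.trans
    (Good.exists_eq_smul.rank_one ((LinearMap.proj i).comp g) (f (Pi.single i 1)) x) ?_
  show g x i • _ = _
  congr 2
  ext j
  simp [Pi.single_apply, eq_comm]

section Tower

attribute [local instance] b01Algebra

variable {R' : Type u} [CommRing R'] [Algebra k R'] [Algebra R R'] [IsScalarTower k R R']

theorem ofModule_bc_iso_unit_toAlgHom [Module.Invertible R P] (p : P) (μ : P →ₗ[R] R)
    (h : IsUnit (algebraMap R R' (μ p))) :
    Iso ((ofModule X (R := R) P).bc (IsScalarTower.toAlgHom k R R')) (Pre.unit X R') := by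
  obtain ⟨c, hc⟩ := h.exists_left_inv
  have hG := good_ofModule (X := X) (R := R) (P := P)
  let L := ofModule X (R := R) P
  let u : (L.bc (IsScalarTower.toAlgHom k R R')).N := c • L.incl R' ((1 : B01 X R) ⊗ₜ[R] p)
  refine iso_unit_of_section hG.bc_toAlgHom u ?_ ?_ (L.bcFun R' (extFun μ)) ?_ ?_ ?_
  · rw [bc_M0 hG]
    exact Submodule.smul_mem _ _ (incl_mem_bcS ⟨(1 : R ⊗[k] X.A0) ⊗ₜ p, by simp⟩)
  · rw [bc_M1 hG]
    exact Submodule.smul_mem _ _ (incl_mem_bcS ⟨(1 : R ⊗[k] X.A1) ⊗ₜ p, by simp⟩)
  · rw [LinearMap.map_smul_of_tower, bcFun_incl, extFun_tmul, ← Algebra.algebraMap_eq_smul_one,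
      Algebra.TensorProduct.algebraMap_apply, Algebra.algebraMap_self_apply, bMap_tmul,
      smul_tmul', smul_eq_mul, IsScalarTower.toAlgHom_apply, hc]
    rfl
  · intro x hx
    rw [bc_M0 hG] at hx
    induction hx using Submodule.span_induction with
    | mem y hy =>
        obtain ⟨x, hx, rfl⟩ := hy
        rw [bcFun_incl]
        obtain ⟨b, hb⟩ := extFun_mem (res0 X R) μ hx
        exact ⟨_, ((bMap_res0 _ b).symm.trans
          (congrArg (bMap X R (IsScalarTower.toAlgHom k R R')) hb))⟩
    | zero => rw [map_zero]; exact zero_mem _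
    | add a b _ _ ha hb => rw [map_add]; exact add_mem ha hb
    | smul r a _ ha => rw [LinearMap.map_smul_of_tower]; exact Submodule.smul_mem _ r ha
  · intro x hx
    rw [bc_M1 hG] at hx
    induction hx using Submodule.span_induction with
    | mem y hy =>
        obtain ⟨x, hx, rfl⟩ := hy
        rw [bcFun_incl]
        obtain ⟨b, hb⟩ := extFun_mem (res1 X R) μ hx
        exact ⟨_, ((bMap_res1 _ b).symm.trans
          (congrArg (bMap X R (IsScalarTower.toAlgHom k R R')) hb))⟩
    | zero => rw [map_zero]; exact zero_mem _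
    | add a b _ _ ha hb => rw [map_add]; exact add_mem ha hb
    | smul r a _ ha => rw [LinearMap.map_smul_of_tower]; exact Submodule.smul_mem _ r ha

end Tower

theorem ofModule_bc_iso_unit [Module.Invertible R P] {S : Type u} [CommRing S] [Algebra k S]
    [IsLocalRing S] (φ : R →ₐ[k] S) :
    Iso ((ofModule X (R := R) P).bc φ) (Pre.unit X S) := by
  obtain ⟨n, p, μ, h1⟩ := exists_trace (R := R) (P := P)
  obtain ⟨i, hi⟩ : ∃ i, IsUnit (φ (μ i (p i))) := by
    by_contra hne
    simp only [not_exists, ← mem_nonunits_iff, ← IsLocalRing.mem_maximalIdeal] at hne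
    have : φ (∑ i, μ i (p i)) ∈ IsLocalRing.maximalIdeal S := by
      rw [map_sum]; exact sum_mem fun i _ => hne i
    rw [h1, map_one] at this
    exact (IsLocalRing.maximalIdeal.isMaximal S).ne_top ((Ideal.eq_top_iff_one _).mpr this)
  letI := φ.toRingHom.toAlgebra
  haveI : IsScalarTower k R S := IsScalarTower.of_algebraMap_eq' φ.comp_algebraMap.symm
  exact ofModule_bc_iso_unit_toAlgHom (R' := S) (p i) (μ i) hi

/-- Any bundle becomes rigid after twisting by an invertible module on the base; this changes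
nothing at points with values in local rings. -/
theorem Good.exists_rigid {L : Pre X R} (h : L.Good) :
    ∃ L' : Pre X R, L'.Good ∧ L'.Rigid ∧
      (∀ (S : Type u) [CommRing S] [Algebra k S] [IsLocalRing S] (φ : R →ₐ[k] S),
        Iso (L'.bc φ) (L.bc φ)) ∧
      ∃ (P : Type u) (_ : AddCommGroup P) (_ : Module R P) (_ : Module.Invertible R P),
        Iso L' (L.tensor (ofModule X P)) := by
  classical
  obtain ⟨n, s, l, hs, hsum, hmem⟩ := h.lattice0
  have hl : ∀ x ∈ L.M0, ∀ i, l i x ∈ (res0 X R).toLinearMap.range :=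
    fun x hx i => (hmem x).mp hx i
  let π0 : L.M0 →ₗ[R] (Fin n → R) := LinearMap.pi fun i =>
    ev0 X R ∘ₗ (((l i).restrictScalars R).comp L.M0.subtype).codRestrict _ fun x => hl x x.2 i
  have hπ0 : ∀ x i, π0 x i = ev0 X R ⟨l i (x : L.N), hl x x.2 i⟩ := fun x i => rfl
  have hcomp : ∀ j, L.IsEval ((LinearMap.proj j).comp π0) := by
    intro j
    have e : (LinearMap.proj j).comp π0 = evalMap l hl (Pi.single j 1) := by
      refine LinearMap.ext fun x => ?_
      rw [evalMap_apply]
      simp [Pi.single_apply, hπ0]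
    rw [e]
    exact isEval_evalMap _ _ _
  have hcoef : ∀ x, π0 x = ∑ i, π0 x i • π0 ⟨s i, hs i⟩ := by
    intro x
    funext j
    rw [Finset.sum_apply]
    exact IsEval.exists_coeff hs hsum hmem h.lattice0 (hcomp j) x
  haveI := h.invertible
  have htr : ∑ i, π0 ⟨s i, hs i⟩ i = 1 := by
    have h1 : (1 : B01 X R) = ∑ i, l i (s i) := by
      apply (Module.Invertible.toModuleEnd_bijective (B01 X R) L.N).1
      refine LinearMap.ext fun x => ?_
      show (1 : B01 X R) • x = (∑ i, l i (s i)) • x
      rw [one_smul, Finset.sum_smul]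
      conv_lhs => rw [hsum x]
      exact Finset.sum_congr rfl fun i _ => Good.exists_eq_smul.rank_one (l i) x (s i)
    simp only [hπ0]
    rw [← map_sum]
    have : (∑ i, (⟨l i (s i), hl _ (hs i) i⟩ : (res0 X R).toLinearMap.range)) =
        ⟨res0 X R 1, ⟨1, rfl⟩⟩ := by
      apply Subtype.ext
      rw [Submodule.coe_sum]
      exact h1.symm.trans (map_one _).symm
    exact (congrArg (ev0 X R) this).trans ((ev0_res0 1 ⟨1, rfl⟩).trans (map_one _))
  let F : Submodule R (Fin n → R) := LinearMap.range π0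
  let ret : (Fin n → R) →ₗ[R] F := Fintype.linearCombination R fun i => π0.rangeRestrict ⟨s i, hs i⟩
  have hret : ∀ v : F, ret v = v := by
    rintro ⟨_, x, rfl⟩
    apply Subtype.ext
    simp only [ret, Fintype.linearCombination_apply, Submodule.coe_sum, Submodule.coe_smul,
      LinearMap.codRestrict_apply, LinearMap.rangeRestrict]
    exact (hcoef x).symm
  have hFsum : ∀ v : F, v = ∑ i, (v : Fin n → R) i • π0.rangeRestrict ⟨s i, hs i⟩ := fun v => by
    conv_lhs => rw [← hret v]
    rw [Fintype.linearCombination_apply]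
  have hrank : ∀ (v w : F) (i j : Fin n), (v : Fin n → R) i * (w : Fin n → R) j =
      (w : Fin n → R) i * (v : Fin n → R) j := by
    rintro ⟨_, x, rfl⟩ ⟨_, y, rfl⟩ i j
    obtain ⟨a, ha⟩ := hl x x.2 i
    obtain ⟨b, hb⟩ := hl y y.2 j
    obtain ⟨c, hc⟩ := hl y y.2 i
    obtain ⟨d, hd⟩ := hl x x.2 j
    show π0 x i * π0 y j = π0 y i * π0 x j
    rw [hπ0, hπ0, hπ0, hπ0, (congrArg (ev0 X R) (Subtype.ext ha.symm)).trans (ev0_res0 a ⟨_, rfl⟩),
      (congrArg (ev0 X R) (Subtype.ext hb.symm)).trans (ev0_res0 b ⟨_, rfl⟩),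
      (congrArg (ev0 X R) (Subtype.ext hc.symm)).trans (ev0_res0 c ⟨_, rfl⟩),
      (congrArg (ev0 X R) (Subtype.ext hd.symm)).trans (ev0_res0 d ⟨_, rfl⟩), ← map_mul, ← map_mul]
    congr 1
    apply res0_injective X R
    rw [map_mul, map_mul]
    change res0 X R a = _ at ha
    change res0 X R b = _ at hb
    change res0 X R c = _ at hc
    change res0 X R d = _ at hd
    rw [ha, hb, hc, hd]
    rw [mul_comm (l i (y : L.N)), ← smul_eq_mul, ← smul_eq_mul, ← map_smul, ← map_smul,
      Good.exists_eq_smul.rank_one (l j) (x : L.N) (y : L.N), map_smul, map_smul, smul_eq_mul,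
      smul_eq_mul, mul_comm]
  haveI : Module.Finite R F := Module.Finite.of_surjective ret fun v => ⟨_, hret v⟩
  haveI : Module.Projective R F :=
    Module.Projective.of_split F.subtype ret (LinearMap.ext hret)
  haveI : Module.Invertible R F := by
    refine ⟨fun a b hab => ?_, fun r => ⟨r • ∑ i, ((LinearMap.proj i).comp F.subtype) ⊗ₜ[R]
      π0.rangeRestrict ⟨s i, hs i⟩, ?_⟩⟩
    · have key : ∀ z : Module.Dual R F ⊗[R] F, z = contractLeft R F z •
          ∑ i, ((LinearMap.proj i).comp F.subtype) ⊗ₜ[R] π0.rangeRestrict ⟨s i, hs i⟩ := by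
        intro z
        induction z with
        | zero => simp
        | tmul f v =>
            rw [contractLeft_apply, Finset.smul_sum]
            have hf : f = ∑ i, f (π0.rangeRestrict ⟨s i, hs i⟩) • (LinearMap.proj i).comp F.subtype :=
              LinearMap.ext fun w => by
                conv_lhs => rw [hFsum w]
                simp [mul_comm]
            conv_lhs => rw [hf, sum_tmul]
            refine Finset.sum_congr rfl fun i _ => ?_
            rw [smul_tmul, ← tmul_smul]
            congr 1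
            apply Subtype.ext
            funext j
            have e1 := hrank v (π0.rangeRestrict ⟨s i, hs i⟩)
            have e2 : f v = ∑ t, (v : Fin n → R) t * f (π0.rangeRestrict ⟨s t, hs t⟩) := by
              conv_lhs => rw [hFsum v]
              simp
            have e3 : f (π0.rangeRestrict ⟨s i, hs i⟩) = ∑ t,
                ((π0.rangeRestrict ⟨s i, hs i⟩ : F) : Fin n → R) t *
                  f (π0.rangeRestrict ⟨s t, hs t⟩) := by
              conv_lhs => rw [hFsum (π0.rangeRestrict ⟨s i, hs i⟩)]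
              simp
            simp only [Submodule.coe_smul, Pi.smul_apply, smul_eq_mul]
            rw [e2, e3, Finset.sum_mul, Finset.sum_mul]
            refine Finset.sum_congr rfl fun t _ => ?_
            rw [mul_right_comm, ← e1 t j, mul_right_comm]
        | add c d hc hd => rw [map_add, add_smul, ← hc, ← hd]
      rw [key a, hab, ← key b]
    · rw [map_smul, map_sum]
      simp only [contractLeft_apply, LinearMap.comp_apply, Submodule.coe_subtype,
        LinearMap.proj_apply, LinearMap.codRestrict_apply, LinearMap.rangeRestrict, htr, smul_eq_mul, mul_one]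
  let P := Module.Dual R F
  have hG' : (L.tensor (ofModule X (R := R) P)).Good := h.tensor good_ofModule
  refine ⟨L.tensor (ofModule X P), hG', ?_, fun S _ _ _ φ => ?_,
    P, inferInstance, inferInstance, inferInstance, Iso.refl _⟩
  · -- rigidity
    let lt : Fin (n * n) → (L.tensor (ofModule X (R := R) P)).N →ₗ[B01 X R] B01 X R := fun q =>
      (TensorProduct.lid (B01 X R) (B01 X R)).toLinearMap ∘ₗ
        TensorProduct.map (l (finProdFinEquiv.symm q).1)
          (extFun (LinearMap.applyₗ (π0.rangeRestrict ⟨s (finProdFinEquiv.symm q).2, hs _⟩)))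
    have hlt : ∀ x ∈ (L.tensor (ofModule X (R := R) P)).M0, ∀ q,
        lt q x ∈ (res0 X R).toLinearMap.range := by
      intro x hx q
      induction hx using Submodule.span_induction with
      | mem y hy =>
          obtain ⟨a, ha, b, hb, rfl⟩ := hy
          exact mul_mem (s := (res0 X R).range) ((hmem a).mp ha _) (extFun_mem _ _ hb)
      | zero => rw [map_zero]; exact zero_mem _
      | add a b _ _ ha hb => rw [map_add]; exact add_mem ha hb
      | smul r a _ ha => rw [LinearMap.map_smul_of_tower]; exact Submodule.smul_mem _ r ha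
    let ρ := evalMap lt hlt fun q =>
      π0 ⟨s (finProdFinEquiv.symm q).1, hs _⟩ (finProdFinEquiv.symm q).2
    refine ⟨ρ, ?_, isEval_evalMap _ _ _⟩
    have hmi : ∀ i, s i ⊗ₜ[B01 X R] ((1 : B01 X R) ⊗ₜ[R] ((LinearMap.proj i).comp F.subtype : P))
        ∈ (L.tensor (ofModule X (R := R) P)).M0 := fun i =>
      tmul_mem_tensor_M0 (hs i)
        ⟨(1 : R ⊗[k] X.A0) ⊗ₜ ((LinearMap.proj i).comp F.subtype : P), by simp⟩
    refine surjective_of_eq_one (m := ∑ i, ⟨_, hmi i⟩) ?_
    rw [map_sum, ← htr]
    refine Finset.sum_congr rfl fun i _ => ?_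
    rw [evalMap_apply]
    calc _ = ∑ q : Fin (n * n), π0 ⟨s (finProdFinEquiv.symm q).1, hs _⟩ (finProdFinEquiv.symm q).2 *
          (π0 ⟨s i, hs i⟩ (finProdFinEquiv.symm q).1 *
            π0 ⟨s (finProdFinEquiv.symm q).2, hs _⟩ i) := by
          refine Finset.sum_congr rfl fun q _ => ?_
          congr 1
          obtain ⟨a, ha⟩ := hl _ (hs i) (finProdFinEquiv.symm q).1
          have e : lt q (s i ⊗ₜ[B01 X R] ((1 : B01 X R) ⊗ₜ[R]
              ((LinearMap.proj i).comp F.subtype : P))) =
              res0 X R (π0 ⟨s (finProdFinEquiv.symm q).2, hs _⟩ i • a) := by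
            show l _ (s i) • extFun _ ((1 : B01 X R) ⊗ₜ[R] _) = _
            rw [extFun_tmul, smul_comm, smul_eq_mul, mul_one, map_smul]
            congr 1
            exact ha.symm
          rw [(congrArg (ev0 X R) (Subtype.ext e)).trans (ev0_res0 _ ⟨_, rfl⟩), map_smul,
            smul_eq_mul, mul_comm]
          congr 1
          exact ((congrArg (ev0 X R) (Subtype.ext ha.symm)).trans (ev0_res0 a ⟨_, rfl⟩)).symm
      _ = ∑ p : Fin n × Fin n, π0 ⟨s p.1, hs _⟩ p.2 *
            (π0 ⟨s i, hs i⟩ p.1 * π0 ⟨s p.2, hs _⟩ i) :=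
          finProdFinEquiv.symm.sum_comp fun p : Fin n × Fin n =>
            π0 ⟨s p.1, hs _⟩ p.2 * (π0 ⟨s i, hs i⟩ p.1 * π0 ⟨s p.2, hs _⟩ i)
      _ = ∑ t, π0 ⟨s i, hs i⟩ t * π0 ⟨s t, hs t⟩ i := by
          rw [Fintype.sum_prod_type, Finset.sum_comm]
          refine Finset.sum_congr rfl fun j _ => ?_
          rw [show π0 ⟨s i, hs i⟩ j = ∑ t, π0 ⟨s i, hs i⟩ t * π0 ⟨s t, hs t⟩ j by
            conv_lhs => rw [hcoef ⟨s i, hs i⟩]
            simp [Finset.sum_apply], Finset.sum_mul]
          exact Finset.sum_congr rfl fun t _ => by ring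
      _ = _ := by
          conv_rhs => rw [hcoef ⟨s i, hs i⟩]
          simp [Finset.sum_apply]
  · exact (bc_tensor L _ φ).trans ((tensor_congr (Iso.refl _) (ofModule_bc_iso_unit φ)).trans
      ((tensor_comm _ _).trans (tensor_unit (h.bc φ))))

/-- Two evaluations on a bundle are proportional. -/
theorem IsEval.mul_comm {L : Pre X R} (h : L.Good) {ν ρ : L.M0 →ₗ[R] R} (hν : L.IsEval ν)
    (hρ : L.IsEval ρ) (x y : L.M0) : ν x * ρ y = ν y * ρ x := by
  obtain ⟨n, s, l, hs, hsum, hmem⟩ := h.lattice0
  haveI := h.invertible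
  rw [hν.exists_coeff hs hsum hmem h.lattice0 x, hρ.exists_coeff hs hsum hmem h.lattice0 y,
    hν.exists_coeff hs hsum hmem h.lattice0 y, hρ.exists_coeff hs hsum hmem h.lattice0 x,
    Finset.sum_mul_sum, Finset.sum_mul_sum]
  refine Finset.sum_congr rfl fun i _ => Finset.sum_congr rfl fun j _ => ?_
  obtain ⟨a, ha⟩ := (hmem x).mp x.2 i
  obtain ⟨b, hb⟩ := (hmem y).mp y.2 j
  obtain ⟨c, hc⟩ := (hmem y).mp y.2 i
  obtain ⟨d, hd⟩ := (hmem x).mp x.2 j
  have key : a * b = c * d := by
    apply res0_injective X R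
    change res0 X R a = _ at ha
    change res0 X R b = _ at hb
    change res0 X R c = _ at hc
    change res0 X R d = _ at hd
    rw [map_mul, map_mul, ha, hb, hc, hd, ← smul_eq_mul, ← map_smul,
      Good.exists_eq_smul.rank_one (l i) (x : L.N) (y : L.N), map_smul, smul_eq_mul]
  have key' : evR X R a * evR X R b = evR X R c * evR X R d := by
    rw [← map_mul, key, map_mul]
  rw [(congrArg (ev0 X R) (Subtype.ext ha.symm)).trans (ev0_res0 a ⟨_, rfl⟩),
    (congrArg (ev0 X R) (Subtype.ext hb.symm)).trans (ev0_res0 b ⟨_, rfl⟩),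
    (congrArg (ev0 X R) (Subtype.ext hc.symm)).trans (ev0_res0 c ⟨_, rfl⟩),
    (congrArg (ev0 X R) (Subtype.ext hd.symm)).trans (ev0_res0 d ⟨_, rfl⟩)]
  linear_combination (ν ⟨s i, hs i⟩ * ρ ⟨s j, hs j⟩) * key'

/-- A rigid bundle is determined inside its class modulo invertible modules on the base. -/
theorem Rigid.iso_of_iso_tensor_ofModule [Module.Invertible R P] {L L' : Pre X R} (h : L.Good)
    (hL : L.Rigid) (hL' : L'.Rigid) (e : Iso L' (L.tensor (ofModule X (R := R) P))) :
    Iso L' L := by
  obtain ⟨ρ', hρ', he'⟩ := hL'.congr e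
  obtain ⟨ρ, hρ, he⟩ := hL
  obtain ⟨m1, hm1⟩ := hρ 1
  have hmem : ∀ (x : L.M0) (p : P), (x : L.N) ⊗ₜ[B01 X R] ((1 : B01 X R) ⊗ₜ[R] p) ∈
      (L.tensor (ofModule X (R := R) P)).M0 := fun x p =>
    tmul_mem_tensor_M0 x.2 ⟨(1 : R ⊗[k] X.A0) ⊗ₜ p, by simp⟩
  let μ : P →ₗ[R] R :=
    { toFun := fun p => ρ' ⟨_, hmem m1 p⟩
      map_add' := fun p q => by
        rw [← map_add]; congr 1; exact Subtype.ext (by simp [tmul_add])
      map_smul' := fun r p => by
        rw [RingHom.id_apply, ← map_smul]
        congr 1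
        refine Subtype.ext ?_
        show (m1 : L.N) ⊗ₜ[B01 X R] ((1 : B01 X R) ⊗ₜ[R] (r • p)) = r • _
        rw [tmul_smul, tmul_smul] }
  have hν : ∀ (x : L.M0) (p : P), ρ' ⟨_, hmem x p⟩ = ρ x * μ p := by
    intro x p
    let ν : L.M0 →ₗ[R] R :=
      { toFun := fun x => ρ' ⟨_, hmem x p⟩
        map_add' := fun a b => by
          rw [← map_add]; congr 1; exact Subtype.ext (by simp [add_tmul])
        map_smul' := fun r a => by
          rw [RingHom.id_apply, ← map_smul]; congr 1 }
    have hνe : L.IsEval ν := fun b m m' hm => he' b ⟨_, hmem m p⟩ ⟨_, hmem m' p⟩ (by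
      show (m' : L.N) ⊗ₜ[B01 X R] _ = _
      rw [hm, smul_tmul'])
    have := IsEval.mul_comm h hνe he x m1
    rw [hm1, mul_one] at this
    exact this.trans (_root_.mul_comm _ _)
  have hsurj : Function.Surjective μ := by
    rw [← LinearMap.range_eq_top]
    refine top_le_iff.mp fun r _ => ?_
    obtain ⟨⟨z, hz⟩, rfl⟩ := hρ' r
    induction hz using Submodule.span_induction with
    | mem y hy =>
        obtain ⟨a, ha, b, hb, rfl⟩ := hy
        obtain ⟨w, rfl⟩ := hb
        induction w with
        | zero =>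
            convert (LinearMap.range μ).zero_mem
            exact (congrArg ρ' (Subtype.ext (by simp))).trans (map_zero ρ')
        | tmul c p =>
            refine ⟨(evR X R c * ρ ⟨a, ha⟩) • p, ?_⟩
            rw [map_smul, smul_eq_mul, mul_assoc, ← hν]
            refine (he' c ⟨_, hmem ⟨a, ha⟩ p⟩ _ ?_).symm
            show a ⊗ₜ[B01 X R] ((res0 X R).toLinearMap.rTensor P (c ⊗ₜ p)) = _
            rw [LinearMap.rTensor_tmul, ← tmul_smul, smul_tmul', smul_eq_mul, mul_one]
            rfl
        | add u v hu hv =>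
            convert add_mem (hu trivial) (hv trivial)
            rw [← map_add]
            exact congrArg ρ' (Subtype.ext (by simp [tmul_add]))
    | zero => exact ⟨0, by rw [map_zero]; exact (map_zero ρ').symm⟩
    | add u v hu' hv' hu hv =>
        convert add_mem (hu trivial) (hv trivial)
        rw [← map_add]; rfl
    | smul c u hu' hu =>
        convert Submodule.smul_mem _ c (hu trivial)
        rw [← map_smul]; rfl
  obtain ⟨p, hp⟩ := hsurj 1
  have hunit : Iso (ofModule X (R := R) P) (Pre.unit X R) :=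
    iso_unit_of_section good_ofModule ((1 : B01 X R) ⊗ₜ[R] p)
      ⟨(1 : R ⊗[k] X.A0) ⊗ₜ p, by simp⟩ ⟨(1 : R ⊗[k] X.A1) ⊗ₜ p, by simp⟩ (extFun μ)
      (by rw [extFun_tmul, hp, one_smul]) (fun x hx => extFun_mem _ _ hx)
      (fun x hx => extFun_mem _ _ hx)
  exact e.trans ((tensor_congr (Iso.refl _) hunit).trans ((tensor_comm _ _).trans (tensor_unit h)))

end Pre

end Fermat.Agent.RelPic
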