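import Fermat.Agent.RelPic.PointInfAlg
import Fermat.Agent.RelPic.ChartPoint
import Fermat.Agent.RelPic.DualBasis

/-!
# The bundle of a point of the piece at infinity

For an `R`-point `p` of `A1`, `pointPre1 p` is the bundle of functions vanishing along `p`.  It is
good, commutes with base change and agrees with the bundle of the point of `A0` on the overlap.
-/

set_option autoImplicit false
set_option linter.style.haveILetI false
set_option linter.unusedSectionVars false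

universe u

open TensorProduct Polynomial

noncomputable section

namespace Fermat.Agent.RelPic

variable {k : Type u} [Field k] {X : Model k} {R : Type u} [CommRing R] [Algebra k R]
  {R' : Type u} [CommRing R'] [Algebra k R']

/-- The ideal of an `R`-point of the piece at infinity. -/
def pointIdeal1 (p : X.A1 →ₐ[k] R) : Ideal (R ⊗[k] X.A1) := PointInf.ker p

theorem pointIdeal1_map (p : X.A1 →ₐ[k] R) (φ : R →ₐ[k] R') :
    (pointIdeal1 p).map (Algebra.TensorProduct.map φ (AlgHom.id k X.A1)).toRingHom =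
      pointIdeal1 (φ.comp p) :=
  PointInf.ker_map p φ

/-- The functions vanishing along the point `p`: the bundle `O(-p)`. -/
abbrev pointPre1 (p : X.A1 →ₐ[k] R) : Pre X R where
  N := ↥((pointIdeal1 p).map (res1 X R).toRingHom)
  M0 := (res0 X R).toLinearMap.range.comap
    (((pointIdeal1 p).map (res1 X R).toRingHom).subtype.restrictScalars R)
  M1 := (((pointIdeal1 p).restrictScalars R).map (res1 X R).toLinearMap).comap
    (((pointIdeal1 p).map (res1 X R).toRingHom).subtype.restrictScalars R)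

/-- A dual basis of the ideal of a point at infinity. -/
structure PointData (p : X.A1 →ₐ[k] R) where
  n : ℕ
  x : Fin n → R ⊗[k] X.A1
  y : Fin n → R ⊗[k] X.A1
  x_mem : ∀ i, x i ∈ pointIdeal1 p
  sum_eq : ∑ i, x i * y i = PointInf.diff p X.g
  dvd : ∀ z ∈ pointIdeal1 p, ∀ i, PointInf.diff p X.g ∣ z * y i

theorem nonempty_pointData [IsAlgClosed k] (p : X.A1 →ₐ[k] R) : Nonempty (PointData p) := by
  obtain ⟨J, hJ⟩ := PointInf.exists_mul_eq p X.injective1
  obtain ⟨n, x, y, hx, hsum, hdvd⟩ := exists_sum_mul_eq_of_mul_eq hJ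
  exact ⟨⟨n, x, y, hx, hsum, hdvd⟩⟩

namespace PointData

variable {p : X.A1 →ₐ[k] R} (d : PointData p)

/-- `g - p g` on the overlap. -/
def c (_d : PointData p) : B01 X R := res1 X R (PointInf.diff p X.g)

theorem res1_g_unit (n : ℕ) :
    res0 X R ((1 : R) ⊗ₜ X.f) ^ n * res1 X R ((1 : R) ⊗ₜ X.g) ^ n = 1 := by
  rw [← mul_pow, mul_comm, res1_g_mul_res0_f, one_pow]

theorem c_mul_cancel {w w' : B01 X R} (h : d.c * w = d.c * w') : w = w' := by
  suffices h' : ∀ z, d.c * z = 0 → z = 0 from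
    sub_eq_zero.mp (h' _ (by rw [mul_sub]; exact sub_eq_zero.mpr h))
  intro z hz
  obtain ⟨n, hn⟩ := exists_pow_mul_mem1 X R z
  obtain ⟨b, hb⟩ := hn n le_rfl
  replace hb : res1 X R b = res1 X R ((1 : R) ⊗ₜ X.g) ^ n * z := hb
  have hb0 : b = 0 := by
    refine PointInf.diff_mul_eq_zero X.injective1 X.finite1 (p X.g)
      (res1_injective (X := X) R ?_)
    show res1 X R (PointInf.diff p X.g * b) = _
    rw [map_mul, map_zero, hb, mul_left_comm]
    show _ * (d.c * z) = 0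
    rw [hz, mul_zero]
  rw [hb0, map_zero] at hb
  calc z = res0 X R ((1 : R) ⊗ₜ X.f) ^ n * (res1 X R ((1 : R) ⊗ₜ X.g) ^ n * z) := by
        rw [← mul_assoc, res1_g_unit, one_mul]
    _ = 0 := by rw [← hb, mul_zero]

/-- The coordinate functionals. -/
def l (i : Fin d.n) : ↥((pointIdeal1 p).map (res1 X R).toRingHom) →ₗ[B01 X R] B01 X R :=
  mulDivHom (fun _ _ => d.c_mul_cancel) fun _ hz =>
    exists_mul_eq_map_mul _ (fun b hb => d.dvd b hb i) hz

theorem c_mul_l (i : Fin d.n) (z : ↥((pointIdeal1 p).map (res1 X R).toRingHom)) :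
    d.c * d.l i z = (z : B01 X R) * res1 X R (d.y i) :=
  mul_mulDivHom _ _ z

/-- The generators on the overlap. -/
def s (i : Fin d.n) : ↥((pointIdeal1 p).map (res1 X R).toRingHom) :=
  ⟨res1 X R (d.x i), Ideal.mem_map_of_mem _ (d.x_mem i)⟩

theorem c_eq_sum : d.c = ∑ i, res1 X R (d.x i) * res1 X R (d.y i) := by
  rw [c, ← d.sum_eq, map_sum]
  exact Finset.sum_congr rfl fun i _ => map_mul _ _ _

theorem sum_l_mul (z : ↥((pointIdeal1 p).map (res1 X R).toRingHom)) :
    ∑ i, d.l i z * res1 X R (d.x i) = (z : B01 X R) :=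
  sum_mul_eq_of_mul_eq (fun _ _ => d.c_mul_cancel) (fun i => d.c_mul_l i z) d.c_eq_sum

theorem sum_l_smul (z : ↥((pointIdeal1 p).map (res1 X R).toRingHom)) :
    z = ∑ i, d.l i z • d.s i := by
  refine Subtype.ext ?_
  rw [AddSubmonoidClass.coe_finsetSum]
  exact (d.sum_l_mul z).symm

theorem l_mem_range1 (i : Fin d.n) (z : ↥((pointIdeal1 p).map (res1 X R).toRingHom))
    (hz : z ∈ (pointPre1 p).M1) : d.l i z ∈ (res1 X R).range := by
  obtain ⟨b, hb, hbz⟩ := hz
  obtain ⟨w, hw⟩ := d.dvd b hb i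
  refine ⟨w, d.c_mul_cancel ?_⟩
  rw [c_mul_l, ← show res1 X R b = (z : B01 X R) from hbz, ← map_mul, hw, map_mul]
  rfl

theorem smul_mem1 (b : R ⊗[k] X.A1) (z : ↥((pointIdeal1 p).map (res1 X R).toRingHom))
    (hz : z ∈ (pointPre1 p).M1) : res1 X R b • z ∈ (pointPre1 p).M1 := by
  obtain ⟨x, hx, hxz⟩ := hz
  refine ⟨b * x, (pointIdeal1 p).mul_mem_left b hx, ?_⟩
  show res1 X R (b * x) = res1 X R b * (z : B01 X R)
  rw [map_mul, show res1 X R x = (z : B01 X R) from hxz]

theorem smul_mem0 (b : R ⊗[k] X.A0) (z : ↥((pointIdeal1 p).map (res1 X R).toRingHom))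
    (hz : z ∈ (pointPre1 p).M0) : res0 X R b • z ∈ (pointPre1 p).M0 := by
  obtain ⟨x, hxz⟩ := hz
  refine ⟨b * x, ?_⟩
  show res0 X R (b * x) = res0 X R b * (z : B01 X R)
  rw [map_mul, show res0 X R x = (z : B01 X R) from hxz]

theorem s_mem1 (i : Fin d.n) : d.s i ∈ (pointPre1 p).M1 := ⟨d.x i, d.x_mem i, rfl⟩

theorem invertible (d : PointData p) :
    Module.Invertible (B01 X R) ↥((pointIdeal1 p).map (res1 X R).toRingHom) :=
  invertible_of_mul_eq (fun _ _ => d.c_mul_cancel) d.s (fun i => res1 X R (d.y i)) d.l d.c_mul_l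
    d.c_eq_sum.symm

/-- On the affine piece `f (g - p g) = 1 - p g f` is regular. -/
theorem f_mul_c : res0 X R ((1 : R) ⊗ₜ X.f) * d.c =
    1 - algebraMap R (B01 X R) (p X.g) * res0 X R ((1 : R) ⊗ₜ X.f) := by
  have e : d.c = res1 X R ((1 : R) ⊗ₜ X.g) - algebraMap R (B01 X R) (p X.g) := by
    rw [c, PointInf.diff, map_sub, sub_right_inj, ← (res1 X R).commutes]
    rfl
  rw [e, mul_sub, mul_comm _ (res1 X R _), res1_g_mul_res0_f, mul_comm]

theorem exists_M : ∃ M : ℕ,
    (∀ i, res0 X R ((1 : R) ⊗ₜ X.f) ^ M * res1 X R (d.x i) ∈ (res0 X R).range) ∧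
      ∀ i, res0 X R ((1 : R) ⊗ₜ X.f) ^ M * res1 X R (d.y i) ∈ (res0 X R).range := by
  choose nx hnx using fun i => exists_pow_mul_mem0 X R (res1 X R (d.x i))
  choose ny hny using fun i => exists_pow_mul_mem0 X R (res1 X R (d.y i))
  exact ⟨Finset.univ.sup nx + Finset.univ.sup ny,
    fun i => hnx i _ ((Finset.le_sup (Finset.mem_univ i)).trans (Nat.le_add_right _ _)),
    fun i => hny i _ ((Finset.le_sup (Finset.mem_univ i)).trans (Nat.le_add_left _ _))⟩

/-- The coefficient of `1 - p g f` in the partition of unity. -/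
def u (p : X.A1 →ₐ[k] R) (j : ℕ) : B01 X R :=
  ∑ i ∈ Finset.range j, (algebraMap R (B01 X R) (p X.g) * res0 X R ((1 : R) ⊗ₜ X.f)) ^ i

theorem u_mem (p : X.A1 →ₐ[k] R) (j : ℕ) : u p j ∈ (res0 X R).range :=
  sum_mem fun _ _ => pow_mem (mul_mem (Subalgebra.algebraMap_mem _ _)
    (AlgHom.mem_range_self _ _)) _

theorem u_eq (j : ℕ) : u p j * (res0 X R ((1 : R) ⊗ₜ X.f) * d.c) +
    algebraMap R (B01 X R) (p X.g) ^ j * res0 X R ((1 : R) ⊗ₜ X.f) ^ j = 1 := by
  rw [f_mul_c, u, geom_sum_mul_neg, ← mul_pow, sub_add_cancel]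

theorem f_pow_mul_l_mem {M : ℕ}
    (hM : ∀ i, res0 X R ((1 : R) ⊗ₜ X.f) ^ M * res1 X R (d.y i) ∈ (res0 X R).range)
    (i : Fin d.n) (z : ↥((pointIdeal1 p).map (res1 X R).toRingHom))
    (hz : (z : B01 X R) ∈ (res0 X R).range) :
    res0 X R ((1 : R) ⊗ₜ X.f) ^ M * d.l i z ∈ (res0 X R).range := by
  set F := res0 X R ((1 : R) ⊗ₜ X.f)
  set W := F ^ M * d.l i z
  obtain ⟨j, hj⟩ := exists_pow_mul_mem0 X R W
  have hc : F * d.c * W ∈ (res0 X R).range := by
    have e : F * d.c * W = F * ((z : B01 X R) * (F ^ M * res1 X R (d.y i))) := by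
      rw [show W = F ^ M * d.l i z from rfl, mul_left_comm (z : B01 X R), ← d.c_mul_l i z]
      ring
    rw [e]
    exact mul_mem (AlgHom.mem_range_self _ _) (mul_mem hz (hM i))
  have e : W = u p j * (F * d.c * W) + algebraMap R (B01 X R) (p X.g) ^ j * (F ^ j * W) := by
    linear_combination (-W) * (d.u_eq j)
  rw [e]
  exact add_mem (mul_mem (u_mem p j) hc)
    (mul_mem (pow_mem (Subalgebra.algebraMap_mem _ _) _) (hj j le_rfl))

/-- Generators of the lattice on the affine piece. -/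
def t (M : ℕ) : Option (Fin d.n) → ↥((pointIdeal1 p).map (res1 X R).toRingHom)
  | none => ⟨res0 X R ((1 : R) ⊗ₜ X.f) * d.c, Ideal.mul_mem_left _ _
      (Ideal.mem_map_of_mem _ (PointInf.diff_mem p X.g))⟩
  | some i => ⟨res0 X R ((1 : R) ⊗ₜ X.f) ^ M * res1 X R (d.x i),
      Ideal.mul_mem_left _ _ (Ideal.mem_map_of_mem _ (d.x_mem i))⟩

theorem t_mem0 {M : ℕ}
    (hM : ∀ i, res0 X R ((1 : R) ⊗ₜ X.f) ^ M * res1 X R (d.x i) ∈ (res0 X R).range)
    (o : Option (Fin d.n)) : d.t M o ∈ (pointPre1 p).M0 := by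
  rcases o with _ | i
  · show res0 X R ((1 : R) ⊗ₜ X.f) * d.c ∈ (res0 X R).range
    rw [f_mul_c]
    exact sub_mem (one_mem _) (mul_mem (Subalgebra.algebraMap_mem _ _) (AlgHom.mem_range_self _ _))
  · exact hM i

/-- The coordinates for the generators of the lattice on the affine piece. -/
def l0 (M : ℕ) : Option (Fin d.n) →
    ↥((pointIdeal1 p).map (res1 X R).toRingHom) →ₗ[B01 X R] B01 X R
  | none => u p (M + M) • ((pointIdeal1 p).map (res1 X R).toRingHom).subtype
  | some i => (algebraMap R (B01 X R) (p X.g) ^ (M + M) *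
      res0 X R ((1 : R) ⊗ₜ X.f) ^ M) • d.l i

theorem l0_mem {M : ℕ}
    (hM : ∀ i, res0 X R ((1 : R) ⊗ₜ X.f) ^ M * res1 X R (d.y i) ∈ (res0 X R).range)
    (z : ↥((pointIdeal1 p).map (res1 X R).toRingHom)) (hz : z ∈ (pointPre1 p).M0)
    (o : Option (Fin d.n)) : d.l0 M o z ∈ (res0 X R).range := by
  rcases o with _ | i
  · exact mul_mem (u_mem p _) hz
  · show _ * d.l i z ∈ _
    rw [mul_assoc]
    exact mul_mem (pow_mem (Subalgebra.algebraMap_mem _ _) _) (d.f_pow_mul_l_mem hM i z hz)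

theorem sum_l0_smul (M : ℕ) (z : ↥((pointIdeal1 p).map (res1 X R).toRingHom)) :
    z = ∑ o, d.l0 M o z • d.t M o := by
  refine Subtype.ext ?_
  rw [Fintype.sum_option, Submodule.coe_add, AddSubmonoidClass.coe_finsetSum]
  show (z : B01 X R) = (u p (M + M) * (z : B01 X R)) * (res0 X R ((1 : R) ⊗ₜ X.f) * d.c) +
    ∑ i : Fin d.n, ((algebraMap R (B01 X R) (p X.g) ^ (M + M) *
      res0 X R ((1 : R) ⊗ₜ X.f) ^ M) * d.l i z) *
        (res0 X R ((1 : R) ⊗ₜ X.f) ^ M * res1 X R (d.x i))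
  have e : ∀ i : Fin d.n, ((algebraMap R (B01 X R) (p X.g) ^ (M + M) *
      res0 X R ((1 : R) ⊗ₜ X.f) ^ M) * d.l i z) *
        (res0 X R ((1 : R) ⊗ₜ X.f) ^ M * res1 X R (d.x i)) =
      (algebraMap R (B01 X R) (p X.g) ^ (M + M) * res0 X R ((1 : R) ⊗ₜ X.f) ^ (M + M)) *
        (d.l i z * res1 X R (d.x i)) := fun i => by rw [pow_add (res0 X R _)]; ring
  simp only [e]
  rw [← Finset.mul_sum, d.sum_l_mul]
  linear_combination (-(z : B01 X R)) * (d.u_eq (M + M))

theorem lattice0 (d : PointData p) : Pre.IsLattice (res0 X R) (pointPre1 p).M0 := by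
  obtain ⟨M, hMx, hMy⟩ := d.exists_M
  exact Pre.IsLattice.of_stable (d.t M) (d.l0 M) (d.t_mem0 hMx) (d.sum_l0_smul M)
    smul_mem0 (d.l0_mem hMy)

theorem lattice1 (d : PointData p) : Pre.IsLattice (res1 X R) (pointPre1 p).M1 :=
  Pre.IsLattice.of_stable d.s d.l d.s_mem1 d.sum_l_smul smul_mem1
    (fun z hz i => d.l_mem_range1 i z hz)

/-- Base change of the data. -/
def map (φ : R →ₐ[k] R') : PointData (φ.comp p) where
  n := d.n
  x i := Algebra.TensorProduct.map φ (AlgHom.id k X.A1) (d.x i)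
  y i := Algebra.TensorProduct.map φ (AlgHom.id k X.A1) (d.y i)
  x_mem i := pointIdeal1_map p φ ▸ Ideal.mem_map_of_mem _ (d.x_mem i)
  sum_eq := by
    rw [← PointInf.map_diff, ← d.sum_eq, map_sum]
    exact Finset.sum_congr rfl fun i _ => (map_mul _ _ _).symm
  dvd z hz i := by
    rw [← pointIdeal1_map] at hz
    obtain ⟨w, hw⟩ := exists_mul_eq_map_mul _ (fun b hb => d.dvd b hb i) hz
    exact ⟨w, by rw [← PointInf.map_diff]; exact hw.symm⟩

theorem bMap_mem {φ : R →ₐ[k] R'} {z : B01 X R}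
    (hz : z ∈ (pointIdeal1 p).map (res1 X R).toRingHom) :
    bMap X R φ z ∈ (pointIdeal1 (φ.comp p)).map (res1 X R').toRingHom := by
  have h := Ideal.mem_map_of_mem (bMap X R φ).toRingHom hz
  rw [← pointIdeal1_map]
  rw [Ideal.map_map] at h ⊢
  rwa [show (res1 X R').toRingHom.comp (Algebra.TensorProduct.map φ (AlgHom.id k X.A1)).toRingHom =
    (bMap X R φ).toRingHom.comp (res1 X R).toRingHom from
      RingHom.ext fun b => (bMap_res1 φ b).symm]

end PointData

theorem good_pointPre1 [IsAlgClosed k] (p : X.A1 →ₐ[k] R) : (pointPre1 p).Good :=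
  let ⟨d⟩ := nonempty_pointData p
  ⟨d.invertible, d.lattice0, d.lattice1⟩

/-- Base change of `O(-p)`. -/
theorem pointPre1_bc [IsAlgClosed k] (p : X.A1 →ₐ[k] R) (φ : R →ₐ[k] R') :
    Pre.Iso ((pointPre1 p).bc φ) (pointPre1 (φ.comp p)) := by
  obtain ⟨d⟩ := nonempty_pointData p
  haveI hinv := ((good_pointPre1 p).bc φ).invertible
  haveI hinv' := (good_pointPre1 (φ.comp p)).invertible
  letI : Algebra (B01 X R) (B01 X R') := (bMap X R φ).toRingHom.toAlgebra
  let j : ↥((pointIdeal1 p).map (res1 X R).toRingHom) →ₗ[B01 X R]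
      ↥((pointIdeal1 (φ.comp p)).map (res1 X R').toRingHom) :=
    { toFun := fun z => ⟨bMap X R φ z, PointData.bMap_mem z.2⟩
      map_add' := fun a b => Subtype.ext (map_add _ _ _)
      map_smul' := fun r a => Subtype.ext (map_mul _ _ _) }
  let F : B01 X R' ⊗[B01 X R] ↥((pointIdeal1 p).map (res1 X R).toRingHom) →ₗ[B01 X R']
      ↥((pointIdeal1 (φ.comp p)).map (res1 X R').toRingHom) := j.liftBaseChange (B01 X R')
  have hF : ∀ b z, F (b ⊗ₜ z) = b • j z := fun b z => LinearMap.liftBaseChange_tmul ..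
  have hs : ∀ i, j (d.s i) = (d.map φ).s i := fun i => Subtype.ext (bMap_res1 φ (d.x i))
  have hsurj : Function.Surjective F := fun z => ⟨∑ i, (d.map φ).l i z ⊗ₜ d.s i, by
    rw [map_sum]
    simp only [hF, hs]
    exact ((d.map φ).sum_l_smul z).symm⟩
  refine ⟨LinearEquiv.ofBijective F (Module.Invertible.bijective_of_surjective hsurj),
    le_antisymm ?_ ?_, le_antisymm ?_ ?_⟩
  · rw [Submodule.map_le_iff_le_comap, Submodule.span_le]
    rintro _ ⟨a, m, hm, rfl⟩
    refine Submodule.mem_comap.mpr ?_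
    show F (res0 X R' a ⊗ₜ m) ∈ _
    rw [hF]
    refine PointData.smul_mem0 a _ ?_
    obtain ⟨b, hbm⟩ := hm
    refine ⟨Algebra.TensorProduct.map φ (AlgHom.id k X.A0) b, ?_⟩
    show res0 X R' _ = bMap X R φ (m : B01 X R)
    rw [← show res0 X R b = (m : B01 X R) from hbm, bMap_res0]
  · intro z hz
    obtain ⟨M, hMx, hMy⟩ := d.exists_M
    have hG : bMap X R φ (res0 X R ((1 : R) ⊗ₜ X.f)) = res0 X R' ((1 : R') ⊗ₜ X.f) := by
      rw [bMap_res0, Algebra.TensorProduct.map_tmul, map_one]; rfl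
    have hMy' : ∀ i, res0 X R' ((1 : R') ⊗ₜ X.f) ^ M * res1 X R' ((d.map φ).y i) ∈
        (res0 X R').range := fun i => by
      obtain ⟨b, hb⟩ := hMy i
      refine ⟨Algebra.TensorProduct.map φ (AlgHom.id k X.A0) b, ?_⟩
      show res0 X R' _ = _ * res1 X R' (Algebra.TensorProduct.map φ (AlgHom.id k X.A1) (d.y i))
      rw [← bMap_res0, ← bMap_res1, ← hG, ← map_pow, ← map_mul]
      exact congrArg _ hb
    have ht : ∀ o, j (d.t M o) = (d.map φ).t M o := fun o => by
      refine Subtype.ext ?_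
      rcases o with _ | i
      · show bMap X R φ (res0 X R _ * res1 X R _) = res0 X R' _ * res1 X R' _
        rw [map_mul, hG, bMap_res1, PointInf.map_diff]
      · show bMap X R φ (_ * res1 X R (d.x i)) = _ * res1 X R' _
        rw [map_mul, map_pow, hG, bMap_res1]
        rfl
    choose b hb using fun o => (d.map φ).l0_mem hMy' z hz o
    refine ⟨∑ o, res0 X R' (b o) ⊗ₜ d.t M o,
      sum_mem fun o _ => Submodule.subset_span ⟨b o, d.t M o, d.t_mem0 hMx o, rfl⟩, ?_⟩
    show F _ = z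
    rw [map_sum]
    simp only [hF, ht]
    refine (Finset.sum_congr rfl fun o _ => ?_).trans ((d.map φ).sum_l0_smul M z).symm
    exact congrArg (· • _) (hb o)
  · rw [Submodule.map_le_iff_le_comap, Submodule.span_le]
    rintro _ ⟨a, m, hm, rfl⟩
    refine Submodule.mem_comap.mpr ?_
    show F (res1 X R' a ⊗ₜ m) ∈ _
    rw [hF]
    refine PointData.smul_mem1 a _ ?_
    obtain ⟨b, hb, hbm⟩ := hm
    refine ⟨_, pointIdeal1_map p φ ▸ Ideal.mem_map_of_mem _ hb, ?_⟩
    show res1 X R' _ = bMap X R φ (m : B01 X R)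
    rw [← show res1 X R b = (m : B01 X R) from hbm, bMap_res1]
    rfl
  · intro z hz
    choose b hb using fun i => (d.map φ).l_mem_range1 i z hz
    refine ⟨∑ i, res1 X R' (b i) ⊗ₜ d.s i,
      sum_mem fun i _ => Submodule.subset_span ⟨b i, d.s i, d.s_mem1 i, rfl⟩, ?_⟩
    show F _ = z
    rw [map_sum]
    simp only [hF, hs]
    refine (Finset.sum_congr rfl fun i _ => ?_).trans ((d.map φ).sum_l_smul z).symm
    exact congrArg (· • _) (hb i)

section Agree

theorem ev_res0 (q : X.A01 →ₐ[k] R) (b : R ⊗[k] X.A0) :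
    PointInf.ev q (res0 X R b) = PointInf.ev (q.comp X.ι0) b := by
  induction b using TensorProduct.induction_on with
  | zero => simp
  | tmul r a => simp
  | add a b ha hb => simp only [map_add, ha, hb]

theorem ev_res1 (q : X.A01 →ₐ[k] R) (b : R ⊗[k] X.A1) :
    PointInf.ev q (res1 X R b) = PointInf.ev (q.comp X.ι1) b := by
  induction b using TensorProduct.induction_on with
  | zero => simp
  | tmul r a => simp
  | add a b ha hb => simp only [map_add, ha, hb]

/-- If a piece `ι : A → A01` is a localisation at a unit, its point ideal generates that of the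
overlap. -/
theorem map_ker_eq {A : Type u} [CommRing A] [Algebra k A] (ι : A →ₐ[k] X.A01) (a0 : A)
    (w : X.A01) (hw : ι a0 * w = 1) (hι : ∀ a, ∃ (n : ℕ) (b : A), ι a0 ^ n * a = ι b)
    (q : X.A01 →ₐ[k] R) :
    (PointInf.ker (q.comp ι)).map
        (Algebra.TensorProduct.map (AlgHom.id R R) ι).toRingHom = PointInf.ker q := by
  have hdiff : ∀ a, Algebra.TensorProduct.map (AlgHom.id R R) ι (PointInf.diff (q.comp ι) a) =
      PointInf.diff q (ι a) := fun a => by simp [PointInf.diff, map_sub]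
  set D := (PointInf.ker (q.comp ι)).map (Algebra.TensorProduct.map (AlgHom.id R R) ι).toRingHom
  have hmem : ∀ a, PointInf.diff q (ι a) ∈ D := fun a => by
    rw [← hdiff]; exact Ideal.mem_map_of_mem _ (PointInf.diff_mem _ a)
  refine le_antisymm ?_ ?_
  · show (PointInf.ker (q.comp ι)).map _ ≤ _
    rw [PointInf.ker_eq_span, Ideal.map_span, Ideal.span_le]
    rintro _ ⟨_, ⟨a, rfl⟩, rfl⟩
    exact (hdiff a).symm ▸ PointInf.diff_mem q _
  · rw [PointInf.ker_eq_span, Ideal.span_le]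
    rintro _ ⟨a, rfl⟩
    obtain ⟨n, b, hb⟩ := hι a
    have e : ((1 : R) ⊗ₜ[k] (ι a0 ^ n)) * PointInf.diff q a =
        PointInf.diff q (ι b) - (q a ⊗ₜ[k] (1 : X.A01)) * PointInf.diff q (ι (a0 ^ n)) := by
      simp [PointInf.diff, ← hb, mul_sub, Algebra.TensorProduct.tmul_mul_tmul, mul_comm]
    have h : ((1 : R) ⊗ₜ[k] (ι a0 ^ n)) * PointInf.diff q a ∈ D :=
      e ▸ sub_mem (hmem b) (Ideal.mul_mem_left _ _ (hmem _))
    have e1 : PointInf.diff q a =
        ((1 : R) ⊗ₜ[k] (w ^ n)) * (((1 : R) ⊗ₜ[k] (ι a0 ^ n)) * PointInf.diff q a) := by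
      rw [← mul_assoc, Algebra.TensorProduct.tmul_mul_tmul, one_mul, ← mul_pow, mul_comm w, hw,
        one_pow]
      exact (one_mul _).symm
    rw [e1]
    exact D.mul_mem_left _ h

/-- On the overlap the bundles of a point seen on the two pieces agree. -/
theorem pointPre1_agree (q : X.A01 →ₐ[k] R) :
    Pre.Iso (pointPre1 (q.comp X.ι1)) (idealPre X R (pointIdeal (q.comp X.ι0))) := by
  have h0 : (pointIdeal (q.comp X.ι0)).map (res0 X R).toRingHom = PointInf.ker q :=
    map_ker_eq X.ι0 X.f (X.ι1 X.g) X.mul_eq_one X.exists_pow_mul0 q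
  have h1 : (pointIdeal1 (q.comp X.ι1)).map (res1 X R).toRingHom = PointInf.ker q :=
    map_ker_eq X.ι1 X.g (X.ι0 X.f) ((mul_comm _ _).trans X.mul_eq_one) X.exists_pow_mul1 q
  let e := LinearEquiv.ofEq _ _ (h1.trans h0.symm)
  refine Pre.Iso.of_le e ?_ ?_ ?_ ?_
  · intro z hz
    obtain ⟨b, hb⟩ := hz
    refine ⟨b, ?_, hb⟩
    have hker : (z : B01 X R) ∈ PointInf.ker q := h1 ▸ z.2
    show PointInf.ev (q.comp X.ι0) b = 0
    rw [← ev_res0, show res0 X R b = (z : B01 X R) from hb]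
    exact hker
  · intro z hz
    obtain ⟨b, -, hb⟩ := hz
    exact ⟨b, hb⟩
  · intro z hz
    obtain ⟨b, -, hb⟩ := hz
    exact ⟨b, hb⟩
  · intro z hz
    obtain ⟨b, hb⟩ := hz
    refine ⟨b, ?_, hb⟩
    have hker : (z : B01 X R) ∈ PointInf.ker q := h0 ▸ z.2
    show PointInf.ev (q.comp X.ι1) b = 0
    rw [← ev_res1, show res1 X R b = (z : B01 X R) from hb]
    exact hker

end Agree

end Fermat.Agent.RelPic

end
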