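import Fermat.Agent.RelPic.ChartIdeal

/-!
# The ideal of a point of an affine curve over a base

For a Dedekind domain `A` of finite type over an algebraically closed field, finite over `k[g]`,
the kernel of `R ⊗ A → R` at an `R`-point `p` is invertible: it times another ideal is generated by
`g - p g`, which is a non zero divisor.
-/

set_option autoImplicit false
set_option linter.style.haveILetI false
set_option linter.unusedSectionVars false

universe u

open TensorProduct Polynomial

noncomputable section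

namespace Fermat.Agent.RelPic

namespace PointInf

variable {k : Type u} [Field k] {A : Type u} [CommRing A] [Algebra k A] {R : Type u} [CommRing R]
  [Algebra k R] {R' : Type u} [CommRing R'] [Algebra k R']

/-- Evaluation at a point with values in the base. -/
def ev (p : A →ₐ[k] R) : R ⊗[k] A →ₐ[R] R :=
  Algebra.TensorProduct.lift (AlgHom.id R R) p fun _ _ => Commute.all _ _

@[simp] theorem ev_tmul (p : A →ₐ[k] R) (r : R) (a : A) : ev p (r ⊗ₜ a) = r * p a := by
  simp [ev]

/-- The functions vanishing at the point. -/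
def ker (p : A →ₐ[k] R) : Ideal (R ⊗[k] A) := RingHom.ker (ev p)

theorem mem_ker {p : A →ₐ[k] R} {b : R ⊗[k] A} : b ∈ ker p ↔ ev p b = 0 := Iff.rfl

/-- The basic functions vanishing at the point. -/
def diff (p : A →ₐ[k] R) (a : A) : R ⊗[k] A := (1 : R) ⊗ₜ a - p a ⊗ₜ 1

theorem diff_mem (p : A →ₐ[k] R) (a : A) : diff p a ∈ ker p := by
  simp [mem_ker, diff, map_sub]

theorem sub_ev_mem_span (p : A →ₐ[k] R) (b : R ⊗[k] A) :
    b - ev p b ⊗ₜ (1 : A) ∈ Ideal.span (Set.range (diff p)) := by
  induction b using TensorProduct.induction_on with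
  | zero => simp
  | tmul r a =>
    have e : r ⊗ₜ[k] a - ev p (r ⊗ₜ a) ⊗ₜ (1 : A) = (r ⊗ₜ (1 : A)) * diff p a := by
      simp [diff, mul_sub, Algebra.TensorProduct.tmul_mul_tmul]
    rw [e]
    exact Ideal.mul_mem_left _ _ (Ideal.subset_span ⟨a, rfl⟩)
  | add b c hb hc =>
    rw [map_add, add_tmul, add_sub_add_comm]
    exact add_mem hb hc

theorem ker_eq_span (p : A →ₐ[k] R) : ker p = Ideal.span (Set.range (diff p)) := by
  refine le_antisymm (fun b hb => ?_) (Ideal.span_le.mpr (by rintro _ ⟨a, rfl⟩; exact diff_mem p a))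
  simpa [mem_ker.mp hb] using sub_ev_mem_span p b

theorem map_diff (p : A →ₐ[k] R) (φ : R →ₐ[k] R') (a : A) :
    Algebra.TensorProduct.map φ (AlgHom.id k A) (diff p a) = diff (φ.comp p) a := by
  simp [diff, map_sub]

theorem ker_map (p : A →ₐ[k] R) (φ : R →ₐ[k] R') :
    (ker p).map (Algebra.TensorProduct.map φ (AlgHom.id k A)).toRingHom = ker (φ.comp p) := by
  rw [ker_eq_span, ker_eq_span, Ideal.map_span]
  congr 1
  rw [← Set.range_comp]
  exact congrArg Set.range (funext fun a => map_diff p φ a)

theorem ker_fg [Algebra.FiniteType k A] (p : A →ₐ[k] R) : (ker p).FG := by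
  have : Algebra.FinitePresentation k A := Algebra.FinitePresentation.of_finiteType.mp ‹_›
  exact Algebra.FinitePresentation.ker_fG_of_surjective (ev p) fun r => ⟨r ⊗ₜ 1, by simp⟩

/-- The ideal of the point is flat over the base, in the form needed for Nakayama. -/
theorem mem_map_mul (p : A →ₐ[k] R) (P : Ideal R) {b : R ⊗[k] A} (hb : b ∈ ker p)
    (hbP : b ∈ P.map (algebraMap R (R ⊗[k] A))) :
    b ∈ P.map (algebraMap R (R ⊗[k] A)) * ker p := by
  set P' := P.map (algebraMap R (R ⊗[k] A))
  suffices h : ∀ c ∈ P', c - ev p c ⊗ₜ (1 : A) ∈ P' * ker p ∧ ev p c ∈ P by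
    simpa [mem_ker.mp hb] using (h b hbP).1
  intro c hc
  induction hc using Submodule.span_induction with
  | mem c hc =>
    obtain ⟨r, hr, rfl⟩ := hc
    simpa [Algebra.TensorProduct.algebraMap_apply] using hr
  | zero => simp
  | add x y _ _ hx hy =>
    rw [map_add, add_tmul, add_sub_add_comm]
    exact ⟨add_mem hx.1 hy.1, add_mem hx.2 hy.2⟩
  | smul z x _ hx =>
    rw [smul_eq_mul, map_mul]
    refine ⟨?_, P.mul_mem_left _ hx.2⟩
    have e : z * x - (ev p z * ev p x) ⊗ₜ (1 : A) = z * (x - ev p x ⊗ₜ (1 : A)) +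
        (ev p x ⊗ₜ (1 : A)) * (z - ev p z ⊗ₜ (1 : A)) := by
      have e1 : (ev p z * ev p x) ⊗ₜ[k] (1 : A) =
          (ev p z ⊗ₜ (1 : A)) * (ev p x ⊗ₜ (1 : A)) := by
        rw [Algebra.TensorProduct.tmul_mul_tmul, mul_one]
      rw [e1]; ring
    rw [e]
    refine add_mem (Ideal.mul_mem_left _ z hx.1) (Ideal.mul_mem_mul ?_ ?_)
    · simpa [Algebra.TensorProduct.algebraMap_apply] using
        (Ideal.mem_map_of_mem (algebraMap R (R ⊗[k] A)) hx.2)
    · rw [ker_eq_span]; exact sub_ev_mem_span p z

/-- Invertibility over a base of finite type. -/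
theorem exists_mul_eq_of_finiteType [IsAlgClosed k] [IsDedekindDomain A] [Algebra.FiniteType k A]
    [Algebra.FiniteType k R] (p : A →ₐ[k] R) {g : A}
    (hg : Function.Injective (aeval g : k[X] →ₐ[k] A)) :
    ∃ J : Ideal (R ⊗[k] A), ker p * J = Ideal.span {diff p g} := by
  refine exists_ideal_mul_eq_of_fibres (ker_fg p) (diff_mem p g) (fun ψ π hπ => ?_)
    fun m _ => mem_map_mul p m
  have e : π (diff p g) = aeval g (Polynomial.X - Polynomial.C (ψ (p g))) := by
    simp [diff, map_sub, hπ, Algebra.smul_def]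
  rw [e]
  exact fun h => (Polynomial.X_sub_C_ne_zero _) (hg (h.trans (map_zero _).symm))

/-- **The ideal of a point is invertible.** -/
theorem exists_mul_eq [IsAlgClosed k] [IsDedekindDomain A] [Algebra.FiniteType k A]
    (p : A →ₐ[k] R) {g : A} (hg : Function.Injective (aeval g : k[X] →ₐ[k] A)) :
    ∃ J : Ideal (R ⊗[k] A), ker p * J = Ideal.span {diff p g} := by
  obtain ⟨J, hJ⟩ := exists_mul_eq_of_finiteType (AlgHom.id k A) hg
  refine ⟨J.map (Algebra.TensorProduct.map p (AlgHom.id k A)).toRingHom, ?_⟩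
  have h := congrArg (Ideal.map (Algebra.TensorProduct.map p (AlgHom.id k A)).toRingHom) hJ
  rw [Ideal.map_mul, ker_map, AlgHom.comp_id, Ideal.map_span, Set.image_singleton] at h
  refine h.trans ?_
  congr 2
  exact (map_diff (AlgHom.id k A) p g).trans (by rw [AlgHom.comp_id])

/-- `g - p g` is not a zero divisor when `A` is finite and torsion free over `k[g]`. -/
theorem diff_mul_eq_zero [IsDomain A] {g : A}
    (hg : Function.Injective (aeval g : k[X] →ₐ[k] A))
    (hfin : (aeval g : k[X] →ₐ[k] A).toRingHom.Finite) (r : R) {b : R ⊗[k] A}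
    (h : ((1 : R) ⊗ₜ g - r ⊗ₜ 1) * b = 0) : b = 0 := by
  classical
  letI : Algebra k[X] A := (aeval g : k[X] →ₐ[k] A).toRingHom.toAlgebra
  haveI : Module.Finite k[X] A := hfin
  haveI : IsScalarTower k k[X] A :=
    IsScalarTower.of_algebraMap_eq fun c => ((aeval g).commutes c).symm
  haveI : Module.IsTorsionFree k[X] A :=
    haveI : FaithfulSMul k[X] A := (faithfulSMul_iff_algebraMap_injective k[X] A).mpr hg
    inferInstance
  obtain ⟨n, e⟩ : Σ n, Module.Basis (Fin n) k[X] A := Module.basisOfFiniteTypeTorsionFree'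
  let T : Fin n → R ⊗[k] A →ₗ[R] R[X] := fun l =>
    LinearMap.liftBaseChange R (((Polynomial.mapAlg k R).toLinearMap).comp
      ((e.coord l).restrictScalars k))
  have hTt : ∀ l (s : R) (x : A), T l (s ⊗ₜ x) = s • (e.coord l x).map (algebraMap k R) := by
    intro l s x
    show LinearMap.liftBaseChange R _ (s ⊗ₜ x) = _
    rw [LinearMap.liftBaseChange_tmul]
    simp [Polynomial.mapAlg_eq_map]
  have hX : ∀ l c, T l (((1 : R) ⊗ₜ g) * c) = Polynomial.X * T l c := by
    intro l c
    induction c using TensorProduct.induction_on with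
    | zero => simp
    | tmul s x =>
      have hx : g * x = (Polynomial.X : k[X]) • x := by
        rw [Algebra.smul_def]
        show _ = aeval g Polynomial.X * x
        rw [aeval_X]
      rw [Algebra.TensorProduct.tmul_mul_tmul, one_mul, hTt, hTt, hx, map_smul, smul_eq_mul,
        Polynomial.map_mul, Polynomial.map_X, mul_smul_comm]
    | add x y hx hy => rw [mul_add, map_add, hx, hy, map_add, mul_add]
  have hT : ∀ l, T l b = 0 := by
    intro l
    have e1 : (r ⊗ₜ[k] (1 : A)) * b = r • b := by
      rw [Algebra.smul_def, Algebra.TensorProduct.algebraMap_apply, Algebra.algebraMap_self_apply]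
    have h' : (Polynomial.X - Polynomial.C r) * T l b = 0 := by
      have := congrArg (T l) h
      rwa [sub_mul, map_sub, hX, e1, map_smul, map_zero, Polynomial.smul_eq_C_mul, ← sub_mul]
        at this
    exact (Polynomial.monic_X_sub_C r).isRegular.left (h'.trans (mul_zero _).symm)
  have hrec : ∀ c : R ⊗[k] A,
      c = ∑ l, aeval ((1 : R) ⊗ₜ[k] g) (T l c) * ((1 : R) ⊗ₜ e l) := by
    intro c
    induction c using TensorProduct.induction_on with
    | zero => simp
    | tmul s x =>
      have e1 : ∀ q : k[X],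
          aeval ((1 : R) ⊗ₜ[k] g) (q.map (algebraMap k R)) = (1 : R) ⊗ₜ aeval g q := by
        intro q
        rw [aeval_map_algebraMap]
        exact aeval_algHom_apply
          (Algebra.TensorProduct.includeRight : A →ₐ[k] R ⊗[k] A) g q
      simp only [hTt, map_smul, Algebra.smul_mul_assoc]
      simp only [e1, Algebra.TensorProduct.tmul_mul_tmul, one_mul]
      rw [← Finset.smul_sum, ← TensorProduct.tmul_sum]
      have hx : ∑ l, aeval g (e.coord l x) * e l = x := by
        conv_rhs => rw [← e.sum_repr x]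
        exact Finset.sum_congr rfl fun l _ => (Algebra.smul_def _ _).symm
      rw [hx, smul_tmul', smul_eq_mul, mul_one]
    | add x y hx hy =>
      conv_lhs => rw [hx, hy]
      simp only [map_add, add_mul, Finset.sum_add_distrib]
  rw [hrec b]
  exact Finset.sum_eq_zero fun l _ => by simp [hT l]

end PointInf

end Fermat.Agent.RelPic

end
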