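import Fermat.Agent.RelPic.Defs

/-!
# The rings of a two-piece model after an extension of scalars
-/

set_option autoImplicit false
set_option linter.style.haveILetI false

universe u

open TensorProduct

noncomputable section

namespace Fermat.Agent.RelPic

variable {k : Type u} [Field k] (X : Model k)

namespace Model

theorem f_ne_zero : X.f ≠ 0 := by
  intro h
  have := X.mul_eq_one
  rw [h, map_zero, zero_mul] at this
  exact one_ne_zero this.symm

theorem g_ne_zero : X.g ≠ 0 := by
  intro h
  have := X.mul_eq_one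
  rw [h, map_zero, mul_zero] at this
  exact one_ne_zero this.symm

theorem ι0_injective : Function.Injective X.ι0 := by
  letI := X.ι0.toRingHom.toAlgebra
  haveI := X.loc0
  exact IsLocalization.injective X.A01
    (powers_le_nonZeroDivisors_of_noZeroDivisors X.f_ne_zero)

theorem ι1_injective : Function.Injective X.ι1 := by
  letI := X.ι1.toRingHom.toAlgebra
  haveI := X.loc1
  exact IsLocalization.injective X.A01
    (powers_le_nonZeroDivisors_of_noZeroDivisors X.g_ne_zero)

theorem exists_pow_mul0 (a : X.A01) : ∃ (n : ℕ) (b : X.A0), X.ι0 X.f ^ n * a = X.ι0 b := by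
  letI := X.ι0.toRingHom.toAlgebra
  haveI := X.loc0
  obtain ⟨⟨b, _, n, rfl⟩, h⟩ := IsLocalization.surj (Submonoid.powers X.f) a
  refine ⟨n, b, ?_⟩
  rw [mul_comm, ← map_pow]
  exact h

theorem exists_pow_mul1 (a : X.A01) : ∃ (n : ℕ) (b : X.A1), X.ι1 X.g ^ n * a = X.ι1 b := by
  letI := X.ι1.toRingHom.toAlgebra
  haveI := X.loc1
  obtain ⟨⟨b, _, n, rfl⟩, h⟩ := IsLocalization.surj (Submonoid.powers X.g) a
  refine ⟨n, b, ?_⟩
  rw [mul_comm, ← map_pow]
  exact h

/-- The unit `f` of `A01`. -/
def fu : X.A01ˣ where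
  val := X.ι0 X.f
  inv := X.ι1 X.g
  val_inv := X.mul_eq_one
  inv_val := by rw [mul_comm]; exact X.mul_eq_one

theorem einf_g : X.einf X.g = 0 := by
  have : X.g ∈ (Ideal.span {X.g}).radical := Ideal.le_radical (Ideal.mem_span_singleton_self _)
  rwa [X.radical_g] at this

end Model

variable (R : Type u) [CommRing R] [Algebra k R]

@[simp] theorem res0_tmul (r : R) (a : X.A0) : res0 X R (r ⊗ₜ a) = r ⊗ₜ X.ι0 a := rfl

@[simp] theorem res1_tmul (r : R) (a : X.A1) : res1 X R (r ⊗ₜ a) = r ⊗ₜ X.ι1 a := rfl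

theorem res0_injective : Function.Injective (res0 X R) := by
  have h := Module.Flat.lTensor_preserves_injective_linearMap (M := R) X.ι0.toLinearMap
    X.ι0_injective
  intro x y hxy
  apply h
  have key : ∀ z, (X.ι0.toLinearMap.lTensor R) z = res0 X R z := by
    intro z
    induction z with
    | zero => simp
    | tmul r a => rfl
    | add a b ha hb => simp [map_add, ha, hb]
  simpa [key] using hxy

theorem res1_injective : Function.Injective (res1 X R) := by
  have h := Module.Flat.lTensor_preserves_injective_linearMap (M := R) X.ι1.toLinearMap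
    X.ι1_injective
  intro x y hxy
  apply h
  have key : ∀ z, (X.ι1.toLinearMap.lTensor R) z = res1 X R z := by
    intro z
    induction z with
    | zero => simp
    | tmul r a => rfl
    | add a b ha hb => simp [map_add, ha, hb]
  simpa [key] using hxy

theorem coe_fUnit_zpow (m : ℤ) :
    ((fUnit X R ^ m : (B01 X R)ˣ) : B01 X R) = (1 : R) ⊗ₜ ((X.fu ^ m : X.A01ˣ) : X.A01) := by
  have h : fUnit X R =
      Units.map (Algebra.TensorProduct.includeRight : X.A01 →ₐ[k] B01 X R).toMonoidHom X.fu :=
    Units.ext rfl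
  rw [h, ← map_zpow]
  rfl

/-! ### Extensions of subspaces of `A01` -/

/-- `R ⊗ V` inside `R ⊗ A01`. -/
def ext01 (V : Submodule k X.A01) : Submodule R (B01 X R) :=
  LinearMap.range (V.subtype.baseChange R)

/-- Coordinates of an element of `R ⊗ A01` on a basis of `R`. -/
def coord01 {ι : Type*} (b : Module.Basis ι k R) (i : ι) : B01 X R →ₗ[k] X.A01 :=
  (TensorProduct.lid k X.A01).toLinearMap ∘ₗ (b.coord i).rTensor X.A01

variable {X R}

theorem coord01_tmul {ι : Type*} (b : Module.Basis ι k R) (i : ι) (r : R) (a : X.A01) :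
    coord01 X R b i (r ⊗ₜ a) = b.coord i r • a := by
  simp [coord01]

theorem exists_finset_eq_sum_coord {ι : Type*} (b : Module.Basis ι k R) (x : B01 X R) :
    ∃ s : Finset ι, x = ∑ i ∈ s, b i ⊗ₜ coord01 X R b i x ∧
      ∀ i ∉ s, coord01 X R b i x = 0 := by
  classical
  induction x using TensorProduct.induction_on with
  | zero => exact ⟨∅, by simp, by simp⟩
  | tmul r a =>
      refine ⟨(b.repr r).support, ?_, ?_⟩
      · conv_lhs => rw [← b.linearCombination_repr r, Finsupp.linearCombination_apply, Finsupp.sum,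
          TensorProduct.sum_tmul]
        refine Finset.sum_congr rfl fun i _ => ?_
        rw [coord01_tmul, smul_tmul]
        rfl
      · intro i hi
        rw [coord01_tmul, Module.Basis.coord_apply, Finsupp.notMem_support_iff.mp hi, zero_smul]
  | add x y hx hy =>
      obtain ⟨s, hs, hs'⟩ := hx
      obtain ⟨t, ht, ht'⟩ := hy
      refine ⟨s ∪ t, ?_, fun i hi => by
        rw [map_add, hs' i (fun h => hi (Finset.mem_union_left _ h)),
          ht' i (fun h => hi (Finset.mem_union_right _ h)), add_zero]⟩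
      conv_lhs => rw [hs, ht]
      simp only [map_add, tmul_add, Finset.sum_add_distrib]
      congr 1
      · refine Finset.sum_subset Finset.subset_union_left fun i _ hi => ?_
        rw [hs' i hi, tmul_zero]
      · refine Finset.sum_subset Finset.subset_union_right fun i _ hi => ?_
        rw [ht' i hi, tmul_zero]

theorem tmul_mem_ext01 {V : Submodule k X.A01} (r : R) {a : X.A01} (ha : a ∈ V) :
    r ⊗ₜ a ∈ ext01 X R V :=
  ⟨r ⊗ₜ ⟨a, ha⟩, rfl⟩

theorem ext01_le {V : Submodule k X.A01} {W : Submodule R (B01 X R)}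
    (h : ∀ a ∈ V, (1 : R) ⊗ₜ a ∈ W) : ext01 X R V ≤ W := by
  rintro _ ⟨x, rfl⟩
  induction x with
  | zero => simp
  | tmul r a =>
      have e : (r : R) ⊗ₜ[k] (a : X.A01) = r • ((1 : R) ⊗ₜ[k] (a : X.A01)) := by
        rw [smul_tmul', smul_eq_mul, mul_one]
      rw [LinearMap.baseChange_tmul, Submodule.subtype_apply, e]
      exact W.smul_mem r (h _ a.2)
  | add x y hx hy => rw [map_add]; exact add_mem hx hy

theorem mem_ext01_iff {V : Submodule k X.A01} {ι : Type*} (b : Module.Basis ι k R) (x : B01 X R) :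
    x ∈ ext01 X R V ↔ ∀ i, coord01 X R b i x ∈ V := by
  constructor
  · rintro ⟨y, rfl⟩ i
    induction y with
    | zero => simp
    | tmul r a =>
        rw [LinearMap.baseChange_tmul, coord01_tmul]
        exact V.smul_mem _ a.2
    | add x y hx hy => rw [map_add, map_add]; exact add_mem hx hy
  · intro h
    obtain ⟨s, hs, -⟩ := exists_finset_eq_sum_coord b x
    rw [hs]
    exact sum_mem fun i _ => tmul_mem_ext01 _ (h i)

theorem ext01_inf (V W : Submodule k X.A01) :
    ext01 X R V ⊓ ext01 X R W = ext01 X R (V ⊓ W) := by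
  let b := Module.Basis.ofVectorSpace k R
  ext x
  simp only [Submodule.mem_inf, mem_ext01_iff b]
  exact ⟨fun h i => ⟨h.1 i, h.2 i⟩, fun h => ⟨fun i => (h i).1, fun i => (h i).2⟩⟩

theorem ext01_mono {V W : Submodule k X.A01} (h : V ≤ W) : ext01 X R V ≤ ext01 X R W :=
  ext01_le fun _ ha => tmul_mem_ext01 1 (h ha)

theorem ext01_sup (V W : Submodule k X.A01) :
    ext01 X R V ⊔ ext01 X R W = ext01 X R (V ⊔ W) := by
  refine le_antisymm (sup_le (ext01_mono le_sup_left) (ext01_mono le_sup_right)) ?_
  refine ext01_le fun a ha => ?_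
  obtain ⟨v, hv, w, hw, rfl⟩ := Submodule.mem_sup.mp ha
  rw [tmul_add]
  exact Submodule.add_mem_sup (tmul_mem_ext01 1 hv) (tmul_mem_ext01 1 hw)

theorem ext01_top : ext01 X R ⊤ = ⊤ := by
  refine top_le_iff.mp fun x _ => ?_
  induction x using TensorProduct.induction_on with
  | zero => exact zero_mem _
  | tmul r a => exact tmul_mem_ext01 r trivial
  | add x y hx hy => exact add_mem (hx trivial) (hy trivial)

theorem range_res0 : (res0 X R).toLinearMap.range = ext01 X R X.ι0.toLinearMap.range := by
  refine le_antisymm ?_ (ext01_le ?_)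
  · rintro _ ⟨x, rfl⟩
    induction x with
    | zero => simp
    | tmul r a => exact tmul_mem_ext01 r ⟨a, rfl⟩
    | add x y hx hy => rw [map_add]; exact add_mem hx hy
  · rintro _ ⟨a, rfl⟩
    exact ⟨1 ⊗ₜ a, rfl⟩

theorem range_res1 : (res1 X R).toLinearMap.range = ext01 X R X.ι1.toLinearMap.range := by
  refine le_antisymm ?_ (ext01_le ?_)
  · rintro _ ⟨x, rfl⟩
    induction x with
    | zero => simp
    | tmul r a => exact tmul_mem_ext01 r ⟨a, rfl⟩
    | add x y hx hy => rw [map_add]; exact add_mem hx hy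
  · rintro _ ⟨a, rfl⟩
    exact ⟨1 ⊗ₜ a, rfl⟩

/-- Functions on the whole curve over `R` are the scalars. -/
theorem range_res0_inf_range_res1 :
    (res0 X R).toLinearMap.range ⊓ (res1 X R).toLinearMap.range =
      LinearMap.range (Algebra.linearMap R (B01 X R)) := by
  rw [range_res0, range_res1, ext01_inf]
  refine le_antisymm (ext01_le ?_) ?_
  · rintro a ⟨h0, h1⟩
    have ha : a ∈ (X.ι0.range ⊓ X.ι1.range : Subalgebra k X.A01) := ⟨h0, h1⟩
    rw [X.range_inf, Algebra.mem_bot] at ha
    obtain ⟨c, rfl⟩ := ha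
    refine ⟨algebraMap k R c, ?_⟩
    rw [Algebra.linearMap_apply, Algebra.TensorProduct.algebraMap_apply,
      Algebra.algebraMap_eq_smul_one (R := k) (A := X.A01),
      Algebra.algebraMap_eq_smul_one (R := k) (A := R), Algebra.algebraMap_self_apply, smul_tmul]
  · rintro _ ⟨r, rfl⟩
    simp only [Algebra.linearMap_apply, Algebra.TensorProduct.algebraMap_apply]
    exact tmul_mem_ext01 _ ⟨⟨1, map_one X.ι0⟩, ⟨1, map_one X.ι1⟩⟩

end Fermat.Agent.RelPic
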