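import Fermat.Agent.RelPic.Filtration

/-!
# The two-term complex of a line bundle

For a line bundle and a large twist `m`, the lattices `M0`, `M1(m)`, their intersection and the
sublattice `M1` are direct summands of the `R`-module `N`, and `M0 + M1(m) = N`.
-/

set_option autoImplicit false
set_option linter.style.haveILetI false

universe u

open TensorProduct

noncomputable section

namespace Fermat.Agent.RelPic

variable {k : Type u} [Field k] {X : Model k} {R : Type u} [CommRing R] [Algebra k R]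

namespace Pre

variable {L : Pre X R}

theorem Good.projective_N (h : L.Good) : Module.Projective R L.N := by
  haveI := h.invertible
  obtain ⟨n, s, l, -, hsum, -⟩ := h.lattice0
  refine Module.Projective.of_split
    (LinearMap.pi fun i => (l i).restrictScalars R)
    (∑ i, ((LinearMap.toSpanSingleton (B01 X R) L.N (s i)).restrictScalars R) ∘ₗ
      LinearMap.proj (R := R) (φ := fun _ : Fin n => B01 X R) i) ?_
  refine LinearMap.ext fun x => ?_
  simpa using (hsum x).symm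

/-- A retraction of `R ⊗ A01` onto a sublattice gives one of `N`. -/
theorem exists_retraction_of_isLattice {V : Submodule k X.A01} {B : Type u} [CommRing B]
    [Algebra R B] {res : B →ₐ[R] B01 X R} (hres : res.toLinearMap.range = ext01 X R V)
    {M : Submodule R L.N} (hM : IsLattice res M) :
    ∃ π : L.N →ₗ[R] L.N, (∀ x, π x ∈ M) ∧ ∀ x ∈ M, π x = x := by
  obtain ⟨π0, hπ0, hπ0'⟩ := exists_retraction_ext01 (X := X) (R := R) V
  obtain ⟨n, s, l, hs, hsum, hmem⟩ := hM
  have hM' : IsLattice res M := ⟨n, s, l, hs, hsum, hmem⟩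
  refine ⟨∑ i, (LinearMap.toSpanSingleton (B01 X R) L.N (s i)).restrictScalars R ∘ₗ π0 ∘ₗ
    (l i).restrictScalars R, fun x => ?_, fun x hx => ?_⟩
  · simp only [LinearMap.coe_sum, Finset.sum_apply, LinearMap.comp_apply,
      LinearMap.coe_restrictScalars, LinearMap.toSpanSingleton_apply]
    refine sum_mem fun i _ => ?_
    have := hπ0 (l i x)
    rw [← hres] at this
    obtain ⟨b, hb⟩ := this
    rw [← hb]
    exact hM'.smul_mem b (hs i)
  · simp only [LinearMap.coe_sum, Finset.sum_apply, LinearMap.comp_apply,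
      LinearMap.coe_restrictScalars, LinearMap.toSpanSingleton_apply]
    conv_rhs => rw [hsum x]
    refine Finset.sum_congr rfl fun i _ => ?_
    rw [hπ0' _ (hres ▸ (hmem x).mp hx i)]

theorem Good.exists_retraction_M0 (h : L.Good) :
    ∃ π : L.N →ₗ[R] L.N, (∀ x, π x ∈ L.M0) ∧ ∀ x ∈ L.M0, π x = x :=
  exists_retraction_of_isLattice range_res0 h.lattice0

theorem Good.exists_retraction_M1 (h : L.Good) :
    ∃ π : L.N →ₗ[R] L.N, (∀ x, π x ∈ L.M1) ∧ ∀ x ∈ L.M1, π x = x :=
  exists_retraction_of_isLattice range_res1 h.lattice1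

theorem Good.projective_of_retraction (h : L.Good) {M : Submodule R L.N} (π : L.N →ₗ[R] L.N)
    (hπ : ∀ x, π x ∈ M) (hπ' : ∀ x ∈ M, π x = x) : Module.Projective R M :=
  haveI := h.projective_N
  Module.Projective.of_split M.subtype (π.codRestrict M hπ)
    (LinearMap.ext fun x => Subtype.ext (hπ' x x.2))

/-- For a large twist, the two lattices span everything. -/
theorem Good.exists_sup_eq_top (h : L.Good) :
    ∃ m0 : ℕ, ∀ m : ℤ, (m0 : ℤ) ≤ m → L.M0 ⊔ (L.twist m).M1 = ⊤ := by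
  classical
  obtain ⟨D, hD⟩ := Model.exists_V0_sup_V1_eq_top X
  obtain ⟨n, s, l, hs, hsum, hmem⟩ := h.lattice0
  choose c hc using fun i => h.exists_mem_twist (s i)
  refine ⟨D + Finset.univ.sup c, fun m hm => top_le_iff.mp fun x _ => ?_⟩
  rw [hsum x]
  refine sum_mem fun i _ => ?_
  have hli : l i x ∈ ext01 X R (X.V0 ⊔ X.V1 (D : ℤ)) := by
    rw [hD, ext01_top]; trivial
  rw [← ext01_sup] at hli
  obtain ⟨a, ha, b, hb, hab⟩ := Submodule.mem_sup.mp hli
  rw [← hab, add_smul]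
  refine Submodule.add_mem_sup ?_ ?_
  · rw [← unit_M0_eq] at ha
    obtain ⟨a', rfl⟩ := ha
    exact h.res0_smul_mem a' (hs i)
  · rw [← unit_twist_M1_eq] at hb
    have hb' := mem_twist_M1.mp hb
    obtain ⟨b', hb'⟩ := hb'
    refine twist_M1_mono h (m := (D : ℤ) + (c i : ℤ)) ?_ ?_
    · have := Finset.le_sup (f := c) (Finset.mem_univ i)
      push_cast at hm
      omega
    rw [mem_twist_M1, smul_smul]
    have e : ((fUnit X R ^ (-((D : ℤ) + (c i : ℤ))) : (B01 X R)ˣ) : B01 X R) * b =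
        res1 X R b' * ((fUnit X R ^ (-(c i : ℤ)) : (B01 X R)ˣ) : B01 X R) := by
      change (res1 X R) b' = _ at hb'
      rw [hb', smul_eq_mul, mul_right_comm, ← Units.val_mul, ← zpow_add, neg_add]
    rw [e, mul_smul]
    exact h.res1_smul_mem b' (mem_twist_M1.mp (hc i))

/-- Retraction onto the intersection of the two lattices, written as a perturbation of the
identity which vanishes on both lattices. -/
theorem Good.exists_retraction_inf_eq (h : L.Good) {m : ℤ}
    (hm : L.M0 ⊔ (L.twist m).M1 = ⊤) :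
    ∃ π π0 π1 A B : L.N →ₗ[R] L.N, (∀ x, π x ∈ L.M0 ⊓ (L.twist m).M1) ∧
      (∀ x ∈ L.M0, π0 x = x) ∧ (∀ x ∈ (L.twist m).M1, π1 x = x) ∧
      π = LinearMap.id + A ∘ₗ (LinearMap.id - π0) + B ∘ₗ (LinearMap.id - π1) := by
  obtain ⟨π0, hπ0, hπ0'⟩ := h.exists_retraction_M0
  obtain ⟨π1, hπ1, hπ1'⟩ : ∃ π : L.N →ₗ[R] L.N, (∀ x, π x ∈ (L.twist m).M1) ∧
      ∀ x ∈ (L.twist m).M1, π x = x := (h.twist m).exists_retraction_M1
  let d : (L.M0 × (L.twist m).M1) →ₗ[R] L.N := L.M0.subtype.coprod (L.twist m).M1.subtype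
  have hd : Function.Surjective d := by
    intro x
    obtain ⟨a, ha, b, hb, rfl⟩ :=
      Submodule.mem_sup.mp (show x ∈ L.M0 ⊔ (L.twist m).M1 by rw [hm]; trivial)
    exact ⟨(⟨a, ha⟩, ⟨b, hb⟩), rfl⟩
  haveI := h.projective_N
  obtain ⟨σ, hσ⟩ := Module.projective_lifting_property d LinearMap.id hd
  have hσ' : ∀ x, ((σ x).1 : L.N) + ((σ x).2 : L.N) = x := fun x => LinearMap.congr_fun hσ x
  let σ2 : L.N →ₗ[R] L.N := (L.twist m).M1.subtype ∘ₗ LinearMap.snd R _ _ ∘ₗ σ
  let r : L.N →ₗ[R] L.N := π1 + σ2 ∘ₗ (LinearMap.id - π1)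
  refine ⟨r ∘ₗ π0, π0, π1, -LinearMap.id - (σ2 - LinearMap.id) ∘ₗ (LinearMap.id - π1),
    σ2 - LinearMap.id, fun x => ⟨?_, ?_⟩, hπ0', hπ1', ?_⟩
  · have e := hσ' (π0 x - π1 (π0 x))
    have : (r ∘ₗ π0) x = π0 x - ((σ (π0 x - π1 (π0 x))).1 : L.N) := by
      simp only [r, σ2, LinearMap.comp_apply, LinearMap.add_apply, LinearMap.sub_apply,
        LinearMap.id_apply, LinearMap.snd_apply, Submodule.subtype_apply]
      linear_combination (norm := abel) e
    rw [this]
    exact sub_mem (hπ0 x) (σ _).1.2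
  · exact add_mem (hπ1 _) (σ _).2.2
  · refine LinearMap.ext fun x => ?_
    simp only [r, LinearMap.comp_apply, LinearMap.add_apply, LinearMap.sub_apply,
      LinearMap.id_apply, LinearMap.neg_apply, map_sub]
    abel

theorem Good.exists_retraction_inf (h : L.Good) {m : ℤ}
    (hm : L.M0 ⊔ (L.twist m).M1 = ⊤) :
    ∃ π : L.N →ₗ[R] L.N, (∀ x, π x ∈ L.M0 ⊓ (L.twist m).M1) ∧
      ∀ x ∈ L.M0 ⊓ (L.twist m).M1, π x = x := by
  obtain ⟨π, π0, π1, A, B, hπ, h0, h1, rfl⟩ := h.exists_retraction_inf_eq hm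
  refine ⟨_, hπ, fun x hx => ?_⟩
  simp [h0 x hx.1, h1 x hx.2]

theorem Good.fg_inf (h : L.Good) {m : ℤ} (hm : L.M0 ⊔ (L.twist m).M1 = ⊤) :
    (L.M0 ⊓ (L.twist m).M1).FG := by
  classical
  obtain ⟨π, hπ, hπ'⟩ := h.exists_retraction_inf hm
  obtain ⟨n, s, l, hs, hsum, hmem⟩ := h.lattice0
  obtain ⟨n', s', l', hs', hsum', hmem'⟩ := h.lattice1
  choose c hc using fun p : Fin n × Fin n' => (good_unit X R).exists_mem_twist (l p.1 (s' p.2))
  set M : ℕ := Finset.univ.sup c with hM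
  have hc' : ∀ (i : Fin n) (j : Fin n'), l i (s' j) ∈ ext01 X R (X.V1 (M : ℤ)) := by
    intro i j
    rw [← unit_twist_M1_eq]
    exact twist_M1_mono (good_unit X R)
      (Int.ofNat_le.mpr (Finset.le_sup (f := c) (Finset.mem_univ (i, j)))) (hc (i, j))
  let W : Submodule R (B01 X R) := ext01 X R (X.V0 ⊓ X.V1 (m + (M : ℤ)))
  have hW : W.FG := ext01_fg (Module.Finite.iff_fg.mp (Model.finite_V0_inf_V1 X _))
  let F : Submodule R L.N :=
    ⨆ i : Fin n, W.map ((LinearMap.toSpanSingleton (B01 X R) L.N (s i)).restrictScalars R)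
  have hF : F.FG := Submodule.fg_iSup _ fun i => hW.map _
  have hle : L.M0 ⊓ (L.twist m).M1 = F.map π := by
    refine le_antisymm ?_ ?_
    · intro x hx
      refine ⟨x, ?_, hπ' x hx⟩
      rw [SetLike.mem_coe, hsum x]
      refine sum_mem fun i _ => Submodule.mem_iSup_of_mem i ⟨l i x, ?_, rfl⟩
      show l i x ∈ ext01 X R (X.V0 ⊓ X.V1 (m + (M : ℤ)))
      rw [← ext01_inf]
      refine ⟨?_, ?_⟩
      · rw [← unit_M0_eq]; exact (hmem x).mp hx.1 i
      · obtain ⟨y, hy, rfl⟩ := hx.2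
        rw [← unit_twist_M1_eq, LinearMap.coe_restrictScalars, LinearMap.lsmul_apply, map_smul,
          hsum' y, map_sum, Finset.smul_sum]
        refine sum_mem fun j _ => ?_
        obtain ⟨b, hb⟩ := (hmem' y).mp hy j
        rw [map_smul, ← hb, mem_twist_M1, smul_comm, smul_smul, smul_smul]
        have hj := hc' i j
        rw [← unit_twist_M1_eq, mem_twist_M1] at hj
        have e : ((fUnit X R ^ m : (B01 X R)ˣ) : B01 X R) *
            ((fUnit X R ^ (-(m + (M : ℤ))) : (B01 X R)ˣ) : B01 X R) =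
            ((fUnit X R ^ (-(M : ℤ)) : (B01 X R)ˣ) : B01 X R) := by
          rw [← Units.val_mul, ← zpow_add, show m + -(m + (M : ℤ)) = -(M : ℤ) by ring]
        rw [e, mul_comm, mul_smul]
        exact (good_unit X R).res1_smul_mem b hj
    · intro z hz
      obtain ⟨y, -, rfl⟩ := hz
      exact hπ y
  rw [hle]
  exact hF.map π

theorem Good.exists_fg_sup (h : L.Good) (m : ℕ) :
    ∃ F : Submodule R L.N, F.FG ∧ F ≤ (L.twist (m : ℤ)).M1 ∧ (L.twist (m : ℤ)).M1 ≤ F ⊔ L.M1 := by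
  classical
  obtain ⟨W, hW, hWle, hsup⟩ := Model.exists_fg_sup X (m : ℤ) m
  rw [sub_self] at hsup
  obtain ⟨n, s, l, hs, hsum, hmem⟩ := h.lattice1
  have hW' : ext01 X R W ≤ ((Pre.unit X R).twist (m : ℤ)).M1 := by
    rw [unit_twist_M1_eq]; exact ext01_mono hWle
  refine ⟨⨆ i : Fin n, (ext01 X R W).map
    ((LinearMap.toSpanSingleton (B01 X R) L.N (s i)).restrictScalars R),
    Submodule.fg_iSup _ fun i => (ext01_fg (Module.Finite.iff_fg.mp hW)).map _,
    iSup_le fun i => ?_, fun x hx => ?_⟩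
  · rintro _ ⟨w, hw, rfl⟩
    obtain ⟨b, hb⟩ := mem_twist_M1.mp (hW' hw)
    rw [LinearMap.coe_restrictScalars, LinearMap.toSpanSingleton_apply, mem_twist_M1, smul_smul]
    change res1 X R b = _ • w at hb
    rw [← smul_eq_mul, ← hb]
    exact h.res1_smul_mem b (hs i)
  · rw [hsum x]
    refine sum_mem fun i _ => ?_
    have hx' : l i x ∈ ext01 X R W ⊔ ext01 X R (X.V1 0) := by
      rw [ext01_sup]
      refine ext01_mono hsup ?_
      rw [← unit_twist_M1_eq, mem_twist_M1, ← map_smul]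
      exact (hmem _).mp (mem_twist_M1.mp hx) i
    obtain ⟨a, ha, b, hb, hab⟩ := Submodule.mem_sup.mp hx'
    rw [← hab, add_smul]
    refine Submodule.add_mem_sup (Submodule.mem_iSup_of_mem i ⟨a, ha, rfl⟩) ?_
    rw [← unit_twist_M1_eq, twist_zero_M1] at hb
    obtain ⟨b', rfl⟩ := hb
    exact h.res1_smul_mem b' (hs i)

end Pre

end Fermat.Agent.RelPic
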